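import Mathlib

/-!
# Pillar G, package ADIC (helper1), part 1: the ring of compatible families and its map to `𝒪`

* `GRA_Z p` : the subring of `∀ k, ZMod (p ^ k)` of compatible families (`≅ ℤ_p`),
  with projections `GRA_pr p k` and joint injectivity `GRA_Z_ext`;
* for a local ring `𝒪`, complete for its maximal ideal `𝔪`, with `p ∈ 𝔪`:
  `GRA_iota : ZMod (p ^ k) →+* 𝒪 ⧸ 𝔪 ^ k` and the limit map `GRA_lam : GRA_Z p →+* 𝒪` with
  `GRA_mk_lam : mk (𝔪 ^ k) (GRA_lam x) = GRA_iota k (GRA_pr p k x)`.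
-/

set_option autoImplicit false

namespace Fermat.Agent.GalRep

open IsLocalRing

section Z

variable (p : ℕ)

/-- the transition map `ZMod (p ^ (k+1)) → ZMod (p ^ k)`. -/
noncomputable def GRA_tr (k : ℕ) : ZMod (p ^ (k + 1)) →+* ZMod (p ^ k) :=
  ZMod.castHom (pow_dvd_pow p (Nat.le_succ k)) (ZMod (p ^ k))

/-- the ring of compatible families `(x_k ∈ ℤ/p^k)_k`. -/
def GRA_Z : Subring (∀ k : ℕ, ZMod (p ^ k)) where
  carrier := {x | ∀ k : ℕ, GRA_tr p k (x (k + 1)) = x k}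
  mul_mem' := by
    intro x y hx hy k
    rw [Pi.mul_apply, map_mul, hx k, hy k, Pi.mul_apply]
  one_mem' := by
    intro k
    rw [Pi.one_apply, map_one, Pi.one_apply]
  add_mem' := by
    intro x y hx hy k
    rw [Pi.add_apply, map_add, hx k, hy k, Pi.add_apply]
  zero_mem' := by
    intro k
    rw [Pi.zero_apply, map_zero, Pi.zero_apply]
  neg_mem' := by
    intro x hx k
    rw [Pi.neg_apply, map_neg, hx k, Pi.neg_apply]

/-- the projection to level `k`. -/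
def GRA_pr (k : ℕ) : GRA_Z p →+* ZMod (p ^ k) :=
  (Pi.evalRingHom (fun k : ℕ => ZMod (p ^ k)) k).comp (GRA_Z p).subtype

theorem GRA_pr_apply (k : ℕ) (x : GRA_Z p) : GRA_pr p k x = (x : ∀ k, ZMod (p ^ k)) k := rfl

theorem GRA_tr_pr (k : ℕ) (x : GRA_Z p) : GRA_tr p k (GRA_pr p (k + 1) x) = GRA_pr p k x :=
  x.2 k

theorem GRA_Z_ext {x y : GRA_Z p} (h : ∀ k, GRA_pr p k x = GRA_pr p k y) : x = y := by
  apply Subtype.ext
  funext k
  exact h k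

/-- a compatible family as an element of `GRA_Z p`. -/
def GRA_mkZ (x : ∀ k : ℕ, ZMod (p ^ k)) (hx : ∀ k : ℕ, GRA_tr p k (x (k + 1)) = x k) : GRA_Z p :=
  ⟨x, hx⟩

@[simp] theorem GRA_pr_mkZ (x : ∀ k : ℕ, ZMod (p ^ k)) (hx) (k : ℕ) :
    GRA_pr p k (GRA_mkZ p x hx) = x k := rfl

/-- matrices over `GRA_Z p` are determined by their projections. -/
theorem GRA_Z_matrix_ext {ι κ : Type*} {X Y : Matrix ι κ (GRA_Z p)}
    (h : ∀ k, X.map (GRA_pr p k) = Y.map (GRA_pr p k)) : X = Y := by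
  ext i j : 1
  apply GRA_Z_ext
  intro k
  have := congrFun (congrFun (h k) i) j
  simpa using this

end Z

section lam

variable (p : ℕ) (𝒪 : Type*) [CommRing 𝒪] [IsLocalRing 𝒪]

theorem GRA_natCast_pow_eq_zero (hp : (p : 𝒪) ∈ maximalIdeal 𝒪) (n : ℕ) :
    (((p ^ n : ℕ) : 𝒪 ⧸ maximalIdeal 𝒪 ^ n)) = 0 := by
  have h1 : ((p : 𝒪)) ^ n ∈ maximalIdeal 𝒪 ^ n := Ideal.pow_mem_pow hp n
  have h2 : Ideal.Quotient.mk (maximalIdeal 𝒪 ^ n) ((p : 𝒪) ^ n) = 0 :=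
    Ideal.Quotient.eq_zero_iff_mem.mpr h1
  rw [map_pow, map_natCast] at h2
  rw [Nat.cast_pow]
  exact h2

/-- `ℤ/p^k → 𝒪/𝔪^k`. -/
noncomputable def GRA_iota (hp : (p : 𝒪) ∈ maximalIdeal 𝒪) (k : ℕ) :
    ZMod (p ^ k) →+* 𝒪 ⧸ maximalIdeal 𝒪 ^ k :=
  ZMod.castHom (ringChar.dvd (GRA_natCast_pow_eq_zero p 𝒪 hp k)) (𝒪 ⧸ maximalIdeal 𝒪 ^ k)

theorem GRA_pr_of_le {m n : ℕ} (hle : m ≤ n) (x : GRA_Z p) :
    ZMod.castHom (pow_dvd_pow p hle) (ZMod (p ^ m)) (GRA_pr p n x) = GRA_pr p m x := by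
  induction n, hle using Nat.le_induction with
  | base =>
    have : ZMod.castHom (pow_dvd_pow p (le_refl m)) (ZMod (p ^ m)) = RingHom.id _ :=
      RingHom.ext_zmod _ _
    rw [this, RingHom.id_apply]
  | succ n hmn ih =>
    rw [← ih, ← GRA_tr_pr p n x]
    have : (ZMod.castHom (pow_dvd_pow p (hmn.trans (Nat.le_succ n))) (ZMod (p ^ m))) =
        (ZMod.castHom (pow_dvd_pow p hmn) (ZMod (p ^ m))).comp (GRA_tr p n) :=
      RingHom.ext_zmod _ _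
    rw [this, RingHom.comp_apply]

variable [IsAdicComplete (maximalIdeal 𝒪) 𝒪]

omit [IsAdicComplete (maximalIdeal 𝒪) 𝒪] in
theorem GRA_lam_compat (hp : (p : 𝒪) ∈ maximalIdeal 𝒪) {m n : ℕ} (hle : m ≤ n) :
    (Ideal.Quotient.factorPow (maximalIdeal 𝒪) hle).comp
        ((GRA_iota p 𝒪 hp n).comp (GRA_pr p n)) =
      (GRA_iota p 𝒪 hp m).comp (GRA_pr p m) := by
  ext x
  rw [RingHom.comp_apply, RingHom.comp_apply, RingHom.comp_apply, ← GRA_pr_of_le p hle x]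
  have : (Ideal.Quotient.factorPow (maximalIdeal 𝒪) hle).comp (GRA_iota p 𝒪 hp n) =
      (GRA_iota p 𝒪 hp m).comp (ZMod.castHom (pow_dvd_pow p hle) (ZMod (p ^ m))) :=
    RingHom.ext_zmod _ _
  exact congrArg (fun f => f (GRA_pr p n x)) this

/-- the limit map `GRA_Z p → 𝒪`. -/
noncomputable def GRA_lam (hp : (p : 𝒪) ∈ maximalIdeal 𝒪) : GRA_Z p →+* 𝒪 :=
  IsAdicComplete.liftRingHom (maximalIdeal 𝒪) (fun k => (GRA_iota p 𝒪 hp k).comp (GRA_pr p k))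
    (fun {_ _} hle => GRA_lam_compat p 𝒪 hp hle)

theorem GRA_mk_lam (hp : (p : 𝒪) ∈ maximalIdeal 𝒪) (k : ℕ) (x : GRA_Z p) :
    Ideal.Quotient.mk (maximalIdeal 𝒪 ^ k) (GRA_lam p 𝒪 hp x) =
      GRA_iota p 𝒪 hp k (GRA_pr p k x) :=
  IsAdicComplete.mk_liftRingHom (maximalIdeal 𝒪)
    (fun k => (GRA_iota p 𝒪 hp k).comp (GRA_pr p k))
    (fun {_ _} hle => GRA_lam_compat p 𝒪 hp hle) k x

/-- elements with the same projection to level `k` have limits congruent modulo `𝔪 ^ k`. -/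
theorem GRA_lam_sub_mem (hp : (p : 𝒪) ∈ maximalIdeal 𝒪) (k : ℕ) {x y : GRA_Z p}
    (h : GRA_pr p k x = GRA_pr p k y) :
    GRA_lam p 𝒪 hp x - GRA_lam p 𝒪 hp y ∈ maximalIdeal 𝒪 ^ k := by
  rw [← Ideal.Quotient.eq, GRA_mk_lam, GRA_mk_lam, h]

end lam

end Fermat.Agent.GalRep
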