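import Mathlib
import Fermat.Prelude.Def_GaloisRep_Adic
import Fermat.Prelude.Def_EllipticCurve_FrobeniusTrace
import Fermat.Prelude.Def_CuspForm_HeckeAlgebra

set_option autoImplicit false
open Polynomial

namespace Fermat.Agent.GalRep

/-- `G_ℚ` in the Prelude's language. -/
abbrev GQ : Type := AlgebraicClosure ℚ ≃ₐ[ℚ] AlgebraicClosure ℚ

/-- `σ` is a Frobenius element at `ℓ` for some place over `ℓ`. -/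
def GR_IsFrob (ℓ : ℕ) (σ : GQ) : Prop :=
  ∃ A : ValuationSubring (AlgebraicClosure ℚ), A.LiesOverPrime ℓ ∧ A.IsFrobeniusAt σ ℓ

/-- `U` is open: it contains the fixing subgroup of a finite extension. -/
def GR_IsOpen (U : Subgroup GQ) : Prop :=
  ∃ L : IntermediateField ℚ (AlgebraicClosure ℚ), FiniteDimensional ℚ L ∧
    ∀ σ : GQ, (∀ x ∈ L, σ x = x) → σ ∈ U

/-- (DS) the two-subgroup density lemma (package DENS, helper7/helper19). -/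
def GR_DS : Prop :=
  ∀ (U₁ U₂ : Subgroup GQ), U₁.Normal → U₂.Normal → GR_IsOpen U₁ → GR_IsOpen U₂ →
    ∀ T : Finset ℕ,
      (∀ ℓ : ℕ, ℓ.Prime → ℓ ∉ T → ∀ σ : GQ, GR_IsFrob ℓ σ → σ ∈ U₁ ∨ σ ∈ U₂) →
      U₁ = ⊤ ∨ U₂ = ⊤

/-- (CYC) a p-adic cyclotomic character with values in a complete DVR. -/
structure GR_Cyc (p : ℕ) (𝒪 : Type) [CommRing 𝒪] [IsLocalRing 𝒪] where
  ε : GQ →* 𝒪ˣ
  cont : ∀ n : ℕ, ∃ L : IntermediateField ℚ (AlgebraicClosure ℚ), FiniteDimensional ℚ L ∧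
    ∀ σ : GQ, (∀ x ∈ L, σ x = x) → ((ε σ : 𝒪) - 1) ∈ IsLocalRing.maximalIdeal 𝒪 ^ n
  frob : ∀ ℓ : ℕ, ℓ.Prime → ℓ ≠ p → ∀ σ : GQ, GR_IsFrob ℓ σ → ((ε σ : 𝒪)) = (ℓ : 𝒪)
  unram : ∀ q : ℕ, q.Prime → q ≠ p → ∀ P : ValuationSubring (AlgebraicClosure ℚ), P.LiesOverPrime q →
    ∀ σ ∈ P.inertiaSubgroupIn ℚ, ε σ = 1

/-- (ES-datum) what the geometric part of pillar G has to deliver for the character `χ`. -/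
structure GR_ESDatum (p N : ℕ) (S : Finset ℕ) (𝒪 : Type) [CommRing 𝒪] [IsLocalRing 𝒪]
    (a : ℕ → 𝒪) where
  ρ : GaloisRepAdic 𝒪
  es : ∀ ℓ : ℕ, ℓ.Prime → ¬ ℓ ∣ N → ℓ ∉ S → ∀ σ : GQ, GR_IsFrob ℓ σ →
    ρ.ρ σ * ρ.ρ σ - a ℓ • ρ.ρ σ + (ℓ : 𝒪) • (1 : Module.End 𝒪 ρ.V) = 0
  unram : ∀ q : ℕ, q.Prime → ¬ q ∣ N → q ≠ p → ρ.IsUnramifiedAt q

/-- (ALG) the determinant step: from an ES-datum, DS and CYC to the conclusion of S30. -/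
def GR_ALGStmt : Prop :=
  ∀ (p N : ℕ) (S : Finset ℕ) (𝒪 : Type) [CommRing 𝒪] [IsDomain 𝒪] [IsDiscreteValuationRing 𝒪]
    [IsAdicComplete (IsLocalRing.maximalIdeal 𝒪) 𝒪] [CharZero 𝒪]
    (a : ℕ → 𝒪), p ∈ S → GR_DS → GR_Cyc p 𝒪 → GR_ESDatum p N S 𝒪 a →
    ∃ ρ : GaloisRepAdic 𝒪,
      (∀ ℓ : ℕ, ℓ.Prime → ¬ ℓ ∣ N → ℓ ∉ S → ∀ σ : GQ, GR_IsFrob ℓ σ →
        LinearMap.charpoly (ρ.ρ σ) = X ^ 2 - C (a ℓ) * X + C ((ℓ : 𝒪))) ∧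
      (∀ q : ℕ, q.Prime → ¬ q ∣ N → q ≠ p → ρ.IsUnramifiedAt q)

end Fermat.Agent.GalRep
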