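import Mathlib
import Fermat.Agent.GalRep.Defs

/-!
# Pillar G (GALREP): the finite-level tower (interface between geometry and algebra)

`GR_Tower p N L T` is what the geometric packages (Kummer map, Hecke-equivariance, E–S on torsion)
deliver, for `L = Hom_par(Γ₀(N), ℤ)` with its integral Hecke operators `T ℓ`
(`T ℓ` = `T_ℓ` for `ℓ ∤ N`, `U_ℓ` for `ℓ ∣ N`): a compatible system of Galois actions on
`ℤ/p^k ⊗ L ≅ J₀(N)[p^k]`, commuting with the Hecke operators, unramified outside `Np`, with the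
Eichler–Shimura relation at the good primes.

`GR_AdicStmt` is the statement of package ADIC: tower + a rank-2 eigen-lattice ⇒ E–S datum.
Definitions only.
-/

set_option autoImplicit false
open scoped TensorProduct

namespace Fermat.Agent.GalRep

/-- reduction `ℤ/p^(k+1) ⊗ L → ℤ/p^k ⊗ L`. -/
noncomputable def GR_red (p k : ℕ) (L : Type) [AddCommGroup L] :
    (ZMod (p ^ (k + 1)) ⊗[ℤ] L) →ₗ[ℤ] (ZMod (p ^ k) ⊗[ℤ] L) :=
  LinearMap.rTensor L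
    ((ZMod.castHom (pow_dvd_pow p (Nat.le_succ k)) (ZMod (p ^ k))).toAddMonoidHom.toIntLinearMap)

/-- The finite-level Galois–Hecke tower. -/
structure GR_Tower (p N : ℕ) (L : Type) [AddCommGroup L] (T : ℕ → Module.End ℤ L) where
  /-- the Galois action on `ℤ/p^k ⊗ L` -/
  r : (k : ℕ) → GQ →* Module.End (ZMod (p ^ k)) (ZMod (p ^ k) ⊗[ℤ] L)
  compat : ∀ (k : ℕ) (σ : GQ) (x : ZMod (p ^ (k + 1)) ⊗[ℤ] L),
    GR_red p k L (r (k + 1) σ x) = r k σ (GR_red p k L x)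
  fin : ∀ k : ℕ, GaloisFactorsThroughFiniteLevel (r k)
  hecke : ∀ (k : ℕ) (σ : GQ) (ℓ : ℕ),
    Commute (r k σ) ((T ℓ).baseChange (ZMod (p ^ k)))
  es : ∀ (k ℓ : ℕ), ℓ.Prime → ¬ ℓ ∣ N → ℓ ≠ p → ∀ σ : GQ, GR_IsFrob ℓ σ →
    r k σ * r k σ - (T ℓ).baseChange (ZMod (p ^ k)) * r k σ
      + (ℓ : ZMod (p ^ k)) • (1 : Module.End (ZMod (p ^ k)) (ZMod (p ^ k) ⊗[ℤ] L)) = 0
  unram : ∀ (k q : ℕ), q.Prime → ¬ q ∣ N → q ≠ p →
    ∀ P : ValuationSubring (AlgebraicClosure ℚ), P.LiesOverPrime q →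
      ∀ τ ∈ P.inertiaSubgroupIn ℚ, r k τ = 1

/-- the simultaneous eigen-submodule of `𝒪 ⊗ L` for the eigenvalues `b ℓ` (all primes `ℓ`). -/
def GR_eigen (𝒪 : Type) [CommRing 𝒪] (L : Type) [AddCommGroup L] (T : ℕ → Module.End ℤ L)
    (b : ℕ → 𝒪) : Submodule 𝒪 (𝒪 ⊗[ℤ] L) where
  carrier := {x | ∀ ℓ : ℕ, ℓ.Prime → (T ℓ).baseChange 𝒪 x = b ℓ • x}
  zero_mem' := by intro ℓ _; simp
  add_mem' := by
    intro x y hx hy ℓ hℓ
    rw [map_add, hx ℓ hℓ, hy ℓ hℓ, smul_add]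
  smul_mem' := by
    intro c x hx ℓ hℓ
    rw [map_smul, hx ℓ hℓ, smul_comm]

/-- **ADIC**: from the tower and an eigen-lattice of rank 1 or 2 to an E–S datum.
(For rank 1 the datum is built from `μ ⊕ ε μ⁻¹`; hence `GR_Cyc` is an input.) -/
def GR_AdicStmt : Prop :=
  ∀ (p N : ℕ) [Fact p.Prime] (S : Finset ℕ) (𝒪 : Type) [CommRing 𝒪] [IsDomain 𝒪]
    [IsDiscreteValuationRing 𝒪] [IsAdicComplete (IsLocalRing.maximalIdeal 𝒪) 𝒪] [CharZero 𝒪]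
    (_ : (p : 𝒪) ∈ IsLocalRing.maximalIdeal 𝒪) (_ : p ∈ S)
    (L : Type) [AddCommGroup L] [Module.Free ℤ L] [Module.Finite ℤ L]
    (T : ℕ → Module.End ℤ L) (_ : ∀ ℓ ℓ' : ℕ, Commute (T ℓ) (T ℓ'))
    (_ : GR_Tower p N L T) (_ : GR_Cyc p 𝒪) (b : ℕ → 𝒪)
    (_ : Module.finrank 𝒪 (GR_eigen 𝒪 L T b) = 1 ∨ Module.finrank 𝒪 (GR_eigen 𝒪 L T b) = 2),
    Nonempty (GR_ESDatum p N S 𝒪 b)

end Fermat.Agent.GalRep
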