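import Mathlib
import Fermat.Agent.GalRep.Tower
import Fermat.Agent.GalRep.AdicLim

/-!
# Pillar G, package ADIC (helper1), part 2: the limit representation on `𝒪 ⊗ L`

From a tower `𝒯 : GR_Tower p N L T` and a `ℤ`-basis `e` of `L`:

* `GRA_Ak e 𝒯 k σ` : the matrix of `𝒯.r k σ` in the basis `1 ⊗ e i` of `ℤ/p^k ⊗ L`;
* `GRA_A e 𝒯 σ` : the matrix over `GRA_Z p` (`≅ ℤ_p`) of the compatible family; `GRA_A_one`,
  `GRA_A_mul`, `GRA_A_hecke`, `GRA_A_es`, `GRA_A_unram`, `GRA_A_fin`;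
* `GRA_R e 𝒯 hp : GQ →* Module.End 𝒪 (𝒪 ⊗[ℤ] L)` : the limit representation, with
  `GRA_R_hecke` (commutes with `T ℓ`), `GRA_R_es` (Eichler–Shimura), `GRA_R_unram`,
  `GRA_R_fin` (trivial modulo `𝔪 ^ k` on an open subgroup).
-/

set_option autoImplicit false

open scoped TensorProduct
open Module IsLocalRing

namespace Fermat.Agent.GalRep

section red

variable (p : ℕ) (L : Type) [AddCommGroup L]

/-- `GR_red` is semilinear for the transition map. -/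
theorem GRA_red_smul (k : ℕ) (c : ZMod (p ^ (k + 1))) (x : ZMod (p ^ (k + 1)) ⊗[ℤ] L) :
    GR_red p k L (c • x) = GRA_tr p k c • GR_red p k L x := by
  induction x using TensorProduct.induction_on with
  | zero => simp
  | tmul a l =>
    rw [TensorProduct.smul_tmul', smul_eq_mul]
    show LinearMap.rTensor L _ ((c * a) ⊗ₜ[ℤ] l) = GRA_tr p k c • LinearMap.rTensor L _ (a ⊗ₜ[ℤ] l)
    rw [LinearMap.rTensor_tmul, LinearMap.rTensor_tmul, TensorProduct.smul_tmul', smul_eq_mul]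
    congr 1
    exact map_mul (ZMod.castHom (pow_dvd_pow p (Nat.le_succ k)) (ZMod (p ^ k))) c a
  | add x y hx hy => rw [smul_add, map_add, hx, hy, map_add, smul_add]

theorem GRA_red_one_tmul (k : ℕ) (l : L) :
    GR_red p k L ((1 : ZMod (p ^ (k + 1))) ⊗ₜ[ℤ] l) = (1 : ZMod (p ^ k)) ⊗ₜ[ℤ] l := by
  show LinearMap.rTensor L _ ((1 : ZMod (p ^ (k + 1))) ⊗ₜ[ℤ] l) = _
  rw [LinearMap.rTensor_tmul]
  congr 1
  exact map_one (ZMod.castHom (pow_dvd_pow p (Nat.le_succ k)) (ZMod (p ^ k)))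

end red

section tower

variable {p N : ℕ} {L : Type} [AddCommGroup L] {T : ℕ → Module.End ℤ L}
  {ι : Type} [Fintype ι] [DecidableEq ι] (e : Basis ι ℤ L) (𝒯 : GR_Tower p N L T)

/-- the basis `1 ⊗ e i` of `R ⊗ L`. -/
noncomputable abbrev GRA_b (R : Type) [CommRing R] : Basis ι R (R ⊗[ℤ] L) :=
  Algebra.TensorProduct.basis R e

/-- the matrix of the Galois action at level `k`. -/
noncomputable def GRA_Ak (k : ℕ) (σ : GQ) : Matrix ι ι (ZMod (p ^ k)) :=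
  LinearMap.toMatrix (GRA_b e (ZMod (p ^ k))) (GRA_b e (ZMod (p ^ k))) (𝒯.r k σ)

theorem GRA_Ak_compat (k : ℕ) (σ : GQ) (i j : ι) :
    GRA_tr p k (GRA_Ak e 𝒯 (k + 1) σ i j) = GRA_Ak e 𝒯 k σ i j := by
  have h1 : 𝒯.r (k + 1) σ (GRA_b e (ZMod (p ^ (k + 1))) j) =
      ∑ i, GRA_Ak e 𝒯 (k + 1) σ i j • GRA_b e (ZMod (p ^ (k + 1))) i := by
    rw [← (GRA_b e (ZMod (p ^ (k + 1)))).sum_repr (𝒯.r (k + 1) σ (GRA_b e (ZMod (p ^ (k + 1))) j))]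
    refine Finset.sum_congr rfl fun i _ => ?_
    rw [GRA_Ak, LinearMap.toMatrix_apply]
  have hb : ∀ i, GR_red p k L (GRA_b e (ZMod (p ^ (k + 1))) i) = GRA_b e (ZMod (p ^ k)) i := by
    intro i
    rw [Algebra.TensorProduct.basis_apply, Algebra.TensorProduct.basis_apply]
    exact GRA_red_one_tmul p L k (e i)
  have h2 := congrArg (GR_red p k L) h1
  rw [𝒯.compat, hb, map_sum] at h2
  have h3 : 𝒯.r k σ (GRA_b e (ZMod (p ^ k)) j) =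
      ∑ i, GRA_tr p k (GRA_Ak e 𝒯 (k + 1) σ i j) • GRA_b e (ZMod (p ^ k)) i := by
    rw [h2]
    refine Finset.sum_congr rfl fun i _ => ?_
    rw [GRA_red_smul, hb]
  have h4 : GRA_Ak e 𝒯 k σ i j = GRA_tr p k (GRA_Ak e 𝒯 (k + 1) σ i j) := by
    rw [GRA_Ak, LinearMap.toMatrix_apply, h3, Basis.repr_sum_self]
  exact h4.symm

/-- the matrix of the Galois action over `GRA_Z p ≅ ℤ_p`. -/
noncomputable def GRA_A (σ : GQ) : Matrix ι ι (GRA_Z p) :=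
  fun i j => GRA_mkZ p (fun k => GRA_Ak e 𝒯 k σ i j) (fun k => GRA_Ak_compat e 𝒯 k σ i j)

theorem GRA_A_map_pr (k : ℕ) (σ : GQ) :
    (GRA_A e 𝒯 σ).map (GRA_pr p k) = GRA_Ak e 𝒯 k σ := by
  ext i j
  rfl

theorem GRA_Ak_one (k : ℕ) : GRA_Ak e 𝒯 k 1 = 1 := by
  rw [GRA_Ak, map_one]
  exact LinearMap.toMatrix_one _

theorem GRA_Ak_mul (k : ℕ) (σ τ : GQ) :
    GRA_Ak e 𝒯 k (σ * τ) = GRA_Ak e 𝒯 k σ * GRA_Ak e 𝒯 k τ := by
  rw [GRA_Ak, map_mul]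
  exact LinearMap.toMatrix_mul _ _ _

theorem GRA_A_one : GRA_A e 𝒯 1 = 1 := by
  apply GRA_Z_matrix_ext
  intro k
  rw [GRA_A_map_pr, GRA_Ak_one, Matrix.map_one _ (map_zero _) (map_one _)]

theorem GRA_A_mul (σ τ : GQ) : GRA_A e 𝒯 (σ * τ) = GRA_A e 𝒯 σ * GRA_A e 𝒯 τ := by
  apply GRA_Z_matrix_ext
  intro k
  rw [GRA_A_map_pr, Matrix.map_mul, GRA_A_map_pr, GRA_A_map_pr, GRA_Ak_mul]

/-- the matrix of the Hecke operator `T ℓ` with entries in a ring `R`. -/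
noncomputable def GRA_Tmat (T : ℕ → Module.End ℤ L) (R : Type) [CommRing R] (ℓ : ℕ) :
    Matrix ι ι R :=
  (LinearMap.toMatrix e e (T ℓ)).map (Int.castRingHom R)

theorem GRA_toMatrix_baseChange (R : Type) [CommRing R] (ℓ : ℕ) :
    LinearMap.toMatrix (GRA_b e R) (GRA_b e R) ((T ℓ).baseChange R) = GRA_Tmat e T R ℓ := by
  rw [LinearMap.toMatrix_baseChange]
  rfl

theorem GRA_Tmat_map {R R' : Type} [CommRing R] [CommRing R'] (f : R →+* R') (ℓ : ℕ) :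
    (GRA_Tmat e T R ℓ).map f = GRA_Tmat e T R' ℓ := by
  rw [GRA_Tmat, GRA_Tmat, Matrix.map_map]
  congr 1
  funext a
  simp

theorem GRA_A_hecke (σ : GQ) (ℓ : ℕ) :
    GRA_A e 𝒯 σ * GRA_Tmat e T (GRA_Z p) ℓ = GRA_Tmat e T (GRA_Z p) ℓ * GRA_A e 𝒯 σ := by
  apply GRA_Z_matrix_ext
  intro k
  rw [Matrix.map_mul, Matrix.map_mul, GRA_A_map_pr, GRA_Tmat_map, ← GRA_toMatrix_baseChange,
    GRA_Ak, ← LinearMap.toMatrix_mul, ← LinearMap.toMatrix_mul]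
  congr 1
  exact (𝒯.hecke k σ ℓ).eq

theorem GRA_A_es (ℓ : ℕ) (hℓ : ℓ.Prime) (hℓN : ¬ ℓ ∣ N) (hℓp : ℓ ≠ p) (σ : GQ)
    (hσ : GR_IsFrob ℓ σ) :
    GRA_A e 𝒯 σ * GRA_A e 𝒯 σ - GRA_Tmat e T (GRA_Z p) ℓ * GRA_A e 𝒯 σ
      + (ℓ : GRA_Z p) • (1 : Matrix ι ι (GRA_Z p)) = 0 := by
  apply GRA_Z_matrix_ext
  intro k
  have h := 𝒯.es k ℓ hℓ hℓN hℓp σ hσ
  have h2 := congrArg (LinearMap.toMatrix (GRA_b e (ZMod (p ^ k))) (GRA_b e (ZMod (p ^ k)))) h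
  rw [map_add, map_sub, LinearMap.toMatrix_mul, LinearMap.toMatrix_mul, map_smul, map_zero,
    GRA_toMatrix_baseChange] at h2
  have h3 : LinearMap.toMatrix (GRA_b e (ZMod (p ^ k))) (GRA_b e (ZMod (p ^ k)))
      (1 : Module.End (ZMod (p ^ k)) (ZMod (p ^ k) ⊗[ℤ] L)) = 1 := LinearMap.toMatrix_one _
  rw [h3] at h2
  have hmap : ((ℓ : GRA_Z p) • (1 : Matrix ι ι (GRA_Z p))).map (GRA_pr p k) =
      (ℓ : ZMod (p ^ k)) • (1 : Matrix ι ι (ZMod (p ^ k))) := by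
    ext i j
    simp only [Matrix.map_apply, Matrix.smul_apply, Matrix.one_apply, smul_eq_mul]
    split_ifs <;> simp
  have hsub : ∀ X Y : Matrix ι ι (GRA_Z p), (X - Y).map (GRA_pr p k) =
      X.map (GRA_pr p k) - Y.map (GRA_pr p k) := fun X Y => Matrix.map_sub _ (map_sub _) X Y
  have hadd : ∀ X Y : Matrix ι ι (GRA_Z p), (X + Y).map (GRA_pr p k) =
      X.map (GRA_pr p k) + Y.map (GRA_pr p k) := fun X Y => Matrix.map_add _ (map_add _) X Y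
  rw [hadd, hsub, Matrix.map_mul, Matrix.map_mul, hmap, GRA_A_map_pr, GRA_Tmat_map,
    Matrix.map_zero _ (map_zero _)]
  exact h2

theorem GRA_A_unram (q : ℕ) (hq : q.Prime) (hqN : ¬ q ∣ N) (hqp : q ≠ p)
    (P : ValuationSubring (AlgebraicClosure ℚ)) (hP : P.LiesOverPrime q) (τ : GQ)
    (hτ : τ ∈ P.inertiaSubgroupIn ℚ) : GRA_A e 𝒯 τ = 1 := by
  apply GRA_Z_matrix_ext
  intro k
  rw [GRA_A_map_pr, Matrix.map_one _ (map_zero _) (map_one _), GRA_Ak,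
    𝒯.unram k q hq hqN hqp P hP τ hτ]
  exact LinearMap.toMatrix_one _

theorem GRA_A_fin (k : ℕ) : ∃ F : IntermediateField ℚ (AlgebraicClosure ℚ),
    FiniteDimensional ℚ F ∧ ∀ σ : GQ, (∀ x ∈ F, σ x = x) →
      (GRA_A e 𝒯 σ).map (GRA_pr p k) = 1 := by
  obtain ⟨F, hF, h⟩ := 𝒯.fin k
  refine ⟨F, hF, fun σ hσ => ?_⟩
  rw [GRA_A_map_pr, GRA_Ak, h σ hσ]
  exact LinearMap.toMatrix_one _

end tower

section limit

variable {p N : ℕ} {L : Type} [AddCommGroup L] {T : ℕ → Module.End ℤ L}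
  {ι : Type} [Fintype ι] [DecidableEq ι] (e : Basis ι ℤ L) (𝒯 : GR_Tower p N L T)
  {𝒪 : Type} [CommRing 𝒪] [IsLocalRing 𝒪] [IsAdicComplete (maximalIdeal 𝒪) 𝒪]
  (hp : (p : 𝒪) ∈ maximalIdeal 𝒪)

/-- the matrix of the limit action over `𝒪`. -/
noncomputable def GRA_B (σ : GQ) : Matrix ι ι 𝒪 := (GRA_A e 𝒯 σ).map (GRA_lam p 𝒪 hp)

theorem GRA_B_one : GRA_B e 𝒯 hp 1 = 1 := by
  rw [GRA_B, GRA_A_one, Matrix.map_one _ (map_zero _) (map_one _)]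

theorem GRA_B_mul (σ τ : GQ) : GRA_B e 𝒯 hp (σ * τ) = GRA_B e 𝒯 hp σ * GRA_B e 𝒯 hp τ := by
  rw [GRA_B, GRA_A_mul, Matrix.map_mul]
  rfl

/-- **the limit representation** on `𝒪 ⊗ L`. -/
noncomputable def GRA_R : GQ →* Module.End 𝒪 (𝒪 ⊗[ℤ] L) where
  toFun σ := Matrix.toLin (GRA_b e 𝒪) (GRA_b e 𝒪) (GRA_B e 𝒯 hp σ)
  map_one' := by
    rw [GRA_B_one, Matrix.toLin_one]
    rfl
  map_mul' σ τ := by
    rw [GRA_B_mul, Matrix.toLin_mul (GRA_b e 𝒪) (GRA_b e 𝒪) (GRA_b e 𝒪)]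
    rfl

theorem GRA_R_apply (σ : GQ) :
    GRA_R e 𝒯 hp σ = Matrix.toLin (GRA_b e 𝒪) (GRA_b e 𝒪) (GRA_B e 𝒯 hp σ) := rfl

omit [IsLocalRing 𝒪] [IsAdicComplete (maximalIdeal 𝒪) 𝒪] in
theorem GRA_baseChange_eq (ℓ : ℕ) :
    (T ℓ).baseChange 𝒪 = Matrix.toLin (GRA_b e 𝒪) (GRA_b e 𝒪) (GRA_Tmat e T 𝒪 ℓ) := by
  rw [← GRA_toMatrix_baseChange, Matrix.toLin_toMatrix]

/-- the limit representation commutes with the Hecke operators. -/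
theorem GRA_R_hecke (σ : GQ) (ℓ : ℕ) :
    Commute (GRA_R e 𝒯 hp σ) ((T ℓ).baseChange 𝒪) := by
  show _ * _ = _ * _
  rw [GRA_R_apply, GRA_baseChange_eq e, Module.End.mul_eq_comp, Module.End.mul_eq_comp,
    ← Matrix.toLin_mul, ← Matrix.toLin_mul]
  congr 1
  have h := congrArg (fun X => X.map (GRA_lam p 𝒪 hp)) (GRA_A_hecke e 𝒯 σ ℓ)
  simp only [Matrix.map_mul, GRA_Tmat_map] at h
  exact h

/-- **Eichler–Shimura** for the limit representation. -/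
theorem GRA_R_es (ℓ : ℕ) (hℓ : ℓ.Prime) (hℓN : ¬ ℓ ∣ N) (hℓp : ℓ ≠ p) (σ : GQ)
    (hσ : GR_IsFrob ℓ σ) :
    GRA_R e 𝒯 hp σ * GRA_R e 𝒯 hp σ - (T ℓ).baseChange 𝒪 * GRA_R e 𝒯 hp σ
      + (ℓ : 𝒪) • (1 : Module.End 𝒪 (𝒪 ⊗[ℤ] L)) = 0 := by
  have h := congrArg (fun X => X.map (GRA_lam p 𝒪 hp)) (GRA_A_es e 𝒯 ℓ hℓ hℓN hℓp σ hσ)
  have hsub : ∀ X Y : Matrix ι ι (GRA_Z p), (X - Y).map (GRA_lam p 𝒪 hp) =
      X.map (GRA_lam p 𝒪 hp) - Y.map (GRA_lam p 𝒪 hp) := fun X Y => Matrix.map_sub _ (map_sub _) X Y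
  have hadd : ∀ X Y : Matrix ι ι (GRA_Z p), (X + Y).map (GRA_lam p 𝒪 hp) =
      X.map (GRA_lam p 𝒪 hp) + Y.map (GRA_lam p 𝒪 hp) := fun X Y => Matrix.map_add _ (map_add _) X Y
  have hmap : ((ℓ : GRA_Z p) • (1 : Matrix ι ι (GRA_Z p))).map (GRA_lam p 𝒪 hp) =
      (ℓ : 𝒪) • (1 : Matrix ι ι 𝒪) := by
    ext i j
    simp only [Matrix.map_apply, Matrix.smul_apply, Matrix.one_apply, smul_eq_mul]
    split_ifs <;> simp
  simp only [hadd, hsub, Matrix.map_mul, hmap, GRA_Tmat_map, Matrix.map_zero _ (map_zero _)] at h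
  have h2 := congrArg (Matrix.toLin (GRA_b e 𝒪) (GRA_b e 𝒪)) h
  rw [map_add, map_sub, Matrix.toLin_mul (GRA_b e 𝒪) (GRA_b e 𝒪) (GRA_b e 𝒪),
    Matrix.toLin_mul (GRA_b e 𝒪) (GRA_b e 𝒪) (GRA_b e 𝒪), map_smul, Matrix.toLin_one, map_zero,
    ← GRA_baseChange_eq e] at h2
  exact h2

theorem GRA_R_unram (q : ℕ) (hq : q.Prime) (hqN : ¬ q ∣ N) (hqp : q ≠ p)
    (P : ValuationSubring (AlgebraicClosure ℚ)) (hP : P.LiesOverPrime q) (τ : GQ)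
    (hτ : τ ∈ P.inertiaSubgroupIn ℚ) : GRA_R e 𝒯 hp τ = 1 := by
  rw [GRA_R_apply, GRA_B, GRA_A_unram e 𝒯 q hq hqN hqp P hP τ hτ,
    Matrix.map_one _ (map_zero _) (map_one _), Matrix.toLin_one]
  rfl

/-- the limit representation is trivial modulo `𝔪 ^ k` on an open subgroup. -/
theorem GRA_R_fin (k : ℕ) : ∃ F : IntermediateField ℚ (AlgebraicClosure ℚ),
    FiniteDimensional ℚ F ∧ ∀ σ : GQ, (∀ x ∈ F, σ x = x) →
      ∀ v : 𝒪 ⊗[ℤ] L, GRA_R e 𝒯 hp σ v - v ∈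
        (maximalIdeal 𝒪 ^ k) • (⊤ : Submodule 𝒪 (𝒪 ⊗[ℤ] L)) := by
  obtain ⟨F, hF, h⟩ := GRA_A_fin e 𝒯 k
  refine ⟨F, hF, fun σ hσ v => ?_⟩
  have hent : ∀ i j, (GRA_B e 𝒯 hp σ - 1) i j ∈ maximalIdeal 𝒪 ^ k := by
    intro i j
    have h1 : GRA_pr p k (GRA_A e 𝒯 σ i j) = GRA_pr p k ((1 : Matrix ι ι (GRA_Z p)) i j) := by
      have h2 := congrFun (congrFun (h σ hσ) i) j
      rw [Matrix.map_apply] at h2
      rw [h2]
      simp only [Matrix.one_apply]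
      split_ifs <;> simp
    have h3 := GRA_lam_sub_mem p 𝒪 hp k h1
    have h4 : (GRA_B e 𝒯 hp σ - 1) i j =
        GRA_lam p 𝒪 hp (GRA_A e 𝒯 σ i j) - GRA_lam p 𝒪 hp ((1 : Matrix ι ι (GRA_Z p)) i j) := by
      rw [Matrix.sub_apply, GRA_B, Matrix.map_apply]
      congr 1
      simp only [Matrix.one_apply]
      split_ifs <;> simp
    rw [h4]
    exact h3
  have h5 : GRA_R e 𝒯 hp σ v - v =
      Matrix.toLin (GRA_b e 𝒪) (GRA_b e 𝒪) (GRA_B e 𝒯 hp σ - 1) v := by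
    rw [map_sub, Matrix.toLin_one, LinearMap.sub_apply, LinearMap.id_apply]
    rfl
  rw [h5, Matrix.toLin_apply]
  refine Submodule.sum_mem _ fun i _ => ?_
  refine Submodule.smul_mem_smul ?_ Submodule.mem_top
  rw [Matrix.mulVec, dotProduct]
  refine Ideal.sum_mem _ fun j _ => ?_
  exact Ideal.mul_mem_right _ _ (hent i j)

end limit

end Fermat.Agent.GalRep
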