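import Mathlib
import Fermat.Agent.GalRep.AdicRep

/-!
# Pillar G, package ADIC (helper1), part 3: the eigen-lattice and the E–S datum

`GRA_adic : GR_AdicStmt`.

* `W = GR_eigen 𝒪 L T b ⊆ 𝒪 ⊗ L` is stable under the limit representation `GRA_R` (which commutes
  with the Hecke operators) and saturated; `GRA_rho` is the action on `W`;
* rank 2: the datum is `W` itself (`GRA_datum_two`);
* rank 1: `G` acts on `W` through a character `μ`; the datum is `μ ⊕ ε μ⁻¹` on `𝒪 × 𝒪`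
  (`GRA_datum_one`).
-/

set_option autoImplicit false

open scoped TensorProduct
open Module IsLocalRing

namespace Fermat.Agent.GalRep

section eigen

variable {p N : ℕ} {L : Type} [AddCommGroup L] {T : ℕ → Module.End ℤ L}
  {ι : Type} [Fintype ι] [DecidableEq ι] (e : Basis ι ℤ L) (𝒯 : GR_Tower p N L T)
  {𝒪 : Type} [CommRing 𝒪] [IsLocalRing 𝒪] [IsAdicComplete (maximalIdeal 𝒪) 𝒪]
  (hp : (p : 𝒪) ∈ maximalIdeal 𝒪) (b : ℕ → 𝒪)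

omit [IsLocalRing 𝒪] [IsAdicComplete (maximalIdeal 𝒪) 𝒪] in
theorem GRA_mem_eigen (x : 𝒪 ⊗[ℤ] L) :
    x ∈ GR_eigen 𝒪 L T b ↔ ∀ ℓ : ℕ, ℓ.Prime → (T ℓ).baseChange 𝒪 x = b ℓ • x := Iff.rfl

/-- the eigen-lattice is stable under the limit representation. -/
theorem GRA_R_mem (σ : GQ) {x : 𝒪 ⊗[ℤ] L} (hx : x ∈ GR_eigen 𝒪 L T b) :
    GRA_R e 𝒯 hp σ x ∈ GR_eigen 𝒪 L T b := by
  intro ℓ hℓ
  have h := congrArg (fun f : Module.End 𝒪 (𝒪 ⊗[ℤ] L) => f x) (GRA_R_hecke e 𝒯 hp σ ℓ).eq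
  simp only [Module.End.mul_apply] at h
  rw [← h, hx ℓ hℓ, map_smul]

/-- the action on the eigen-lattice. -/
noncomputable def GRA_rho : GQ →* Module.End 𝒪 (GR_eigen 𝒪 L T b) where
  toFun σ := (GRA_R e 𝒯 hp σ).restrict (fun _ hx => GRA_R_mem e 𝒯 hp b σ hx)
  map_one' := by
    ext x
    show GRA_R e 𝒯 hp 1 (x : 𝒪 ⊗[ℤ] L) = (x : 𝒪 ⊗[ℤ] L)
    rw [map_one]
    rfl
  map_mul' σ τ := by
    ext x
    show GRA_R e 𝒯 hp (σ * τ) (x : 𝒪 ⊗[ℤ] L) =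
      GRA_R e 𝒯 hp σ (GRA_R e 𝒯 hp τ (x : 𝒪 ⊗[ℤ] L))
    rw [map_mul]
    rfl

theorem GRA_rho_coe (σ : GQ) (x : GR_eigen 𝒪 L T b) :
    ((GRA_rho e 𝒯 hp b σ x : GR_eigen 𝒪 L T b) : 𝒪 ⊗[ℤ] L) = GRA_R e 𝒯 hp σ x := rfl

/-- Eichler–Shimura on the eigen-lattice. -/
theorem GRA_rho_es (ℓ : ℕ) (hℓ : ℓ.Prime) (hℓN : ¬ ℓ ∣ N) (hℓp : ℓ ≠ p) (σ : GQ)
    (hσ : GR_IsFrob ℓ σ) :
    GRA_rho e 𝒯 hp b σ * GRA_rho e 𝒯 hp b σ - b ℓ • GRA_rho e 𝒯 hp b σ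
      + (ℓ : 𝒪) • (1 : Module.End 𝒪 (GR_eigen 𝒪 L T b)) = 0 := by
  ext x
  have h := congrArg (fun f : Module.End 𝒪 (𝒪 ⊗[ℤ] L) => f (x : 𝒪 ⊗[ℤ] L))
    (GRA_R_es e 𝒯 hp ℓ hℓ hℓN hℓp σ hσ)
  simp only [LinearMap.add_apply, LinearMap.sub_apply, Module.End.mul_apply,
    LinearMap.smul_apply, Module.End.one_apply, LinearMap.zero_apply] at h
  have hmem := GRA_R_mem e 𝒯 hp b σ x.2 ℓ hℓ
  rw [hmem] at h
  simp only [LinearMap.add_apply, LinearMap.sub_apply, Module.End.mul_apply,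
    LinearMap.smul_apply, Module.End.one_apply, LinearMap.zero_apply, Submodule.coe_add,
    Submodule.coe_sub, Submodule.coe_smul, GRA_rho_coe, Submodule.coe_zero]
  exact h

theorem GRA_rho_unram (q : ℕ) (hq : q.Prime) (hqN : ¬ q ∣ N) (hqp : q ≠ p)
    (P : ValuationSubring (AlgebraicClosure ℚ)) (hP : P.LiesOverPrime q) (τ : GQ)
    (hτ : τ ∈ P.inertiaSubgroupIn ℚ) : GRA_rho e 𝒯 hp b τ = 1 := by
  ext x
  rw [GRA_rho_coe, GRA_R_unram e 𝒯 hp q hq hqN hqp P hP τ hτ]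
  rfl

end eigen

section dvr

variable {p N : ℕ} {L : Type} [AddCommGroup L] {T : ℕ → Module.End ℤ L}
  {ι : Type} [Fintype ι] [DecidableEq ι] (e : Basis ι ℤ L) (𝒯 : GR_Tower p N L T)
  {𝒪 : Type} [CommRing 𝒪] [IsDomain 𝒪] [IsDiscreteValuationRing 𝒪]
  [IsAdicComplete (maximalIdeal 𝒪) 𝒪]
  (hp : (p : 𝒪) ∈ maximalIdeal 𝒪) (b : ℕ → 𝒪)

omit [Fintype ι] [DecidableEq ι] [IsDiscreteValuationRing 𝒪] [IsAdicComplete (maximalIdeal 𝒪) 𝒪] in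
include e in
/-- the eigen-lattice is saturated. -/
theorem GRA_saturated {c : 𝒪} (hc : c ≠ 0) {m : 𝒪 ⊗[ℤ] L}
    (hm : c • m ∈ GR_eigen 𝒪 L T b) : m ∈ GR_eigen 𝒪 L T b := by
  have : Module.Free 𝒪 (𝒪 ⊗[ℤ] L) := Module.Free.of_basis (GRA_b e 𝒪)
  intro ℓ hℓ
  have h := hm ℓ hℓ
  rw [map_smul, smul_comm] at h
  have h2 : c • ((T ℓ).baseChange 𝒪 m - b ℓ • m) = 0 := by
    rw [smul_sub, h, sub_self]
  rcases smul_eq_zero.mp h2 with h3 | h3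
  · exact absurd h3 hc
  · exact sub_eq_zero.mp h3

/-- adic continuity of the action on the eigen-lattice. -/
theorem GRA_rho_cont : GaloisActionIsAdicContinuous 𝒪 (GRA_rho e 𝒯 hp b) := by
  intro n
  obtain ⟨F, hF, h⟩ := GRA_R_fin e 𝒯 hp n
  refine ⟨F, hF, fun σ hσ v => ?_⟩
  obtain ⟨ϖ, hϖ⟩ := IsDiscreteValuationRing.exists_irreducible 𝒪
  have h1 := h σ hσ (v : 𝒪 ⊗[ℤ] L)
  rw [hϖ.maximalIdeal_eq, Ideal.span_singleton_pow, Submodule.ideal_span_singleton_smul,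
    Submodule.mem_smul_pointwise_iff_exists] at h1 ⊢
  obtain ⟨m, -, hm⟩ := h1
  have hmem : ϖ ^ n • m ∈ GR_eigen 𝒪 L T b := by
    rw [hm]
    exact (GR_eigen 𝒪 L T b).sub_mem (GRA_R_mem e 𝒯 hp b σ v.2) v.2
  have hm' : m ∈ GR_eigen 𝒪 L T b :=
    GRA_saturated e b (pow_ne_zero n hϖ.ne_zero) hmem
  refine ⟨⟨m, hm'⟩, Submodule.mem_top, ?_⟩
  apply Subtype.ext
  rw [Submodule.coe_smul, Submodule.coe_sub, GRA_rho_coe]
  exact hm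

/-- **ADIC, rank 2**: the eigen-lattice itself. -/
noncomputable def GRA_datum_two (S : Finset ℕ) (hpS : p ∈ S)
    (hrank : Module.finrank 𝒪 (GR_eigen 𝒪 L T b) = 2) : GR_ESDatum p N S 𝒪 b :=
  haveI : Module.Free 𝒪 (𝒪 ⊗[ℤ] L) := Module.Free.of_basis (GRA_b e 𝒪)
  haveI : Module.Finite 𝒪 (𝒪 ⊗[ℤ] L) := Module.Finite.of_basis (GRA_b e 𝒪)
  { ρ :=
      { V := GR_eigen 𝒪 L T b
        finrank_eq := hrank
        ρ := GRA_rho e 𝒯 hp b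
        isAdicContinuous := GRA_rho_cont e 𝒯 hp b }
    es := fun ℓ hℓ hℓN hℓS σ hσ =>
      GRA_rho_es e 𝒯 hp b ℓ hℓ hℓN (fun h => hℓS (h ▸ hpS)) σ hσ
    unram := fun q hq hqN hqp P hP τ hτ => GRA_rho_unram e 𝒯 hp b q hq hqN hqp P hP τ hτ }

end dvr

section rankone

variable {p N : ℕ} {L : Type} [AddCommGroup L] {T : ℕ → Module.End ℤ L}
  {ι : Type} [Fintype ι] [DecidableEq ι] (e : Basis ι ℤ L) (𝒯 : GR_Tower p N L T)
  {𝒪 : Type} [CommRing 𝒪] [IsDomain 𝒪] [IsDiscreteValuationRing 𝒪]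
  [IsAdicComplete (maximalIdeal 𝒪) 𝒪]
  (hp : (p : 𝒪) ∈ maximalIdeal 𝒪) (b : ℕ → 𝒪)
  (bW : Basis (Fin 1) 𝒪 (GR_eigen 𝒪 L T b))

omit [IsDomain 𝒪] [IsDiscreteValuationRing 𝒪] [Fintype ι] [DecidableEq ι] in
/-- on a free module of rank one every endomorphism is a scalar. -/
theorem GRA_end_rank_one (f : Module.End 𝒪 (GR_eigen 𝒪 L T b)) (w : GR_eigen 𝒪 L T b) :
    f w = bW.repr (f (bW 0)) 0 • w := by
  have hw : w = bW.repr w 0 • bW 0 := by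
    conv_lhs => rw [← bW.sum_repr w]
    simp
  have hf : f (bW 0) = bW.repr (f (bW 0)) 0 • bW 0 := by
    conv_lhs => rw [← bW.sum_repr (f (bW 0))]
    simp
  conv_lhs => rw [hw, map_smul, hf]
  conv_rhs => rw [hw]
  rw [smul_smul, smul_smul, mul_comm]

/-- the character through which `G` acts on the eigen-lattice of rank one. -/
noncomputable def GRA_mu : GQ →* 𝒪 where
  toFun σ := bW.repr (GRA_rho e 𝒯 hp b σ (bW 0)) 0
  map_one' := by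
    rw [map_one, Module.End.one_apply]
    simp
  map_mul' σ τ := by
    have h1 := GRA_end_rank_one b bW (GRA_rho e 𝒯 hp b τ) (bW 0)
    have h2 : GRA_rho e 𝒯 hp b (σ * τ) (bW 0) =
        bW.repr (GRA_rho e 𝒯 hp b τ (bW 0)) 0 • GRA_rho e 𝒯 hp b σ (bW 0) := by
      rw [map_mul, Module.End.mul_apply]
      conv_lhs => rw [h1]
      rw [map_smul]
    show bW.repr (GRA_rho e 𝒯 hp b (σ * τ) (bW 0)) 0 = _
    rw [h2, map_smul, Finsupp.smul_apply, smul_eq_mul, mul_comm]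

theorem GRA_mu_spec (σ : GQ) (w : GR_eigen 𝒪 L T b) :
    GRA_rho e 𝒯 hp b σ w = GRA_mu e 𝒯 hp b bW σ • w :=
  GRA_end_rank_one b bW _ w

theorem GRA_mu_cont (n : ℕ) : ∃ F : IntermediateField ℚ (AlgebraicClosure ℚ),
    FiniteDimensional ℚ F ∧ ∀ σ : GQ, (∀ x ∈ F, σ x = x) →
      GRA_mu e 𝒯 hp b bW σ - 1 ∈ maximalIdeal 𝒪 ^ n := by
  obtain ⟨F, hF, h⟩ := GRA_rho_cont e 𝒯 hp b n
  refine ⟨F, hF, fun σ hσ => ?_⟩
  obtain ⟨ϖ, hϖ⟩ := IsDiscreteValuationRing.exists_irreducible 𝒪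
  have h1 := h σ hσ (bW 0)
  rw [hϖ.maximalIdeal_eq, Ideal.span_singleton_pow, Submodule.ideal_span_singleton_smul,
    Submodule.mem_smul_pointwise_iff_exists] at h1
  obtain ⟨w', -, hw'⟩ := h1
  rw [hϖ.maximalIdeal_eq, Ideal.span_singleton_pow, Ideal.mem_span_singleton]
  refine ⟨bW.repr w' 0, ?_⟩
  have h2 := congrArg (fun w => bW.repr w 0) hw'
  simp only [map_smul, Finsupp.smul_apply, smul_eq_mul, map_sub, Finsupp.sub_apply] at h2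
  rw [h2]
  show (GRA_mu e 𝒯 hp b bW σ) - 1 = _
  simp [GRA_mu]

theorem GRA_mu_es (ℓ : ℕ) (hℓ : ℓ.Prime) (hℓN : ¬ ℓ ∣ N) (hℓp : ℓ ≠ p) (σ : GQ)
    (hσ : GR_IsFrob ℓ σ) :
    GRA_mu e 𝒯 hp b bW σ * GRA_mu e 𝒯 hp b bW σ - b ℓ * GRA_mu e 𝒯 hp b bW σ + (ℓ : 𝒪) = 0 := by
  have h := congrArg (fun f : Module.End 𝒪 (GR_eigen 𝒪 L T b) => bW.repr (f (bW 0)) 0)
    (GRA_rho_es e 𝒯 hp b ℓ hℓ hℓN hℓp σ hσ)
  simp only [LinearMap.add_apply, LinearMap.sub_apply, Module.End.mul_apply,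
    LinearMap.smul_apply, Module.End.one_apply, LinearMap.zero_apply, GRA_mu_spec e 𝒯 hp b bW,
    map_add, map_sub, map_smul, Finsupp.add_apply, Finsupp.sub_apply, Finsupp.smul_apply,
    smul_eq_mul, map_zero, Finsupp.zero_apply, Basis.repr_self, Finsupp.single_eq_same,
    mul_one] at h
  exact h

theorem GRA_mu_unram (q : ℕ) (hq : q.Prime) (hqN : ¬ q ∣ N) (hqp : q ≠ p)
    (P : ValuationSubring (AlgebraicClosure ℚ)) (hP : P.LiesOverPrime q) (τ : GQ)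
    (hτ : τ ∈ P.inertiaSubgroupIn ℚ) : GRA_mu e 𝒯 hp b bW τ = 1 := by
  show bW.repr (GRA_rho e 𝒯 hp b τ (bW 0)) 0 = 1
  rw [GRA_rho_unram e 𝒯 hp b q hq hqN hqp P hP τ hτ, Module.End.one_apply]
  simp

end rankone

section char

variable {p N : ℕ} {𝒪 : Type} [CommRing 𝒪] [IsLocalRing 𝒪]

/-- the second character `ν = ε μ⁻¹`. -/
noncomputable def GRA_nu (c : GR_Cyc p 𝒪) (μ : GQ →* 𝒪) : GQ →* 𝒪 :=
  (Units.coeHom 𝒪).comp (c.ε * (μ.toHomUnits)⁻¹)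

theorem GRA_mu_mul_nu (c : GR_Cyc p 𝒪) (μ : GQ →* 𝒪) (σ : GQ) :
    μ σ * GRA_nu c μ σ = (c.ε σ : 𝒪) := by
  show μ σ * (((c.ε σ * (μ.toHomUnits σ)⁻¹ : 𝒪ˣ) : 𝒪)) = _
  have h : ((μ.toHomUnits σ : 𝒪ˣ) : 𝒪) = μ σ := MonoidHom.coe_toHomUnits μ σ
  rw [Units.val_mul, ← h, mul_comm ((c.ε σ : 𝒪)), ← mul_assoc, Units.mul_inv, one_mul]

/-- the representation `μ ⊕ ν` on `𝒪 × 𝒪`. -/
noncomputable def GRA_rho2 (c : GR_Cyc p 𝒪) (μ : GQ →* 𝒪) : GQ →* Module.End 𝒪 (𝒪 × 𝒪) where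
  toFun σ := LinearMap.prodMap (algebraMap 𝒪 (Module.End 𝒪 𝒪) (μ σ))
    (algebraMap 𝒪 (Module.End 𝒪 𝒪) (GRA_nu c μ σ))
  map_one' := by
    simp only [map_one]
    exact LinearMap.prodMap_one (R := 𝒪) (M := 𝒪) (M₂ := 𝒪)
  map_mul' σ τ := by
    simp only [map_mul]
    exact (LinearMap.prodMap_mul _ _ _ _).symm

theorem GRA_rho2_apply (c : GR_Cyc p 𝒪) (μ : GQ →* 𝒪) (σ : GQ) (v : 𝒪 × 𝒪) :
    GRA_rho2 c μ σ v = (μ σ * v.1, GRA_nu c μ σ * v.2) := rfl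

/-- **the E–S datum `μ ⊕ ε μ⁻¹`** of a character `μ` satisfying the Eichler–Shimura relation. -/
noncomputable def GRA_datum_of_char (S : Finset ℕ) (hpS : p ∈ S) (c : GR_Cyc p 𝒪) (b : ℕ → 𝒪)
    (μ : GQ →* 𝒪)
    (hcont : ∀ n : ℕ, ∃ F : IntermediateField ℚ (AlgebraicClosure ℚ), FiniteDimensional ℚ F ∧
      ∀ σ : GQ, (∀ x ∈ F, σ x = x) → μ σ - 1 ∈ maximalIdeal 𝒪 ^ n)
    (hes : ∀ ℓ : ℕ, ℓ.Prime → ¬ ℓ ∣ N → ℓ ≠ p → ∀ σ : GQ, GR_IsFrob ℓ σ →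
      μ σ * μ σ - b ℓ * μ σ + (ℓ : 𝒪) = 0)
    (hun : ∀ q : ℕ, q.Prime → ¬ q ∣ N → q ≠ p →
      ∀ P : ValuationSubring (AlgebraicClosure ℚ), P.LiesOverPrime q →
        ∀ τ ∈ P.inertiaSubgroupIn ℚ, μ τ = 1) : GR_ESDatum p N S 𝒪 b where
  ρ :=
    { V := 𝒪 × 𝒪
      finrank_eq := by
        rw [Module.finrank_prod, Module.finrank_self]
      ρ := GRA_rho2 c μ
      isAdicContinuous := by
        intro n
        obtain ⟨F₁, hF₁, h₁⟩ := hcont n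
        obtain ⟨F₂, hF₂, h₂⟩ := c.cont n
        refine ⟨F₁ ⊔ F₂, IntermediateField.finiteDimensional_sup F₁ F₂, fun σ hσ v => ?_⟩
        have hμ := h₁ σ (fun x hx => hσ x ((le_sup_left : F₁ ≤ F₁ ⊔ F₂) hx))
        have hε := h₂ σ (fun x hx => hσ x ((le_sup_right : F₂ ≤ F₁ ⊔ F₂) hx))
        have hν : GRA_nu c μ σ - 1 ∈ maximalIdeal 𝒪 ^ n := by
          have h3 : GRA_nu c μ σ - 1 =
              (((μ.toHomUnits σ)⁻¹ : 𝒪ˣ) : 𝒪) * (((c.ε σ : 𝒪) - 1) - (μ σ - 1)) := by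
            have h4 : ((μ.toHomUnits σ : 𝒪ˣ) : 𝒪) = μ σ := MonoidHom.coe_toHomUnits μ σ
            have h5 : (((μ.toHomUnits σ)⁻¹ : 𝒪ˣ) : 𝒪) * μ σ = 1 := by
              rw [← h4, Units.inv_mul]
            have h6 : GRA_nu c μ σ = (c.ε σ : 𝒪) * (((μ.toHomUnits σ)⁻¹ : 𝒪ˣ) : 𝒪) := by
              show (((c.ε σ * (μ.toHomUnits σ)⁻¹ : 𝒪ˣ) : 𝒪)) = _
              rw [Units.val_mul]
            rw [h6]
            linear_combination h5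
          rw [h3]
          exact Ideal.mul_mem_left _ _ (Ideal.sub_mem _ hε hμ)
        have hv : GRA_rho2 c μ σ v - v =
            (μ σ - 1) • ((v.1, 0) : 𝒪 × 𝒪) + (GRA_nu c μ σ - 1) • ((0, v.2) : 𝒪 × 𝒪) := by
          rw [GRA_rho2_apply]
          ext
          · simp; ring
          · simp; ring
        rw [hv]
        exact Submodule.add_mem _ (Submodule.smul_mem_smul hμ Submodule.mem_top)
          (Submodule.smul_mem_smul hν Submodule.mem_top) }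
  es := by
    intro ℓ hℓ hℓN hℓS σ hσ
    have hℓp : ℓ ≠ p := fun h => hℓS (h ▸ hpS)
    have h1 := hes ℓ hℓ hℓN hℓp σ hσ
    have h2 : (c.ε σ : 𝒪) = (ℓ : 𝒪) := c.frob ℓ hℓ hℓp σ hσ
    have h3 := GRA_mu_mul_nu c μ σ
    rw [h2] at h3
    have h4 : ((μ.toHomUnits σ : 𝒪ˣ) : 𝒪) = μ σ := MonoidHom.coe_toHomUnits μ σ
    have h5 : (((μ.toHomUnits σ)⁻¹ : 𝒪ˣ) : 𝒪) * μ σ = 1 := by
      rw [← h4, Units.inv_mul]
    have h6 : GRA_nu c μ σ * GRA_nu c μ σ - b ℓ * GRA_nu c μ σ + (ℓ : 𝒪) = 0 := by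
      set i : 𝒪 := (((μ.toHomUnits σ)⁻¹ : 𝒪ˣ) : 𝒪) with hi
      have h7 : GRA_nu c μ σ = (ℓ : 𝒪) * i := by
        have : GRA_nu c μ σ = i * (μ σ * GRA_nu c μ σ) := by
          rw [← mul_assoc, h5, one_mul]
        rw [this, h3, mul_comm]
      rw [h7]
      linear_combination ((ℓ : 𝒪) * i * i) * h1 +
        ((ℓ : 𝒪) * (1 + i * μ σ) - b ℓ * (ℓ : 𝒪) * i) * (-1) * h5
    apply LinearMap.ext
    intro v
    show GRA_rho2 c μ σ (GRA_rho2 c μ σ v) - b ℓ • GRA_rho2 c μ σ v + (ℓ : 𝒪) • v = 0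
    rw [GRA_rho2_apply, GRA_rho2_apply]
    ext
    · simp only [Prod.fst_add, Prod.fst_sub, Prod.smul_fst, smul_eq_mul, Prod.fst_zero]
      linear_combination v.1 * h1
    · simp only [Prod.snd_add, Prod.snd_sub, Prod.smul_snd, smul_eq_mul, Prod.snd_zero]
      linear_combination v.2 * h6
  unram := by
    intro q hq hqN hqp P hP τ hτ
    have h1 := hun q hq hqN hqp P hP τ hτ
    have h2 : c.ε τ = 1 := c.unram q hq hqp P hP τ hτ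
    have h3 := GRA_mu_mul_nu c μ τ
    rw [h1, h2, one_mul, Units.val_one] at h3
    apply LinearMap.ext
    intro v
    show GRA_rho2 c μ τ v = v
    rw [GRA_rho2_apply, h1, h3, one_mul, one_mul]

end char

/-- **ADIC**: from the tower and an eigen-lattice of rank 1 or 2 to an E–S datum. -/
theorem GRA_adic : GR_AdicStmt := by
  intro p N _ S 𝒪 _ _ _ _ _ hp hpS L _ _ _ T _ 𝒯 c b hrank
  classical
  rcases hrank with h1 | h2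
  · have : Module.Free 𝒪 (𝒪 ⊗[ℤ] L) :=
      Module.Free.of_basis (GRA_b (Module.Free.chooseBasis ℤ L) 𝒪)
    have : Module.Finite 𝒪 (𝒪 ⊗[ℤ] L) :=
      Module.Finite.of_basis (GRA_b (Module.Free.chooseBasis ℤ L) 𝒪)
    let bW : Basis (Fin 1) 𝒪 (GR_eigen 𝒪 L T b) := Module.basisUnique (Fin 1) h1
    exact ⟨GRA_datum_of_char S hpS c b (GRA_mu (Module.Free.chooseBasis ℤ L) 𝒯 hp b bW)
      (GRA_mu_cont (Module.Free.chooseBasis ℤ L) 𝒯 hp b bW)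
      (GRA_mu_es (Module.Free.chooseBasis ℤ L) 𝒯 hp b bW)
      (GRA_mu_unram (Module.Free.chooseBasis ℤ L) 𝒯 hp b bW)⟩
  · exact ⟨GRA_datum_two (Module.Free.chooseBasis ℤ L) 𝒯 hp b S hpS h2⟩

end Fermat.Agent.GalRep
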