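import Mathlib

/-!
# Pillar G, package ALG: linear algebra of endomorphisms of a free module of rank 2
-/

set_option autoImplicit false
open Polynomial

namespace Fermat.Agent.GalRep

variable {R : Type*} [CommRing R] {V : Type*} [AddCommGroup V] [Module R V]

/-- coordinates of an element of `I • ⊤` lie in `I`. -/
theorem GR_repr_mem_of_mem_smul_top {ι : Type*} (b : Module.Basis ι R V) (I : Ideal R) {x : V}
    (hx : x ∈ I • (⊤ : Submodule R V)) (i : ι) : b.repr x i ∈ I := by
  refine Submodule.smul_induction_on hx ?_ ?_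
  · intro r hr v _
    rw [map_smul, Finsupp.smul_apply, smul_eq_mul]
    exact I.mul_mem_right _ hr
  · intro x y hx hy
    rw [map_add, Finsupp.add_apply]
    exact I.add_mem hx hy

/-- an element all of whose coordinates lie in `I` is in `I • ⊤`. -/
theorem GR_mem_smul_top_of_repr_mem {ι : Type*} [Fintype ι] (b : Module.Basis ι R V) (I : Ideal R)
    {x : V} (hx : ∀ i, b.repr x i ∈ I) : x ∈ I • (⊤ : Submodule R V) := by
  rw [← b.sum_repr x]
  exact Submodule.sum_mem _ fun i _ => Submodule.smul_mem_smul (hx i) Submodule.mem_top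

/-- congruence of endomorphisms modulo `I`, in terms of matrix entries. -/
theorem GR_toMatrix_sub_mem {ι : Type*} [Fintype ι] [DecidableEq ι] (b : Module.Basis ι R V)
    (I : Ideal R) {A B : Module.End R V} (h : ∀ v, A v - B v ∈ I • (⊤ : Submodule R V)) (i j : ι) :
    LinearMap.toMatrix b b A i j - LinearMap.toMatrix b b B i j ∈ I := by
  rw [LinearMap.toMatrix_apply, LinearMap.toMatrix_apply, ← Finsupp.sub_apply, ← map_sub]
  exact GR_repr_mem_of_mem_smul_top b I (h (b j)) i

theorem GR_congr_of_toMatrix_sub_mem {ι : Type*} [Fintype ι] [DecidableEq ι]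
    (b : Module.Basis ι R V)
    (I : Ideal R) {A B : Module.End R V}
    (h : ∀ i j, LinearMap.toMatrix b b A i j - LinearMap.toMatrix b b B i j ∈ I) (v : V) :
    A v - B v ∈ I • (⊤ : Submodule R V) := by
  have key : ∀ j, A (b j) - B (b j) ∈ I • (⊤ : Submodule R V) := by
    intro j
    refine GR_mem_smul_top_of_repr_mem b I fun i => ?_
    have := h i j
    rwa [LinearMap.toMatrix_apply, LinearMap.toMatrix_apply, ← Finsupp.sub_apply, ← map_sub]
      at this
  rw [← b.sum_repr v]
  simp only [map_sum, map_smul, ← Finset.sum_sub_distrib, ← smul_sub]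
  exact Submodule.sum_mem _ fun j _ => Submodule.smul_mem _ _ (key j)

/-- a linear map preserves `I • ⊤`. -/
theorem GR_map_mem_smul_top (I : Ideal R) (A : Module.End R V) {x : V}
    (hx : x ∈ I • (⊤ : Submodule R V)) : A x ∈ I • (⊤ : Submodule R V) := by
  refine Submodule.smul_induction_on hx ?_ ?_
  · intro r hr v _
    rw [map_smul]
    exact Submodule.smul_mem_smul hr Submodule.mem_top
  · intro x y hx hy
    rw [map_add]
    exact Submodule.add_mem _ hx hy

section rank2

variable [Nontrivial R] [Module.Free R V] [Module.Finite R V]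

/-- the characteristic polynomial in rank 2. -/
theorem GR_charpoly_rank2 (h2 : Module.finrank R V = 2) (A : Module.End R V) :
    A.charpoly = X ^ 2 - C (LinearMap.trace R V A) * X + C (LinearMap.det A) := by
  classical
  let b := Module.finBasisOfFinrankEq R V h2
  rw [← LinearMap.charpoly_toMatrix A b, Matrix.charpoly_fin_two,
    LinearMap.trace_eq_matrix_trace R b A, LinearMap.det_toMatrix b A]

omit [Nontrivial R] [Module.Free R V] [Module.Finite R V] in
theorem GR_toMatrix_smul_one {ι : Type*} [Fintype ι] [DecidableEq ι] (b : Module.Basis ι R V)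
    (c : R) : LinearMap.toMatrix b b (c • (1 : Module.End R V)) = c • (1 : Matrix ι ι R) := by
  rw [map_smul]
  congr 1
  exact LinearMap.toMatrix_one b

/-- trace and determinant of a scalar endomorphism in rank 2. -/
theorem GR_trace_smul_one (h2 : Module.finrank R V = 2) (c : R) :
    LinearMap.trace R V (c • (1 : Module.End R V)) = 2 * c := by
  classical
  let b := Module.finBasisOfFinrankEq R V h2
  rw [LinearMap.trace_eq_matrix_trace R b, GR_toMatrix_smul_one, Matrix.trace_fin_two]
  simp [two_mul]

theorem GR_det_smul_one (h2 : Module.finrank R V = 2) (c : R) :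
    LinearMap.det (c • (1 : Module.End R V)) = c ^ 2 := by
  classical
  let b := Module.finBasisOfFinrankEq R V h2
  rw [← LinearMap.det_toMatrix b, GR_toMatrix_smul_one, Matrix.det_fin_two]
  simp [sq]

/-- **The dichotomy.** Over a domain, an endomorphism of a free module of rank 2 killed by
`X² − aX + l` is a scalar or has this characteristic polynomial. -/
theorem GR_scalar_or_charpoly [IsDomain R] (h2 : Module.finrank R V = 2) (A : Module.End R V)
    (a l : R) (hA : A * A - a • A + l • (1 : Module.End R V) = 0) :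
    (∃ c : R, A = c • (1 : Module.End R V)) ∨
      (LinearMap.trace R V A = a ∧ LinearMap.det A = l) := by
  classical
  let b := Module.finBasisOfFinrankEq R V h2
  set M := LinearMap.toMatrix b b A with hM
  have hMeq : M * M - a • M + l • (1 : Matrix (Fin 2) (Fin 2) R) = 0 := by
    have := congrArg (LinearMap.toMatrix b b) hA
    rw [map_add, map_sub, map_smul, map_smul, map_zero] at this
    rw [show LinearMap.toMatrix b b (A * A) = M * M from LinearMap.toMatrix_mul b A A,
      show LinearMap.toMatrix b b (1 : Module.End R V) = 1 from LinearMap.toMatrix_one b] at this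
    exact this
  have e00 := congrFun (congrFun hMeq 0) 0
  have e01 := congrFun (congrFun hMeq 0) 1
  have e10 := congrFun (congrFun hMeq 1) 0
  have e11 := congrFun (congrFun hMeq 1) 1
  simp only [Matrix.add_apply, Matrix.sub_apply, Matrix.smul_apply, Matrix.mul_apply,
    Fin.sum_univ_two, Matrix.one_apply_eq, Matrix.one_apply_ne, smul_eq_mul, Matrix.zero_apply,
    ne_eq, Fin.isValue, zero_ne_one, one_ne_zero, not_false_eq_true, mul_zero, mul_one,
    add_zero] at e00 e01 e10 e11
  by_cases ht : M 0 0 + M 1 1 = a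
  · right
    refine ⟨?_, ?_⟩
    · rw [LinearMap.trace_eq_matrix_trace R b A, Matrix.trace_fin_two]
      exact ht
    · rw [← LinearMap.det_toMatrix b A, Matrix.det_fin_two]
      rw [← ht] at e00
      linear_combination -e00
  · left
    have hne : M 0 0 + M 1 1 - a ≠ 0 := sub_ne_zero.mpr ht
    have h01 : M 0 1 = 0 := by
      have : M 0 1 * (M 0 0 + M 1 1 - a) = 0 := by linear_combination e01
      exact (mul_eq_zero.mp this).resolve_right hne
    have h10 : M 1 0 = 0 := by
      have : M 1 0 * (M 0 0 + M 1 1 - a) = 0 := by linear_combination e10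
      exact (mul_eq_zero.mp this).resolve_right hne
    have hd : M 0 0 = M 1 1 := by
      have : (M 0 0 - M 1 1) * (M 0 0 + M 1 1 - a) = 0 := by
        linear_combination e00 - e11
      exact sub_eq_zero.mp ((mul_eq_zero.mp this).resolve_right hne)
    refine ⟨M 0 0, ?_⟩
    apply (LinearMap.toMatrix b b).injective
    rw [GR_toMatrix_smul_one]
    ext i j
    fin_cases i <;> fin_cases j <;> simp [← hM, h01, h10, hd]

/-- an endomorphism congruent to `1` modulo `I` has determinant congruent to `1`. -/
theorem GR_det_sub_one_mem (h2 : Module.finrank R V = 2) (I : Ideal R) (A : Module.End R V)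
    (h : ∀ v, A v - v ∈ I • (⊤ : Submodule R V)) : LinearMap.det A - 1 ∈ I := by
  classical
  let b := Module.finBasisOfFinrankEq R V h2
  have hent := GR_toMatrix_sub_mem b I (A := A) (B := 1) (by simpa using h)
  rw [LinearMap.toMatrix_one] at hent
  have h00 := hent 0 0
  have h01 := hent 0 1
  have h10 := hent 1 0
  have h11 := hent 1 1
  simp only [Matrix.one_apply_eq, Matrix.one_apply_ne, ne_eq, Fin.isValue, zero_ne_one,
    one_ne_zero, not_false_eq_true, sub_zero] at h00 h01 h10 h11
  rw [← LinearMap.det_toMatrix b A, Matrix.det_fin_two]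
  set M := LinearMap.toMatrix b b A
  have : M 0 0 * M 1 1 - M 0 1 * M 1 0 - 1
      = (M 0 0 - 1) * M 1 1 + (M 1 1 - 1) - M 0 1 * M 1 0 := by ring
  rw [this]
  exact I.sub_mem (I.add_mem (I.mul_mem_right _ h00) h11) (I.mul_mem_right _ h01)

/-- an endomorphism which is a scalar modulo every power of `I` is a scalar, if `R` is
`I`-adically separated. -/
theorem GR_scalar_of_forall_pow (h2 : Module.finrank R V = 2) (I : Ideal R)
    (hI : ∀ x : R, (∀ n : ℕ, x ∈ I ^ n) → x = 0) (A : Module.End R V)
    (h : ∀ n : ℕ, ∃ c : R, ∀ v, A v - c • v ∈ (I ^ n) • (⊤ : Submodule R V)) :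
    ∃ c : R, A = c • (1 : Module.End R V) := by
  classical
  let b := Module.finBasisOfFinrankEq R V h2
  set M := LinearMap.toMatrix b b A with hM
  have hent : ∀ n : ℕ, M 0 1 ∈ I ^ n ∧ M 1 0 ∈ I ^ n ∧ M 0 0 - M 1 1 ∈ I ^ n := by
    intro n
    obtain ⟨c, hc⟩ := h n
    have hent := GR_toMatrix_sub_mem b (I ^ n) (A := A) (B := c • 1) (by simpa using hc)
    rw [GR_toMatrix_smul_one] at hent
    have h00 := hent 0 0
    have h01 := hent 0 1
    have h10 := hent 1 0
    have h11 := hent 1 1
    simp only [Matrix.smul_apply, Matrix.one_apply_eq, Matrix.one_apply_ne, ne_eq, Fin.isValue,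
      zero_ne_one, one_ne_zero, not_false_eq_true, smul_eq_mul, mul_one, mul_zero, sub_zero]
      at h00 h01 h10 h11
    refine ⟨h01, h10, ?_⟩
    have : M 0 0 - M 1 1 = (M 0 0 - c) - (M 1 1 - c) := by ring
    rw [this]
    exact (I ^ n).sub_mem h00 h11
  have h01 : M 0 1 = 0 := hI _ fun n => (hent n).1
  have h10 : M 1 0 = 0 := hI _ fun n => (hent n).2.1
  have hd : M 0 0 = M 1 1 := sub_eq_zero.mp (hI _ fun n => (hent n).2.2)
  refine ⟨M 0 0, ?_⟩
  apply (LinearMap.toMatrix b b).injective
  rw [GR_toMatrix_smul_one]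
  ext i j
  fin_cases i <;> fin_cases j <;> simp [← hM, h01, h10, hd]

end rank2

end Fermat.Agent.GalRep
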