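import Mathlib
import Fermat.Agent.GalRep.Defs
import Fermat.Agent.GalRep.AlgLin

/-!
# Pillar G, package ALG: the two families of open normal subgroups
-/

set_option autoImplicit false
open Polynomial

namespace Fermat.Agent.GalRep

section general

variable {G : Type*} [Group G] {R : Type*} [CommRing R]

/-- `{σ | f σ ≡ g σ mod I}` for two characters `f, g : G →* R`. -/
def GR_eqMod (f g : G →* R) (I : Ideal R) : Subgroup G where
  carrier := {σ | f σ - g σ ∈ I}
  one_mem' := by simp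
  mul_mem' := by
    intro σ τ hσ hτ
    have : f (σ * τ) - g (σ * τ) = f σ * (f τ - g τ) + (f σ - g σ) * g τ := by
      rw [map_mul, map_mul]; ring
    show f (σ * τ) - g (σ * τ) ∈ I
    rw [this]
    exact I.add_mem (I.mul_mem_left _ hτ) (I.mul_mem_right _ hσ)
  inv_mem' := by
    intro σ hσ
    have h1 : f σ⁻¹ * f σ = 1 := by rw [← map_mul, inv_mul_cancel, map_one]
    have h2 : g σ⁻¹ * g σ = 1 := by rw [← map_mul, inv_mul_cancel, map_one]
    have : f σ⁻¹ - g σ⁻¹ = -(f σ⁻¹ * g σ⁻¹) * (f σ - g σ) := by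
      linear_combination (g σ⁻¹) * h1 - (f σ⁻¹) * h2
    show f σ⁻¹ - g σ⁻¹ ∈ I
    rw [this]
    exact I.mul_mem_left _ hσ

theorem GR_mem_eqMod {f g : G →* R} {I : Ideal R} {σ : G} :
    σ ∈ GR_eqMod f g I ↔ f σ - g σ ∈ I := Iff.rfl

instance GR_eqMod_normal (f g : G →* R) (I : Ideal R) : (GR_eqMod f g I).Normal where
  conj_mem := by
    intro σ hσ τ
    have hf : f (τ * σ * τ⁻¹) = f σ := by
      rw [map_mul, map_mul, mul_comm (f τ), mul_assoc, ← map_mul, mul_inv_cancel, map_one,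
        mul_one]
    have hg : g (τ * σ * τ⁻¹) = g σ := by
      rw [map_mul, map_mul, mul_comm (g τ), mul_assoc, ← map_mul, mul_inv_cancel, map_one,
        mul_one]
    show f (τ * σ * τ⁻¹) - g (τ * σ * τ⁻¹) ∈ I
    rw [hf, hg]
    exact hσ

variable {V : Type*} [AddCommGroup V] [Module R V]

/-- `{σ | ρ σ is a unit scalar modulo I}`. -/
def GR_scalMod (ρ : G →* Module.End R V) (I : Ideal R) : Subgroup G where
  carrier := {σ | ∃ u : Rˣ, ∀ v, ρ σ v - (u : R) • v ∈ I • (⊤ : Submodule R V)}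
  one_mem' := ⟨1, fun v => by simp⟩
  mul_mem' := by
    rintro σ τ ⟨u, hu⟩ ⟨w, hw⟩
    refine ⟨u * w, fun v => ?_⟩
    have : ρ (σ * τ) v - ((u * w : Rˣ) : R) • v
        = ρ σ (ρ τ v - (w : R) • v) + (w : R) • (ρ σ v - (u : R) • v) := by
      rw [map_mul, Module.End.mul_apply, map_sub, map_smul, smul_sub, Units.val_mul, mul_smul,
        smul_comm (w : R) (u : R) v]
      abel
    rw [this]
    exact Submodule.add_mem _ (GR_map_mem_smul_top I _ (hw v)) (Submodule.smul_mem _ _ (hu v))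
  inv_mem' := by
    rintro σ ⟨u, hu⟩
    refine ⟨u⁻¹, fun v => ?_⟩
    have h1 : ρ σ⁻¹ (ρ σ v) = v := by
      rw [← Module.End.mul_apply, ← map_mul, inv_mul_cancel, map_one, Module.End.one_apply]
    have : ρ σ⁻¹ v - ((u⁻¹ : Rˣ) : R) • v
        = -(((u⁻¹ : Rˣ) : R) • ρ σ⁻¹ (ρ σ v - (u : R) • v)) := by
      rw [map_sub, map_smul, h1, smul_sub, smul_smul, Units.inv_mul, one_smul]
      abel
    rw [this]
    exact Submodule.neg_mem _ (Submodule.smul_mem _ _ (GR_map_mem_smul_top I _ (hu v)))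

theorem GR_mem_scalMod {ρ : G →* Module.End R V} {I : Ideal R} {σ : G} :
    σ ∈ GR_scalMod ρ I ↔ ∃ u : Rˣ, ∀ v, ρ σ v - (u : R) • v ∈ I • (⊤ : Submodule R V) :=
  Iff.rfl

instance GR_scalMod_normal (ρ : G →* Module.End R V) (I : Ideal R) :
    (GR_scalMod ρ I).Normal where
  conj_mem := by
    rintro σ ⟨u, hu⟩ τ
    refine ⟨u, fun v => ?_⟩
    have h1 : ρ τ (ρ τ⁻¹ v) = v := by
      rw [← Module.End.mul_apply, ← map_mul, mul_inv_cancel, map_one, Module.End.one_apply]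
    have : ρ (τ * σ * τ⁻¹) v - (u : R) • v
        = ρ τ (ρ σ (ρ τ⁻¹ v) - (u : R) • ρ τ⁻¹ v) := by
      rw [map_mul, map_mul, Module.End.mul_apply, Module.End.mul_apply, map_sub, map_smul, h1]
    rw [this]
    exact GR_map_mem_smul_top I _ (hu _)

theorem GR_eqMod_anti (f g : G →* R) {I J : Ideal R} (h : I ≤ J) :
    GR_eqMod f g I ≤ GR_eqMod f g J := fun _ hσ => h hσ

theorem GR_scalMod_anti (ρ : G →* Module.End R V) {I J : Ideal R} (h : I ≤ J) :
    GR_scalMod ρ I ≤ GR_scalMod ρ J := by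
  rintro σ ⟨u, hu⟩
  exact ⟨u, fun v => Submodule.smul_mono_left h (hu v)⟩

end general

end Fermat.Agent.GalRep
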