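import Mathlib
import Fermat.Agent.GalRep.Defs
import Fermat.Agent.GalRep.AlgLin
import Fermat.Agent.GalRep.AlgGrp

/-!
# Pillar G, package ALG: the determinant step

`GR_alg : GR_ALGStmt`: from an Eichler–Shimura datum (a 2-dimensional adic representation,
unramified outside `Np`, with `ρ(σ)² − a_ℓ ρ(σ) + ℓ = 0` at every Frobenius), the density lemma
`GR_DS` and a cyclotomic character, to a representation with
`charpoly ρ(σ) = X² − a_ℓ X + ℓ` at every Frobenius.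
-/

set_option autoImplicit false
set_option linter.unusedSectionVars false
open Polynomial

namespace Fermat.Agent.GalRep

section

variable {p N : ℕ} {S : Finset ℕ} {𝒪 : Type} [CommRing 𝒪] [IsDomain 𝒪]
  [IsDiscreteValuationRing 𝒪] [IsAdicComplete (IsLocalRing.maximalIdeal 𝒪) 𝒪] [CharZero 𝒪]
  {a : ℕ → 𝒪}

omit [IsDomain 𝒪] [IsDiscreteValuationRing 𝒪] [CharZero 𝒪] in
/-- `𝒪` is separated. -/
theorem GR_sep [IsLocalRing 𝒪] [IsAdicComplete (IsLocalRing.maximalIdeal 𝒪) 𝒪] (x : 𝒪)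
    (h : ∀ n : ℕ, x ∈ IsLocalRing.maximalIdeal 𝒪 ^ n) : x = 0 := by
  refine IsHausdorff.haus' (I := IsLocalRing.maximalIdeal 𝒪) x fun n => ?_
  rw [SModEq.sub_mem, sub_zero]
  have : (IsLocalRing.maximalIdeal 𝒪 ^ n • (⊤ : Submodule 𝒪 𝒪)) = IsLocalRing.maximalIdeal 𝒪 ^ n := by
    rw [smul_eq_mul, Ideal.mul_top]
  rw [this]
  exact h n

omit [IsDiscreteValuationRing 𝒪] [IsAdicComplete (IsLocalRing.maximalIdeal 𝒪) 𝒪] in
/-- a scalar endomorphism of a free module of rank 2 vanishes only for the scalar `0`. -/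
theorem GR_smul_one_eq_zero {V : Type} [AddCommGroup V] [Module 𝒪 V] [Module.Free 𝒪 V]
    [Module.Finite 𝒪 V] (h2 : Module.finrank 𝒪 V = 2) {r : 𝒪}
    (h : r • (1 : Module.End 𝒪 V) = 0) : r = 0 := by
  have := congrArg (LinearMap.trace 𝒪 V) h
  rw [GR_trace_smul_one h2, map_zero] at this
  exact (mul_eq_zero.mp this).resolve_left two_ne_zero

/-- the determinant character. -/
noncomputable def GR_detHom (ρ : GaloisRepAdic 𝒪) : GQ →* 𝒪 :=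
  (LinearMap.det : Module.End 𝒪 ρ.V →* 𝒪).comp ρ.ρ

/-- the cyclotomic character with values in `𝒪`. -/
noncomputable def GR_epsHom (c : GR_Cyc p 𝒪) : GQ →* 𝒪 :=
  (Units.coeHom 𝒪).comp c.ε

theorem GR_epsHom_apply (c : GR_Cyc p 𝒪) (σ : GQ) : GR_epsHom c σ = (c.ε σ : 𝒪) := rfl

theorem GR_detHom_apply (ρ : GaloisRepAdic 𝒪) (σ : GQ) :
    GR_detHom ρ σ = LinearMap.det (ρ.ρ σ) := rfl

/-- `U₁(n)`: the determinant is cyclotomic modulo `𝔪ⁿ`. -/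
noncomputable def GR_U1 (ρ : GaloisRepAdic 𝒪) (c : GR_Cyc p 𝒪) (n : ℕ) : Subgroup GQ :=
  GR_eqMod (GR_detHom ρ) (GR_epsHom c) (IsLocalRing.maximalIdeal 𝒪 ^ n)

/-- `U₂(n)`: the representation is scalar modulo `𝔪ⁿ`. -/
noncomputable def GR_U2 (ρ : GaloisRepAdic 𝒪) (n : ℕ) : Subgroup GQ :=
  GR_scalMod ρ.ρ (IsLocalRing.maximalIdeal 𝒪 ^ n)

theorem GR_U2_isOpen (ρ : GaloisRepAdic 𝒪) (n : ℕ) : GR_IsOpen (GR_U2 ρ n) := by
  obtain ⟨L, hL, h⟩ := ρ.isAdicContinuous n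
  exact ⟨L, hL, fun σ hσ => ⟨1, fun v => by simpa using h σ hσ v⟩⟩

theorem GR_U1_isOpen (ρ : GaloisRepAdic 𝒪) (c : GR_Cyc p 𝒪) (n : ℕ) :
    GR_IsOpen (GR_U1 ρ c n) := by
  obtain ⟨L₁, hL₁, h₁⟩ := ρ.isAdicContinuous n
  obtain ⟨L₂, hL₂, h₂⟩ := c.cont n
  refine ⟨L₁ ⊔ L₂, IntermediateField.finiteDimensional_sup L₁ L₂, fun σ hσ => ?_⟩
  have hd : LinearMap.det (ρ.ρ σ) - 1 ∈ IsLocalRing.maximalIdeal 𝒪 ^ n :=
    GR_det_sub_one_mem ρ.finrank_eq _ _ (h₁ σ fun x hx => hσ x (le_sup_left (a := L₁) hx))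
  have he := h₂ σ fun x hx => hσ x (le_sup_right (b := L₂) hx)
  show GR_detHom ρ σ - GR_epsHom c σ ∈ IsLocalRing.maximalIdeal 𝒪 ^ n
  rw [GR_detHom_apply, GR_epsHom_apply]
  have : LinearMap.det (ρ.ρ σ) - (c.ε σ : 𝒪)
      = (LinearMap.det (ρ.ρ σ) - 1) - ((c.ε σ : 𝒪) - 1) := by ring
  rw [this]
  exact Ideal.sub_mem _ hd he

theorem GR_isUnit_detHom (ρ : GaloisRepAdic 𝒪) (σ : GQ) : IsUnit (GR_detHom ρ σ) := by
  refine IsUnit.of_mul_eq_one (GR_detHom ρ σ⁻¹) ?_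
  rw [← map_mul, mul_inv_cancel, map_one]

/-- the dichotomy at a Frobenius element. -/
theorem GR_frob_dichotomy (D : GR_ESDatum p N S 𝒪 a)
    {ℓ : ℕ} (hℓ : ℓ.Prime) (hℓN : ¬ ℓ ∣ N) (hℓS : ℓ ∉ S) (σ : GQ) (hσ : GR_IsFrob ℓ σ) :
    (∃ u : 𝒪ˣ, D.ρ.ρ σ = (u : 𝒪) • (1 : Module.End 𝒪 D.ρ.V) ∧
        (u : 𝒪) ^ 2 - a ℓ * u + ℓ = 0) ∨
      (LinearMap.trace 𝒪 D.ρ.V (D.ρ.ρ σ) = a ℓ ∧ LinearMap.det (D.ρ.ρ σ) = ℓ) := by
  have hes := D.es ℓ hℓ hℓN hℓS σ hσ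
  rcases GR_scalar_or_charpoly D.ρ.finrank_eq (D.ρ.ρ σ) (a ℓ) (ℓ : 𝒪) hes with ⟨c₀, hc₀⟩ | h
  · left
    have hdet : GR_detHom D.ρ σ = c₀ ^ 2 := by
      rw [GR_detHom_apply, hc₀, GR_det_smul_one D.ρ.finrank_eq]
    have hu : IsUnit c₀ := by
      have := GR_isUnit_detHom D.ρ σ
      rw [hdet] at this
      exact (isUnit_pow_iff two_ne_zero).mp this
    refine ⟨hu.unit, by rw [IsUnit.unit_spec]; exact hc₀, ?_⟩
    rw [IsUnit.unit_spec]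
    rw [hc₀] at hes
    have : (c₀ ^ 2 - a ℓ * c₀ + ℓ) • (1 : Module.End 𝒪 D.ρ.V) = 0 := by
      rw [← hes, smul_mul_smul_comm, mul_one, add_smul, sub_smul, smul_smul, sq]
    exact GR_smul_one_eq_zero D.ρ.finrank_eq this
  · exact Or.inr h

theorem GR_frob_mem (D : GR_ESDatum p N S 𝒪 a) (c : GR_Cyc p 𝒪) (hpS : p ∈ S) (n : ℕ)
    {ℓ : ℕ} (hℓ : ℓ.Prime) (hℓN : ¬ ℓ ∣ N) (hℓS : ℓ ∉ S) (σ : GQ) (hσ : GR_IsFrob ℓ σ) :
    σ ∈ GR_U1 D.ρ c n ∨ σ ∈ GR_U2 D.ρ n := by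
  rcases GR_frob_dichotomy D hℓ hℓN hℓS σ hσ with ⟨u, hu, -⟩ | ⟨-, hdet⟩
  · right
    refine ⟨u, fun v => ?_⟩
    rw [hu]
    simp
  · left
    show GR_detHom D.ρ σ - GR_epsHom c σ ∈ IsLocalRing.maximalIdeal 𝒪 ^ n
    have hℓp : ℓ ≠ p := fun h => hℓS (h ▸ hpS)
    rw [GR_detHom_apply, GR_epsHom_apply, hdet, c.frob ℓ hℓ hℓp σ hσ, sub_self]
    exact Ideal.zero_mem _

/-- the consequence of the density lemma: one of the two families is trivial at all levels. -/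
theorem GR_U1_or_U2 (hN : N ≠ 0) (hDS : GR_DS) (D : GR_ESDatum p N S 𝒪 a) (c : GR_Cyc p 𝒪)
    (hpS : p ∈ S) :
    (∀ n, GR_U1 D.ρ c n = ⊤) ∨ (∀ n, GR_U2 D.ρ n = ⊤) := by
  have key : ∀ n, GR_U1 D.ρ c n = ⊤ ∨ GR_U2 D.ρ n = ⊤ := by
    intro n
    refine hDS _ _ (GR_eqMod_normal _ _ _) (GR_scalMod_normal _ _) (GR_U1_isOpen D.ρ c n)
      (GR_U2_isOpen D.ρ n) (S ∪ N.primeFactors) fun ℓ hℓ hℓT σ hσ => ?_
    rw [Finset.mem_union, not_or] at hℓT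
    have hℓN : ¬ ℓ ∣ N := fun h => hℓT.2 (Nat.mem_primeFactors.mpr ⟨hℓ, h, hN⟩)
    exact GR_frob_mem D c hpS n hℓ hℓN hℓT.1 σ hσ
  by_cases h : ∀ n, GR_U1 D.ρ c n = ⊤
  · exact Or.inl h
  · right
    rw [not_forall] at h
    obtain ⟨n₁, hn₁⟩ := h
    intro n
    rcases key (max n n₁) with h1 | h2
    · exfalso
      apply hn₁
      rw [eq_top_iff, ← h1]
      exact GR_eqMod_anti _ _ (Ideal.pow_le_pow_right (le_max_right n n₁))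
    · rw [eq_top_iff, ← h2]
      exact GR_scalMod_anti _ (Ideal.pow_le_pow_right (le_max_left n n₁))

/-- **Case A**: if the determinant is cyclotomic, the representation of the datum works. -/
theorem GR_caseA (D : GR_ESDatum p N S 𝒪 a) (c : GR_Cyc p 𝒪) (hpS : p ∈ S)
    (h : ∀ n, GR_U1 D.ρ c n = ⊤)
    {ℓ : ℕ} (hℓ : ℓ.Prime) (hℓN : ¬ ℓ ∣ N) (hℓS : ℓ ∉ S) (σ : GQ) (hσ : GR_IsFrob ℓ σ) :
    LinearMap.charpoly (D.ρ.ρ σ) = X ^ 2 - C (a ℓ) * X + C ((ℓ : 𝒪)) := by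
  have hdet : LinearMap.det (D.ρ.ρ σ) = (ℓ : 𝒪) := by
    have hℓp : ℓ ≠ p := fun h => hℓS (h ▸ hpS)
    rw [← c.frob ℓ hℓ hℓp σ hσ]
    apply sub_eq_zero.mp
    refine GR_sep _ fun n => ?_
    have : σ ∈ GR_U1 D.ρ c n := by rw [h n]; exact Subgroup.mem_top σ
    exact this
  rw [GR_charpoly_rank2 D.ρ.finrank_eq]
  rcases GR_frob_dichotomy D hℓ hℓN hℓS σ hσ with ⟨u, hu, hrel⟩ | ⟨htr, hd⟩
  · have hd2 : (u : 𝒪) ^ 2 = ℓ := by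
      rw [← hdet, hu, GR_det_smul_one D.ρ.finrank_eq]
    have hu0 : (u : 𝒪) ≠ 0 := u.ne_zero
    have ha : a ℓ = 2 * u := by
      have : (u : 𝒪) * (a ℓ - 2 * u) = 0 := by linear_combination -hrel - hd2
      have := (mul_eq_zero.mp this).resolve_left hu0
      exact sub_eq_zero.mp this
    rw [hu, GR_trace_smul_one D.ρ.finrank_eq, GR_det_smul_one D.ρ.finrank_eq, ha, hd2]
  · rw [htr, hd]

end

end Fermat.Agent.GalRep
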