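import Mathlib
import Fermat.Agent.GalRep.Defs
import Fermat.Agent.GalRep.AlgLin
import Fermat.Agent.GalRep.AlgGrp
import Fermat.Agent.GalRep.Alg

/-!
# Pillar G, package ALG: case B (scalar representation) and the final statement `GR_alg`
-/

set_option autoImplicit false
set_option linter.unusedSectionVars false
open Polynomial

namespace Fermat.Agent.GalRep

section

variable {p N : ℕ} {S : Finset ℕ} {𝒪 : Type} [CommRing 𝒪] [IsDomain 𝒪]
  [IsDiscreteValuationRing 𝒪] [IsAdicComplete (IsLocalRing.maximalIdeal 𝒪) 𝒪] [CharZero 𝒪]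
  {a : ℕ → 𝒪}

/-- In case B every `ρ σ` is a scalar. -/
theorem GR_scalar_all (ρ : GaloisRepAdic 𝒪) (h : ∀ n, GR_U2 ρ n = ⊤) (σ : GQ) :
    ∃ c : 𝒪, ρ.ρ σ = c • (1 : Module.End 𝒪 ρ.V) := by
  refine GR_scalar_of_forall_pow ρ.finrank_eq (IsLocalRing.maximalIdeal 𝒪) GR_sep (ρ.ρ σ)
    fun n => ?_
  have : σ ∈ GR_U2 ρ n := by rw [h n]; exact Subgroup.mem_top σ
  obtain ⟨u, hu⟩ := this
  exact ⟨u, hu⟩

theorem GR_smul_one_inj (ρ : GaloisRepAdic 𝒪) {r s : 𝒪}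
    (h : r • (1 : Module.End 𝒪 ρ.V) = s • (1 : Module.End 𝒪 ρ.V)) : r = s := by
  apply sub_eq_zero.mp
  apply GR_smul_one_eq_zero ρ.finrank_eq
  rw [sub_smul, h, sub_self]

/-- the character `μ` of a scalar representation. -/
noncomputable def GR_mu (ρ : GaloisRepAdic 𝒪)
    (h : ∀ σ : GQ, ∃ c : 𝒪, ρ.ρ σ = c • (1 : Module.End 𝒪 ρ.V)) : GQ →* 𝒪 where
  toFun σ := (h σ).choose
  map_one' := by
    apply GR_smul_one_inj ρ
    rw [← (h 1).choose_spec, map_one, one_smul]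
  map_mul' σ τ := by
    apply GR_smul_one_inj ρ
    calc (h (σ * τ)).choose • (1 : Module.End 𝒪 ρ.V) = ρ.ρ (σ * τ) := (h (σ * τ)).choose_spec.symm
      _ = ρ.ρ σ * ρ.ρ τ := map_mul _ _ _
      _ = ((h σ).choose • (1 : Module.End 𝒪 ρ.V)) * ((h τ).choose • (1 : Module.End 𝒪 ρ.V)) := by
          rw [← (h σ).choose_spec, ← (h τ).choose_spec]
      _ = ((h σ).choose * (h τ).choose) • (1 : Module.End 𝒪 ρ.V) := by
          rw [smul_mul_smul_comm, mul_one]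

theorem GR_mu_spec (ρ : GaloisRepAdic 𝒪)
    (h : ∀ σ : GQ, ∃ c : 𝒪, ρ.ρ σ = c • (1 : Module.End 𝒪 ρ.V)) (σ : GQ) :
    ρ.ρ σ = GR_mu ρ h σ • (1 : Module.End 𝒪 ρ.V) := (h σ).choose_spec

/-- `σ ↦ f σ⁻¹` is again a character (the target is commutative). -/
def GR_invHom {G : Type*} [Group G] {R : Type*} [CommMonoid R] (f : G →* R) : G →* R where
  toFun σ := f σ⁻¹
  map_one' := by rw [inv_one, map_one]
  map_mul' σ τ := by rw [mul_inv_rev, map_mul, mul_comm]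

/-- the second character `ν = ε μ⁻¹`. -/
noncomputable def GR_nu (ρ : GaloisRepAdic 𝒪) (c : GR_Cyc p 𝒪)
    (h : ∀ σ : GQ, ∃ c : 𝒪, ρ.ρ σ = c • (1 : Module.End 𝒪 ρ.V)) : GQ →* 𝒪 :=
  GR_epsHom c * GR_invHom (GR_mu ρ h)

theorem GR_nu_apply (ρ : GaloisRepAdic 𝒪) (c : GR_Cyc p 𝒪)
    (h : ∀ σ : GQ, ∃ c : 𝒪, ρ.ρ σ = c • (1 : Module.End 𝒪 ρ.V)) (σ : GQ) :
    GR_nu ρ c h σ = (c.ε σ : 𝒪) * GR_mu ρ h σ⁻¹ := rfl

/-- the pair of characters as a function to `Fin 2 → 𝒪`. -/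
noncomputable def GR_pair (f g : GQ →* 𝒪) : GQ →* (Fin 2 → 𝒪) :=
  MonoidHom.pi fun i => if i = 0 then f else g

theorem GR_pair_zero (f g : GQ →* 𝒪) (σ : GQ) : GR_pair f g σ 0 = f σ := by
  show (if (0 : Fin 2) = 0 then f else g) σ = f σ
  rw [if_pos rfl]

theorem GR_pair_one (f g : GQ →* 𝒪) (σ : GQ) : GR_pair f g σ 1 = g σ := by
  show (if (1 : Fin 2) = 0 then f else g) σ = g σ
  rw [if_neg (by decide)]

/-- the diagonal representation `f ⊕ g`. -/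
noncomputable def GR_diagHom (f g : GQ →* 𝒪) : GQ →* Module.End 𝒪 (Fin 2 → 𝒪) where
  toFun σ := Matrix.toLin' (Matrix.diagonal (GR_pair f g σ))
  map_one' := by
    have h1 : Matrix.diagonal (1 : Fin 2 → 𝒪) = 1 := Matrix.diagonal_one
    rw [map_one, h1, Matrix.toLin'_one]
    rfl
  map_mul' σ τ := by
    have h1 : Matrix.diagonal (GR_pair f g σ * GR_pair f g τ)
        = Matrix.diagonal (GR_pair f g σ) * Matrix.diagonal (GR_pair f g τ) := by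
      rw [Matrix.diagonal_mul_diagonal]
      rfl
    rw [map_mul, h1, Matrix.toLin'_mul]
    rfl

theorem GR_diagHom_def (f g : GQ →* 𝒪) (σ : GQ) :
    GR_diagHom f g σ = Matrix.toLin' (Matrix.diagonal (GR_pair f g σ)) := rfl

theorem GR_diagHom_apply (f g : GQ →* 𝒪) (σ : GQ) (v : Fin 2 → 𝒪) (i : Fin 2) :
    GR_diagHom f g σ v i = GR_pair f g σ i * v i := by
  rw [GR_diagHom_def, Matrix.toLin'_apply, Matrix.mulVec_diagonal]

theorem GR_diagHom_charpoly (f g : GQ →* 𝒪) (σ : GQ) :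
    (GR_diagHom f g σ).charpoly = X ^ 2 - C (f σ + g σ) * X + C (f σ * g σ) := by
  rw [GR_diagHom_def, Matrix.charpoly_toLin', Matrix.charpoly_fin_two, Matrix.trace_fin_two, Matrix.det_fin_two]
  simp [GR_pair_zero, GR_pair_one]

theorem GR_diagHom_eq_one (f g : GQ →* 𝒪) (σ : GQ) (hf : f σ = 1) (hg : g σ = 1) :
    GR_diagHom f g σ = 1 := by
  refine LinearMap.ext fun v => funext fun i => ?_
  rw [GR_diagHom_apply]
  fin_cases i
  · simp [GR_pair_zero, hf]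
  · simp [GR_pair_one, hg]

theorem GR_diagHom_cont (f g : GQ →* 𝒪) (n : ℕ) (σ : GQ)
    (hf : f σ - 1 ∈ IsLocalRing.maximalIdeal 𝒪 ^ n)
    (hg : g σ - 1 ∈ IsLocalRing.maximalIdeal 𝒪 ^ n) (v : Fin 2 → 𝒪) :
    GR_diagHom f g σ v - v ∈
      (IsLocalRing.maximalIdeal 𝒪 ^ n) • (⊤ : Submodule 𝒪 (Fin 2 → 𝒪)) := by
  refine GR_mem_smul_top_of_repr_mem (Pi.basisFun 𝒪 (Fin 2)) _ fun i => ?_
  rw [Pi.basisFun_repr, Pi.sub_apply, GR_diagHom_apply]
  have : GR_pair f g σ i * v i - v i = (GR_pair f g σ i - 1) * v i := by ring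
  rw [this]
  refine Ideal.mul_mem_right _ _ ?_
  fin_cases i
  · simpa [GR_pair_zero] using hf
  · simpa [GR_pair_one] using hg

/-- the diagonal representation as a `GaloisRepAdic`. -/
noncomputable def GR_diagRep (f g : GQ →* 𝒪)
    (hcont : ∀ n : ℕ, ∃ L : IntermediateField ℚ (AlgebraicClosure ℚ), FiniteDimensional ℚ L ∧
      ∀ σ : GQ, (∀ x ∈ L, σ x = x) →
        f σ - 1 ∈ IsLocalRing.maximalIdeal 𝒪 ^ n ∧ g σ - 1 ∈ IsLocalRing.maximalIdeal 𝒪 ^ n) :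
    GaloisRepAdic 𝒪 where
  V := Fin 2 → 𝒪
  finrank_eq := by simp
  ρ := GR_diagHom f g
  isAdicContinuous := by
    intro n
    obtain ⟨L, hL, h⟩ := hcont n
    exact ⟨L, hL, fun σ hσ v => GR_diagHom_cont f g n σ (h σ hσ).1 (h σ hσ).2 v⟩

end

end Fermat.Agent.GalRep
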