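import Mathlib
import Fermat.Agent.GalRep.Defs
import Fermat.Agent.GalRep.AlgLin
import Fermat.Agent.GalRep.AlgGrp
import Fermat.Agent.GalRep.Alg
import Fermat.Agent.GalRep.AlgB

/-!
# Pillar G, package ALG: `GR_alg : GR_ALGStmt`
-/

set_option autoImplicit false
set_option linter.unusedSectionVars false
open Polynomial

namespace Fermat.Agent.GalRep

section

variable {p N : ℕ} {S : Finset ℕ} {𝒪 : Type} [CommRing 𝒪] [IsDomain 𝒪]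
  [IsDiscreteValuationRing 𝒪] [IsAdicComplete (IsLocalRing.maximalIdeal 𝒪) 𝒪] [CharZero 𝒪]
  {a : ℕ → 𝒪}

theorem GR_scalar_sub_one_mem (ρ : GaloisRepAdic 𝒪) (I : Ideal 𝒪) (r : 𝒪)
    (h : ∀ v : ρ.V, (r • (1 : Module.End 𝒪 ρ.V)) v - v ∈ I • (⊤ : Submodule 𝒪 ρ.V)) :
    r - 1 ∈ I := by
  classical
  let b := Module.finBasisOfFinrankEq 𝒪 ρ.V ρ.finrank_eq
  have := GR_toMatrix_sub_mem b I (A := r • (1 : Module.End 𝒪 ρ.V)) (B := 1)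
    (by simpa using h) 0 0
  rw [GR_toMatrix_smul_one, LinearMap.toMatrix_one] at this
  simpa using this

theorem GR_mu_sub_one_mem (ρ : GaloisRepAdic 𝒪)
    (hs : ∀ σ : GQ, ∃ c : 𝒪, ρ.ρ σ = c • (1 : Module.End 𝒪 ρ.V)) (n : ℕ) (σ : GQ)
    (h : ∀ v : ρ.V, ρ.ρ σ v - v ∈ (IsLocalRing.maximalIdeal 𝒪 ^ n) • (⊤ : Submodule 𝒪 ρ.V)) :
    GR_mu ρ hs σ - 1 ∈ IsLocalRing.maximalIdeal 𝒪 ^ n := by
  refine GR_scalar_sub_one_mem ρ _ _ fun v => ?_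
  rw [← GR_mu_spec ρ hs σ]
  exact h v

theorem GR_mu_eq_one (ρ : GaloisRepAdic 𝒪)
    (hs : ∀ σ : GQ, ∃ c : 𝒪, ρ.ρ σ = c • (1 : Module.End 𝒪 ρ.V)) (σ : GQ) (h : ρ.ρ σ = 1) :
    GR_mu ρ hs σ = 1 := by
  apply GR_smul_one_inj ρ
  rw [← GR_mu_spec ρ hs σ, h, one_smul]

theorem GR_mu_mul_inv (ρ : GaloisRepAdic 𝒪)
    (hs : ∀ σ : GQ, ∃ c : 𝒪, ρ.ρ σ = c • (1 : Module.End 𝒪 ρ.V)) (σ : GQ) :
    GR_mu ρ hs σ * GR_mu ρ hs σ⁻¹ = 1 := by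
  rw [← map_mul, mul_inv_cancel, map_one]

/-- the relation `μ² − aμ + ℓ = 0` at a Frobenius element, in case B. -/
theorem GR_mu_rel (D : GR_ESDatum p N S 𝒪 a)
    (hs : ∀ σ : GQ, ∃ c : 𝒪, D.ρ.ρ σ = c • (1 : Module.End 𝒪 D.ρ.V))
    {ℓ : ℕ} (hℓ : ℓ.Prime) (hℓN : ¬ ℓ ∣ N) (hℓS : ℓ ∉ S) (σ : GQ) (hσ : GR_IsFrob ℓ σ) :
    GR_mu D.ρ hs σ ^ 2 - a ℓ * GR_mu D.ρ hs σ + ℓ = 0 := by
  have hes := D.es ℓ hℓ hℓN hℓS σ hσ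
  rw [GR_mu_spec D.ρ hs σ] at hes
  have : (GR_mu D.ρ hs σ ^ 2 - a ℓ * GR_mu D.ρ hs σ + ℓ) • (1 : Module.End 𝒪 D.ρ.V) = 0 := by
    rw [← hes, smul_mul_smul_comm, mul_one, add_smul, sub_smul, smul_smul, sq]
  exact GR_smul_one_eq_zero D.ρ.finrank_eq this

/-- **ALG**: the determinant step. -/
theorem GR_alg : GR_ALGStmt := by
  intro p N S 𝒪 _ _ _ _ _ a hpS hDS c D
  by_cases hN : N = 0
  · subst hN
    exact ⟨D.ρ, fun ℓ _ hℓN => absurd (dvd_zero ℓ) hℓN, fun q _ hqN => absurd (dvd_zero q) hqN⟩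
  rcases GR_U1_or_U2 hN hDS D c hpS with h1 | h2
  · exact ⟨D.ρ, fun ℓ hℓ hℓN hℓS σ hσ => GR_caseA D c hpS h1 hℓ hℓN hℓS σ hσ, D.unram⟩
  · have hs := GR_scalar_all D.ρ h2
    have hcont : ∀ n : ℕ, ∃ L : IntermediateField ℚ (AlgebraicClosure ℚ),
        FiniteDimensional ℚ L ∧ ∀ σ : GQ, (∀ x ∈ L, σ x = x) →
          GR_mu D.ρ hs σ - 1 ∈ IsLocalRing.maximalIdeal 𝒪 ^ n ∧
          GR_nu D.ρ c hs σ - 1 ∈ IsLocalRing.maximalIdeal 𝒪 ^ n := by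
      intro n
      obtain ⟨L₁, hL₁, h₁⟩ := D.ρ.isAdicContinuous n
      obtain ⟨L₂, hL₂, h₂⟩ := c.cont n
      refine ⟨L₁ ⊔ L₂, IntermediateField.finiteDimensional_sup L₁ L₂, fun σ hσ => ?_⟩
      have hσ1 : ∀ x ∈ L₁, σ x = x := fun x hx => hσ x (le_sup_left (a := L₁) hx)
      have hσ2 : ∀ x ∈ L₂, σ x = x := fun x hx => hσ x (le_sup_right (b := L₂) hx)
      have hσ1' : ∀ x ∈ L₁, σ⁻¹ x = x := fun x hx => by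
        have := hσ1 x hx
        calc σ⁻¹ x = σ⁻¹ (σ x) := by rw [this]
          _ = x := by
            rw [← AlgEquiv.mul_apply, inv_mul_cancel, AlgEquiv.one_apply]
      have hm := GR_mu_sub_one_mem D.ρ hs n σ (h₁ σ hσ1)
      have hm' := GR_mu_sub_one_mem D.ρ hs n σ⁻¹ (h₁ σ⁻¹ hσ1')
      have he := h₂ σ hσ2
      refine ⟨hm, ?_⟩
      rw [GR_nu_apply]
      have : (c.ε σ : 𝒪) * GR_mu D.ρ hs σ⁻¹ - 1
          = ((c.ε σ : 𝒪) - 1) * GR_mu D.ρ hs σ⁻¹ + (GR_mu D.ρ hs σ⁻¹ - 1) := by ring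
      rw [this]
      exact Ideal.add_mem _ (Ideal.mul_mem_right _ _ he) hm'
    refine ⟨GR_diagRep (GR_mu D.ρ hs) (GR_nu D.ρ c hs) hcont, ?_, ?_⟩
    · intro ℓ hℓ hℓN hℓS σ hσ
      show (GR_diagHom (GR_mu D.ρ hs) (GR_nu D.ρ c hs) σ).charpoly = _
      rw [GR_diagHom_charpoly, GR_nu_apply]
      have hℓp : ℓ ≠ p := fun h => hℓS (h ▸ hpS)
      rw [c.frob ℓ hℓ hℓp σ hσ]
      have hrel := GR_mu_rel D hs hℓ hℓN hℓS σ hσ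
      have hinv := GR_mu_mul_inv D.ρ hs σ
      have htr : GR_mu D.ρ hs σ + (ℓ : 𝒪) * GR_mu D.ρ hs σ⁻¹ = a ℓ := by
        linear_combination (GR_mu D.ρ hs σ⁻¹) * hrel
          + (a ℓ - GR_mu D.ρ hs σ) * hinv
      have hdet : GR_mu D.ρ hs σ * ((ℓ : 𝒪) * GR_mu D.ρ hs σ⁻¹) = ℓ := by
        linear_combination (ℓ : 𝒪) * hinv
      rw [htr, hdet]
    · intro q hq hqN hqp P hP τ hτ
      show GR_diagHom (GR_mu D.ρ hs) (GR_nu D.ρ c hs) τ = 1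
      have hτ' : τ⁻¹ ∈ P.inertiaSubgroupIn ℚ := Subgroup.inv_mem _ hτ
      apply GR_diagHom_eq_one
      · exact GR_mu_eq_one D.ρ hs τ (D.unram q hq hqN hqp P hP τ hτ)
      · rw [GR_nu_apply, c.unram q hq hqp P hP τ hτ,
          GR_mu_eq_one D.ρ hs τ⁻¹ (D.unram q hq hqN hqp P hP τ⁻¹ hτ')]
        simp

end

end Fermat.Agent.GalRep
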