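/-
Pillar G, package B1 (part 1): local analysis at the cusp `i∞` of holomorphic functions which
are periodic and of moderate growth (`MeroCusp`).
-/
import Mathlib
import Fermat.Agent.S24.CuspMer

set_option autoImplicit false

open scoped Real Topology Manifold MatrixGroups
open UpperHalfPlane hiding I
open Complex Filter Function

namespace Fermat.Agent.GalRep

open Fermat.Agent.S24

local notation "𝕢" => Function.Periodic.qParam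

/-- `q → 0` within the punctured neighbourhood of `0` as `τ → i∞`. -/
theorem KMB_tendsto_q (N : ℕ) [NeZero N] :
    Tendsto (fun τ : ℍ ↦ 𝕢 (N : ℝ) τ) atImInfty (𝓝[≠] 0) :=
  (Function.Periodic.qParam_tendsto natCast_pos').comp tendsto_coe_atImInfty

theorem KMB_tendsto_q' (N : ℕ) [NeZero N] :
    Tendsto (fun τ : ℍ ↦ 𝕢 (N : ℝ) τ) atImInfty (𝓝 0) :=
  (KMB_tendsto_q N).mono_right nhdsWithin_le_nhds

theorem KMB_q_ne_zero (N : ℕ) (τ : ℍ) : 𝕢 (N : ℝ) τ ≠ 0 := Complex.exp_ne_zero _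

/-- **L0**: the local shape of a `MeroCusp` function near `i∞`. -/
theorem KMB_meroCusp_local {N : ℕ} [NeZero N] {g : ℍ → ℂ} (hg : MeroCusp N g) (h0 : g ≠ 0) :
    ∃ H : ℂ → ℂ, AnalyticAt ℂ H 0 ∧ H 0 ≠ 0 ∧
      ∀ᶠ τ : ℍ in atImInfty, g τ = 𝕢 (N : ℝ) τ ^ (cuspOrd N g) * H (𝕢 (N : ℝ) τ) := by
  obtain ⟨H, hHa, hH0, hHe⟩ :=
    (meromorphicOrderAt_ne_top_iff hg.meromorphicAt).1 (hg.order_ne_top h0)
  refine ⟨H, hHa, hH0, ?_⟩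
  filter_upwards [(KMB_tendsto_q N).eventually hHe] with τ hτ
  rw [← hg.eq_cuspFunction τ, hτ]
  simp [cuspOrd]

/-- a nonzero `MeroCusp` function has no zeros near `i∞`. -/
theorem KMB_eventually_ne {N : ℕ} [NeZero N] {g : ℍ → ℂ} (hg : MeroCusp N g) (h0 : g ≠ 0) :
    ∀ᶠ τ : ℍ in atImInfty, g τ ≠ 0 := by
  obtain ⟨H, hHa, hH0, hHe⟩ := KMB_meroCusp_local hg h0
  have h1 : ∀ᶠ q in 𝓝 (0 : ℂ), H q ≠ 0 := hHa.continuousAt.eventually_ne hH0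
  filter_upwards [hHe, (KMB_tendsto_q' N).eventually h1] with τ hτ hτ'
  rw [hτ]
  exact mul_ne_zero (zpow_ne_zero _ (KMB_q_ne_zero N τ)) hτ'

/-- the inverse of a nonzero `MeroCusp` function is of moderate growth at `i∞`. -/
theorem KMB_bdd_inv {N : ℕ} [NeZero N] {g : ℍ → ℂ} (hg : MeroCusp N g) (h0 : g ≠ 0) :
    ∃ M : ℕ, IsBoundedAtImInfty (fun τ : ℍ ↦ 𝕢 (N : ℝ) τ ^ M * (g τ)⁻¹) := by
  obtain ⟨H, hHa, hH0, hHe⟩ := KMB_meroCusp_local hg h0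
  set n := cuspOrd N g with hn
  refine ⟨n.toNat, ?_⟩
  -- the exponent `k = n.toNat - n ≥ 0`
  obtain ⟨k, hk⟩ : ∃ k : ℕ, (k : ℤ) = (n.toNat : ℤ) - n := by
    refine ⟨((n.toNat : ℤ) - n).toNat, ?_⟩
    rw [Int.toNat_of_nonneg]
    have := Int.self_le_toNat n
    omega
  have hb1 : IsBoundedAtImInfty (fun τ : ℍ ↦ 𝕢 (N : ℝ) τ ^ k) :=
    isBoundedAtImInfty_qParam_pow (N := N) k
  have hb2 : IsBoundedAtImInfty (fun τ : ℍ ↦ (H (𝕢 (N : ℝ) τ))⁻¹) := by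
    have ht : Tendsto (fun τ : ℍ ↦ (H (𝕢 (N : ℝ) τ))⁻¹) atImInfty (𝓝 (H 0)⁻¹) :=
      ((hHa.continuousAt.tendsto.comp (KMB_tendsto_q' N)).inv₀ hH0)
    exact ht.isBigO_one ℝ
  have hb := hb1.mul hb2
  refine hb.congr' ?_ (Eventually.of_forall fun _ ↦ rfl)
  have h1 : ∀ᶠ q in 𝓝 (0 : ℂ), H q ≠ 0 := hHa.continuousAt.eventually_ne hH0
  filter_upwards [hHe, (KMB_tendsto_q' N).eventually h1] with τ hτ hτ'
  have hq := KMB_q_ne_zero N τ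
  simp only [Pi.mul_apply]
  rw [hτ, mul_inv, ← mul_assoc]
  congr 1
  rw [← zpow_natCast, hk, zpow_sub₀ hq, zpow_natCast, div_eq_mul_inv]

/-- **L1''**: a holomorphic quotient of two `MeroCusp` functions is of moderate growth. -/
theorem KMB_bdd_of_mul_eq {N : ℕ} [NeZero N] {f a b : Hol}
    (hma : MeroCusp N (a : ℍ → ℂ)) (hmb : MeroCusp N (b : ℍ → ℂ)) (hb : b ≠ 0)
    (h : f * b = a) :
    ∃ M : ℕ, IsBoundedAtImInfty (fun τ : ℍ ↦ 𝕢 (N : ℝ) τ ^ M * (f : ℍ → ℂ) τ) := by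
  obtain ⟨Ma, hMa⟩ := hma.bdd
  obtain ⟨Mb, hMb⟩ := KMB_bdd_inv hmb (hol_coe_ne_zero hb)
  refine ⟨Ma + Mb, ?_⟩
  have hb' := hMa.mul hMb
  refine hb'.congr' ?_ (Eventually.of_forall fun _ ↦ rfl)
  filter_upwards [KMB_eventually_ne hmb (hol_coe_ne_zero hb)] with τ hτ
  have e : (f : ℍ → ℂ) τ * (b : ℍ → ℂ) τ = (a : ℍ → ℂ) τ := by
    rw [← h]; rfl
  simp only [Pi.mul_apply]
  rw [← e, pow_add]
  field_simp

/-- **L1**: the limit at `i∞` of a holomorphic quotient of two `MeroCusp` functions, normalised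
by the power of `q` given by the orders, exists and is nonzero. -/
theorem KMB_tendsto_of_mul_eq {N : ℕ} [NeZero N] {f a b : Hol}
    (hma : MeroCusp N (a : ℍ → ℂ)) (hmb : MeroCusp N (b : ℍ → ℂ)) (ha : a ≠ 0) (hb : b ≠ 0)
    (h : f * b = a) :
    ∃ c : ℂ, c ≠ 0 ∧ Tendsto (fun τ : ℍ ↦
      𝕢 (N : ℝ) τ ^ (-(cuspOrd N (a : ℍ → ℂ) - cuspOrd N (b : ℍ → ℂ))) * (f : ℍ → ℂ) τ)
      atImInfty (𝓝 c) := by
  obtain ⟨Ha, hHa, hHa0, hHae⟩ := KMB_meroCusp_local hma (hol_coe_ne_zero ha)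
  obtain ⟨Hb, hHb, hHb0, hHbe⟩ := KMB_meroCusp_local hmb (hol_coe_ne_zero hb)
  refine ⟨Ha 0 / Hb 0, div_ne_zero hHa0 hHb0, ?_⟩
  have ht : Tendsto (fun τ : ℍ ↦ Ha (𝕢 (N : ℝ) τ) / Hb (𝕢 (N : ℝ) τ)) atImInfty
      (𝓝 (Ha 0 / Hb 0)) :=
    (hHa.continuousAt.tendsto.comp (KMB_tendsto_q' N)).div
      (hHb.continuousAt.tendsto.comp (KMB_tendsto_q' N)) hHb0
  refine ht.congr' ?_
  have h1 : ∀ᶠ q in 𝓝 (0 : ℂ), Hb q ≠ 0 := hHb.continuousAt.eventually_ne hHb0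
  filter_upwards [hHae, hHbe, (KMB_tendsto_q' N).eventually h1] with τ h1 h2 h3
  have hq := KMB_q_ne_zero N τ
  have e : (f : ℍ → ℂ) τ * (b : ℍ → ℂ) τ = (a : ℍ → ℂ) τ := by
    rw [← h]; rfl
  have hbτ : (b : ℍ → ℂ) τ ≠ 0 := by
    rw [h2]; exact mul_ne_zero (zpow_ne_zero _ hq) h3
  have hf : (f : ℍ → ℂ) τ = (a : ℍ → ℂ) τ / (b : ℍ → ℂ) τ := by
    rw [← e]; field_simp
  rw [hf, h1, h2, neg_sub, zpow_sub₀ hq]
  have hz1 := zpow_ne_zero (cuspOrd N (a : ℍ → ℂ)) hq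
  have hz2 := zpow_ne_zero (cuspOrd N (b : ℍ → ℂ)) hq
  field_simp

end Fermat.Agent.GalRep
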