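/-
Pillar G, package B1 (part 2): a holomorphic `SL(2,ℤ)`-invariant function on `ℍ` of moderate
growth at `i∞` is a polynomial in `j`.
-/
import Mathlib
import Fermat.Agent.S24.CuspGen
import Fermat.Agent.S24.EvInv
import Fermat.Agent.S28.PkgT
import Fermat.Agent.S24.MerField
import Fermat.Agent.GalRep.BridgeCusp

set_option autoImplicit false

open scoped Real Topology Manifold MatrixGroups ModularForm
open UpperHalfPlane hiding I
open Complex Filter Function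

namespace Fermat.Agent.GalRep

open Fermat.Agent.S24

local notation "𝕢" => Function.Periodic.qParam

/-- `q · j` tends to a nonzero constant at `i∞`. -/
theorem KMB_j_tendsto : ∃ c : ℂ, c ≠ 0 ∧
    Tendsto (fun τ : ℍ ↦ 𝕢 ((1 : ℕ) : ℝ) τ * (jHol 1 : ℍ → ℂ) τ) atImInfty (𝓝 c) := by
  obtain ⟨c, a, b, hma, hmb, ha, hb, e, hn, -⟩ := cuspFrac_jHol_one 1
  have h : jHol 1 * b = a := IsFractionRing.injective Hol Mer (by rw [map_mul, e])
  obtain ⟨c', hc', ht⟩ := KMB_tendsto_of_mul_eq hma hmb ha hb h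
  refine ⟨c', hc', ?_⟩
  have h1 : -(cuspOrd 1 (a : ℍ → ℂ) - cuspOrd 1 (b : ℍ → ℂ)) = 1 := by
    rw [← hn]; simp
  rw [h1] at ht
  simpa using ht

/-- an `SL(2,ℤ)`-invariant holomorphic function is `1`-periodic. -/
theorem KMB_per_of_inv {f : Hol} (hinv : ∀ γ : SL(2, ℤ), holComp γ f = f) (τ : ℍ) :
    (f : ℍ → ℂ) ((((1 : ℕ) : ℝ)) +ᵥ τ) = (f : ℍ → ℂ) τ := by
  have h := holComp_T_zpow 1 f
  rw [zpow_one, hinv] at h
  have h2 := congrFun h τ
  simp only [Fermat.Agent.S24.translate] at h2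
  rw [h2]
  congr 2

/-- a bounded holomorphic `SL(2,ℤ)`-invariant function is constant. -/
theorem KMB_const_of_bdd {f : Hol} (hinv : ∀ γ : SL(2, ℤ), holComp γ f = f)
    (hb : IsBoundedAtImInfty (f : ℍ → ℂ)) : ∃ c : ℂ, f = algebraMap ℂ Hol c := by
  have h2 : ∀ γ : SL(2, ℤ), (f : ℍ → ℂ) ∣[(0 : ℤ)] γ = (f : ℍ → ℂ) := by
    intro γ
    funext τ
    rw [ModularForm.SL_slash_apply]
    have := congrArg (fun g : Hol ↦ (g : ℍ → ℂ) τ) (hinv γ)
    simp only [holComp_apply] at this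
    simp only [neg_zero, zpow_zero, mul_one]
    exact this
  obtain ⟨c, hc⟩ := ModularFormClass.levelOne_weight_zero_const
    (Fermat.Agent.S28.levelOneOfData 0 (f : ℍ → ℂ) (S24_Hol_mdiff f) h2 hb)
  refine ⟨c, ?_⟩
  apply Subtype.ext
  rw [Fermat.Agent.S28.coe_levelOneOfData] at hc
  rw [hc]
  rfl

theorem KMB_twist_succ (M : ℕ) (g : ℍ → ℂ) (τ : ℍ) :
    twist 1 M g τ = (𝕢 ((1 : ℕ) : ℝ) τ)⁻¹ * twist 1 (M + 1) g τ := by
  have hq := KMB_q_ne_zero 1 τ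
  simp only [twist, pow_succ]
  field_simp

/-- if `q^(M+1) f` is `O(|q|)` at `i∞`, then `q^M f` is bounded at `i∞`. -/
theorem KMB_bdd_of_decay (M : ℕ) (g : ℍ → ℂ)
    (h : twist 1 (M + 1) g =O[atImInfty] fun τ : ℍ ↦ Real.exp (-2 * π * τ.im / ((1 : ℕ) : ℝ))) :
    IsBoundedAtImInfty (twist 1 M g) := by
  have h1 : (fun τ : ℍ ↦ (𝕢 ((1 : ℕ) : ℝ) τ)⁻¹) =O[atImInfty]
      fun τ : ℍ ↦ (Real.exp (-2 * π * τ.im / ((1 : ℕ) : ℝ)))⁻¹ := by
    refine Asymptotics.IsBigO.of_bound 1 (Eventually.of_forall fun τ ↦ ?_)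
    rw [norm_inv, Function.Periodic.norm_qParam, one_mul, norm_inv, Real.norm_eq_abs,
      abs_of_pos (Real.exp_pos _)]
    rfl
  have h2 := h1.mul h
  have e1 : (fun τ : ℍ ↦ (𝕢 ((1 : ℕ) : ℝ) τ)⁻¹ * twist 1 (M + 1) g τ) = twist 1 M g := by
    funext τ
    exact (KMB_twist_succ M g τ).symm
  have e2 : (fun τ : ℍ ↦ (Real.exp (-2 * π * τ.im / ((1 : ℕ) : ℝ)))⁻¹ *
      Real.exp (-2 * π * τ.im / ((1 : ℕ) : ℝ))) = (1 : ℍ → ℝ) := by
    funext τ
    exact inv_mul_cancel₀ (Real.exp_pos _).ne'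
  rw [e1, e2] at h2
  exact h2

/-- **B1, polynomial part.** A holomorphic `SL(2,ℤ)`-invariant function of moderate growth at
`i∞` is a polynomial in `j`. -/
theorem KMB_poly_of_bdd : ∀ (M : ℕ) (f : Hol), (∀ γ : SL(2, ℤ), holComp γ f = f) →
    IsBoundedAtImInfty (twist 1 M (f : ℍ → ℂ)) →
    f ∈ Algebra.adjoin ℂ ({jHol 1} : Set Hol) := by
  intro M
  induction M with
  | zero =>
    intro f hinv hb
    have hb' : IsBoundedAtImInfty (f : ℍ → ℂ) := by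
      have e : twist 1 0 (f : ℍ → ℂ) = (f : ℍ → ℂ) := by
        funext τ; simp [twist]
      rwa [e] at hb
    obtain ⟨c, rfl⟩ := KMB_const_of_bdd hinv hb'
    exact Subalgebra.algebraMap_mem _ c
  | succ M ih =>
    intro f hinv hb
    have hh : (0 : ℝ) < ((1 : ℕ) : ℝ) := by norm_num
    obtain ⟨cj, hcj, htj⟩ := KMB_j_tendsto
    -- the function `g = q^(M+1) f`
    have hgper : Periodic (twist 1 (M + 1) (f : ℍ → ℂ) ∘ ofComplex) ((1 : ℕ) : ℝ) :=
      periodic_comp_ofComplex_of_vadd (twist_per (N := 1) (M + 1) (KMB_per_of_inv hinv))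
    have hghol : MDiff (twist 1 (M + 1) (f : ℍ → ℂ)) := twist_mdiff (M + 1) (S24_Hol_mdiff f)
    have hd1 := exp_decay_sub_atImInfty hh hgper hghol hb
    set v : ℂ := valueAtInfty (twist 1 (M + 1) (f : ℍ → ℂ)) with hv
    -- the function `W = (q j)^(M+1)`
    have hjinv : ∀ γ : SL(2, ℤ), holComp γ (jHol 1 ^ (M + 1)) = jHol 1 ^ (M + 1) := by
      intro γ
      rw [map_pow, S24_inv_holComp_jHol_one]
    have hWt : Tendsto (twist 1 (M + 1) ((jHol 1 ^ (M + 1) : Hol) : ℍ → ℂ)) atImInfty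
        (𝓝 (cj ^ (M + 1))) := by
      have := htj.pow (M + 1)
      refine this.congr (fun τ ↦ ?_)
      simp only [twist]
      rw [mul_pow]
      rfl
    have hWb : IsBoundedAtImInfty (twist 1 (M + 1) ((jHol 1 ^ (M + 1) : Hol) : ℍ → ℂ)) :=
      hWt.isBigO_one ℝ
    have hWper : Periodic (twist 1 (M + 1) ((jHol 1 ^ (M + 1) : Hol) : ℍ → ℂ) ∘ ofComplex)
        ((1 : ℕ) : ℝ) :=
      periodic_comp_ofComplex_of_vadd (twist_per (N := 1) (M + 1) (KMB_per_of_inv hjinv))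
    have hWhol : MDiff (twist 1 (M + 1) ((jHol 1 ^ (M + 1) : Hol) : ℍ → ℂ)) :=
      twist_mdiff (M + 1) (S24_Hol_mdiff (jHol 1 ^ (M + 1)))
    have hd2 := exp_decay_sub_atImInfty hh hWper hWhol hWb
    have hWv : valueAtInfty (twist 1 (M + 1) ((jHol 1 ^ (M + 1) : Hol) : ℍ → ℂ))
        = cj ^ (M + 1) := hWt.limUnder_eq
    rw [hWv] at hd2
    have hw : cj ^ (M + 1) ≠ 0 := pow_ne_zero _ hcj
    -- the corrected function
    set f₁ : Hol := f - algebraMap ℂ Hol (v / cj ^ (M + 1)) * jHol 1 ^ (M + 1) with hf₁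
    have hf₁inv : ∀ γ : SL(2, ℤ), holComp γ f₁ = f₁ := by
      intro γ
      rw [hf₁, map_sub, map_mul, hinv, hjinv, AlgHom.commutes]
    have hdecay : twist 1 (M + 1) (f₁ : ℍ → ℂ) =O[atImInfty]
        fun τ : ℍ ↦ Real.exp (-2 * π * τ.im / ((1 : ℕ) : ℝ)) := by
      have h3 := hd1.sub (hd2.const_mul_left (v / cj ^ (M + 1)))
      refine h3.congr_left (fun τ ↦ ?_)
      have e1 : (f₁ : ℍ → ℂ) τ = (f : ℍ → ℂ) τ -
          (v / cj ^ (M + 1)) * ((jHol 1 ^ (M + 1) : Hol) : ℍ → ℂ) τ := rfl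
      simp only [twist] at *
      rw [e1]
      field_simp
      ring
    have hb₁ := KMB_bdd_of_decay M (f₁ : ℍ → ℂ) hdecay
    have hmem := ih f₁ hf₁inv hb₁
    have hfe : f = f₁ + algebraMap ℂ Hol (v / cj ^ (M + 1)) * jHol 1 ^ (M + 1) := by
      rw [hf₁]; ring
    rw [hfe]
    refine Subalgebra.add_mem _ hmem (Subalgebra.mul_mem _ (Subalgebra.algebraMap_mem _ _)
      (Subalgebra.pow_mem _ (Algebra.subset_adjoin (Set.mem_singleton _)) _))

end Fermat.Agent.GalRep
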