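import Mathlib
import Fermat.Agent.S24.MerField

/-!
# Pillar G, package KM: an element of `Mer` with nonnegative orders is holomorphic

* `KM_exists_hol_of_ordM_nonneg`: if `0 ≤ ord_τ x` for all `τ ∈ ℍ` then `x ∈ Hol`;
* `KM_exists_hol_of_pow`: if `x ^ r ∈ Hol` (`r > 0`) then `x ∈ Hol` (`Hol` is integrally closed
  for pure equations).
-/

set_option autoImplicit false

open UpperHalfPlane Filter Topology
open scoped MatrixGroups Manifold

namespace Fermat.Agent.GalRep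

open Fermat.Agent.S24

/-- An element of `Mer` all of whose orders are nonnegative is holomorphic. -/
theorem KM_exists_hol_of_ordM_nonneg (x : Mer) (h : ∀ τ : ℍ, 0 ≤ S24_ordM τ x) :
    ∃ H : Hol, algebraMap Hol Mer H = x := by
  obtain ⟨a, b, hb, rfl⟩ := S24_exists_eq_div x
  by_cases ha : a = 0
  · exact ⟨0, by rw [ha, map_zero, zero_div]⟩
  set U : Set ℂ := {z : ℂ | 0 < z.im} with hU
  have hUo : IsOpen U := isOpen_upperHalfPlaneSet
  set g : ℂ → ℂ := fun z : ℂ => (a : ℍ → ℂ) (ofComplex z) / (b : ℍ → ℂ) (ofComplex z) with hg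
  have hmer : MeromorphicOn g U := by
    intro z hz
    exact S24_merAt_div_hol a b ⟨z, hz⟩
  set G : ℂ → ℂ := toMeromorphicNFOn g U with hG
  have hNF : MeromorphicNFOn G U := meromorphicNFOn_toMeromorphicNFOn g U
  have hGg : ∀ z ∈ U, G =ᶠ[𝓝[≠] z] g := fun z hz => hmer.toMeromorphicNFOn_eq_self_on_nhdsNE hz
  have han : ∀ z ∈ U, AnalyticAt ℂ G z := by
    intro z hz
    rw [← (hNF hz).meromorphicOrderAt_nonneg_iff_analyticAt, meromorphicOrderAt_congr (hGg z hz)]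
    have h1 := S24_ordAt_div_hol ha hb ⟨z, hz⟩
    have h2 := h ⟨z, hz⟩
    rw [S24_ordM_div_hol _ ha hb] at h2
    have h3 : meromorphicOrderAt g z = ((S24_ordH ⟨z, hz⟩ a - S24_ordH ⟨z, hz⟩ b : ℤ) : WithTop ℤ) :=
      h1
    rw [h3]
    exact_mod_cast h2
  -- the holomorphic function
  have hdiff : DifferentiableOn ℂ G U := fun z hz => (han z hz).differentiableAt.differentiableWithinAt
  set Hf : ℍ → ℂ := fun τ => G (τ : ℂ) with hHf
  have hHmd : MDifferentiable 𝓘(ℂ) 𝓘(ℂ) Hf := by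
    rw [UpperHalfPlane.mdifferentiable_iff]
    refine hdiff.congr ?_
    intro z hz
    show Hf (ofComplex z) = G z
    rw [hHf]
    simp only
    rw [ofComplex_apply_of_im_pos hz]
  refine ⟨⟨Hf, hHmd⟩, ?_⟩
  have hb' := S24_algebraMap_ne_zero hb
  rw [eq_div_iff hb', ← map_mul]
  congr 1
  rw [hol_ext_iff]
  intro τ
  show G (τ : ℂ) * (b : ℍ → ℂ) τ = (a : ℍ → ℂ) τ
  -- both sides are continuous at `τ` and agree on a punctured neighbourhood
  have hτU : (τ : ℂ) ∈ U := τ.im_pos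
  have hca : ContinuousAt (fun z : ℂ => (a : ℍ → ℂ) (ofComplex z)) (τ : ℂ) :=
    (S24_analyticAt_of_mdiff (S24_Hol_mdiff a) τ).continuousAt
  have hcb : ContinuousAt (fun z : ℂ => (b : ℍ → ℂ) (ofComplex z)) (τ : ℂ) :=
    (S24_analyticAt_of_mdiff (S24_Hol_mdiff b) τ).continuousAt
  have hcG : ContinuousAt G (τ : ℂ) := (han _ hτU).continuousAt
  have hev : ∀ᶠ z in 𝓝[≠] (τ : ℂ),
      G z * (b : ℍ → ℂ) (ofComplex z) = (a : ℍ → ℂ) (ofComplex z) := by
    filter_upwards [hGg _ hτU, S24_Hol_eventually_ne hb τ] with z hz1 hz2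
    rw [hz1, hg]
    simp only
    exact div_mul_cancel₀ _ hz2
  have hL : Tendsto (fun z : ℂ => G z * (b : ℍ → ℂ) (ofComplex z)) (𝓝[≠] (τ : ℂ))
      (𝓝 (G (τ : ℂ) * (b : ℍ → ℂ) (ofComplex (τ : ℂ)))) :=
    ((hcG.mul hcb).tendsto).mono_left nhdsWithin_le_nhds
  have hR : Tendsto (fun z : ℂ => G z * (b : ℍ → ℂ) (ofComplex z)) (𝓝[≠] (τ : ℂ))
      (𝓝 ((a : ℍ → ℂ) (ofComplex (τ : ℂ)))) :=
    ((hca.tendsto).mono_left nhdsWithin_le_nhds).congr' (hev.mono fun z hz => hz.symm)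
  have := tendsto_nhds_unique hL hR
  simpa using this

/-- If `x ^ r` is holomorphic (`r > 0`), so is `x`. -/
theorem KM_exists_hol_of_pow {r : ℕ} (hr : 0 < r) (x : Mer) (A : Hol)
    (hA : x ^ r = algebraMap Hol Mer A) : ∃ H : Hol, algebraMap Hol Mer H = x := by
  by_cases hx : x = 0
  · exact ⟨0, by rw [hx, map_zero]⟩
  apply KM_exists_hol_of_ordM_nonneg
  intro τ
  have hv : IsVal (K := ℂ) (fun x : Mer => S24_ordM τ x) :=
    S24_isVal_ordM (RingHom.id ℂ) (RingHom.id Mer) (fun c => rfl) τ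
  have h1 : S24_ordM τ (x ^ r) = (r : ℤ) * S24_ordM τ x := hv.pow hx r
  have hA0 : A ≠ 0 := by
    rintro rfl
    rw [map_zero] at hA
    exact hx (pow_eq_zero_iff hr.ne' |>.mp hA)
  rw [hA, S24_ordM_of_hol τ hA0] at h1
  have h2 := S24_ordH_nonneg τ A
  have hr' : (0 : ℤ) < r := by exact_mod_cast hr
  by_contra hneg
  push Not at hneg
  nlinarith

end Fermat.Agent.GalRep
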