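import Mathlib
import Fermat.Agent.S24.CuspMer

/-!
# Pillar G, package KM: change of the period `N ↦ N * r` for `MeroCusp`, `cuspOrd`, `CuspFrac`

If `g` is holomorphic, `N`-periodic and of moderate growth, it is also `N r`-periodic; its order in
the parameter `exp (2πiτ/(N r))` is `r` times its order in `exp (2πiτ/N)`, and the leading
coefficient is the same.
-/

set_option autoImplicit false

open scoped Real Topology Manifold
open UpperHalfPlane hiding I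
open Complex Filter Function

namespace Fermat.Agent.GalRep

open Fermat.Agent.S24

local notation "𝕢" => Function.Periodic.qParam

theorem KM_qParam_pow (N r : ℕ) (hN : 0 < N) (hr : 0 < r) (z : ℂ) :
    𝕢 ((N * r : ℕ) : ℝ) z ^ r = 𝕢 (N : ℝ) z := by
  have hN0 : (N : ℂ) ≠ 0 := by exact_mod_cast hN.ne'
  have hr0 : (r : ℂ) ≠ 0 := by exact_mod_cast hr.ne'
  rw [Function.Periodic.qParam, Function.Periodic.qParam, ← Complex.exp_nat_mul]
  congr 1
  push_cast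
  field_simp

theorem KM_per_mul {N : ℕ} {g : ℍ → ℂ} (hper : ∀ τ : ℍ, g ((N : ℝ) +ᵥ τ) = g τ) (k : ℕ) :
    ∀ τ : ℍ, g (((N * k : ℕ) : ℝ) +ᵥ τ) = g τ := by
  induction k with
  | zero =>
    intro τ
    congr 1
    apply UpperHalfPlane.ext
    simp
  | succ k ih =>
    intro τ
    have e : (((N * (k + 1) : ℕ) : ℝ) +ᵥ τ) = ((N : ℝ) +ᵥ (((N * k : ℕ) : ℝ) +ᵥ τ)) := by
      apply UpperHalfPlane.ext
      simp only [coe_vadd]
      push_cast
      ring
    rw [e, hper, ih]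

/-- `N`-periodic of moderate growth ⇒ `N r`-periodic of moderate growth. -/
theorem KM_meroCusp_mul {N : ℕ} (hN : 0 < N) {r : ℕ} (hr : 0 < r) {g : ℍ → ℂ}
    (hg : MeroCusp N g) : MeroCusp (N * r) g where
  per := KM_per_mul hg.per r
  hol := hg.hol
  bdd := by
    obtain ⟨m, hm⟩ := hg.bdd
    refine ⟨r * m, ?_⟩
    have e : (fun τ : ℍ ↦ 𝕢 ((N * r : ℕ) : ℝ) τ ^ (r * m) * g τ)
        = fun τ : ℍ ↦ 𝕢 (N : ℝ) τ ^ m * g τ := by
      funext τ
      rw [pow_mul, KM_qParam_pow N r hN hr]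
    rw [e]
    exact hm

/-- the cusp function at level `N r` is the cusp function at level `N` composed with `q ↦ q^r`. -/
theorem KM_cuspFunction_mul {N : ℕ} (hN : 0 < N) {r : ℕ} (hr : 0 < r) {g : ℍ → ℂ}
    (hg : MeroCusp N g) :
    cuspFunction ((N * r : ℕ) : ℝ) g =ᶠ[𝓝[≠] 0] fun q ↦ cuspFunction (N : ℝ) g (q ^ r) := by
  have : NeZero N := ⟨hN.ne'⟩
  have : NeZero (N * r) := ⟨(Nat.mul_pos hN hr).ne'⟩
  have hg' := KM_meroCusp_mul hN hr hg
  have hpos : (0 : ℝ) < ((N * r : ℕ) : ℝ) := by exact_mod_cast Nat.mul_pos hN hr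
  filter_upwards [eventually_nhdsNE_norm_lt_one] with q hq
  have h1 := qParam_ofComplex_invQParam hpos hq.1 hq.2
  set τ : ℍ := ofComplex (Function.Periodic.invQParam ((N * r : ℕ) : ℝ) q) with hτ
  have h2 := hg'.eq_cuspFunction τ
  have h3 := hg.eq_cuspFunction τ
  rw [← KM_qParam_pow N r hN hr, h1] at h3
  rw [h1] at h2
  rw [h2, h3]

theorem KM_tendsto_pow_nhdsNE {r : ℕ} (hr : 0 < r) :
    Tendsto (fun q : ℂ ↦ q ^ r) (𝓝[≠] 0) (𝓝[≠] 0) := by
  apply tendsto_nhdsWithin_of_tendsto_nhds_of_eventually_within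
  · have : Tendsto (fun q : ℂ ↦ q ^ r) (𝓝 0) (𝓝 (0 ^ r)) := (continuous_pow r).tendsto 0
    rw [zero_pow hr.ne'] at this
    exact this.mono_left nhdsWithin_le_nhds
  · filter_upwards [self_mem_nhdsWithin] with q hq
    exact pow_ne_zero r hq

/-- order and leading coefficient of `q ↦ F (q ^ r)`. -/
theorem KM_order_comp_pow {F : ℂ → ℂ} {r : ℕ} (hr : 0 < r) (hF : MeromorphicAt F 0)
    (htop : meromorphicOrderAt F 0 ≠ ⊤) :
    meromorphicOrderAt (fun q ↦ F (q ^ r)) 0 = ((r * (meromorphicOrderAt F 0).untop₀ : ℤ) : WithTop ℤ)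
    ∧ meromorphicTrailingCoeffAt (fun q ↦ F (q ^ r)) 0 = meromorphicTrailingCoeffAt F 0 := by
  obtain ⟨H, hHa, hH0, hHe⟩ := (meromorphicOrderAt_ne_top_iff hF).1 htop
  set k : ℤ := (meromorphicOrderAt F 0).untop₀ with hk
  have hHr : AnalyticAt ℂ (fun q : ℂ ↦ H (q ^ r)) 0 := by
    have h1 : AnalyticAt ℂ (fun q : ℂ ↦ q ^ r) 0 := analyticAt_id.pow r
    have h2 : AnalyticAt ℂ H ((fun q : ℂ ↦ q ^ r) 0) := by
      show AnalyticAt ℂ H ((0 : ℂ) ^ r)
      rw [zero_pow hr.ne']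
      exact hHa
    exact AnalyticAt.comp (g := H) (f := fun q : ℂ ↦ q ^ r) (x := 0) h2 h1
  have hHr0 : (fun q : ℂ ↦ H (q ^ r)) 0 ≠ 0 := by
    show H ((0 : ℂ) ^ r) ≠ 0
    rw [zero_pow hr.ne']
    exact hH0
  have hev : (fun q ↦ F (q ^ r)) =ᶠ[𝓝[≠] 0] fun q ↦ (q - 0) ^ ((r : ℤ) * k) • H (q ^ r) := by
    have h1 := (KM_tendsto_pow_nhdsNE hr).eventually hHe
    filter_upwards [h1] with q hq
    rw [hq]
    simp only [sub_zero, smul_eq_mul]
    rw [zpow_mul, zpow_natCast]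
  have hmer : MeromorphicAt (fun q ↦ F (q ^ r)) 0 := by
    have h0 : MeromorphicAt (fun q : ℂ ↦ (q - 0) ^ ((r : ℤ) * k) • H (q ^ r)) 0 :=
      (((analyticAt_id.sub analyticAt_const).meromorphicAt).zpow _).smul hHr.meromorphicAt
    exact h0.congr (hev.mono fun q hq => hq.symm)
  constructor
  · rw [meromorphicOrderAt_eq_int_iff hmer]
    exact ⟨_, hHr, hHr0, hev⟩
  · rw [hHr.meromorphicTrailingCoeffAt_of_ne_zero_of_eq_nhdsNE hHr0 hev,
      hHa.meromorphicTrailingCoeffAt_of_ne_zero_of_eq_nhdsNE hH0 hHe]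
    show H ((0 : ℂ) ^ r) = H 0
    rw [zero_pow hr.ne']

theorem KM_cuspOrd_mul_level {N : ℕ} (hN : 0 < N) {r : ℕ} (hr : 0 < r) {g : ℍ → ℂ}
    (hg : MeroCusp N g) (h0 : g ≠ 0) :
    cuspOrd (N * r) g = r * cuspOrd N g ∧ cuspLC (N * r) g = cuspLC N g := by
  have : NeZero N := ⟨hN.ne'⟩
  have hF := hg.meromorphicAt
  have htop := hg.order_ne_top h0
  obtain ⟨h1, h2⟩ := KM_order_comp_pow hr hF htop
  constructor
  · unfold cuspOrd
    rw [meromorphicOrderAt_congr (KM_cuspFunction_mul hN hr hg), h1]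
    rfl
  · unfold cuspLC
    rw [meromorphicTrailingCoeffAt_congr_nhdsNE (KM_cuspFunction_mul hN hr hg), h2]

/-- **Level change for `CuspFrac`.** -/
theorem KM_cuspFrac_mul_level {N : ℕ} (hN : 0 < N) {r : ℕ} (hr : 0 < r) {φ : Mer} {n : ℤ} {c : ℂ}
    (h : CuspFrac N φ n c) : CuspFrac (N * r) φ (r * n) c := by
  obtain ⟨a, b, hma, hmb, ha, hb, e, rfl, rfl⟩ := h
  obtain ⟨ha1, ha2⟩ := KM_cuspOrd_mul_level hN hr hma (hol_coe_ne_zero ha)
  obtain ⟨hb1, hb2⟩ := KM_cuspOrd_mul_level hN hr hmb (hol_coe_ne_zero hb)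
  refine ⟨a, b, KM_meroCusp_mul hN hr hma, KM_meroCusp_mul hN hr hmb, ha, hb, e, ?_, ?_⟩
  · rw [ha1, hb1]; ring
  · rw [ha2, hb2]

end Fermat.Agent.GalRep
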