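/-
Pillar G, package B1: the level-one bridge.  An `SL(2,ℤ)`-invariant meromorphic function on `ℍ`
which is meromorphic at `i∞` is a rational function of `j`.
-/
import Mathlib
import Fermat.Agent.S24.CuspGen
import Fermat.Agent.S24.EvInv
import Fermat.Agent.S24.JFacts
import Fermat.Agent.S24.MerField
import Fermat.Agent.GalRep.KMHol
import Fermat.Agent.GalRep.KMLevel
import Fermat.Agent.GalRep.BridgePoly

set_option autoImplicit false

open scoped Real Topology Manifold MatrixGroups ModularForm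
open UpperHalfPlane hiding I
open Complex Filter Function

namespace Fermat.Agent.GalRep

open Fermat.Agent.S24

local notation "𝕢" => Function.Periodic.qParam

/-- the field `ℂ(j) ⊂ Mer`. -/
noncomputable def KMB_Cj : Subfield Mer :=
  Subfield.closure (Set.range (algebraMap ℂ Mer) ∪ {algebraMap Hol Mer (jHol 1)})

theorem KMB_adjoin_le {f : Hol} (hf : f ∈ Algebra.adjoin ℂ ({jHol 1} : Set Hol)) :
    algebraMap Hol Mer f ∈ KMB_Cj := by
  induction hf using Algebra.adjoin_induction with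
  | mem x hx =>
    rw [Set.mem_singleton_iff] at hx
    subst hx
    exact Subfield.subset_closure (Or.inr (Set.mem_singleton _))
  | algebraMap c =>
    rw [← IsScalarTower.algebraMap_apply]
    exact Subfield.subset_closure (Or.inl ⟨c, rfl⟩)
  | add x y _ _ hx hy => rw [map_add]; exact add_mem hx hy
  | mul x y _ _ hx hy => rw [map_mul]; exact mul_mem hx hy

theorem KMB_adjoin_inv {f : Hol} (hf : f ∈ Algebra.adjoin ℂ ({jHol 1} : Set Hol))
    (γ : SL(2, ℤ)) : holComp γ f = f := by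
  induction hf using Algebra.adjoin_induction with
  | mem x hx =>
    rw [Set.mem_singleton_iff] at hx
    subst hx
    exact S24_inv_holComp_jHol_one γ
  | algebraMap c => exact AlgHom.commutes _ c
  | add x y _ _ hx hy => rw [map_add, hx, hy]
  | mul x y _ _ hx hy => rw [map_mul, hx, hy]

theorem KMB_meroCusp_j : MeroCusp 1 ((jHol 1 : Hol) : ℍ → ℂ) where
  per := KMB_per_of_inv S24_inv_holComp_jHol_one
  hol := S24_Hol_mdiff _
  bdd := by
    obtain ⟨c, -, ht⟩ := KMB_j_tendsto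
    refine ⟨1, ?_⟩
    have h1 : IsBoundedAtImInfty
        (fun τ : ℍ ↦ 𝕢 ((1 : ℕ) : ℝ) τ * (jHol 1 : ℍ → ℂ) τ) := ht.isBigO_one ℝ
    refine h1.congr_left (fun τ ↦ ?_)
    rw [pow_one]

theorem KMB_adjoin_meroCusp {f : Hol} (hf : f ∈ Algebra.adjoin ℂ ({jHol 1} : Set Hol)) :
    MeroCusp 1 (f : ℍ → ℂ) := by
  induction hf using Algebra.adjoin_induction with
  | mem x hx =>
    rw [Set.mem_singleton_iff] at hx
    subst hx
    exact KMB_meroCusp_j
  | algebraMap c => exact MeroCusp.const c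
  | add x y _ _ hx hy => exact hx.add hy
  | mul x y _ _ hx hy => exact hx.mul hy

/-! ### orders of holomorphic functions -/

theorem KMB_ordH_pos {f : Hol} (hf : f ≠ 0) {τ : ℍ} (h0 : (f : ℍ → ℂ) τ = 0) :
    1 ≤ S24_ordH τ f := by
  have h := (S24_ordAt_pos_iff (S24_Hol_mdiff f) τ).2 h0
  rw [S24_ordH_spec hf] at h
  have : (0 : ℤ) < S24_ordH τ f := by exact_mod_cast h
  omega

theorem KMB_ordH_eq_zero {f : Hol} {τ : ℍ} (h0 : (f : ℍ → ℂ) τ ≠ 0) :
    S24_ordH τ f = 0 := by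
  have hf : f ≠ 0 := by
    rintro rfl
    exact h0 rfl
  have h := (S24_ordAt_eq_zero_iff (S24_Hol_mdiff f) τ).2 h0
  rw [S24_ordH_spec hf] at h
  exact_mod_cast h

theorem KMB_ordH_pow {f : Hol} (hf : f ≠ 0) (τ : ℍ) (k : ℕ) :
    S24_ordH τ (f ^ k) = k * S24_ordH τ f := by
  induction k with
  | zero => simp [S24_ordH_one]
  | succ k ih =>
    rw [pow_succ, S24_ordH_mul (pow_ne_zero _ hf) hf, ih]
    push_cast
    ring

/-- the linear factor `j - j(z₀)`. -/
noncomputable def KMB_lin (z₀ : ℍ) : Hol := jHol 1 - algebraMap ℂ Hol (S24_jfun z₀)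

theorem KMB_lin_apply (z₀ τ : ℍ) : (KMB_lin z₀ : ℍ → ℂ) τ = S24_jfun τ - S24_jfun z₀ := by
  have : (jHol 1 : ℍ → ℂ) τ = S24_jfun τ := by
    rw [jHol_apply, jFun_one_eq']
  rw [← this]
  rfl

theorem KMB_lin_ne_zero (z₀ : ℍ) : KMB_lin z₀ ≠ 0 := by
  intro h
  obtain ⟨τ, hτ⟩ := S24_jfun_surjective (S24_jfun z₀ + 1)
  have := congrArg (fun g : Hol ↦ (g : ℍ → ℂ) τ) h
  simp only [KMB_lin_apply, hτ] at this
  have h1 : ((0 : Hol) : ℍ → ℂ) τ = 0 := rfl
  rw [h1] at this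
  simp at this

theorem KMB_lin_mem (z₀ : ℍ) : KMB_lin z₀ ∈ Algebra.adjoin ℂ ({jHol 1} : Set Hol) :=
  Subalgebra.sub_mem _ (Algebra.subset_adjoin (Set.mem_singleton _))
    (Subalgebra.algebraMap_mem _ _)

/-- the clearing polynomial `∏_{z ∈ Z} (j - j(z))^k`. -/
noncomputable def KMB_clear (Z : Finset ℂ) (k : ℕ) : Hol :=
  ∏ z ∈ Z, KMB_lin (ofComplex z) ^ k

theorem KMB_clear_ne_zero (Z : Finset ℂ) (k : ℕ) : KMB_clear Z k ≠ 0 :=
  Finset.prod_ne_zero_iff.2 fun _ _ ↦ pow_ne_zero _ (KMB_lin_ne_zero _)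

theorem KMB_clear_mem (Z : Finset ℂ) (k : ℕ) :
    KMB_clear Z k ∈ Algebra.adjoin ℂ ({jHol 1} : Set Hol) :=
  Subalgebra.prod_mem _ fun _ _ ↦ Subalgebra.pow_mem _ (KMB_lin_mem _) _

theorem KMB_le_ordH_clear (Z : Finset ℂ) (k : ℕ) {τ : ℍ} (hτ : (τ : ℂ) ∈ Z) :
    (k : ℤ) ≤ S24_ordH τ (KMB_clear Z k) := by
  classical
  have e : KMB_clear Z k = KMB_lin τ ^ k * ∏ z ∈ Z.erase (τ : ℂ), KMB_lin (ofComplex z) ^ k := by
    unfold KMB_clear
    rw [← Finset.mul_prod_erase Z _ hτ, ofComplex_apply]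
  have hR : (∏ z ∈ Z.erase (τ : ℂ), KMB_lin (ofComplex z) ^ k) ≠ 0 :=
    Finset.prod_ne_zero_iff.2 fun _ _ ↦ pow_ne_zero _ (KMB_lin_ne_zero _)
  rw [e, S24_ordH_mul (pow_ne_zero _ (KMB_lin_ne_zero _)) hR, KMB_ordH_pow (KMB_lin_ne_zero _)]
  have h1 : 1 ≤ S24_ordH τ (KMB_lin τ) :=
    KMB_ordH_pos (KMB_lin_ne_zero _) (by rw [KMB_lin_apply, sub_self])
  have h2 := S24_ordH_nonneg τ (∏ z ∈ Z.erase (τ : ℂ), KMB_lin (ofComplex z) ^ k)
  nlinarith

/-- the zeros of a nonzero holomorphic function in a compact subset of the upper half plane are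
contained in a finite set. -/
theorem KMB_finite_zeros {b : Hol} (hb : b ≠ 0) (K : Set ℂ) (hK : IsCompact K)
    (hKU : ∀ z ∈ K, 0 < z.im) :
    ∃ Z : Finset ℂ, ∀ τ : ℍ, (τ : ℂ) ∈ K → (b : ℍ → ℂ) τ = 0 → (τ : ℂ) ∈ Z := by
  obtain ⟨t, -, ht⟩ := hK.elim_nhds_subcover
    (fun x ↦ {w : ℂ | w ≠ x → (b : ℍ → ℂ) (ofComplex w) ≠ 0})
    (fun x hx ↦ by
      have := S24_Hol_eventually_ne hb ⟨x, hKU x hx⟩
      rw [eventually_nhdsWithin_iff] at this
      filter_upwards [this] with w hw hwx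
      exact hw hwx)
  refine ⟨t, fun τ hτ h0 ↦ ?_⟩
  obtain ⟨x, hx, hzx⟩ := Set.mem_iUnion₂.mp (ht hτ)
  by_contra hzt
  refine hzx (fun h ↦ hzt (h ▸ hx)) ?_
  rw [ofComplex_apply]
  exact h0

theorem KMB_isCompact_box (A : ℝ) :
    IsCompact {z : ℂ | |z.re| ≤ 1 / 2 ∧ 1 / 2 ≤ z.im ∧ z.im ≤ A} := by
  have hcl : IsClosed {z : ℂ | |z.re| ≤ 1 / 2 ∧ 1 / 2 ≤ z.im ∧ z.im ≤ A} := by
    refine IsClosed.inter ?_ (IsClosed.inter ?_ ?_)
    · exact isClosed_le (continuous_abs.comp Complex.continuous_re) continuous_const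
    · exact isClosed_le continuous_const Complex.continuous_im
    · exact isClosed_le Complex.continuous_im continuous_const
  refine Metric.isCompact_of_isClosed_isBounded hcl ?_
  rw [Metric.isBounded_iff_subset_closedBall (0 : ℂ)]
  refine ⟨1 / 2 + |A| + 1, fun z hz ↦ ?_⟩
  obtain ⟨h1, h2, h3⟩ := hz
  rw [mem_closedBall_zero_iff]
  have hn := Complex.norm_le_abs_re_add_abs_im z
  have h4 : |z.im| ≤ |A| + 1 := by
    rw [abs_le]
    constructor
    · have := abs_nonneg A; linarith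
    · have := le_abs_self A; linarith
  linarith

/-- a `1`-periodic function of moderate growth is `N`-periodic of moderate growth. -/
theorem KMB_meroCusp_level (N : ℕ) [NeZero N] {g : ℍ → ℂ} (hg : MeroCusp 1 g) :
    MeroCusp N g := by
  have h := KM_meroCusp_mul (N := 1) one_pos (r := N) (Nat.pos_of_ne_zero (NeZero.ne N)) hg
  rwa [one_mul] at h

/-- moderate growth in `q_N` implies moderate growth in `q_1`. -/
theorem KMB_bdd_level (N : ℕ) [NeZero N] (M : ℕ) (f : ℍ → ℂ)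
    (h : IsBoundedAtImInfty (fun τ : ℍ ↦ 𝕢 (N : ℝ) τ ^ M * f τ)) :
    IsBoundedAtImInfty (twist 1 M f) := by
  have h1 : twist 1 M f =O[atImInfty] (fun τ : ℍ ↦ 𝕢 (N : ℝ) τ ^ M * f τ) := by
    refine Asymptotics.IsBigO.of_bound 1 (Eventually.of_forall fun τ ↦ ?_)
    rw [one_mul]
    simp only [twist, norm_mul, norm_pow]
    refine mul_le_mul_of_nonneg_right ?_ (norm_nonneg _)
    refine pow_le_pow_left₀ (norm_nonneg _) ?_ M
    rw [Function.Periodic.norm_qParam, Function.Periodic.norm_qParam, Real.exp_le_exp]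
    have hN : (1 : ℝ) ≤ (N : ℝ) := by exact_mod_cast Nat.one_le_iff_ne_zero.2 (NeZero.ne N)
    have hpi := Real.pi_pos
    have him : 0 < (τ : ℂ).im := τ.im_pos
    have h2 : (0 : ℝ) < 2 * π * (τ : ℂ).im := by positivity
    have h3 : 2 * π * (τ : ℂ).im / (N : ℝ) ≤ 2 * π * (τ : ℂ).im / ((1 : ℕ) : ℝ) := by
      rw [Nat.cast_one, div_one]
      exact div_le_self h2.le hN
    have e1 : -2 * π * (τ : ℂ).im / ((1 : ℕ) : ℝ) = -(2 * π * (τ : ℂ).im / ((1 : ℕ) : ℝ)) := by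
      ring
    have e2 : -2 * π * (τ : ℂ).im / (N : ℝ) = -(2 * π * (τ : ℂ).im / (N : ℝ)) := by ring
    rw [e1, e2]
    exact neg_le_neg h3
  exact h1.trans h

/-- **B₁ at level `N`**: an `SL(2,ℤ)`-invariant meromorphic function on `ℍ` which is meromorphic
at `i∞` (in the parameter `q^{1/N}`) is a rational function of `j`. -/
theorem KMB_bridge_one_level (N : ℕ) [NeZero N] (y : Mer)
    (hinv : ∀ γ : SL(2, ℤ), merComp γ y = y)
    (m : ℤ) (c : ℂ) (hc : CuspFrac N y m c) :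
    y ∈ KMB_Cj := by
  classical
  obtain ⟨a, b, hma, hmb, ha, hb, e, -, -⟩ := hc
  have hbM : algebraMap Hol Mer b ≠ 0 := S24_algebraMap_ne_zero hb
  have hy : y = algebraMap Hol Mer a / algebraMap Hol Mer b := by
    rw [eq_div_iff hbM, e]
  -- `b` has no zeros high up
  obtain ⟨A, hA⟩ := (atImInfty_mem _).1 (KMB_eventually_ne hmb (hol_coe_ne_zero hb))
  obtain ⟨Z, hZ⟩ := KMB_finite_zeros hb _ (KMB_isCompact_box A)
    (fun z hz ↦ by
      have := hz.2.1
      linarith)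
  set k : ℕ := ∑ z ∈ Z, (S24_ordH (ofComplex z) b).toNat with hk
  set P : Hol := KMB_clear Z k with hP
  have hP0 : P ≠ 0 := KMB_clear_ne_zero Z k
  have hPadj : P ∈ Algebra.adjoin ℂ ({jHol 1} : Set Hol) := KMB_clear_mem Z k
  have hPM : algebraMap Hol Mer P ≠ 0 := S24_algebraMap_ne_zero hP0
  set x : Mer := y * algebraMap Hol Mer P with hx
  have hxinv : ∀ γ : SL(2, ℤ), merComp γ x = x := by
    intro γ
    rw [hx, map_mul, hinv, merComp_algebraMap, KMB_adjoin_inv hPadj]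
  have hxe : x = algebraMap Hol Mer (a * P) / algebraMap Hol Mer b := by
    rw [hx, hy, map_mul]
    field_simp
  -- orders in the fundamental domain
  have hfd : ∀ τ : ℍ, τ ∈ ModularGroup.fd → 0 ≤ S24_ordM τ x := by
    intro τ hτ
    rw [hxe, S24_ordM_div_hol τ (mul_ne_zero ha hP0) hb, S24_ordH_mul ha hP0]
    have h1 := S24_ordH_nonneg τ a
    have h2 := S24_ordH_nonneg τ P
    by_cases hbτ : (b : ℍ → ℂ) τ = 0
    · have him : τ.im < A := by
        by_contra hcon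
        exact hA τ (not_lt.mp hcon) hbτ
      have h3 := ModularGroup.three_le_four_mul_im_sq_of_mem_fd hτ
      have h4 : (1 : ℝ) / 2 ≤ τ.im := by
        have := τ.im_pos
        nlinarith
      have hK : (τ : ℂ) ∈ {z : ℂ | |z.re| ≤ 1 / 2 ∧ 1 / 2 ≤ z.im ∧ z.im ≤ A} :=
        ⟨hτ.2, h4, him.le⟩
      have hτZ := hZ τ hK hbτ
      have h5 := KMB_le_ordH_clear Z k hτZ
      have h6 : (S24_ordH τ b).toNat ≤ k := by
        rw [hk]
        have := Finset.single_le_sum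
          (f := fun z : ℂ ↦ (S24_ordH (ofComplex z) b).toNat) (fun _ _ ↦ Nat.zero_le _) hτZ
        simpa [ofComplex_apply] using this
      have h7 : S24_ordH τ b ≤ (S24_ordH τ b).toNat := Int.self_le_toNat _
      have h8 : ((S24_ordH τ b).toNat : ℤ) ≤ k := by exact_mod_cast h6
      rw [← hP] at h5
      linarith
    · rw [KMB_ordH_eq_zero hbτ]
      linarith
  have hxord : ∀ τ : ℍ, 0 ≤ S24_ordM τ x := by
    intro τ
    obtain ⟨γ, hγ⟩ := ModularGroup.exists_smul_mem_fd τ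
    have := hfd (γ • τ) hγ
    rwa [← S24_ordM_merComp, hxinv] at this
  obtain ⟨h₀, hh₀⟩ := KM_exists_hol_of_ordM_nonneg x hxord
  have hh₀inv : ∀ γ : SL(2, ℤ), holComp γ h₀ = h₀ := by
    intro γ
    apply IsFractionRing.injective Hol Mer
    rw [← merComp_algebraMap, hh₀, hxinv]
  have hmul : h₀ * b = a * P := by
    apply IsFractionRing.injective Hol Mer
    rw [map_mul, hh₀, hxe, div_mul_cancel₀ _ hbM]
  obtain ⟨M, hM⟩ := KMB_bdd_of_mul_eq
    (hma.mul (KMB_meroCusp_level N (KMB_adjoin_meroCusp hPadj))) hmb hb hmul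
  have hmem := KMB_poly_of_bdd M h₀ hh₀inv (KMB_bdd_level N M _ hM)
  have hyx : y = algebraMap Hol Mer h₀ / algebraMap Hol Mer P := by
    rw [hh₀, hx, mul_div_assoc, div_self hPM, mul_one]
  rw [hyx]
  exact div_mem (KMB_adjoin_le hmem) (KMB_adjoin_le hPadj)

/-- **B₁**, the level-one bridge: an `SL(2,ℤ)`-invariant meromorphic function on `ℍ` which is
meromorphic at `i∞` is a rational function of `j`. -/
theorem KM_bridge_one (y : Mer) (hinv : ∀ γ : SL(2, ℤ), merComp γ y = y)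
    (m : ℤ) (c : ℂ) (hc : CuspFrac 1 y m c) :
    y ∈ Subfield.closure
      (Set.range (algebraMap ℂ Mer) ∪ {algebraMap Hol Mer (jHol 1)}) :=
  KMB_bridge_one_level 1 y hinv m c hc

end Fermat.Agent.GalRep
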