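/-
Pillar G, package B (part 1): the field of `Γ₀(N)`-invariant meromorphic functions which are
meromorphic at all cusps, the conjugates of such a function and its characteristic polynomial
over `ℂ(j)`.
-/
import Mathlib
import Fermat.Agent.S24.Conj
import Fermat.Agent.S20.P1Basic
import Fermat.Agent.GalRep.BridgeOne

set_option autoImplicit false

open scoped Real Topology Manifold MatrixGroups ModularForm
open UpperHalfPlane hiding I
open CongruenceSubgroup
open Fermat.Agent.S20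

namespace Fermat.Agent.GalRep

open Fermat.Agent.S24

/-- the elements of `Mer` which are `0` or meromorphic at `i∞` in the parameter `q^{1/N}`. -/
noncomputable def KMB_R (N : ℕ) [NeZero N] : Subfield Mer where
  carrier := {x | x = 0 ∨ ∃ (m : ℤ) (c : ℂ), CuspFrac N x m c}
  zero_mem' := Or.inl rfl
  one_mem' := Or.inr ⟨0, 1, by simpa using CuspFrac.const (N := N) (z := 1) one_ne_zero⟩
  add_mem' := by
    rintro x y (rfl | ⟨m, c, hx⟩) (rfl | ⟨m', c', hy⟩)
    · exact Or.inl (add_zero _)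
    · rw [zero_add]; exact Or.inr ⟨m', c', hy⟩
    · rw [add_zero]; exact Or.inr ⟨m, c, hx⟩
    · by_cases hs : x + y = 0
      · exact Or.inl hs
      · obtain ⟨k, e, h, -⟩ := hx.add hy hs
        exact Or.inr ⟨k, e, h⟩
  mul_mem' := by
    rintro x y (rfl | ⟨m, c, hx⟩) (rfl | ⟨m', c', hy⟩)
    · exact Or.inl (mul_zero _)
    · exact Or.inl (zero_mul _)
    · exact Or.inl (mul_zero _)
    · exact Or.inr ⟨_, _, hx.mul hy⟩
  neg_mem' := by
    rintro x (rfl | ⟨m, c, hx⟩)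
    · exact Or.inl neg_zero
    · exact Or.inr ⟨_, _, hx.neg⟩
  inv_mem' := by
    rintro x (rfl | ⟨m, c, hx⟩)
    · exact Or.inl inv_zero
    · exact Or.inr ⟨_, _, hx.inv⟩

theorem KMB_mem_R {N : ℕ} [NeZero N] {x : Mer} :
    x ∈ KMB_R N ↔ x = 0 ∨ ∃ (m : ℤ) (c : ℂ), CuspFrac N x m c := Iff.rfl

/-- the field of `Γ₀(N)`-invariant meromorphic functions on `ℍ` which are meromorphic at all
cusps, in the parameter `q^{1/M}`. -/
noncomputable def KMB_FL (N M : ℕ) [NeZero M] : Subfield Mer where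
  carrier := {z | (∀ h ∈ Gamma0 N, merComp h z = z) ∧ ∀ γ : SL(2, ℤ), merComp γ z ∈ KMB_R M}
  zero_mem' := ⟨fun h _ ↦ map_zero _, fun γ ↦ by rw [map_zero]; exact zero_mem _⟩
  one_mem' := ⟨fun h _ ↦ map_one _, fun γ ↦ by rw [map_one]; exact one_mem _⟩
  add_mem' := by
    rintro x y ⟨hx, hx'⟩ ⟨hy, hy'⟩
    exact ⟨fun h hh ↦ by rw [map_add, hx h hh, hy h hh],
      fun γ ↦ by rw [map_add]; exact add_mem (hx' γ) (hy' γ)⟩
  mul_mem' := by
    rintro x y ⟨hx, hx'⟩ ⟨hy, hy'⟩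
    exact ⟨fun h hh ↦ by rw [map_mul, hx h hh, hy h hh],
      fun γ ↦ by rw [map_mul]; exact mul_mem (hx' γ) (hy' γ)⟩
  neg_mem' := by
    rintro x ⟨hx, hx'⟩
    exact ⟨fun h hh ↦ by rw [map_neg, hx h hh],
      fun γ ↦ by rw [map_neg]; exact neg_mem (hx' γ)⟩
  inv_mem' := by
    rintro x ⟨hx, hx'⟩
    exact ⟨fun h hh ↦ by rw [map_inv₀, hx h hh],
      fun γ ↦ by rw [map_inv₀]; exact inv_mem (hx' γ)⟩

theorem KMB_mem_FL {N M : ℕ} [NeZero M] {z : Mer} :
    z ∈ KMB_FL N M ↔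
      (∀ h ∈ Gamma0 N, merComp h z = z) ∧ ∀ γ : SL(2, ℤ), merComp γ z ∈ KMB_R M :=
  Iff.rfl

/-- the field of `Γ₀(N)`-invariant meromorphic functions on `ℍ` which are meromorphic at all
cusps. -/
noncomputable abbrev KMB_F (N : ℕ) [NeZero N] : Subfield Mer := KMB_FL N N

theorem KMB_mem_F {N : ℕ} [NeZero N] {z : Mer} :
    z ∈ KMB_F N ↔ (∀ h ∈ Gamma0 N, merComp h z = z) ∧ ∀ γ : SL(2, ℤ), merComp γ z ∈ KMB_R N :=
  Iff.rfl

/-! ### conjugates -/

/-- the conjugate `z ∘ g⁻¹` attached to the coset `γ = g Γ₀(N)`. -/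
noncomputable def KMB_conj (N : ℕ) (z : Mer) (γ : S20_Q N) : Mer :=
  merComp (Quotient.out γ)⁻¹ z

section

variable {N : ℕ} [NeZero N] {z : Mer}

omit [NeZero N] in
theorem KMB_conj_mk (hz : ∀ h ∈ Gamma0 N, merComp h z = z) (g : SL(2, ℤ)) :
    KMB_conj N z (QuotientGroup.mk g) = merComp g⁻¹ z := by
  have hout : (Quotient.out (QuotientGroup.mk g : S20_Q N))⁻¹ * g ∈ Gamma0 N :=
    QuotientGroup.leftRel_apply.mp (Quotient.mk_out (s := QuotientGroup.leftRel (Gamma0 N)) g)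
  set o := Quotient.out (QuotientGroup.mk g : S20_Q N) with ho
  show merComp o⁻¹ z = merComp g⁻¹ z
  have h1 : g⁻¹ = (o⁻¹ * g)⁻¹ * o⁻¹ := by group
  rw [h1, merComp_mul_apply, hz _ (inv_mem hout)]

omit [NeZero N] in
theorem KMB_conj_smul (hz : ∀ h ∈ Gamma0 N, merComp h z = z) (a : SL(2, ℤ)) (γ : S20_Q N) :
    KMB_conj N z (a • γ) = merComp a⁻¹ (KMB_conj N z γ) := by
  obtain ⟨g, rfl⟩ := QuotientGroup.mk_surjective γ
  have h1 : a • (QuotientGroup.mk g : S20_Q N) = QuotientGroup.mk (a * g) := rfl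
  rw [h1, KMB_conj_mk hz, KMB_conj_mk hz, mul_inv_rev, merComp_mul_apply]

omit [NeZero N] in
theorem KMB_conj_one (hz : ∀ h ∈ Gamma0 N, merComp h z = z) :
    KMB_conj N z (QuotientGroup.mk 1) = z := by
  rw [KMB_conj_mk hz, inv_one, merComp_one]
  rfl

omit [NeZero N] in
theorem KMB_conj_mem_R {M : ℕ} [NeZero M] (hz : z ∈ KMB_FL N M) (γ : S20_Q N) :
    KMB_conj N z γ ∈ KMB_R M :=
  hz.2 _

end

/-! ### the characteristic polynomial -/

/-- a `Fintype` structure on the set of cosets. -/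
@[reducible] noncomputable def KMB_fintypeQ (N : ℕ) [NeZero N] : Fintype (S20_Q N) := Fintype.ofFinite _

/-- the polynomial `∏_γ (X - z ∘ γ⁻¹)`. -/
noncomputable def KMB_Q (N : ℕ) [NeZero N] (z : Mer) : Polynomial Mer :=
  letI := KMB_fintypeQ N
  ∏ γ : S20_Q N, (Polynomial.X - Polynomial.C (KMB_conj N z γ))

section

variable {N : ℕ} [NeZero N] {z : Mer}

theorem KMB_Q_monic (z : Mer) : (KMB_Q N z).Monic := by
  let _ := KMB_fintypeQ N
  unfold KMB_Q
  exact Polynomial.monic_prod_X_sub_C _ _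

theorem KMB_Q_natDegree (z : Mer) : (KMB_Q N z).natDegree = Nat.card (S20_Q N) := by
  classical
  let _ := KMB_fintypeQ N
  unfold KMB_Q
  rw [Polynomial.natDegree_finsetProd_X_sub_C_eq_card, Finset.card_univ, Nat.card_eq_fintype_card]

theorem KMB_Q_eval (hz : ∀ h ∈ Gamma0 N, merComp h z = z) : (KMB_Q N z).eval z = 0 := by
  classical
  let _ := KMB_fintypeQ N
  unfold KMB_Q
  rw [Polynomial.eval_prod]
  refine Finset.prod_eq_zero (Finset.mem_univ (QuotientGroup.mk 1 : S20_Q N)) ?_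
  rw [Polynomial.eval_sub, Polynomial.eval_X, Polynomial.eval_C, KMB_conj_one hz, sub_self]

theorem KMB_Q_map (hz : ∀ h ∈ Gamma0 N, merComp h z = z) (a : SL(2, ℤ)) :
    (KMB_Q N z).map (merComp a⁻¹) = KMB_Q N z := by
  classical
  let _ := KMB_fintypeQ N
  unfold KMB_Q
  rw [Polynomial.map_prod]
  simp only [Polynomial.map_sub, Polynomial.map_X, Polynomial.map_C]
  refine Fintype.prod_equiv (MulAction.toPerm a) _ _ (fun γ ↦ ?_)
  rw [MulAction.toPerm_apply, KMB_conj_smul hz]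

theorem KMB_Q_coeff_inv (hz : ∀ h ∈ Gamma0 N, merComp h z = z) (n : ℕ) (a : SL(2, ℤ)) :
    merComp a ((KMB_Q N z).coeff n) = (KMB_Q N z).coeff n := by
  have h := KMB_Q_map hz a⁻¹
  rw [inv_inv] at h
  conv_rhs => rw [← h]
  rw [Polynomial.coeff_map]

theorem KMB_Q_coeff_mem_R {M : ℕ} [NeZero M] (hz : z ∈ KMB_FL N M) (n : ℕ) :
    (KMB_Q N z).coeff n ∈ KMB_R M := by
  classical
  let _ := KMB_fintypeQ N
  have e : KMB_Q N z = (∏ γ : S20_Q N, (Polynomial.X -
      Polynomial.C (⟨KMB_conj N z γ, KMB_conj_mem_R hz γ⟩ : KMB_R M))).map (KMB_R M).subtype := by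
    unfold KMB_Q
    rw [Polynomial.map_prod]
    simp only [Polynomial.map_sub, Polynomial.map_X, Polynomial.map_C]
    rfl
  rw [e, Polynomial.coeff_map]
  exact Subtype.property _

/-- the coefficients of the characteristic polynomial lie in `ℂ(j)`. -/
theorem KMB_Q_coeff_mem_Cj {M : ℕ} [NeZero M] (hz : z ∈ KMB_FL N M) (n : ℕ) :
    (KMB_Q N z).coeff n ∈ KMB_Cj := by
  rcases KMB_Q_coeff_mem_R hz n with h | ⟨m, c, h⟩
  · rw [h]; exact zero_mem _
  · exact KMB_bridge_one_level M _ (fun a ↦ KMB_Q_coeff_inv hz.1 n a) m c h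

end

end Fermat.Agent.GalRep
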