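import Mathlib
import Fermat.Agent.S24.EvExists
import Fermat.Agent.S24.MerField
import Fermat.Agent.S24.CuspW
import Fermat.Agent.S24.EvInv

/-!
# Pillar G, analytic Kummer map: definitions (package KM)

* `KM_FC N`: the function field `F_ℂ = ℂ · F₀ ⊂ ℂ((q))` of `X₀(N)` over `ℂ`;
* `KM_Real N K F ι e`: an abstract analytic realisation `e : F → Mer` of a field `F / K` as a
  field of modular functions for `Γ₀(N)`;
* `KM_real_bar`: S24's `ev N` is such a realisation of `F_ℚ̄ = modularFunctionFieldBar N`;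
* `KM_IsKum`, `KM_zeta`, `KM_HasChar`, `KM_IsEll`: Kummer generators and Kummer characters.
-/

set_option autoImplicit false

open ModularCurve AlgebraicCurve CongruenceSubgroup UpperHalfPlane Matrix.SpecialLinearGroup
open scoped MatrixGroups

namespace Fermat.Agent.GalRep

open Fermat.Agent.S24 Fermat.Agent.S20

/-- `F_ℂ = ℂ · F₀ ⊂ ℂ((q))`. -/
abbrev KM_FC (N : ℕ) [NeZero N] : Type :=
  ↥(laurentBaseChange ℂ (modularFunctionFieldFull N))

/-- **Abstract analytic realisation** of a field `F / K` as a field of modular functions of level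
`Γ₀(N)`. -/
structure KM_Real (N : ℕ) (K F : Type) [Field K] [Field F] [Algebra K F]
    (ι : K →+* ℂ) (e : F →+* Mer) : Prop where
  const : ∀ a : K, e (algebraMap K F a) = algebraMap ℂ Mer (ι a)
  inv : ∀ γ ∈ Gamma0 N, ∀ f : F, merComp γ (e f) = e f
  cusp : ∀ (γ : SL(2, ℤ)) (f : F), f ≠ 0 → ∃ (m : ℤ) (c : ℂ), CuspFrac N (merComp γ (e f)) m c

/-- S24 gives the realisation of `F_ℚ̄`. -/
theorem KM_real_bar (N : ℕ) [NeZero N] :
    KM_Real N (AlgebraicClosure ℚ) ↥(modularFunctionFieldBar N) kEmb (ev N) where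
  const := (isEv_ev N).const
  inv := S24_hinv N (ev N) (isEv_ev N)
  cusp := by
    intro γ f hf
    have hinv := S24_hinv N (ev N) (isEv_ev N)
    have h := cuspFrac_sig (isEv_ev N) (QuotientGroup.mk γ⁻¹ : S20_Q N) f
    rcases h with h | ⟨m, c, h⟩
    · exact absurd h hf
    · refine ⟨m, c, ?_⟩
      rw [S24_sig_mk hinv, inv_inv] at h
      exact h

/-- `f` is a Kummer generator of exponent `n`: `f ≠ 0` and `n ∣ div f`. -/
def KM_IsKum (K F : Type) [Field K] [Field F] [Algebra K F] (n : ℕ) (f : F) : Prop :=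
  f ≠ 0 ∧ ∀ v : Place K F, (n : ℤ) ∣ v.ord f

/-- the standard primitive `n`-th root of unity to the power `a`. -/
noncomputable def KM_zeta (n : ℕ) (a : ZMod n) : ℂ :=
  Complex.exp (2 * Real.pi * Complex.I * (a.val : ℂ) / (n : ℂ))

/-- `y ∈ Mer` transforms under `Γ₀(N)` by the character `ζ_n^χ`. -/
def KM_HasChar (N n : ℕ) (y : Mer) (χ : Additive (Gamma0 N) →+ ZMod n) : Prop :=
  ∀ γ : Gamma0 N, merComp (γ : SL(2, ℤ)) y
    = algebraMap ℂ Mer (KM_zeta n (χ (Additive.ofMul γ))) * y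

/-- `χ` kills the elements of trace `0, ±1, ±2` (elliptic, parabolic, `±1`). -/
def KM_IsEll (N n : ℕ) (χ : Additive (Gamma0 N) →+ ZMod n) : Prop :=
  ∀ γ : Gamma0 N, ((γ : SL(2, ℤ)) : Matrix (Fin 2) (Fin 2) ℤ).trace ^ 2 ≤ 4 →
    χ (Additive.ofMul γ) = 0

end Fermat.Agent.GalRep
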