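import Mathlib
import Fermat.Agent.GalRep.KMDefs

/-! # Pillar G, package S24C (helper13): generators and induction principle for `F_ℂ = ℂ(j(q^d) : d ∣ N)`
(port of `S24/FInd.lean` to `K = ℂ`) -/

set_option autoImplicit false

open ModularCurve IntermediateField

namespace Fermat.Agent.GalRep

open Fermat.Agent.S24

noncomputable section

/-- The generator `j(q^d)` of `F_ℂ`. -/
def KC_jBar (N : ℕ) [NeZero N] (d : ℕ) [NeZero d] (hd : d ∣ N) : KM_FC N :=
  ⟨coeffEmb ℂ (qExpand ℚ d jq), coeffEmb_mem_laurentBaseChange ℂ (jqd_mem_full N hd)⟩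

/-- The `j`-function as an element of `F_ℂ`. -/
def KC_jB (N : ℕ) [NeZero N] : KM_FC N := KC_jBar N 1 (one_dvd N)


/-- **Induction principle for `F_ℂ`**: `F` is generated as a field by
the constants and the `jBar N d`. -/
theorem KC_induction (N : ℕ) [NeZero N] (P : (KM_FC N) → Prop)
    (hK : ∀ c : ℂ,
      P (algebraMap ℂ (KM_FC N) c))
    (hgen : ∀ (d : ℕ) [NeZero d] (hd : d ∣ N), P (KC_jBar N d hd))
    (hadd : ∀ x y, P x → P y → P (x + y))
    (hmul : ∀ x y, P x → P y → P (x * y))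
    (hinv : ∀ x, P x → P x⁻¹) : ∀ f, P f := by
  -- inner induction over `modularFunctionFieldFull N`
  have inner : ∀ (y : LaurentSeries ℚ) (hy : y ∈ modularFunctionFieldFull N),
      ∀ h : coeffEmb ℂ y ∈ laurentBaseChange ℂ (modularFunctionFieldFull N),
      P ⟨coeffEmb ℂ y, h⟩ := by
    intro y hy
    refine IntermediateField.adjoin_induction ℚ
      (p := fun y _ => ∀ h : coeffEmb ℂ y ∈ laurentBaseChange ℂ (modularFunctionFieldFull N),
        P ⟨coeffEmb ℂ y, h⟩) ?_ ?_ ?_ ?_ ?_ hy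
    · rintro x ⟨d, hne, hd, rfl⟩ h
      exact hgen d hd
    · intro r h
      have h1 := hK (algebraMap ℚ ℂ r)
      have heq : (algebraMap ℂ (KM_FC N)
          (algebraMap ℚ ℂ r)) =
          ⟨coeffEmb ℂ (algebraMap ℚ (LaurentSeries ℚ) r), h⟩ := by
        apply Subtype.ext
        show algebraMap ℂ (LaurentSeries ℂ)
          (algebraMap ℚ ℂ r) =
            coeffEmb ℂ (algebraMap ℚ (LaurentSeries ℚ) r)
        rw [algebraMap_laurentSeries_eq_single, algebraMap_apply_eq_single, coeffEmb,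
          coeffMap_single]
      rw [← heq]
      exact h1
    · intro x y hx hy ihx ihy h
      have hx' := coeffEmb_mem_laurentBaseChange ℂ hx
      have hy' := coeffEmb_mem_laurentBaseChange ℂ hy
      have := hadd _ _ (ihx hx') (ihy hy')
      have heq : (⟨coeffEmb ℂ (x + y), h⟩ : (KM_FC N)) =
          ⟨coeffEmb ℂ x, hx'⟩ + ⟨coeffEmb ℂ y, hy'⟩ :=
        Subtype.ext (map_add _ x y)
      rw [heq]; exact this
    · intro x hx ihx h
      have hx' := coeffEmb_mem_laurentBaseChange ℂ hx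
      have := hinv _ (ihx hx')
      have heq : (⟨coeffEmb ℂ x⁻¹, h⟩ : (KM_FC N)) =
          (⟨coeffEmb ℂ x, hx'⟩)⁻¹ :=
        Subtype.ext (map_inv₀ _ x)
      rw [heq]; exact this
    · intro x y hx hy ihx ihy h
      have hx' := coeffEmb_mem_laurentBaseChange ℂ hx
      have hy' := coeffEmb_mem_laurentBaseChange ℂ hy
      have := hmul _ _ (ihx hx') (ihy hy')
      have heq : (⟨coeffEmb ℂ (x * y), h⟩ : (KM_FC N)) =
          ⟨coeffEmb ℂ x, hx'⟩ * ⟨coeffEmb ℂ y, hy'⟩ :=
        Subtype.ext (map_mul _ x y)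
      rw [heq]; exact this
  rintro ⟨f, hf⟩
  refine IntermediateField.adjoin_induction ℂ
    (p := fun x hx => P ⟨x, hx⟩) ?_ ?_ ?_ ?_ ?_ hf
  · rintro x ⟨y, hy, rfl⟩
    exact inner y hy _
  · intro c
    have h1 := hK c
    have heq : (algebraMap ℂ (KM_FC N) c) =
        ⟨algebraMap ℂ (LaurentSeries ℂ) c,
          (laurentBaseChange ℂ (modularFunctionFieldFull N)).algebraMap_mem c⟩ := Subtype.ext rfl
    rw [heq] at h1
    exact h1
  · intro x y hx hy ihx ihy
    have := hadd _ _ ihx ihy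
    exact this
  · intro x hx ihx
    have := hinv _ ihx
    exact this
  · intro x y hx hy ihx ihy
    have := hmul _ _ ihx ihy
    exact this

end

end Fermat.Agent.GalRep
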