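import Fermat.Agent.S24.EvDeg
import Fermat.Agent.GalRep.KCDefs

/-!
# Pillar G, package S24C (helper13): `[F_ℂ : ℂ(j)] ≤ ψ(N)` (port of `S24/EvDeg.lean` to `K = ℂ`)

`F = laurentBaseChange ℂ (modularFunctionFieldFull N)`, `K = Q̄`.
* `KC_transcendental_jB` : `j` is transcendental over `K`.
* `KC_finiteDimensional_jB` : `F` is finite over `K(j)`.
* `KC_finrank_le_psi` : `[F : K(j)] ≤ ψ(N)`.

Route: `S28.kcT10c_aux` (from `S28.ac2`) says that any `ψ + 1` elements of the rational function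
field `F_ℚ` are `ℤ[j]`-dependent.  Base change along `coeffEmb`, then `F` is the `K(j)`-span of the
image of `F_ℚ`.
-/

set_option autoImplicit false

open ModularCurve IntermediateField

noncomputable section

namespace Fermat.Agent.GalRep

open Fermat.Agent.S24

/-- `coeffEmb` of the rational `j` is the `j` over `Q̄`. -/
theorem KC_deg_coeffEmb_jq :
    coeffEmb ℂ jq = jqModC ℂ :=
  map_jqModC (K := ℚ) (algebraMap ℚ ℂ)

theorem KC_deg_jB_val (N : ℕ) [NeZero N] :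
    ((KC_jB N : (KM_FC N)) : LaurentSeries ℂ) =
      jqModC ℂ := by
  show coeffEmb ℂ (qExpand ℚ 1 jq) = _
  rw [qExpand_one_apply, KC_deg_coeffEmb_jq]

/-- `j` over `Q̄` is transcendental (as a Laurent series). -/
theorem KC_deg_transcendental_jqModC :
    Transcendental ℂ (jqModC ℂ) := by
  rw [transcendental_iff]
  intro p hp
  by_contra hp0
  set n := p.natDegree with hn
  have hcoeff : (Polynomial.aeval (jqModC ℂ) p).coeff (-(n : ℤ)) =
      p.coeff n := by
    rw [Polynomial.aeval_def, Polynomial.eval₂_eq_sum_range, HahnSeries.coeff_sum,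
      Finset.sum_eq_single n]
    · rw [algebraMap_laurentSeries_eq_single, HahnSeries.coeff_single_zero_mul,
        coeff_jqModC_pow_self, mul_one]
    · intro i hi hin
      have hilt : i < n := lt_of_le_of_ne (Nat.lt_succ_iff.mp (Finset.mem_range.mp hi)) hin
      rw [algebraMap_laurentSeries_eq_single, HahnSeries.coeff_single_zero_mul,
        coeff_jqModC_pow_of_lt, mul_zero]
      omega
    · intro hn'
      exact absurd (Finset.self_mem_range_succ n) hn'
  rw [hp] at hcoeff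
  simp only [HahnSeries.coeff_zero] at hcoeff
  exact hp0 (Polynomial.leadingCoeff_eq_zero.mp hcoeff.symm)

/-- **A1-deg (i)**: `j` is transcendental over `Q̄`. -/
theorem KC_transcendental_jB (N : ℕ) [NeZero N] : Transcendental ℂ (KC_jB N) := by
  intro h
  have h2 : IsAlgebraic ℂ
      ((laurentBaseChange ℂ (modularFunctionFieldFull N)).val (KC_jB N)) := h.algHom _
  have h3 : (laurentBaseChange ℂ (modularFunctionFieldFull N)).val (KC_jB N) = jqModC ℂ :=
    KC_deg_jB_val N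
  rw [h3] at h2
  exact KC_deg_transcendental_jqModC h2

/-! ### The image of the rational function field -/

/-- base change of `c(j)`, `c ∈ ℤ[X]` -/
theorem KC_deg_coeffEmb_aeval (c : Polynomial ℤ) :
    coeffEmb ℂ (Polynomial.aeval jq c) =
      Polynomial.eval₂ (Int.castRingHom (LaurentSeries ℂ))
        (jqModC ℂ) c := by
  have h : algebraMap ℤ (LaurentSeries ℚ) = Int.castRingHom (LaurentSeries ℚ) :=
    RingHom.ext_int _ _
  rw [Polynomial.aeval_def, h, S24_deg_map_eval, KC_deg_coeffEmb_jq]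

theorem KC_deg_eval_jqModC_eq_zero {c : Polynomial ℤ}
    (h : Polynomial.eval₂ (Int.castRingHom (LaurentSeries ℂ))
      (jqModC ℂ) c = 0) : c = 0 := by
  have h1 : Polynomial.aeval (jqModC ℂ)
      (c.map (Int.castRingHom ℂ)) = 0 := by
    rw [Polynomial.aeval_def, Polynomial.eval₂_map]
    rw [← h]
    congr 1
    exact RingHom.ext_int _ _
  have h2 := (transcendental_iff.1 KC_deg_transcendental_jqModC) _ h1
  exact Polynomial.map_injective (Int.castRingHom ℂ) Int.cast_injective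
    (by rw [h2, Polynomial.map_zero])

section Main

variable (N : ℕ) [NeZero N]

/-- the image of the rational function field `F_ℚ` in `F` -/
def KC_deg_T : Submonoid (KM_FC N) where
  carrier := {x | ∃ y ∈ modularFunctionFieldFull N,
    (x : LaurentSeries ℂ) = coeffEmb ℂ y}
  mul_mem' := by
    rintro a b ⟨y, hy, hay⟩ ⟨z, hz, hbz⟩
    refine ⟨y * z, mul_mem hy hz, ?_⟩
    rw [map_mul, ← hay, ← hbz]
    rfl
  one_mem' := ⟨1, one_mem _, by rw [map_one]; rfl⟩

theorem KC_deg_mem_T {x : (KM_FC N)} :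
    x ∈ KC_deg_T N ↔ ∃ y ∈ modularFunctionFieldFull N,
      (x : LaurentSeries ℂ) = coeffEmb ℂ y := Iff.rfl

theorem KC_deg_jB_mem_T : KC_jB N ∈ KC_deg_T N :=
  ⟨qExpand ℚ 1 jq, jqd_mem_full N (one_dvd N), rfl⟩

theorem KC_deg_jBar_mem_T (d : ℕ) [NeZero d] (hd : d ∣ N) : KC_jBar N d hd ∈ KC_deg_T N :=
  ⟨qExpand ℚ d jq, jqd_mem_full N hd, rfl⟩

/-- the generator of `K(j)` -/
def KC_deg_gen : ↥(ℂ⟮KC_jB N⟯) :=
  IntermediateField.AdjoinSimple.gen ℂ (KC_jB N)

/-- `c(j) ∈ K(j)` for `c ∈ ℤ[X]` -/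
def KC_deg_cj (c : Polynomial ℤ) : ↥(ℂ⟮KC_jB N⟯) :=
  Polynomial.eval₂ (Int.castRingHom ↥(ℂ⟮KC_jB N⟯)) (KC_deg_gen N) c

theorem KC_deg_cj_val (c : Polynomial ℤ) :
    (((KC_deg_cj N c : ↥(ℂ⟮KC_jB N⟯)) :
      (KM_FC N)) : LaurentSeries ℂ) =
      Polynomial.eval₂ (Int.castRingHom (LaurentSeries ℂ))
        (jqModC ℂ) c := by
  have h1 := S24_deg_map_eval
    (algebraMap ↥(ℂ⟮KC_jB N⟯) (KM_FC N)) (KC_deg_gen N) c
  have h2 := S24_deg_map_eval
    (algebraMap (KM_FC N) (LaurentSeries ℂ)) (KC_jB N) c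
  have h3 : algebraMap ↥(ℂ⟮KC_jB N⟯) (KM_FC N)
      (KC_deg_gen N) = KC_jB N := IntermediateField.AdjoinSimple.algebraMap_gen _ _
  have h4 : algebraMap (KM_FC N) (LaurentSeries ℂ)
      (KC_jB N) = jqModC ℂ := KC_deg_jB_val N
  rw [h3] at h1
  rw [h4] at h2
  rw [← h2, ← h1]
  rfl

theorem KC_deg_cj_ne_zero {c : Polynomial ℤ} (hc : c ≠ 0) : KC_deg_cj N c ≠ 0 := by
  intro h0
  have h1 := KC_deg_cj_val N c
  rw [h0] at h1
  exact hc (KC_deg_eval_jqModC_eq_zero (by rw [← h1]; rfl))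

/-- any `ψ + 1` elements of the image of `F_ℚ` are dependent over `K(j)`. -/
theorem KC_deg_dep (x : Fin (Nat.card (Fermat.Agent.S28.Cos N) + 1) → (KM_FC N))
    (hx : ∀ i, x i ∈ KC_deg_T N) :
    ¬ LinearIndependent ↥(ℂ⟮KC_jB N⟯) x := by
  classical
  choose y hy hxy using hx
  obtain ⟨c₀, c, hc, hrel⟩ := Fermat.Agent.S28.kcT10c_aux2 N
    (Nat.card (Fermat.Agent.S28.Cos N)) (Fermat.Agent.S28.ac2 N)
    (fun i => y i.succ) (fun i => hy i.succ) (y 0) (hy 0)
  have hrel' := congrArg (coeffEmb ℂ) hrel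
  rw [map_add, map_mul, map_sum, map_zero, KC_deg_coeffEmb_aeval] at hrel'
  rw [Fintype.not_linearIndependent_iff]
  refine ⟨Fin.cons (KC_deg_cj N c₀) (fun i => KC_deg_cj N (c i)), ?_, ?_⟩
  · apply Subtype.val_injective
    rw [Fin.sum_univ_succ]
    simp only [Fin.cons_zero, Fin.cons_succ]
    show ((KC_deg_cj N c₀ : ↥(ℂ⟮KC_jB N⟯)) :
        (KM_FC N)).1 * (x 0).1 +
      ((∑ i : Fin (Nat.card (Fermat.Agent.S28.Cos N)),
        KC_deg_cj N (c i) • x i.succ : (KM_FC N)) :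
          LaurentSeries ℂ) = 0
    rw [KC_deg_cj_val, hxy 0]
    have hsum : ((∑ i : Fin (Nat.card (Fermat.Agent.S28.Cos N)),
        KC_deg_cj N (c i) • x i.succ : (KM_FC N)) :
          LaurentSeries ℂ) =
        ∑ i : Fin (Nat.card (Fermat.Agent.S28.Cos N)),
          coeffEmb ℂ (Polynomial.aeval jq (c i) * y i.succ) := by
      rw [← (laurentBaseChange ℂ (modularFunctionFieldFull N)).coe_val, map_sum]
      refine Finset.sum_congr rfl fun i _ => ?_
      rw [map_mul, KC_deg_coeffEmb_aeval, ← hxy i.succ, ← KC_deg_cj_val N]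
      rfl
    rw [hsum]
    exact hrel'
  · rcases hc with h | ⟨i, hi⟩
    · exact ⟨0, by simpa using KC_deg_cj_ne_zero N h⟩
    · exact ⟨i.succ, by simpa using KC_deg_cj_ne_zero N hi⟩

/-- elements of the image of `F_ℚ` are algebraic over `K(j)` -/
theorem KC_deg_isAlgebraic {x : (KM_FC N)} (hx : x ∈ KC_deg_T N) :
    IsAlgebraic ↥(ℂ⟮KC_jB N⟯) x :=
  S24_deg_isAlgebraic_of_dep x _
    (KC_deg_dep N (fun i => x ^ (i : ℕ)) (fun _ => pow_mem hx _))

/-- `F` is generated over `K(j)` by the image of `F_ℚ`. -/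
theorem KC_deg_adjoin_eq_top :
    IntermediateField.adjoin ↥(ℂ⟮KC_jB N⟯)
      (KC_deg_T N : Set (KM_FC N)) = ⊤ := by
  rw [eq_top_iff]
  intro x _
  have hle : laurentBaseChange ℂ (modularFunctionFieldFull N) ≤ IntermediateField.lift
      ((IntermediateField.adjoin ↥(ℂ⟮KC_jB N⟯)
        (KC_deg_T N : Set (KM_FC N))).restrictScalars
          ℂ) := by
    show IntermediateField.adjoin ℂ
      (⇑(coeffEmb ℂ) '' ((modularFunctionFieldFull N : IntermediateField ℚ (LaurentSeries ℚ)) :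
        Set (LaurentSeries ℚ))) ≤ _
    rw [IntermediateField.adjoin_le_iff]
    rintro _ ⟨y, hy, rfl⟩
    have hmem : (⟨coeffEmb _ y, coeffEmb_mem_laurentBaseChange _ hy⟩ :
        (KM_FC N)) ∈
        IntermediateField.adjoin ↥(ℂ⟮KC_jB N⟯)
          (KC_deg_T N : Set (KM_FC N)) :=
      IntermediateField.subset_adjoin _ _ ⟨y, hy, rfl⟩
    exact (IntermediateField.mem_lift
      (⟨coeffEmb _ y, coeffEmb_mem_laurentBaseChange _ hy⟩ : (KM_FC N))).2 hmem
  exact (IntermediateField.mem_lift x).1 (hle x.2)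

/-- `F` is the `K(j)`-span of the image of `F_ℚ`. -/
theorem KC_deg_span_eq_top :
    Submodule.span ↥(ℂ⟮KC_jB N⟯)
      (KC_deg_T N : Set (KM_FC N)) = ⊤ := by
  have h1 := IntermediateField.adjoin_toSubalgebra_of_isAlgebraic
    (F := ↥(ℂ⟮KC_jB N⟯)) (S := (KC_deg_T N : Set (KM_FC N)))
    (fun x hx => KC_deg_isAlgebraic N hx)
  rw [KC_deg_adjoin_eq_top] at h1
  have h2 := Algebra.adjoin_eq_span (R := ↥(ℂ⟮KC_jB N⟯))
    (s := (KC_deg_T N : Set (KM_FC N)))
  rw [← h1, Submonoid.closure_eq] at h2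
  rw [← h2]
  simp

theorem KC_deg_rank_le :
    Module.rank ↥(ℂ⟮KC_jB N⟯) (KM_FC N) ≤
      (Nat.card (Fermat.Agent.S28.Cos N) : ℕ) := by
  rw [← rank_top, ← KC_deg_span_eq_top N]
  exact S24_deg_rank_span_le _ _ (fun x hx => KC_deg_dep N x hx)

/-- **A1-deg (ii)**: `F` is finite over `K(j)`. -/
theorem KC_finiteDimensional_jB :
    FiniteDimensional ↥(ℂ⟮KC_jB N⟯) (KM_FC N) := by
  have : Module.Free ↥(ℂ⟮KC_jB N⟯) (KM_FC N) :=
    Module.Free.of_divisionRing _ _
  exact Module.rank_lt_aleph0_iff.1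
    (lt_of_le_of_lt (KC_deg_rank_le N) Cardinal.natCast_lt_aleph0)

/-- `[F : K(j)] ≤ #(SL₂(ℤ)/Γ₀(N))`. -/
theorem KC_finrank_le_card_cos :
    Module.finrank ↥(ℂ⟮KC_jB N⟯) (KM_FC N) ≤
      Nat.card (Fermat.Agent.S28.Cos N) :=
  Module.finrank_le_of_rank_le (KC_deg_rank_le N)

/-- **A1-deg (iii)**: `[F : K(j)] ≤ ψ(N)`. -/
theorem KC_finrank_le_psi :
    Module.finrank ↥(ℂ⟮KC_jB N⟯) (KM_FC N) ≤
      dedekindPsi N := by
  rw [← Fermat.Agent.S20.S20_card_Q N]
  exact KC_finrank_le_card_cos N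

end Main

end Fermat.Agent.GalRep
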