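import Fermat.Agent.GalRep.KCDefs

/-!
# Pillar G, package S24C (helper13): the analytic realisation `KC_ev N : F_ℂ →+* Mer`

Port of `S24/EvExists.lean` to `K = ℂ`: `F_ℂ ⊂ range thetaHom`, hence every `f ∈ F_ℂ` is the
`q`-expansion of a unique `b ∈ BFrac`, and `KC_ev N f := bToMer b`.
-/

set_option autoImplicit false

open UpperHalfPlane hiding I
open scoped MatrixGroups Manifold ModularForm
open CongruenceSubgroup ModularCurve EisensteinSeries Function

noncomputable section

namespace Fermat.Agent.GalRep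

open Fermat.Agent.S24

theorem KC_coeffEmb_gen (d : ℕ) [NeZero d] :
    coeffEmb ℂ (qExpand ℚ d jq) = qExpand ℂ d jC := by
  rw [coeffEmb, coeffMap_qExpand, jC]

theorem KC_gen_mem_range (d : ℕ) [NeZero d] :
    coeffEmb ℂ (qExpand ℚ d jq) ∈ thetaHom.fieldRange :=
  ⟨Jgen d, by rw [thetaHom_Jgen, KC_coeffEmb_gen]⟩

theorem KC_const_mem_range (a : ℂ) :
    algebraMap ℂ (LaurentSeries ℂ) a ∈ thetaHom.fieldRange := by
  refine ⟨algebraMap ℂ BFrac a, ?_⟩
  rw [thetaHom_const, algebraMap_laurentSeries_eq_single]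
  rfl

theorem KC_coeffEmb_algebraMap (c : ℚ) :
    coeffEmb ℂ (algebraMap ℚ (LaurentSeries ℚ) c) =
      algebraMap ℂ (LaurentSeries ℂ) (algebraMap ℚ ℂ c) := by
  rw [algebraMap_laurentSeries_eq_single, algebraMap_laurentSeries_eq_single, coeffEmb,
    coeffMap_single]

theorem KC_coeffEmb_mem_range (N : ℕ) [NeZero N] {y : LaurentSeries ℚ}
    (hy : y ∈ modularFunctionFieldFull N) : coeffEmb ℂ y ∈ thetaHom.fieldRange := by
  have hle : (modularFunctionFieldFull N).toSubfield ≤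
      (thetaHom.fieldRange).comap (coeffEmb ℂ) := by
    rw [modularFunctionFieldFull, IntermediateField.adjoin_toSubfield, Subfield.closure_le]
    rintro x (⟨c, rfl⟩ | ⟨d, hd, _, rfl⟩)
    · show coeffEmb ℂ (algebraMap ℚ (LaurentSeries ℚ) c) ∈ thetaHom.fieldRange
      rw [KC_coeffEmb_algebraMap]
      exact KC_const_mem_range _
    · haveI := hd
      exact KC_gen_mem_range d
  exact hle hy

theorem KC_mem_range (N : ℕ) [NeZero N] {x : LaurentSeries ℂ}
    (hx : x ∈ laurentBaseChange ℂ (modularFunctionFieldFull N)) : x ∈ thetaHom.fieldRange := by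
  have hle : (laurentBaseChange ℂ (modularFunctionFieldFull N)).toSubfield ≤
      thetaHom.fieldRange := by
    rw [laurentBaseChange, IntermediateField.adjoin_toSubfield, Subfield.closure_le]
    rintro x (⟨c, rfl⟩ | ⟨y, hy, rfl⟩)
    · exact KC_const_mem_range c
    · exact KC_coeffEmb_mem_range N hy
  exact hle hx

/-- `F_ℂ → range thetaHom`. -/
def KC_toRange (N : ℕ) [NeZero N] : KM_FC N →+* thetaHom.range :=
  RingHom.codRestrict (laurentBaseChange ℂ (modularFunctionFieldFull N)).val.toRingHom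
    thetaHom.range (fun f => by
      obtain ⟨b, hb⟩ := KC_mem_range N f.2
      exact ⟨b, hb⟩)

/-- The element of `BFrac` with `q`-expansion `f`. -/
def KC_evB (N : ℕ) [NeZero N] : KM_FC N →+* BFrac :=
  (thetaEquiv.symm : thetaHom.range →+* BFrac).comp (KC_toRange N)

theorem KC_thetaHom_evB (N : ℕ) [NeZero N] (f : KM_FC N) :
    thetaHom (KC_evB N f) = (f : LaurentSeries ℂ) := by
  show thetaHom (thetaEquiv.symm (KC_toRange N f)) = _
  rw [thetaHom_thetaEquiv_symm]
  rfl

/-- The analytic realisation of `F_ℂ`. -/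
def KC_ev (N : ℕ) [NeZero N] : KM_FC N →+* Mer := bToMer.comp (KC_evB N)

theorem KC_ev_eq (N : ℕ) [NeZero N] (f : KM_FC N) : KC_ev N f = bToMer (KC_evB N f) := rfl

theorem KC_evB_eq_of_thetaHom_eq (N : ℕ) [NeZero N] (f : KM_FC N) (b : BFrac)
    (h : thetaHom b = (f : LaurentSeries ℂ)) : KC_evB N f = b :=
  thetaHom_injective (by rw [KC_thetaHom_evB, h])

/-- `KC_ev` is determined by `q`-expansions. -/
theorem KC_ev_eq_of_thetaHom_eq (N : ℕ) [NeZero N] (f : KM_FC N) (b : BFrac)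
    (h : thetaHom b = (f : LaurentSeries ℂ)) : KC_ev N f = bToMer b := by
  rw [KC_ev_eq, KC_evB_eq_of_thetaHom_eq N f b h]

theorem KC_ev_const (N : ℕ) [NeZero N] (a : ℂ) :
    KC_ev N (algebraMap ℂ (KM_FC N) a) = algebraMap ℂ Mer a := by
  rw [KC_ev_eq_of_thetaHom_eq N _ (algebraMap ℂ BFrac a), bToMer_const]
  rw [thetaHom_const]
  show _ = algebraMap ℂ (LaurentSeries ℂ) a
  rw [algebraMap_laurentSeries_eq_single]
  rfl

theorem KC_ev_gen (N : ℕ) [NeZero N] (d : ℕ) [NeZero d] (hd : d ∣ N) :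
    KC_ev N (KC_jBar N d hd) = algebraMap Hol Mer (jHol d) := by
  rw [KC_ev_eq_of_thetaHom_eq N _ (Jgen d), bToMer_Jgen]
  rw [thetaHom_Jgen]
  show _ = coeffEmb ℂ (qExpand ℚ d jq)
  rw [KC_coeffEmb_gen]

theorem KC_ev_jB (N : ℕ) [NeZero N] : KC_ev N (KC_jB N) = algebraMap Hol Mer (jHol 1) :=
  KC_ev_gen N 1 (one_dvd N)

/-! ### Compatibility with the realisation of `F_ℚ̄` -/

theorem KC_coeffMap_kEmb_coeffEmb (y : LaurentSeries ℚ) :
    coeffMap kEmb (coeffEmb (AlgebraicClosure ℚ) y) = coeffEmb ℂ y := by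
  have h : kEmb.comp (algebraMap ℚ (AlgebraicClosure ℚ)) = algebraMap ℚ ℂ :=
    RingHom.ext fun x => complexEmbedding.commutes x
  rw [coeffEmb, coeffMap_coeffMap, coeffMap_congr h]
  rfl

/-- base change `F_ℚ̄ → F_ℂ` along `kEmb`. -/
theorem KC_coeffMap_kEmb_mem (N : ℕ) [NeZero N] {x : LaurentSeries (AlgebraicClosure ℚ)}
    (hx : x ∈ modularFunctionFieldBar N) :
    coeffMap kEmb x ∈ laurentBaseChange ℂ (modularFunctionFieldFull N) := by
  have hle : (modularFunctionFieldBar N).toSubfield ≤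
      ((laurentBaseChange ℂ (modularFunctionFieldFull N)).toSubfield).comap (coeffMap kEmb) := by
    show (laurentBaseChange (AlgebraicClosure ℚ) (modularFunctionFieldFull N)).toSubfield ≤ _
    rw [laurentBaseChange, IntermediateField.adjoin_toSubfield, Subfield.closure_le]
    rintro x (⟨c, rfl⟩ | ⟨y, hy, rfl⟩)
    · show coeffMap kEmb (algebraMap (AlgebraicClosure ℚ) _ c) ∈
        laurentBaseChange ℂ (modularFunctionFieldFull N)
      rw [algebraMap_laurentSeries_eq_single, coeffMap_single,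
        ← algebraMap_laurentSeries_eq_single]
      exact (laurentBaseChange ℂ (modularFunctionFieldFull N)).algebraMap_mem _
    · show coeffMap kEmb (coeffEmb (AlgebraicClosure ℚ) y) ∈
        laurentBaseChange ℂ (modularFunctionFieldFull N)
      rw [KC_coeffMap_kEmb_coeffEmb]
      exact coeffEmb_mem_laurentBaseChange ℂ hy
  exact hle hx

/-- the base change of `f ∈ F_ℚ̄` to `F_ℂ`. -/
def KC_ofBar (N : ℕ) [NeZero N] (f : ↥(modularFunctionFieldBar N)) : KM_FC N :=
  ⟨coeffMap kEmb (f : LaurentSeries (AlgebraicClosure ℚ)), KC_coeffMap_kEmb_mem N f.2⟩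

theorem KC_ev_ofBar (N : ℕ) [NeZero N] (f : ↥(modularFunctionFieldBar N)) :
    KC_ev N (KC_ofBar N f) = ev N f := by
  rw [KC_ev_eq_of_thetaHom_eq N _ (evB N f) (thetaHom_evB N f), ev_eq]

end Fermat.Agent.GalRep
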