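import Fermat.Agent.S24.EvInv
import Fermat.Agent.S24.EvDist
import Fermat.Agent.GalRep.KCEv

/-!
# Pillar G, package S24C (helper13): `Γ₀(N)`-invariance and distinctness of the conjugates of the
analytic realisation of `F_ℂ` (port of the `F`-specific parts of `S24/EvInv.lean`, `S24/EvDist.lean`)
-/

set_option autoImplicit false
set_option linter.unusedSectionVars false

open UpperHalfPlane hiding I
open scoped MatrixGroups Manifold ModularForm
open CongruenceSubgroup ModularCurve EisensteinSeries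

noncomputable section

namespace Fermat.Agent.GalRep

open Fermat.Agent.S24

/-- `e` is the analytic realisation of `F_ℂ`: the identity on constants, and `j(q^d) ↦ j(dτ)`. -/
structure KC_IsEv (N : ℕ) [NeZero N] (e : KM_FC N →+* Mer) : Prop where
  const : ∀ a : ℂ, e (algebraMap ℂ (KM_FC N) a) = algebraMap ℂ Mer a
  gen : ∀ (d : ℕ) [NeZero d] (hd : d ∣ N), e (KC_jBar N d hd) = algebraMap Hol Mer (jHol d)

theorem KC_isEv_ev (N : ℕ) [NeZero N] : KC_IsEv N (KC_ev N) where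
  const := KC_ev_const N
  gen d _ hd := KC_ev_gen N d hd

/-- The conjugate of the realisation `e` by `γ ∈ SL(2,ℤ)`: `f ↦ e(f) ∘ γ`. -/
def KC_conjEv (N : ℕ) [NeZero N] (e : KM_FC N →+* Mer) (γ : SL(2, ℤ)) : KM_FC N →+* Mer :=
  (merComp γ).comp e

section inv

variable (N : ℕ) [NeZero N]

/-- The analytic realisation of `F` consists of `Γ₀(N)`-invariant functions. -/
theorem KC_merComp_comp_eq_of_mem_Gamma0 (e : (KM_FC N) →+* Mer)
    (he : KC_IsEv N e) {δ : SL(2, ℤ)} (hδ : δ ∈ Gamma0 N) : (merComp δ).comp e = e := by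
  ext f
  revert f
  apply KC_induction N
  · intro a
    rw [RingHom.comp_apply, he.const, merComp_const]
  · intro d hd0 hd
    rw [RingHom.comp_apply, he.gen d hd, merComp_algebraMap,
      holComp_jHol_of_mem_Gamma0 N (Nat.pos_of_ne_zero (NeZero.ne d)) hd hδ]
  · intro x y hx hy
    rw [RingHom.map_add, RingHom.map_add, hx, hy]
  · intro x y hx hy
    rw [RingHom.map_mul, RingHom.map_mul, hx, hy]
  · intro x hx
    rw [map_inv₀ ((merComp δ).comp e) x, map_inv₀ e x, hx]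

theorem KC_merComp_apply_of_mem_Gamma0 (e : (KM_FC N) →+* Mer)
    (he : KC_IsEv N e) {δ : SL(2, ℤ)} (hδ : δ ∈ Gamma0 N) (f : (KM_FC N)) :
    merComp δ (e f) = e f :=
  congrArg (fun φ : (KM_FC N) →+* Mer => φ f)
    (KC_merComp_comp_eq_of_mem_Gamma0 N e he hδ)

/-- The hypothesis `hinv` of `Conj.lean`. -/
theorem KC_hinv (e : (KM_FC N) →+* Mer) (he : KC_IsEv N e) :
    ∀ h ∈ Gamma0 N, ∀ f, merComp h (e f) = e f :=
  fun _ hh f => KC_merComp_apply_of_mem_Gamma0 N e he hh f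

/-- **A1-inv (1)**: the conjugate by `δ * γ`, `δ ∈ Γ₀(N)`, is the conjugate by `γ`. -/
theorem KC_conjEv_mul_of_mem_Gamma0 (e : (KM_FC N) →+* Mer) (he : KC_IsEv N e)
    {δ : SL(2, ℤ)} (hδ : δ ∈ Gamma0 N) (γ : SL(2, ℤ)) :
    KC_conjEv N e (δ * γ) = KC_conjEv N e γ := by
  unfold KC_conjEv
  rw [S24_inv_merComp_mul, RingHom.comp_assoc, KC_merComp_comp_eq_of_mem_Gamma0 N e he hδ]

/-- The conjugates depend only on the coset `Γ₀(N) γ`. -/
theorem KC_conjEv_eq_of_mul_inv_mem (e : (KM_FC N) →+* Mer) (he : KC_IsEv N e)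
    {γ γ' : SL(2, ℤ)} (h : γ' * γ⁻¹ ∈ Gamma0 N) : KC_conjEv N e γ = KC_conjEv N e γ' := by
  have := KC_conjEv_mul_of_mem_Gamma0 N e he h γ
  rw [inv_mul_cancel_right] at this
  exact this.symm

/-- **A1-inv (2)**: all conjugates of `j` are `j`. -/
theorem KC_conjEv_jB (e : (KM_FC N) →+* Mer) (he : KC_IsEv N e) (γ : SL(2, ℤ)) :
    KC_conjEv N e γ (KC_jB N) = algebraMap Hol Mer (jHol 1) := by
  unfold KC_conjEv KC_jB
  rw [RingHom.comp_apply, he.gen 1 (one_dvd N), merComp_algebraMap, S24_inv_holComp_jHol_one]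

/-- all conjugates agree with `e` on constants -/
theorem KC_conjEv_const (e : (KM_FC N) →+* Mer) (he : KC_IsEv N e) (γ : SL(2, ℤ))
    (a : ℂ) : KC_conjEv N e γ (algebraMap ℂ (KM_FC N) a)
      = algebraMap ℂ Mer a := by
  unfold KC_conjEv
  rw [RingHom.comp_apply, he.const, merComp_const]

end inv

/-- **A1-dist**: if the conjugates by `γ` and `γ'` agree then `γ' * γ⁻¹ ∈ Γ₀(N)`. -/
theorem KC_conjEv_eq_imp_mem_Gamma0 (N : ℕ) [NeZero N] (e : (KM_FC N) →+* Mer)
    (he : KC_IsEv N e) (γ γ' : SL(2, ℤ)) (h : KC_conjEv N e γ = KC_conjEv N e γ') :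
    γ' * γ⁻¹ ∈ Gamma0 N := by
  have h1 := congrArg (fun φ : (KM_FC N) →+* Mer => φ (KC_jBar N N dvd_rfl)) h
  simp only [KC_conjEv, RingHom.comp_apply, he.gen N dvd_rfl, merComp_algebraMap] at h1
  have h2 : holComp γ (jHol N) = holComp γ' (jHol N) :=
    IsFractionRing.injective Hol Mer h1
  have h3 : ∀ τ : ℍ, jFun N (γ • τ) = jFun N (γ' • τ) := by
    intro τ
    have := congrArg (fun f : Hol => (f : ℍ → ℂ) τ) h2
    simpa using this
  apply S24_mem_Gamma0_of_jFun_eq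
  have := h3 (γ⁻¹ • S24_tau0)
  rw [smul_inv_smul, ← mul_smul] at this
  exact this


end Fermat.Agent.GalRep
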