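import Fermat.Agent.S24.Conj
import Fermat.Agent.S24.EvDegEq
import Fermat.Agent.GalRep.KCInv
import Fermat.Agent.GalRep.KCDeg

/-!
# Pillar G, package S24C (helper13): the conjugates of the analytic realisation of `F_ℂ`, the
norm formula, and `[F_ℂ : ℂ(j)] = ψ(N)` (port of `S24/Conj.lean`, `S24/EvDegEq.lean` to `K = ℂ`)
-/

set_option autoImplicit false
set_option maxHeartbeats 400000

open UpperHalfPlane hiding I
open scoped MatrixGroups Manifold ModularForm
open CongruenceSubgroup ModularCurve IntermediateField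
open Fermat.Agent.S20

noncomputable section

namespace Fermat.Agent.GalRep

open Fermat.Agent.S24

variable (N : ℕ) [NeZero N] (e : (KM_FC N) →+* Mer)

/-- The conjugate of `e` attached to the coset `γ = g Γ₀(N)`: `f ↦ e f ∘ g⁻¹`. -/
def KC_sig (γ : S20_Q N) : (KM_FC N) →+* Mer :=
  KC_conjEv N e (Quotient.out γ)⁻¹

variable {N e}

theorem KC_sig_mk (hinv : ∀ h ∈ Gamma0 N, ∀ f, merComp h (e f) = e f) (g : SL(2, ℤ)) :
    KC_sig N e (QuotientGroup.mk g) = KC_conjEv N e g⁻¹ := by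
  have hout : (Quotient.out (QuotientGroup.mk g : S20_Q N))⁻¹ * g ∈ Gamma0 N :=
    QuotientGroup.leftRel_apply.mp (Quotient.mk_out (s := QuotientGroup.leftRel (Gamma0 N)) g)
  set o := Quotient.out (QuotientGroup.mk g : S20_Q N) with ho
  ext f
  show merComp o⁻¹ (e f) = merComp g⁻¹ (e f)
  have h1 : g⁻¹ = (o⁻¹ * g)⁻¹ * o⁻¹ := by group
  rw [h1, merComp_mul_apply, hinv _ (inv_mem hout)]

theorem KC_sig_smul (hinv : ∀ h ∈ Gamma0 N, ∀ f, merComp h (e f) = e f) (a : SL(2, ℤ))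
    (γ : S20_Q N) (f : (KM_FC N)) :
    KC_sig N e (a • γ) f = merComp a⁻¹ (KC_sig N e γ f) := by
  obtain ⟨g, rfl⟩ := QuotientGroup.mk_surjective γ
  have h1 : a • (QuotientGroup.mk g : S20_Q N) = QuotientGroup.mk (a * g) := rfl
  rw [h1, KC_sig_mk hinv, KC_sig_mk hinv]
  show merComp (a * g)⁻¹ (e f) = merComp a⁻¹ (merComp g⁻¹ (e f))
  rw [mul_inv_rev, merComp_mul_apply]

theorem KC_sig_injective (he : KC_IsEv N e) (hinv : ∀ h ∈ Gamma0 N, ∀ f, merComp h (e f) = e f) :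
    Function.Injective (KC_sig N e) := by
  intro γ γ' h
  obtain ⟨g, rfl⟩ := QuotientGroup.mk_surjective γ
  obtain ⟨g', rfl⟩ := QuotientGroup.mk_surjective γ'
  rw [KC_sig_mk hinv, KC_sig_mk hinv] at h
  have h1 := KC_conjEv_eq_imp_mem_Gamma0 N e he _ _ h
  rw [inv_inv] at h1
  have h2 := inv_mem h1
  rw [mul_inv_rev, inv_inv] at h2
  exact QuotientGroup.eq.mpr h2

theorem KC_sig_const (he : KC_IsEv N e) (γ : S20_Q N) (c : ℂ) :
    KC_sig N e γ (algebraMap ℂ (KM_FC N) c) =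
      algebraMap ℂ Mer c := by
  show merComp _ (e _) = _
  rw [he.const, merComp_const]

theorem KC_sig_jB (he : KC_IsEv N e) (γ : S20_Q N) :
    KC_sig N e γ (KC_jB N) = algebraMap Hol Mer (jHol 1) := by
  show merComp _ (e (KC_jBar N 1 _)) = _
  rw [he.gen 1 (one_dvd N), merComp_algebraMap, holComp_jHol_one]

/-- All conjugates agree on `K(j)`. -/
theorem KC_sig_eq_on_adjoin (he : KC_IsEv N e) (γ γ' : S20_Q N)
    (x : (KM_FC N)) (hx : x ∈ ℂ⟮KC_jB N⟯) :
    KC_sig N e γ x = KC_sig N e γ' x := by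
  obtain ⟨r, s, rfl⟩ := (IntermediateField.mem_adjoin_simple_iff _ _).mp hx
  have key : ∀ (γ : S20_Q N) (p : Polynomial ℂ),
      KC_sig N e γ (Polynomial.aeval (KC_jB N) p) =
        Polynomial.eval₂ (algebraMap ℂ Mer) (algebraMap Hol Mer (jHol 1)) p := by
    intro γ p
    rw [Polynomial.aeval_def, Polynomial.hom_eval₂, KC_sig_jB he]
    congr 1
    ext c
    exact KC_sig_const he γ c
  rw [map_div₀, map_div₀, key, key, key, key]

/-- **Norm formula in `Mer`.** -/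
theorem KC_sig_norm (he : KC_IsEv N e) (hinv : ∀ h ∈ Gamma0 N, ∀ f, merComp h (e f) = e f)
    [FiniteDimensional ℂ⟮KC_jB N⟯ (KM_FC N)]
    (hdeg : Module.finrank ℂ⟮KC_jB N⟯ (KM_FC N) ≤
      Nat.card (S20_Q N))
    (f : (KM_FC N)) (γ₀ : S20_Q N) :
    KC_sig N e γ₀ (algebraMap ℂ⟮KC_jB N⟯ (KM_FC N)
        (Algebra.norm ℂ⟮KC_jB N⟯ f)) = ∏ᶠ γ, KC_sig N e γ f := by
  classical
  have hint : Algebra.IsIntegral ℂ⟮KC_jB N⟯ (KM_FC N) := Algebra.IsIntegral.of_finite _ _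
  have hsep : Algebra.IsSeparable ℂ⟮KC_jB N⟯ (KM_FC N) := Algebra.IsSeparable.of_integral _ _
  letI : Fintype (S20_Q N) := Fintype.ofFinite _
  letI alg : Algebra ℂ⟮KC_jB N⟯ Mer :=
    ((KC_sig N e γ₀).comp (algebraMap ℂ⟮KC_jB N⟯
      (KM_FC N))).toAlgebra
  let σ : S20_Q N → ((KM_FC N) →ₐ[ℂ⟮KC_jB N⟯] Mer) :=
    fun γ =>
    { KC_sig N e γ with
      commutes' := fun x => by
        show KC_sig N e γ (algebraMap _ _ x) = KC_sig N e γ₀ (algebraMap _ _ x)
        exact KC_sig_eq_on_adjoin he γ γ₀ _ x.2 }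
  have hσ : Function.Injective σ := by
    intro γ γ' h
    apply KC_sig_injective he hinv
    ext f
    exact congrArg (fun φ : (KM_FC N) →ₐ[ℂ⟮KC_jB N⟯] Mer =>
      φ f) h
  have hcard : Module.finrank ℂ⟮KC_jB N⟯ (KM_FC N) ≤
      Fintype.card (S20_Q N) := by
    rwa [← Nat.card_eq_fintype_card]
  have := S24_norm_eq_prod_of_injective σ hσ hcard f
  rw [finprod_eq_prod_of_fintype]
  exact this


section degeq

variable (N : ℕ) [NeZero N]

/-- `F / K(j)` is integral (instance search for this is slow: use it by `have := ...`). -/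
theorem KC_isIntegral_jB : Algebra.IsIntegral ↥(ℂ⟮KC_jB N⟯)
    (KM_FC N) := by
  have hfd := KC_finiteDimensional_jB N
  exact Algebra.IsIntegral.of_finite _ _

/-- `F / K(j)` is separable (instance search for this is slow: use it by `have := ...`). -/
theorem KC_isSeparable_jB : Algebra.IsSeparable ↥(ℂ⟮KC_jB N⟯)
    (KM_FC N) := by
  have hint := KC_isIntegral_jB N
  exact Algebra.IsSeparable.of_integral _ _

/-- `#(SL₂(ℤ)/Γ₀(N)) ≤ [F : K(j)]`: the conjugates are distinct embeddings. -/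
theorem KC_card_cos_le_finrank (e : (KM_FC N) →+* Mer) (he : KC_IsEv N e) :
    Nat.card (S20_Q N) ≤
      Module.finrank ℂ⟮KC_jB N⟯ (KM_FC N) := by
  classical
  have hfd := KC_finiteDimensional_jB N
  have hsep := KC_isSeparable_jB N
  have hinv := KC_hinv N e he
  let _ : Fintype (S20_Q N) := Fintype.ofFinite _
  obtain ⟨γ₀⟩ : Nonempty (S20_Q N) := ⟨QuotientGroup.mk 1⟩
  let alg : Algebra ℂ⟮KC_jB N⟯ Mer :=
    ((KC_sig N e γ₀).comp (algebraMap ℂ⟮KC_jB N⟯
      (KM_FC N))).toAlgebra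
  let σ : S20_Q N → ((KM_FC N) →ₐ[ℂ⟮KC_jB N⟯] Mer) :=
    fun γ =>
    { KC_sig N e γ with
      commutes' := fun x => by
        show KC_sig N e γ (algebraMap _ _ x) = KC_sig N e γ₀ (algebraMap _ _ x)
        exact KC_sig_eq_on_adjoin he γ γ₀ _ x.2 }
  have hσ : Function.Injective σ := by
    intro γ γ' h
    apply KC_sig_injective he hinv
    ext f
    exact congrArg (fun φ : (KM_FC N) →ₐ[ℂ⟮KC_jB N⟯] Mer =>
      φ f) h
  rw [Nat.card_eq_fintype_card]
  exact S24_card_le_finrank_of_injective σ hσ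

/-- `[F : K(j)] = #(SL₂(ℤ)/Γ₀(N))`. -/
theorem KC_finrank_eq_card_cos :
    Module.finrank ℂ⟮KC_jB N⟯ (KM_FC N) =
      Nat.card (S20_Q N) :=
  le_antisymm (KC_finrank_le_card_cos N) (KC_card_cos_le_finrank N (KC_ev N) (KC_isEv_ev N))

/-- **hn**: `[F : K(j)] = ψ(N)`. -/
theorem KC_finrank_eq_psi :
    Module.finrank ℂ⟮KC_jB N⟯ (KM_FC N) =
      dedekindPsi N := by
  rw [KC_finrank_eq_card_cos, S20_card_Q N]

/-- **Norm formula in `Mer`**, all side hypotheses discharged. -/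
theorem KC_sig_norm_ev (e : (KM_FC N) →+* Mer) (he : KC_IsEv N e)
    (f : (KM_FC N)) (γ₀ : S20_Q N) :
    KC_sig N e γ₀ (algebraMap ℂ⟮KC_jB N⟯ (KM_FC N)
        (Algebra.norm ℂ⟮KC_jB N⟯ f)) = ∏ᶠ γ, KC_sig N e γ f := by
  have := KC_finiteDimensional_jB N
  exact KC_sig_norm he (KC_hinv N e he) (KC_finrank_le_card_cos N) f γ₀


end degeq

end Fermat.Agent.GalRep
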