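import Fermat.Agent.S24.Wiring
import Fermat.Agent.S24.FinCount
import Fermat.Agent.Lib.RiemannCharZero
import Fermat.Agent.GalRep.KCCusp

/-!
# Pillar G, package S24C (helper13): the dictionary over `ℂ`

* `KC_place_surj` (generic in `K`, `F`): if finitely many valuations `w γ` on `F`, positive at `x`,
  satisfy the norm formula `∑ γ, w γ f = w γ₀ (Nm_{F/K(x)} f)`, then every place over `x = 0` is the
  place of one of the `w γ` (this is Step 2 of `S24_placeCount_of`), with the multiplier.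
* `KC_dict N v`: every place `v` of `F_ℂ` is analytic: it is the place of a point `τ ∈ ℍ` or of a
  cusp `g · i∞`, for the realisation `KC_ev N`.
* `KC_real N : KM_Real N ℂ (KM_FC N) (RingHom.id ℂ) (KC_ev N)`.
* `KM_exists_realC`, `KM_dict_of_qExp`: the statements of the skeleton `29_G123_skeleton`
  (the dictionary needs the normalisation `e f = bToMer b` for `thetaHom b = f`; `KM_Real`
  alone does not pin down `e`).
* `KC_rrHyp N : RR_Hyp ℂ (KM_FC N)`.
-/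

set_option autoImplicit false
set_option maxHeartbeats 400000

open UpperHalfPlane hiding I
open scoped MatrixGroups Manifold ModularForm
open CongruenceSubgroup ModularCurve IntermediateField AlgebraicCurve
open Fermat.Agent.S20

noncomputable section

namespace Fermat.Agent.GalRep

open Fermat.Agent.S24

section abs

variable {K F : Type*} [Field K] [Field F] [Algebra K F]

/-- **Surjectivity onto the places over `x = 0`** (Step 2 of `S24_placeCount_of`), with the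
multiplier `m = w γ π` of the valuation `w γ` with respect to the normalised order of its place. -/
theorem KC_place_surj [CharZero K] {x : F} (hx : Transcendental K x) [FiniteDimensional K⟮x⟯ F]
    {X : Type} [Finite X] [Nonempty X]
    (w : X → F → ℤ) (hw : ∀ γ, IsVal (K := K) (w γ)) (hwx : ∀ γ, 0 < w γ x)
    (hnorm : ∀ f : F, f ≠ 0 → ∀ γ₀,
      ∑ᶠ γ, w γ f = w γ₀ (algebraMap K⟮x⟯ F (Algebra.norm K⟮x⟯ f)))
    (v : Place K F) (hv : 0 < v.ord x) :
    ∃ (γ : X) (m : ℤ), 0 < m ∧ ∀ f : F, f ≠ 0 → w γ f = m * v.ord f := by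
  classical
  have hx0 : x ≠ 0 := fun h => hx (h ▸ isAlgebraic_zero)
  have : Fintype X := Fintype.ofFinite X
  set pl : X → Place K F := fun γ => (hw γ).place x hx0 (hwx γ) with hpl
  have hm : ∀ γ, ∃ m : ℤ, 0 < m ∧ (∃ π : F, π ≠ 0 ∧ w γ π = m) ∧
      ∀ f : F, f ≠ 0 → w γ f = m * (pl γ).ord f := fun γ =>
    (hw γ).exists_mul_ord x hx0 (hwx γ)
  have hplx : ∀ γ, 0 < (pl γ).ord x := by
    intro γ
    obtain ⟨m, hm0, -, hmf⟩ := hm γ
    have h := hwx γ
    rw [hmf x hx0] at h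
    exact (mul_pos_iff_of_pos_left hm0).mp h
  have hsurj : ∃ γ, pl γ = v := by
    by_contra hcon
    push Not at hcon
    have hnotin : v ∉ Finset.univ.image pl := by
      intro h
      obtain ⟨γ, -, hγ⟩ := Finset.mem_image.mp h
      exact hcon γ hγ
    obtain ⟨b, hb0, hbint, hbv, hbs⟩ := BG_approx hx v (Finset.univ.image pl) hv
      (fun u hu => by
        obtain ⟨γ, -, rfl⟩ := Finset.mem_image.mp hu
        exact hplx γ) hnotin
    have hwb : ∀ γ, w γ b = 0 := by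
      intro γ
      obtain ⟨m, -, -, hmf⟩ := hm γ
      rw [hmf b hb0, hbs (pl γ) (Finset.mem_image_of_mem pl (Finset.mem_univ γ)), mul_zero]
    obtain ⟨p, hp⟩ := BG_norm hx v hv b hbint hbv
    obtain ⟨γ₀⟩ := ‹Nonempty X›
    have hN := hnorm b hb0 γ₀
    rw [finsum_eq_zero_of_forall_eq_zero hwb, hp] at hN
    have hnm0 : algebraMap K⟮x⟯ F (Algebra.norm K⟮x⟯ b) ≠ 0 := by
      rw [Ne, map_eq_zero_iff _ (algebraMap K⟮x⟯ F).injective, Algebra.norm_eq_zero_iff]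
      exact hb0
    rw [hp] at hnm0
    have hp0 : Polynomial.aeval x p ≠ 0 := right_ne_zero_of_mul hnm0
    rw [(hw γ₀).mul x _ hx0 hp0] at hN
    have hpmem : Polynomial.aeval x p ∈ (hw γ₀).valuationSubring :=
      S24_aeval_mem_valuationSubring _ (pl γ₀).algebraMap_mem'
        (((hw γ₀).mem_valuationSubring_of_ne hx0).mpr (hwx γ₀).le) p
    have hpnn : 0 ≤ w γ₀ (Polynomial.aeval x p) :=
      ((hw γ₀).mem_valuationSubring_of_ne hp0).mp hpmem
    have := hwx γ₀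
    omega
  obtain ⟨γ, hγ⟩ := hsurj
  obtain ⟨m, hm0, -, hmf⟩ := hm γ
  exact ⟨γ, m, hm0, fun f hf => by rw [hmf f hf, hγ]⟩

end abs

variable (N : ℕ) [NeZero N]

/-- the hypotheses of Riemann's theorem hold for `F_ℂ`. -/
theorem KC_rrHyp : Fermat.Agent.Lib.RR_Hyp ℂ (KM_FC N) := by
  have hfd := KC_finiteDimensional_jB N
  exact Fermat.Agent.Lib.RR_hyp_of_charZero (KC_transcendental_jB N)

/-- **The dictionary over `ℂ`.**  Every place of `F_ℂ` is the place of a point of `ℍ`, or of a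
cusp `g · i∞`. -/
theorem KC_dict (v : Place ℂ (KM_FC N)) :
    (∃ (τ : ℍ) (m : ℤ), 0 < m ∧
      ∀ f : KM_FC N, f ≠ 0 → S24_ordM τ (KC_ev N f) = m * v.ord f) ∨
    (∃ (g : SL(2, ℤ)) (m : ℤ), 0 < m ∧ ∀ (f : KM_FC N) (k : ℤ) (c : ℂ), f ≠ 0 →
        CuspFrac N (merComp g (KC_ev N f)) k c → k = m * v.ord f) := by
  classical
  have he := KC_isEv_ev N
  have hinv := KC_hinv N (KC_ev N) he
  have hfd := KC_finiteDimensional_jB N
  have hj := KC_transcendental_jB N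
  have hne : ∀ γ (f : KM_FC N), f ≠ 0 → KC_sig N (KC_ev N) γ f ≠ 0 :=
    fun γ f hf => (map_ne_zero (KC_sig N (KC_ev N) γ)).mpr hf
  haveI : Nonempty (S20_Q N) := ⟨QuotientGroup.mk 1⟩
  by_cases hv : 0 ≤ v.ord (KC_jB N)
  · left
    obtain ⟨c, hc⟩ := W_hres hj v hv
    obtain ⟨τ₀, -, hord⟩ := S24_exists_basepoint c
    obtain ⟨e₀, he₀, hord'⟩ : ∃ e₀ : ℤ, 0 < e₀ ∧
        meromorphicOrderAt ((fun z : ℍ => S24_jfun z - c) ∘ ofComplex) (τ₀ : ℂ) = e₀ := by
      rcases hord with ⟨-, -, h⟩ | ⟨-, -, h⟩ | ⟨-, -, -, -, h⟩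
      · exact ⟨2, by norm_num, by rw [h]; rfl⟩
      · exact ⟨3, by norm_num, by rw [h]; rfl⟩
      · exact ⟨1, by norm_num, by rw [h]; rfl⟩
    have hordM := S24_ordM_j_sub c τ₀ e₀ hord'
    haveI := W_finite_sub (KC_jB N) c
    have hx := W_transcendental_sub hj c
    set w : S20_Q N → KM_FC N → ℤ :=
      fun γ f => S24_ordM τ₀ (KC_sig N (KC_ev N) γ f) with hw
    have hval : ∀ γ, IsVal (K := ℂ) (w γ) :=
      fun γ => S24_isVal_ordM (RingHom.id ℂ) (KC_sig N (KC_ev N) γ) (KC_sig_const he γ) τ₀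
    have hwx : ∀ γ, 0 < w γ (KC_jB N - algebraMap ℂ (KM_FC N) c) := by
      intro γ
      show 0 < S24_ordM τ₀ (KC_sig N (KC_ev N) γ _)
      rw [map_sub, KC_sig_jB he, KC_sig_const he, hordM]
      exact he₀
    have hnorm : ∀ f : KM_FC N, f ≠ 0 → ∀ γ₀, ∑ᶠ γ, w γ f =
        w γ₀ (algebraMap ℂ⟮KC_jB N - algebraMap ℂ (KM_FC N) c⟯ (KM_FC N)
          (Algebra.norm ℂ⟮KC_jB N - algebraMap ℂ (KM_FC N) c⟯ f)) := by
      intro f hf γ₀
      rw [W_norm_sub (KC_jB N) c f]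
      show ∑ᶠ γ, S24_ordM τ₀ (KC_sig N (KC_ev N) γ f) = S24_ordM τ₀ (KC_sig N (KC_ev N) γ₀ _)
      rw [KC_sig_norm_ev N (KC_ev N) he f γ₀, S24_ordM_finprod _ (fun γ => hne γ f hf)]
    obtain ⟨γ, m, hm, hmf⟩ := KC_place_surj hx w hval hwx hnorm v hc
    refine ⟨(Quotient.out γ)⁻¹ • τ₀, m, hm, fun f hf => ?_⟩
    rw [← hmf f hf]
    show S24_ordM _ (KC_ev N f) = S24_ordM τ₀ (merComp (Quotient.out γ)⁻¹ (KC_ev N f))
    rw [S24_ordM_merComp]
  · right
    have hv' : 0 < v.ord (KC_jB N)⁻¹ := by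
      rw [v.ord_inv]; omega
    haveI := W_finite_inv (K := ℂ) (KC_jB N)
    have hx := BG_transcendental_inv hj
    have hval : ∀ γ, IsVal (K := ℂ) (KC_cuspW N (KC_ev N) γ) := KC_cuspW_isVal he
    have hwx : ∀ γ, 0 < KC_cuspW N (KC_ev N) γ (KC_jB N)⁻¹ := by
      intro γ
      rw [KC_cuspW_jB_inv he γ]
      exact_mod_cast Nat.pos_of_ne_zero (NeZero.ne N)
    have hnorm : ∀ f : KM_FC N, f ≠ 0 → ∀ γ₀, ∑ᶠ γ, KC_cuspW N (KC_ev N) γ f =
        KC_cuspW N (KC_ev N) γ₀ (algebraMap ℂ⟮(KC_jB N)⁻¹⟯ (KM_FC N)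
          (Algebra.norm ℂ⟮(KC_jB N)⁻¹⟯ f)) := by
      intro f hf γ₀
      rw [W_norm_inv (KC_jB N) f]
      exact KC_cuspW_norm he hinv (KC_finrank_le_card_cos N) f hf γ₀
    obtain ⟨γ, m, hm, hmf⟩ := KC_place_surj hx (KC_cuspW N (KC_ev N)) hval hwx hnorm v hv'
    refine ⟨(Quotient.out γ)⁻¹, m, hm, fun f k c hf hk => ?_⟩
    rw [← hmf f hf]
    exact (KC_cuspW_eq (show CuspFrac N (KC_sig N (KC_ev N) γ f) k c from hk)).symm

/-- `KC_ev N` is an analytic realisation of `F_ℂ` in the sense of `KM_Real`. -/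
theorem KC_real : KM_Real N ℂ (KM_FC N) (RingHom.id ℂ) (KC_ev N) where
  const := KC_ev_const N
  inv := KC_hinv N (KC_ev N) (KC_isEv_ev N)
  cusp := by
    intro γ f hf
    have hinv := KC_hinv N (KC_ev N) (KC_isEv_ev N)
    have h := KC_cuspFrac_sig (KC_isEv_ev N) (QuotientGroup.mk γ⁻¹ : S20_Q N) f
    rcases h with h | ⟨m, c, h⟩
    · exact absurd h hf
    · refine ⟨m, c, ?_⟩
      rw [KC_sig_mk hinv, inv_inv] at h
      exact h

/-- a realisation normalised by `q`-expansions is `KC_ev N`. -/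
theorem KC_eq_ev_of_qExp (e : KM_FC N →+* Mer)
    (hq : ∀ (f : KM_FC N) (b : BFrac), thetaHom b = (f : LaurentSeries ℂ) → e f = bToMer b) :
    e = KC_ev N := by
  ext f
  rw [hq f (KC_evB N f) (KC_thetaHom_evB N f), KC_ev_eq]

/-- **S24C-1.** the analytic realisation of `F_ℂ`, normalised by `q`-expansions and compatible
with the realisation `ev N` of `F_ℚ̄`. -/
theorem KM_exists_realC :
    ∃ e : KM_FC N →+* Mer, KM_Real N ℂ (KM_FC N) (RingHom.id ℂ) e ∧
      (∀ (f : KM_FC N) (b : BFrac), thetaHom b = (f : LaurentSeries ℂ) → e f = bToMer b) ∧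
      ∀ f : ↥(modularFunctionFieldBar N), ∃ fC : KM_FC N,
        (fC : LaurentSeries ℂ) = coeffMap kEmb (f : LaurentSeries (AlgebraicClosure ℚ)) ∧
        e fC = ev N f :=
  ⟨KC_ev N, KC_real N, fun f b h => KC_ev_eq_of_thetaHom_eq N f b h,
    fun f => ⟨KC_ofBar N f, rfl, KC_ev_ofBar N f⟩⟩

/-- **S24C-2 = DICT**, for every realisation normalised by `q`-expansions. -/
theorem KM_dict_of_qExp (e : KM_FC N →+* Mer)
    (hq : ∀ (f : KM_FC N) (b : BFrac), thetaHom b = (f : LaurentSeries ℂ) → e f = bToMer b)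
    (v : Place ℂ (KM_FC N)) :
    (∃ (τ : ℍ) (m : ℤ), 0 < m ∧ ∀ f : KM_FC N, f ≠ 0 → S24_ordM τ (e f) = m * v.ord f) ∨
    (∃ (g : SL(2, ℤ)) (m : ℤ), 0 < m ∧ ∀ (f : KM_FC N) (k : ℤ) (c : ℂ), f ≠ 0 →
        CuspFrac N (merComp g (e f)) k c → k = m * v.ord f) := by
  rw [KC_eq_ev_of_qExp N e hq]
  exact KC_dict N v

end Fermat.Agent.GalRep
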