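/-
Pillar G, package B: the level-`N` bridge.  A `Γ₀(N)`-invariant meromorphic function on `ℍ`
which is meromorphic at all cusps lies in the analytic realisation of the function field
`F_ℂ` of `X₀(N)`.
-/
import Mathlib
import Fermat.Agent.GalRep.BridgeConj
import Fermat.Agent.GalRep.KCDict

set_option autoImplicit false
set_option maxHeartbeats 400000

open scoped Real Topology Manifold MatrixGroups ModularForm
open UpperHalfPlane hiding I
open CongruenceSubgroup ModularCurve IntermediateField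
open Fermat.Agent.S20

noncomputable section

namespace Fermat.Agent.GalRep

open Fermat.Agent.S24

variable (N : ℕ) [NeZero N]

/-- the `F_ℂ`-algebra structure on `Mer` through `KC_ev N` (it induces the `ℂ(j)`-algebra
structure used below). -/
@[reducible] def KMB_alg : Algebra (KM_FC N) Mer := (KC_ev N).toAlgebra

theorem KMB_alg_apply (x : ↥(ℂ⟮KC_jB N⟯)) :
    letI := KMB_alg N
    algebraMap ↥(ℂ⟮KC_jB N⟯) Mer x = KC_ev N (x : KM_FC N) := rfl

/-- `KC_ev N` as a `ℂ(j)`-algebra homomorphism. -/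
def KMB_phi :
    letI := KMB_alg N
    (KM_FC N) →ₐ[↥(ℂ⟮KC_jB N⟯)] Mer :=
  letI := KMB_alg N
  IsScalarTower.toAlgHom ↥(ℂ⟮KC_jB N⟯) (KM_FC N) Mer

theorem KMB_phi_apply (f : KM_FC N) : KMB_phi N f = KC_ev N f := rfl

/-- the range of `KC_ev N` lies in the field of modular functions. -/
theorem KMB_ev_mem_F (f : KM_FC N) : KC_ev N f ∈ KMB_F N := by
  have hr := KC_real N
  refine ⟨fun h hh ↦ hr.inv h hh f, fun γ ↦ ?_⟩
  by_cases hf : f = 0
  · rw [hf, map_zero, map_zero]; exact zero_mem _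
  · exact Or.inr (hr.cusp γ f hf)

/-- the range of `KC_ev N` lies in the field of modular functions (cusp condition at level
`N * r`). -/
theorem KMB_ev_mem_FL (r : ℕ) [NeZero r] (f : KM_FC N) : KC_ev N f ∈ KMB_FL N (N * r) := by
  have hr := KC_real N
  refine ⟨fun h hh ↦ hr.inv h hh f, fun γ ↦ ?_⟩
  by_cases hf : f = 0
  · rw [hf, map_zero, map_zero]; exact zero_mem _
  · obtain ⟨m, c, h⟩ := hr.cusp γ f hf
    exact Or.inr ⟨_, _, KM_cuspFrac_mul_level (Nat.pos_of_ne_zero (NeZero.ne N))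
      (Nat.pos_of_ne_zero (NeZero.ne r)) h⟩

/-- `ℂ(j) ⊂ Mer` is the image of `ℂ(j) ⊂ F_ℂ`. -/
theorem KMB_Cj_le :
    letI := KMB_alg N
    KMB_Cj ≤ (algebraMap ↥(ℂ⟮KC_jB N⟯) Mer).fieldRange := by
  letI := KMB_alg N
  unfold KMB_Cj
  rw [Subfield.closure_le]
  rintro x (⟨c, rfl⟩ | hx)
  · refine ⟨algebraMap ℂ ↥(ℂ⟮KC_jB N⟯) c, ?_⟩
    rw [KMB_alg_apply]
    exact KC_ev_const N c
  · rw [Set.mem_singleton_iff] at hx
    subst hx
    refine ⟨⟨KC_jB N, IntermediateField.mem_adjoin_simple_self ℂ _⟩, ?_⟩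
    rw [KMB_alg_apply]
    exact KC_ev_jB N

/-- every modular function is algebraic over `ℂ(j)` of degree at most `[SL₂(ℤ) : Γ₀(N)]`. -/
theorem KMB_integral {M : ℕ} [NeZero M] {z : Mer} (hz : z ∈ KMB_FL N M) :
    letI := KMB_alg N
    IsIntegral ↥(ℂ⟮KC_jB N⟯) z ∧
      (minpoly ↥(ℂ⟮KC_jB N⟯) z).natDegree ≤ Nat.card (S20_Q N) := by
  letI := KMB_alg N
  have hlift : KMB_Q N z ∈ Polynomial.lifts (algebraMap ↥(ℂ⟮KC_jB N⟯) Mer) := by
    rw [Polynomial.lifts_iff_coeff_lifts]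
    intro n
    exact KMB_Cj_le N (KMB_Q_coeff_mem_Cj hz n)
  obtain ⟨q, hq, hqd, hqm⟩ := Polynomial.lifts_and_natDegree_eq_and_monic hlift (KMB_Q_monic z)
  have hroot : Polynomial.aeval z q = 0 := by
    rw [Polynomial.aeval_def, ← Polynomial.eval_map, hq]
    exact KMB_Q_eval hz.1
  refine ⟨⟨q, hqm, by rwa [Polynomial.aeval_def] at hroot⟩, ?_⟩
  have h1 := minpoly.degree_le_of_ne_zero ↥(ℂ⟮KC_jB N⟯) z hqm.ne_zero hroot
  have h2 := Polynomial.natDegree_le_natDegree h1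
  rw [hqd, KMB_Q_natDegree] at h2
  exact h2

/-- **B**, the level-`N` bridge, with the cusp condition in the parameter `q^{1/(N r)}`:
a `Γ₀(N)`-invariant meromorphic function on `ℍ` which is meromorphic at all cusps lies in the
analytic realisation `KC_ev N` of `F_ℂ`. -/
theorem KMB_bridge_level (r : ℕ) [NeZero r] (y : Mer) (hinv : ∀ γ ∈ Gamma0 N, merComp γ y = y)
    (hc : ∀ γ : SL(2, ℤ), ∃ (m : ℤ) (c : ℂ), CuspFrac (N * r) (merComp γ y) m c) :
    y ∈ Set.range (KC_ev N) := by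
  classical
  letI := KMB_alg N
  have hyF : y ∈ KMB_FL N (N * r) := ⟨hinv, fun γ ↦ Or.inr (hc γ)⟩
  -- the field `E = range (KC_ev N)`
  set E : IntermediateField ↥(ℂ⟮KC_jB N⟯) Mer := (KMB_phi N).fieldRange with hE
  haveI hfdF : FiniteDimensional ↥(ℂ⟮KC_jB N⟯) (KM_FC N) := KC_finiteDimensional_jB N
  have eqv : (KM_FC N) ≃ₐ[↥(ℂ⟮KC_jB N⟯)] E := AlgEquiv.ofInjectiveField (KMB_phi N)
  haveI hfdE : FiniteDimensional ↥(ℂ⟮KC_jB N⟯) E := eqv.toLinearEquiv.finiteDimensional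
  have hrankE : Module.finrank ↥(ℂ⟮KC_jB N⟯) E = Nat.card (S20_Q N) := by
    rw [← eqv.toLinearEquiv.finrank_eq, KC_finrank_eq_card_cos]
  -- the field of modular functions as an intermediate field
  set Fm : IntermediateField ↥(ℂ⟮KC_jB N⟯) Mer :=
    { KMB_FL N (N * r) with algebraMap_mem' := fun x ↦ KMB_ev_mem_FL N r x } with hFm
  have hEF : E ≤ Fm := by
    rintro w ⟨f, rfl⟩
    exact KMB_ev_mem_FL N r f
  obtain ⟨hyint, -⟩ := KMB_integral N hyF
  haveI : FiniteDimensional ↥(ℂ⟮KC_jB N⟯) ↥(IntermediateField.adjoin ↥(ℂ⟮KC_jB N⟯) {y}) :=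
    adjoin.finiteDimensional hyint
  set L : IntermediateField ↥(ℂ⟮KC_jB N⟯) Mer :=
    E ⊔ IntermediateField.adjoin ↥(ℂ⟮KC_jB N⟯) {y} with hL
  have hLF : L ≤ Fm := by
    refine sup_le hEF ?_
    rw [IntermediateField.adjoin_le_iff]
    rintro w hw
    rw [Set.mem_singleton_iff] at hw
    subst hw
    exact hyF
  haveI hfdL : FiniteDimensional ↥(ℂ⟮KC_jB N⟯) L := IntermediateField.finiteDimensional_sup _ _
  haveI : Algebra.IsIntegral ↥(ℂ⟮KC_jB N⟯) L := Algebra.IsIntegral.of_finite _ _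
  haveI : Algebra.IsSeparable ↥(ℂ⟮KC_jB N⟯) L := Algebra.IsSeparable.of_integral _ _
  obtain ⟨α, hα⟩ := Field.exists_primitive_element ↥(ℂ⟮KC_jB N⟯) L
  have hαF : (α : Mer) ∈ KMB_FL N (N * r) := hLF α.2
  obtain ⟨hαint, hαdeg⟩ := KMB_integral N hαF
  have hαint' : IsIntegral ↥(ℂ⟮KC_jB N⟯) α := Algebra.IsIntegral.isIntegral α
  have hrankL : Module.finrank ↥(ℂ⟮KC_jB N⟯) L ≤ Nat.card (S20_Q N) := by
    rw [← IntermediateField.finrank_top', ← hα, IntermediateField.adjoin.finrank hαint',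
      IntermediateField.minpoly_eq]
    exact hαdeg
  have hEL : E = L :=
    IntermediateField.eq_of_le_of_finrank_le le_sup_left (by rw [hrankE]; exact hrankL)
  have hyL : y ∈ L :=
    (le_sup_right : IntermediateField.adjoin ↥(ℂ⟮KC_jB N⟯) {y} ≤ L)
      (IntermediateField.mem_adjoin_simple_self _ y)
  rw [← hEL] at hyL
  obtain ⟨f, hf⟩ := hyL
  exact ⟨f, hf⟩

/-- **B**, the level-`N` bridge: a `Γ₀(N)`-invariant meromorphic function on `ℍ` which is
meromorphic at all cusps lies in the analytic realisation `KC_ev N` of `F_ℂ`. -/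
theorem KMB_bridge (y : Mer) (hinv : ∀ γ ∈ Gamma0 N, merComp γ y = y)
    (hc : ∀ γ : SL(2, ℤ), ∃ (m : ℤ) (c : ℂ), CuspFrac N (merComp γ y) m c) :
    y ∈ Set.range (KC_ev N) := by
  refine KMB_bridge_level N 1 y hinv (fun γ ↦ ?_)
  obtain ⟨m, c, h⟩ := hc γ
  exact ⟨_, _, KM_cuspFrac_mul_level (Nat.pos_of_ne_zero (NeZero.ne N)) one_pos h⟩

/-- **B** for every realisation normalised by `q`-expansions. -/
theorem KM_bridge_of_qExp (e : KM_FC N →+* Mer)
    (hq : ∀ (f : KM_FC N) (b : BFrac), thetaHom b = (f : LaurentSeries ℂ) → e f = bToMer b)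
    (y : Mer) (hinv : ∀ γ ∈ Gamma0 N, merComp γ y = y)
    (hc : ∀ γ : SL(2, ℤ), ∃ (m : ℤ) (c : ℂ), CuspFrac N (merComp γ y) m c) :
    y ∈ Set.range e := by
  rw [KC_eq_ev_of_qExp N e hq]
  exact KMB_bridge N y hinv hc

end Fermat.Agent.GalRep
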