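import Mathlib
import Fermat.Agent.GalRep.Defs
import Fermat.Prelude.Def_GaloisRep_Residual
import Fermat.Prelude.Def_FLTPrelim_Modularity

/-!
# Pillar G (GALREP): top-level interface statements (definitions only)

* `GR_S30Stmt`  : the statement of S30, verbatim (hypothesis of the wiring packages W1, W2).
* `GR_hecEig`   : the eigenvalue function `ℓ ↦ algebraMap (χ T_ℓ)` of a character of the Hecke algebra.
* `GR_MainStmt` : what the geometric part delivers: a finite extension `𝒪''` and an E–S datum.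
* `GR_S29Stmt`  : the statement of S29, verbatim.
-/

set_option autoImplicit false
open Polynomial
open CuspForm

namespace Fermat.Agent.GalRep

/-- The statement of S30 (verbatim). -/
def GR_S30Stmt : Prop :=
    ∀ (p : ℕ) [Fact p.Prime] (N : ℕ) [NeZero N] (S : Finset ℕ)
      (_hpS : p ∈ S) (_hNS : ∀ q : ℕ, q.Prime → q ∣ N → q ∈ S)
      (𝒪' : Type) [CommRing 𝒪'] [IsDomain 𝒪'] [IsDiscreteValuationRing 𝒪']
      [IsAdicComplete (IsLocalRing.maximalIdeal 𝒪') 𝒪'] [Finite (IsLocalRing.ResidueField 𝒪')]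
      [CharZero 𝒪'] (_hp𝒪' : (p : 𝒪') ∈ IsLocalRing.maximalIdeal 𝒪')
      (χ : CuspForm.heckeAlgebra N 2 (↑S : Set ℕ) →+* 𝒪'),
      ∃ (𝒪'' : Type) (_ : CommRing 𝒪'') (_ : IsDomain 𝒪'') (_ : IsDiscreteValuationRing 𝒪'')
        (_ : IsAdicComplete (IsLocalRing.maximalIdeal 𝒪'') 𝒪'')
        (_ : Finite (IsLocalRing.ResidueField 𝒪'')) (_ : CharZero 𝒪'')
        (_ : Algebra 𝒪' 𝒪'') (_ : Module.Finite 𝒪' 𝒪'') (_ : IsLocalHom (algebraMap 𝒪' 𝒪'')),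
      Function.Injective (algebraMap 𝒪' 𝒪'') ∧
      ∃ ρ : GaloisRepAdic 𝒪'',
        (∀ (ℓ : ℕ) (hℓ : ℓ.Prime) (hℓN : ¬ ℓ ∣ N) (hℓS : ℓ ∉ (↑S : Set ℕ)),
          ∀ A : ValuationSubring (AlgebraicClosure ℚ), A.LiesOverPrime ℓ →
            ∀ σ : AlgebraicClosure ℚ ≃ₐ[ℚ] AlgebraicClosure ℚ, A.IsFrobeniusAt σ ℓ →
              LinearMap.charpoly (ρ.ρ σ) =
                X ^ 2 - C (algebraMap 𝒪' 𝒪'' (χ (CuspForm.heckeAlgebra.T hℓ hℓN hℓS))) * X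
                  + C ((ℓ : 𝒪''))) ∧
        (∀ q : ℕ, q.Prime → ¬ q ∣ N → q ≠ p → ρ.IsUnramifiedAt q)

open Classical in
/-- The eigenvalue function of a character `χ` of the Hecke algebra away from `S`, pushed to an
`𝒪'`-algebra `𝒪''` (junk value `0` at the indices that are not good primes). -/
noncomputable def GR_hecEig {N : ℕ} [NeZero N] {S : Finset ℕ} (𝒪' 𝒪'' : Type) [CommRing 𝒪']
    [CommRing 𝒪''] [Algebra 𝒪' 𝒪'']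
    (χ : CuspForm.heckeAlgebra N 2 (↑S : Set ℕ) →+* 𝒪') (ℓ : ℕ) : 𝒪'' :=
  if h : ℓ.Prime ∧ ¬ ℓ ∣ N ∧ ℓ ∉ (↑S : Set ℕ) then
    algebraMap 𝒪' 𝒪'' (χ (CuspForm.heckeAlgebra.T h.1 h.2.1 h.2.2))
  else 0

theorem GR_hecEig_eq {N : ℕ} [NeZero N] {S : Finset ℕ} (𝒪' 𝒪'' : Type) [CommRing 𝒪']
    [CommRing 𝒪''] [Algebra 𝒪' 𝒪'']
    (χ : CuspForm.heckeAlgebra N 2 (↑S : Set ℕ) →+* 𝒪') {ℓ : ℕ}
    (hℓ : ℓ.Prime) (hℓN : ¬ ℓ ∣ N) (hℓS : ℓ ∉ (↑S : Set ℕ)) :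
    GR_hecEig 𝒪' 𝒪'' χ ℓ = algebraMap 𝒪' 𝒪'' (χ (CuspForm.heckeAlgebra.T hℓ hℓN hℓS)) := by
  unfold GR_hecEig
  rw [dif_pos ⟨hℓ, hℓN, hℓS⟩]

/-- **MAIN** (the geometric part): for every character of the Hecke algebra there are a finite
extension `𝒪''` of the coefficient ring and an E–S datum over it with the eigenvalues of `χ`. -/
def GR_MainStmt : Prop :=
    ∀ (p : ℕ) [Fact p.Prime] (N : ℕ) [NeZero N] (S : Finset ℕ)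
      (_hpS : p ∈ S) (_hNS : ∀ q : ℕ, q.Prime → q ∣ N → q ∈ S)
      (𝒪' : Type) [CommRing 𝒪'] [IsDomain 𝒪'] [IsDiscreteValuationRing 𝒪']
      [IsAdicComplete (IsLocalRing.maximalIdeal 𝒪') 𝒪'] [Finite (IsLocalRing.ResidueField 𝒪')]
      [CharZero 𝒪'] (_hp𝒪' : (p : 𝒪') ∈ IsLocalRing.maximalIdeal 𝒪')
      (χ : CuspForm.heckeAlgebra N 2 (↑S : Set ℕ) →+* 𝒪'),
      ∃ (𝒪'' : Type) (_ : CommRing 𝒪'') (_ : IsDomain 𝒪'') (_ : IsDiscreteValuationRing 𝒪'')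
        (_ : IsAdicComplete (IsLocalRing.maximalIdeal 𝒪'') 𝒪'')
        (_ : Finite (IsLocalRing.ResidueField 𝒪'')) (_ : CharZero 𝒪'')
        (_ : Algebra 𝒪' 𝒪'') (_ : Module.Finite 𝒪' 𝒪'') (_ : IsLocalHom (algebraMap 𝒪' 𝒪'')),
      Function.Injective (algebraMap 𝒪' 𝒪'') ∧
        Nonempty (GR_ESDatum p N S 𝒪'' (GR_hecEig 𝒪' 𝒪'' χ))

/-- (CYC) for all coefficient rings. -/
def GR_CycStmt : Prop :=
  ∀ (p : ℕ) [Fact p.Prime] (𝒪 : Type) [CommRing 𝒪] [IsDomain 𝒪] [IsDiscreteValuationRing 𝒪]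
    [IsAdicComplete (IsLocalRing.maximalIdeal 𝒪) 𝒪] [CharZero 𝒪],
    (p : 𝒪) ∈ IsLocalRing.maximalIdeal 𝒪 → Nonempty (GR_Cyc p 𝒪)

/-- The statement of S29 (verbatim). -/
def GR_S29Stmt : Prop :=
  ∀ {N : ℕ} {g : CuspForm (CongruenceSubgroup.Gamma0 N) 2} (_ : g.IsNormalizedEigenform)
    {p : ℕ} (_ : p.Prime) {k : Type} [Field k] [CharP k p]
    (φ : integralClosure ℤ ℂ →+* k),
    ∃ ρ : ResidualGaloisRep k, ρ.IsAttachedTo g φ ∧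
      ∀ ℓ : ℕ, ℓ.Prime → ¬ ℓ ∣ N * p → ρ.IsUnramifiedAt ℓ

/-- **ASM-top**: S30 from MAIN, ALG, DS, CYC (pure logic). -/
theorem GR_S30_of (hMain : GR_MainStmt) (hAlg : GR_ALGStmt) (hDS : GR_DS) (hCyc : GR_CycStmt) :
    GR_S30Stmt := by
  unfold GR_MainStmt at hMain
  unfold GR_ALGStmt at hAlg
  unfold GR_CycStmt at hCyc
  intro p _ N _ S hpS hNS 𝒪' _ _ _ _ _ _ hp𝒪' χ
  obtain ⟨𝒪'', i1, i2, i3, i4, i5, i6, i7, i8, i9, hinj, ⟨D⟩⟩ :=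
    hMain p N S hpS hNS 𝒪' hp𝒪' χ
  have hp'' : (p : 𝒪'') ∈ IsLocalRing.maximalIdeal 𝒪'' := by
    have h1 : algebraMap 𝒪' 𝒪'' (p : 𝒪') ∈ IsLocalRing.maximalIdeal 𝒪'' := by
      rw [IsLocalRing.mem_maximalIdeal, mem_nonunits_iff]
      intro hu
      have hu' : IsUnit (p : 𝒪') := (isUnit_map_iff (algebraMap 𝒪' 𝒪'') _).mp hu
      exact (IsLocalRing.mem_maximalIdeal _).mp hp𝒪' hu'
    simpa using h1
  obtain ⟨c⟩ := hCyc p 𝒪'' hp''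
  obtain ⟨ρ, hρ, hun⟩ := hAlg p N S 𝒪'' (GR_hecEig 𝒪' 𝒪'' χ) hpS hDS c D
  refine ⟨𝒪'', i1, i2, i3, i4, i5, i6, i7, i8, i9, hinj, ρ, ?_, hun⟩
  intro ℓ hℓ hℓN hℓS A hA σ hσ
  rw [hρ ℓ hℓ hℓN (by simpa using hℓS) σ ⟨A, hA, hσ⟩, GR_hecEig_eq 𝒪' 𝒪'' χ hℓ hℓN hℓS]

end Fermat.Agent.GalRep
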