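import Mathlib
import Fermat.Agent.GalRep.Iface

/-!
# Pillar G, package COEF (b): the integral closure of a complete DVR in a finite extension

`𝒪'` a complete discrete valuation ring of characteristic zero with finite residue field,
`K'' / Frac 𝒪'` a finite extension, `𝒪'' := integralClosure 𝒪' K''`.  Then `𝒪''` is a complete
discrete valuation ring with finite residue field, finite over `𝒪'`, and `𝒪' → 𝒪''` is an
injective local homomorphism.

Proof (no valuation theory): `𝒪''` is a finite free `𝒪'`-module, hence complete for the ideal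
`𝔪' 𝒪''`; so `(𝒪'', 𝔪' 𝒪'')` is a Henselian pair and idempotents of the finite ring
`𝒪'' ⧸ 𝔪' 𝒪''` lift to the domain `𝒪''`; hence every element of the finite ring is a unit or
nilpotent and `𝒪''` is local.  A local Dedekind domain that is not a field is a DVR.
-/

set_option autoImplicit false
set_option linter.unusedSectionVars false
set_option linter.style.haveILetI false
set_option linter.overlappingInstances false

namespace Fermat.Agent.GalRep

open IsLocalRing Polynomial

/-! ### generic lemmas -/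

section general

/-- In a finite monoid every element has an idempotent power. -/
theorem GR_coef_exists_idem_pow {M : Type*} [Monoid M] [Finite M] (x : M) :
    ∃ m : ℕ, 0 < m ∧ IsIdempotentElem (x ^ m) := by
  obtain ⟨a, b, hab, h⟩ := Finite.exists_ne_map_eq_of_infinite (fun n : ℕ ↦ x ^ (n + 1))
  wlog hlt : a < b generalizing a b
  · exact this b a (Ne.symm hab) h.symm (lt_of_le_of_ne (not_lt.mp hlt) (Ne.symm hab))
  -- x^(a+1) = x^(b+1), period d = b - a > 0
  obtain ⟨d, rfl⟩ : ∃ d, b = a + d := ⟨b - a, by omega⟩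
  have hd : 0 < d := by omega
  have h1 : ∀ k : ℕ, x ^ (a + 1 + k * d) = x ^ (a + 1) := by
    intro k
    induction k with
    | zero => simp
    | succ k ih =>
      have h2 : a + 1 + (k + 1) * d = (a + d + 1) + k * d := by ring
      rw [h2, pow_add, ← h, ← pow_add, ih]
  have h3 : ∀ n k : ℕ, a + 1 ≤ n → x ^ (n + k * d) = x ^ n := by
    intro n k hn
    obtain ⟨c, rfl⟩ : ∃ c, n = a + 1 + c := ⟨n - (a + 1), by omega⟩
    have h4 : a + 1 + c + k * d = (a + 1 + k * d) + c := by ring
    rw [h4, pow_add, h1, ← pow_add]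
  refine ⟨(a + 1) * d, Nat.mul_pos (Nat.succ_pos a) hd, ?_⟩
  have h5 : a + 1 ≤ (a + 1) * d := Nat.le_mul_of_pos_right _ hd
  show x ^ ((a + 1) * d) * x ^ ((a + 1) * d) = x ^ ((a + 1) * d)
  rw [← pow_add]
  exact h3 _ (a + 1) h5

/-- In a Henselian pair `(R, I)` with `R` a domain, the quotient `R ⧸ I` has only the trivial
idempotents. -/
theorem GR_coef_idem_trivial {R : Type*} [CommRing R] [IsDomain R] (I : Ideal R)
    [HenselianRing R I] (e : R ⧸ I) (he : IsIdempotentElem e) : e = 0 ∨ e = 1 := by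
  obtain ⟨a₀, rfl⟩ := Ideal.Quotient.mk_surjective e
  have he' : a₀ * a₀ - a₀ ∈ I := by
    rw [← Ideal.Quotient.eq_zero_iff_mem, map_sub, map_mul, sub_eq_zero]
    exact he
  set f : R[X] := X ^ 2 - X with hf
  have hmonic : f.Monic := by
    rw [hf]
    exact monic_X_pow_sub (by rw [degree_X]; norm_num)
  have hev : f.eval a₀ ∈ I := by
    have : f.eval a₀ = a₀ * a₀ - a₀ := by simp [hf, pow_two]
    rw [this]
    exact he'
  have hder : IsUnit (Ideal.Quotient.mk I (f.derivative.eval a₀)) := by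
    have h1 : f.derivative.eval a₀ = 2 * a₀ - 1 := by
      simp [hf, one_add_one_eq_two]
    rw [h1]
    refine IsUnit.of_mul_eq_one (Ideal.Quotient.mk I (2 * a₀ - 1)) ?_
    rw [← map_mul, ← map_one (Ideal.Quotient.mk I), Ideal.Quotient.eq]
    have : (2 * a₀ - 1) * (2 * a₀ - 1) - 1 = 4 * (a₀ * a₀ - a₀) := by ring
    rw [this]
    exact I.mul_mem_left _ he'
  obtain ⟨a, ha, haa⟩ := HenselianRing.is_henselian f hmonic a₀ hev hder
  have ha' : a * (a - 1) = 0 := by
    have : f.eval a = a * (a - 1) := by simp [hf, pow_two]; ring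
    rw [← this]
    exact ha
  have hmk : Ideal.Quotient.mk I a = Ideal.Quotient.mk I a₀ := Ideal.Quotient.eq.mpr haa
  rcases mul_eq_zero.mp ha' with h | h
  · left
    rw [← hmk, h, map_zero]
  · right
    rw [← hmk, sub_eq_zero.mp h, map_one]

/-- A domain `R` which is Henselian along an ideal `I` with finite quotient `R ⧸ I` is local. -/
theorem GR_coef_isLocalRing {R : Type*} [CommRing R] [IsDomain R] (I : Ideal R)
    [HenselianRing R I] [Finite (R ⧸ I)] : IsLocalRing R := by
  have hloc : IsLocalHom (Ideal.Quotient.mk I) :=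
    isLocalHom_of_le_jacobson_bot I (HenselianRing.jac (R := R) (I := I))
  refine IsLocalRing.of_isUnit_or_isUnit_one_sub_self (fun x ↦ ?_)
  obtain ⟨m, hm, hidem⟩ := GR_coef_exists_idem_pow (Ideal.Quotient.mk I x)
  rcases GR_coef_idem_trivial I _ hidem with h0 | h1
  · -- nilpotent: 1 - x is a unit
    right
    have hnil : IsNilpotent (Ideal.Quotient.mk I x) := ⟨m, h0⟩
    have hu : IsUnit (Ideal.Quotient.mk I (1 - x)) := by
      rw [map_sub, map_one]
      exact hnil.isUnit_one_sub
    exact hloc.map_nonunit _ hu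
  · -- x is a unit
    left
    have hu : IsUnit (Ideal.Quotient.mk I x) := by
      refine IsUnit.of_pow_eq_one h1 (Nat.pos_iff_ne_zero.mp hm)
    exact hloc.map_nonunit _ hu

/-- Congruence modulo `J ^ n • ⊤` in a ring is membership of the difference in `J ^ n`. -/
theorem GR_coef_smodEq_iff {R : Type*} [CommRing R] (J : Ideal R) (n : ℕ) (x y : R) :
    x ≡ y [SMOD (J ^ n • ⊤ : Submodule R R)] ↔ x - y ∈ J ^ n := by
  rw [SModEq.sub_mem, smul_eq_mul, Ideal.mul_top]

/-- Membership in an extended ideal, in coordinates with respect to a basis. -/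
theorem GR_coef_mem_map_iff {A B ι : Type*} [CommRing A] [CommRing B] [Algebra A B]
    (b : Module.Basis ι A B) (I : Ideal A) (y : B) :
    y ∈ I.map (algebraMap A B) ↔ ∀ i, b.repr y i ∈ I := by
  have h1 : y ∈ I.map (algebraMap A B) ↔ y ∈ (I • (⊤ : Submodule A B)) := by
    rw [Ideal.smul_top_eq_map]
    rfl
  rw [h1, ← b.span_eq, Submodule.mem_ideal_smul_span_iff_exists_sum]
  constructor
  · rintro ⟨a, ha, rfl⟩ i
    have h2 : (a.sum fun i c ↦ c • b i) = Finsupp.linearCombination A b a := by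
      rw [Finsupp.linearCombination_apply]
    rw [h2, b.repr_linearCombination]
    exact ha i
  · intro h
    refine ⟨b.repr y, h, ?_⟩
    have h2 : ((b.repr y).sum fun i c ↦ c • b i) = Finsupp.linearCombination A b (b.repr y) := by
      rw [Finsupp.linearCombination_apply]
    rw [h2, b.linearCombination_repr]

/-- A finite free algebra over an `I`-adically precomplete ring is precomplete for the extended
ideal. -/
theorem GR_coef_isPrecomplete_map {A B : Type*} [CommRing A] [CommRing B] [Algebra A B]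
    [Module.Free A B] [Module.Finite A B] (I : Ideal A) [IsPrecomplete I A] :
    IsPrecomplete (I.map (algebraMap A B)) B := by
  classical
  let b := Module.Free.chooseBasis A B
  refine ⟨fun f hf ↦ ?_⟩
  have hcoord : ∀ i, ∃ L : A, ∀ n, b.repr (f n) i - L ∈ I ^ n := by
    intro i
    obtain ⟨L, hL⟩ := IsPrecomplete.prec (I := I) (M := A) inferInstance
      (f := fun n ↦ b.repr (f n) i) (fun {m n} hmn ↦ by
        rw [GR_coef_smodEq_iff]
        have h1 := (GR_coef_smodEq_iff _ m (f m) (f n)).mp (hf hmn)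
        rw [← Ideal.map_pow] at h1
        have h2 := (GR_coef_mem_map_iff b (I ^ m) _).mp h1 i
        simpa using h2)
    exact ⟨L, fun n ↦ (GR_coef_smodEq_iff I n _ _).mp (hL n)⟩
  choose L hL using hcoord
  refine ⟨b.equivFun.symm L, fun n ↦ ?_⟩
  rw [GR_coef_smodEq_iff, ← Ideal.map_pow, GR_coef_mem_map_iff b]
  intro i
  have h3 : b.repr (f n - b.equivFun.symm L) i = b.repr (f n) i - L i := by
    rw [map_sub, Finsupp.sub_apply]
    congr 1
    have := b.equivFun.apply_symm_apply L
    rw [← Module.Basis.equivFun_apply]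
    exact congrFun this i
  rw [h3]
  exact hL i n

/-- Transfer of adic completeness between two ideals defining the same topology. -/
theorem GR_coef_isAdicComplete_of_le {R : Type*} [CommRing R] (I J : Ideal R)
    [IsPrecomplete I R] (hIJ : I ≤ J) (e : ℕ) (he : 0 < e) (hJ : J ^ e ≤ I)
    (hH : IsHausdorff J R) : IsAdicComplete J R := by
  refine { toIsHausdorff := hH, toIsPrecomplete := ⟨fun f hf ↦ ?_⟩ }
  have hf' : ∀ m n, m ≤ n → f m - f n ∈ J ^ m := fun m n hmn ↦
    (GR_coef_smodEq_iff J m _ _).mp (hf hmn)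
  obtain ⟨L, hL⟩ := IsPrecomplete.prec (I := I) (M := R) inferInstance
    (f := fun n ↦ f (e * n)) (fun {m n} hmn ↦ by
      rw [GR_coef_smodEq_iff]
      have h1 := hf' (e * m) (e * n) (Nat.mul_le_mul_left e hmn)
      rw [pow_mul] at h1
      exact Ideal.pow_right_mono hJ m h1)
  refine ⟨L, fun n ↦ ?_⟩
  rw [GR_coef_smodEq_iff]
  have h2 : f (e * n) - L ∈ J ^ n :=
    Ideal.pow_right_mono hIJ n ((GR_coef_smodEq_iff I n _ _).mp (hL n))
  have h3 : f n - f (e * n) ∈ J ^ n := hf' n (e * n) (Nat.le_mul_of_pos_left n he)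
  have h4 : f n - L = (f n - f (e * n)) + (f (e * n) - L) := by ring
  rw [h4]
  exact (J ^ n).add_mem h3 h2

end general

/-! ### the integral closure -/

section main

variable (𝒪' : Type) [CommRing 𝒪'] [IsDomain 𝒪'] [IsDiscreteValuationRing 𝒪']
  [IsAdicComplete (maximalIdeal 𝒪') 𝒪'] [Finite (ResidueField 𝒪')] [CharZero 𝒪']
  (K' K'' : Type) [Field K'] [Field K''] [Algebra 𝒪' K'] [IsFractionRing 𝒪' K']
  [Algebra K' K''] [FiniteDimensional K' K''] [Algebra 𝒪' K''] [IsScalarTower 𝒪' K' K'']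

include 𝒪' K'

theorem GR_coef_charZero_K' : CharZero K' :=
  charZero_of_injective_algebraMap (IsFractionRing.injective 𝒪' K')

theorem GR_coef_charZero_K'' : CharZero K'' :=
  haveI := GR_coef_charZero_K' 𝒪' K'
  charZero_of_injective_algebraMap (algebraMap K' K'').injective

theorem GR_coef_injective_K'' : Function.Injective (algebraMap 𝒪' K'') := by
  rw [IsScalarTower.algebraMap_eq 𝒪' K' K'']
  exact (algebraMap K' K'').injective.comp (IsFractionRing.injective 𝒪' K')

theorem GR_coef_isSeparable : Algebra.IsSeparable K' K'' :=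
  haveI := GR_coef_charZero_K' 𝒪' K'
  inferInstance

theorem GR_coef_finite : Module.Finite 𝒪' (integralClosure 𝒪' K'') :=
  haveI := GR_coef_isSeparable 𝒪' K' K''
  IsIntegralClosure.finite 𝒪' K' K'' (integralClosure 𝒪' K'')

theorem GR_coef_isTorsionFree : Module.IsTorsionFree 𝒪' K'' := by
  haveI : FaithfulSMul 𝒪' K'' :=
    (faithfulSMul_iff_algebraMap_injective 𝒪' K'').mpr (GR_coef_injective_K'' 𝒪' K' K'')
  infer_instance

theorem GR_coef_free : Module.Free 𝒪' (integralClosure 𝒪' K'') :=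
  haveI := GR_coef_isSeparable 𝒪' K' K''
  haveI := GR_coef_isTorsionFree 𝒪' K' K''
  IsIntegralClosure.module_free 𝒪' K' K'' (integralClosure 𝒪' K'')

theorem GR_coef_isDedekindDomain : IsDedekindDomain (integralClosure 𝒪' K'') :=
  haveI := GR_coef_isSeparable 𝒪' K' K''
  IsIntegralClosure.isDedekindDomain 𝒪' K' K'' (integralClosure 𝒪' K'')

theorem GR_coef_isFractionRing : IsFractionRing (integralClosure 𝒪' K'') K'' :=
  integralClosure.isFractionRing_of_finite_extension K' K''

theorem GR_coef_injective :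
    Function.Injective (algebraMap 𝒪' (integralClosure 𝒪' K'')) := by
  intro x y h
  apply GR_coef_injective_K'' 𝒪' K' K''
  have := congrArg (algebraMap (integralClosure 𝒪' K'') K'') h
  rwa [← IsScalarTower.algebraMap_apply, ← IsScalarTower.algebraMap_apply] at this

/-- The extended ideal `𝔪' 𝒪''` is proper. -/
theorem GR_coef_map_ne_top :
    (maximalIdeal 𝒪').map (algebraMap 𝒪' (integralClosure 𝒪' K'')) ≠ ⊤ := by
  haveI : Algebra.IsIntegral 𝒪' (integralClosure 𝒪' K'') :=
    IsIntegralClosure.isIntegral_algebra 𝒪' K''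
  obtain ⟨Q, hQ, hQ'⟩ := Ideal.exists_ideal_over_maximal_of_isIntegral
    (S := integralClosure 𝒪' K'') (maximalIdeal 𝒪') (by
      rw [(RingHom.injective_iff_ker_eq_bot _).mp (GR_coef_injective 𝒪' K' K'')]
      exact bot_le)
  intro h
  have h1 : (maximalIdeal 𝒪').map (algebraMap 𝒪' (integralClosure 𝒪' K'')) ≤ Q := by
    rw [Ideal.map_le_iff_le_comap, hQ']
  rw [h] at h1
  exact hQ.ne_top (top_le_iff.mp h1)

theorem GR_coef_isAdicComplete_map :
    IsAdicComplete ((maximalIdeal 𝒪').map (algebraMap 𝒪' (integralClosure 𝒪' K'')))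
      (integralClosure 𝒪' K'') := by
  haveI := GR_coef_finite 𝒪' K' K''
  haveI := GR_coef_free 𝒪' K' K''
  haveI := GR_coef_isDedekindDomain 𝒪' K' K''
  haveI : IsPrecomplete ((maximalIdeal 𝒪').map (algebraMap 𝒪' (integralClosure 𝒪' K'')))
      (integralClosure 𝒪' K'') := GR_coef_isPrecomplete_map (maximalIdeal 𝒪')
  haveI : IsHausdorff ((maximalIdeal 𝒪').map (algebraMap 𝒪' (integralClosure 𝒪' K'')))
      (integralClosure 𝒪' K'') := IsHausdorff.of_isDomain _ (GR_coef_map_ne_top 𝒪' K' K'')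
  exact { }

theorem GR_coef_finite_quot :
    Finite (integralClosure 𝒪' K'' ⧸
      (maximalIdeal 𝒪').map (algebraMap 𝒪' (integralClosure 𝒪' K''))) := by
  haveI := GR_coef_finite 𝒪' K' K''
  haveI : Finite (𝒪' ⧸ maximalIdeal 𝒪') := inferInstanceAs (Finite (ResidueField 𝒪'))
  haveI : Finite ((integralClosure 𝒪' K'') ⧸ (⊤ : Submodule 𝒪' (integralClosure 𝒪' K''))) :=
    Finite.of_subsingleton
  have h1 : Finite ((integralClosure 𝒪' K'') ⧸
      ((maximalIdeal 𝒪') • (⊤ : Submodule 𝒪' (integralClosure 𝒪' K'')))) :=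
    Submodule.finite_quotient_smul (maximalIdeal 𝒪') Module.Finite.fg_top
  refine @Finite.of_surjective _ _ h1
    (fun x ↦ Quotient.liftOn' x
      (fun b ↦ Ideal.Quotient.mk
        ((maximalIdeal 𝒪').map (algebraMap 𝒪' (integralClosure 𝒪' K''))) b) ?_) ?_
  · intro a b hab
    rw [Ideal.Quotient.eq]
    have h2 : a - b ∈ ((maximalIdeal 𝒪') • (⊤ : Submodule 𝒪' (integralClosure 𝒪' K''))) := by
      have := QuotientAddGroup.leftRel_apply.mp hab
      have h3 : -a + b ∈ ((maximalIdeal 𝒪') • (⊤ : Submodule 𝒪' (integralClosure 𝒪' K''))) :=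
        this
      have h4 : a - b = -(-a + b) := by ring
      rw [h4]
      exact Submodule.neg_mem _ h3
    rw [Ideal.smul_top_eq_map] at h2
    exact h2
  · intro y
    obtain ⟨b, rfl⟩ := Ideal.Quotient.mk_surjective y
    exact ⟨Submodule.Quotient.mk b, rfl⟩

theorem GR_coef_isLocalRing_int : IsLocalRing (integralClosure 𝒪' K'') := by
  haveI := GR_coef_isAdicComplete_map 𝒪' K' K''
  haveI := GR_coef_finite_quot 𝒪' K' K''
  exact GR_coef_isLocalRing ((maximalIdeal 𝒪').map (algebraMap 𝒪' (integralClosure 𝒪' K'')))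

theorem GR_coef_not_isField : ¬ IsField (integralClosure 𝒪' K'') := by
  haveI : Algebra.IsIntegral 𝒪' (integralClosure 𝒪' K'') :=
    IsIntegralClosure.isIntegral_algebra 𝒪' K''
  intro h
  exact IsDiscreteValuationRing.not_isField 𝒪'
    (isField_of_isIntegral_of_isField (GR_coef_injective 𝒪' K' K'') h)

theorem GR_coef_isDVR : IsDiscreteValuationRing (integralClosure 𝒪' K'') := by
  haveI := GR_coef_isLocalRing_int 𝒪' K' K''
  haveI := GR_coef_isDedekindDomain 𝒪' K' K''
  exact ((IsDiscreteValuationRing.TFAE (integralClosure 𝒪' K'')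
    (GR_coef_not_isField 𝒪' K' K'')).out 0 2).mpr (GR_coef_isDedekindDomain 𝒪' K' K'')

theorem GR_coef_map_ne_bot :
    (maximalIdeal 𝒪').map (algebraMap 𝒪' (integralClosure 𝒪' K'')) ≠ ⊥ := by
  intro h
  have h1 : maximalIdeal 𝒪' ≠ ⊥ := IsDiscreteValuationRing.not_a_field 𝒪'
  obtain ⟨x, hx, hx0⟩ := Submodule.exists_mem_ne_zero_of_ne_bot h1
  have h2 : algebraMap 𝒪' (integralClosure 𝒪' K'') x ∈
      (maximalIdeal 𝒪').map (algebraMap 𝒪' (integralClosure 𝒪' K'')) :=
    Ideal.mem_map_of_mem _ hx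
  rw [h, Ideal.mem_bot] at h2
  exact hx0 (GR_coef_injective 𝒪' K' K'' (by rw [h2, map_zero]))

theorem GR_coef_isAdicComplete :
    @IsAdicComplete (integralClosure 𝒪' K'') _
      (@maximalIdeal (integralClosure 𝒪' K'') _ (GR_coef_isLocalRing_int 𝒪' K' K''))
      (integralClosure 𝒪' K'') _ _ := by
  letI := GR_coef_isLocalRing_int 𝒪' K' K''
  haveI := GR_coef_isDedekindDomain 𝒪' K' K''
  haveI := (GR_coef_isAdicComplete_map 𝒪' K' K'').toIsPrecomplete
  have hne := GR_coef_map_ne_top 𝒪' K' K''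
  have hT : ∀ (I : Ideal (integralClosure 𝒪' K'')) (_ : I ≠ ⊥),
      ∃ n : ℕ, I = maximalIdeal (integralClosure 𝒪' K'') ^ n :=
    ((IsDiscreteValuationRing.TFAE (integralClosure 𝒪' K'')
      (GR_coef_not_isField 𝒪' K' K'')).out 2 6).mp (GR_coef_isDedekindDomain 𝒪' K' K'')
  obtain ⟨n, hn⟩ := hT _ (GR_coef_map_ne_bot 𝒪' K' K'')
  have hn0 : 0 < n := by
    rcases Nat.eq_zero_or_pos n with h0 | h0
    · rw [h0, pow_zero, Ideal.one_eq_top] at hn
      exact absurd hn hne
    · exact h0
  refine GR_coef_isAdicComplete_of_le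
    ((maximalIdeal 𝒪').map (algebraMap 𝒪' (integralClosure 𝒪' K'')))
    (maximalIdeal (integralClosure 𝒪' K'')) (IsLocalRing.le_maximalIdeal hne) n hn0 hn.ge ?_
  exact IsHausdorff.of_isDomain _ Ideal.IsPrime.ne_top'

theorem GR_coef_finite_residue :
    Finite (@ResidueField (integralClosure 𝒪' K'') _ (GR_coef_isLocalRing_int 𝒪' K' K'')) := by
  letI := GR_coef_isLocalRing_int 𝒪' K' K''
  haveI := GR_coef_finite_quot 𝒪' K' K''
  have hne := GR_coef_map_ne_top 𝒪' K' K''
  exact Finite.of_surjective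
    (Ideal.Quotient.factor (IsLocalRing.le_maximalIdeal hne))
    (Ideal.Quotient.factor_surjective (IsLocalRing.le_maximalIdeal hne))

theorem GR_coef_charZero : CharZero (integralClosure 𝒪' K'') :=
  charZero_of_injective_algebraMap (GR_coef_injective 𝒪' K' K'')

theorem GR_coef_isLocalHom :
    @IsLocalHom _ _ _ _ _ _ (algebraMap 𝒪' (integralClosure 𝒪' K'')) := by
  letI := GR_coef_isLocalRing_int 𝒪' K' K''
  have hne := GR_coef_map_ne_top 𝒪' K' K''
  refine ⟨fun a ha ↦ ?_⟩
  by_contra hna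
  have h1 : a ∈ maximalIdeal 𝒪' := (IsLocalRing.mem_maximalIdeal a).mpr hna
  have h2 : algebraMap 𝒪' (integralClosure 𝒪' K'') a ∈ maximalIdeal (integralClosure 𝒪' K'') :=
    IsLocalRing.le_maximalIdeal hne (Ideal.mem_map_of_mem _ h1)
  exact (IsLocalRing.mem_maximalIdeal _).mp h2 ha

end main

/-- **COEF (b)**, the packaged statement: the integral closure `𝒪''` of a complete DVR `𝒪'`
(characteristic zero, finite residue field) in a finite extension `K''` of its fraction field `K'`
is again such a ring, finite over `𝒪'`, with fraction field `K''`. -/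
def GR_CoefBStmt : Prop :=
  ∀ (𝒪' : Type) [CommRing 𝒪'] [IsDomain 𝒪'] [IsDiscreteValuationRing 𝒪']
    [IsAdicComplete (maximalIdeal 𝒪') 𝒪'] [Finite (ResidueField 𝒪')] [CharZero 𝒪']
    (K' K'' : Type) [Field K'] [Field K''] [Algebra 𝒪' K'] [IsFractionRing 𝒪' K']
    [Algebra K' K''] [FiniteDimensional K' K''] [Algebra 𝒪' K''] [IsScalarTower 𝒪' K' K''],
    ∃ (𝒪'' : Type) (_ : CommRing 𝒪'') (_ : IsDomain 𝒪'') (_ : IsDiscreteValuationRing 𝒪'')
      (_ : IsAdicComplete (maximalIdeal 𝒪'') 𝒪'')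
      (_ : Finite (ResidueField 𝒪'')) (_ : CharZero 𝒪'')
      (_ : Algebra 𝒪' 𝒪'') (_ : Module.Finite 𝒪' 𝒪'') (_ : IsLocalHom (algebraMap 𝒪' 𝒪''))
      (_ : Algebra 𝒪'' K'') (_ : IsScalarTower 𝒪' 𝒪'' K'') (_ : IsFractionRing 𝒪'' K'')
      (_ : IsIntegralClosure 𝒪'' 𝒪' K''),
      Function.Injective (algebraMap 𝒪' 𝒪'')

/-- **COEF (b).** -/
theorem GR_coefB : GR_CoefBStmt := by
  intro 𝒪' _ _ _ _ _ _ K' K'' _ _ _ _ _ _ _ _
  exact ⟨integralClosure 𝒪' K'', inferInstance, inferInstance, GR_coef_isDVR 𝒪' K' K'',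
    GR_coef_isAdicComplete 𝒪' K' K'', GR_coef_finite_residue 𝒪' K' K'',
    GR_coef_charZero 𝒪' K' K'', inferInstance, GR_coef_finite 𝒪' K' K'',
    GR_coef_isLocalHom 𝒪' K' K'', inferInstance, inferInstance,
    GR_coef_isFractionRing 𝒪' K' K'', inferInstance, GR_coef_injective 𝒪' K' K''⟩

end Fermat.Agent.GalRep
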