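import Mathlib
import Fermat.Agent.GalRep.CoefB

/-!
# Pillar G, package COEF (a): a complete DVR over a prime of a number field

`E` a number field, `𝔭` a maximal ideal of `𝓞 E`.  Then there are a complete discrete valuation
ring `𝒪'` of characteristic zero with finite residue field and an injective ring homomorphism
`ι : 𝓞 E →+* 𝒪'` with `ι⁻¹(𝔪') = 𝔭`.

Construction (no completion of `E` is needed): `p` the prime number in `𝔭`, `L` an algebraic
closure of `ℚ_[p]`, `K'' ⊆ L` the finite extension of `ℚ_[p]` generated by the images of `E` under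
all embeddings `j : E → L`, `𝒪''` the integral closure of `ℤ_[p]` in `K''` (a complete DVR by
`GalRep/CoefB.lean`).  Every `j` induces a prime `𝔭_j = j⁻¹(𝔪'') ∩ 𝓞 E` over `p`.  If none of them
were `𝔭`, prime avoidance would give `α ∈ 𝔭` with all `j α` units of `𝒪''`, but the product of the
`j α` is the norm of `α`, which lies in `𝔭 ∩ ℤ = p ℤ`.
-/

set_option autoImplicit false
set_option linter.unusedSectionVars false
set_option linter.style.haveILetI false
set_option linter.overlappingInstances false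

namespace Fermat.Agent.GalRep

open IsLocalRing NumberField

/-- **COEF (a)**, the packaged statement. -/
def GR_CoefAStmt : Prop :=
  ∀ (E : Type) [Field E] [NumberField E] (𝔭 : Ideal (𝓞 E)) [𝔭.IsMaximal],
    ∃ (𝒪' : Type) (_ : CommRing 𝒪') (_ : IsDomain 𝒪') (_ : IsDiscreteValuationRing 𝒪')
      (_ : IsAdicComplete (maximalIdeal 𝒪') 𝒪')
      (_ : Finite (ResidueField 𝒪')) (_ : CharZero 𝒪')
      (ι : 𝓞 E →+* 𝒪'),
      Function.Injective ι ∧ (maximalIdeal 𝒪').comap ι = 𝔭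

section construction

variable (p : ℕ) [Fact p.Prime] (E : Type) [Field E] [NumberField E]

/-- The finite extension of `ℚ_[p]` generated by all conjugates of `E`. -/
noncomputable def GR_coefA_K : IntermediateField ℚ_[p] (AlgebraicClosure ℚ_[p]) :=
  IntermediateField.adjoin ℚ_[p]
    (Set.range fun ji : (E →ₐ[ℚ] AlgebraicClosure ℚ_[p]) × Module.Free.ChooseBasisIndex ℚ E ↦
      ji.1 (Module.Free.chooseBasis ℚ E ji.2))

instance GR_coefA_finiteDimensional : FiniteDimensional ℚ_[p] (GR_coefA_K p E) := by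
  unfold GR_coefA_K
  haveI : Finite (Set.range
      fun ji : (E →ₐ[ℚ] AlgebraicClosure ℚ_[p]) × Module.Free.ChooseBasisIndex ℚ E ↦
        ji.1 (Module.Free.chooseBasis ℚ E ji.2)) := (Set.finite_range _).to_subtype
  exact IntermediateField.finiteDimensional_adjoin (fun x _ ↦ Algebra.IsIntegral.isIntegral x)

theorem GR_coefA_mem (j : E →ₐ[ℚ] AlgebraicClosure ℚ_[p]) (x : E) : j x ∈ GR_coefA_K p E := by
  have hx : x ∈ Submodule.span ℚ (Set.range (Module.Free.chooseBasis ℚ E)) := by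
    rw [(Module.Free.chooseBasis ℚ E).span_eq]
    exact Submodule.mem_top
  induction hx using Submodule.span_induction with
  | mem y hy =>
    obtain ⟨i, rfl⟩ := hy
    exact IntermediateField.subset_adjoin _ _ ⟨(j, i), rfl⟩
  | zero => rw [map_zero]; exact zero_mem _
  | add y z _ _ hy hz => rw [map_add]; exact add_mem hy hz
  | smul q y _ hy =>
    rw [Algebra.smul_def, map_mul, AlgHom.commutes]
    refine mul_mem ?_ hy
    rw [eq_ratCast]
    exact SubfieldClass.ratCast_mem _ q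

/-- The ring homomorphism `𝓞 E → K''` induced by an embedding. -/
noncomputable def GR_coefA_toK (j : E →ₐ[ℚ] AlgebraicClosure ℚ_[p]) :
    𝓞 E →+* GR_coefA_K p E :=
  ((j : E →+* AlgebraicClosure ℚ_[p]).comp (algebraMap (𝓞 E) E)).codRestrict (GR_coefA_K p E)
    (fun _ ↦ GR_coefA_mem p E j _)

theorem GR_coefA_toK_coe (j : E →ₐ[ℚ] AlgebraicClosure ℚ_[p]) (x : 𝓞 E) :
    ((GR_coefA_toK p E j x : GR_coefA_K p E) : AlgebraicClosure ℚ_[p]) = j (x : E) := rfl

theorem GR_coefA_toK_isIntegral (j : E →ₐ[ℚ] AlgebraicClosure ℚ_[p]) (x : 𝓞 E) :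
    IsIntegral ℤ_[p] (GR_coefA_toK p E j x) := by
  have h1 : IsIntegral ℤ (x : E) := RingOfIntegers.isIntegral_coe x
  have h2 : IsIntegral ℤ (j (x : E)) := map_isIntegral_int (j : E →+* AlgebraicClosure ℚ_[p]) h1
  have h3 : IsIntegral ℤ (GR_coefA_toK p E j x) := by
    rw [← isIntegral_algebraMap_iff
      (FaithfulSMul.algebraMap_injective (GR_coefA_K p E) (AlgebraicClosure ℚ_[p]))]
    exact h2
  exact h3.tower_top

/-- The ring homomorphism `𝓞 E → 𝒪''` induced by an embedding. -/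
noncomputable def GR_coefA_toO (j : E →ₐ[ℚ] AlgebraicClosure ℚ_[p]) :
    𝓞 E →+* integralClosure ℤ_[p] (GR_coefA_K p E) :=
  (GR_coefA_toK p E j).codRestrict (integralClosure ℤ_[p] (GR_coefA_K p E))
    (fun x ↦ GR_coefA_toK_isIntegral p E j x)

theorem GR_coefA_toO_coe (j : E →ₐ[ℚ] AlgebraicClosure ℚ_[p]) (x : 𝓞 E) :
    (((GR_coefA_toO p E j x : integralClosure ℤ_[p] (GR_coefA_K p E)) : GR_coefA_K p E) :
      AlgebraicClosure ℚ_[p]) = j (x : E) := rfl

theorem GR_coefA_toO_injective (j : E →ₐ[ℚ] AlgebraicClosure ℚ_[p]) :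
    Function.Injective (GR_coefA_toO p E j) := by
  intro x y h
  have h1 : j (x : E) = j (y : E) := by
    rw [← GR_coefA_toO_coe, ← GR_coefA_toO_coe, h]
  exact RingOfIntegers.ext (j.injective h1)

instance GR_coefA_isLocalRing : IsLocalRing (integralClosure ℤ_[p] (GR_coefA_K p E)) :=
  GR_coef_isLocalRing_int ℤ_[p] ℚ_[p] (GR_coefA_K p E)

theorem GR_coefA_p_mem :
    ((p : ℕ) : integralClosure ℤ_[p] (GR_coefA_K p E)) ∈
      maximalIdeal (integralClosure ℤ_[p] (GR_coefA_K p E)) := by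
  have h1 : ((p : ℕ) : ℤ_[p]) ∈ maximalIdeal ℤ_[p] := by
    rw [PadicInt.maximalIdeal_eq_span_p]
    exact Ideal.mem_span_singleton_self _
  have h2 := IsLocalRing.le_maximalIdeal (GR_coef_map_ne_top ℤ_[p] ℚ_[p] (GR_coefA_K p E))
    (Ideal.mem_map_of_mem (algebraMap ℤ_[p] (integralClosure ℤ_[p] (GR_coefA_K p E))) h1)
  rwa [map_natCast] at h2

/-- The norm of `α` is the product of its conjugates, inside `𝒪''`. -/
theorem GR_coefA_prod (α : 𝓞 E) :
    ∏ j : E →ₐ[ℚ] AlgebraicClosure ℚ_[p], GR_coefA_toO p E j α =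
      ((Algebra.norm ℤ α : ℤ) : integralClosure ℤ_[p] (GR_coefA_K p E)) := by
  have hinj : Function.Injective
      (fun y : integralClosure ℤ_[p] (GR_coefA_K p E) ↦
        (((y : GR_coefA_K p E)) : AlgebraicClosure ℚ_[p])) :=
    fun a b hab ↦ Subtype.ext (Subtype.ext hab)
  apply hinj
  show (((∏ j : E →ₐ[ℚ] AlgebraicClosure ℚ_[p], GR_coefA_toO p E j α :
      integralClosure ℤ_[p] (GR_coefA_K p E)) : GR_coefA_K p E) : AlgebraicClosure ℚ_[p]) =
    ((((Algebra.norm ℤ α : ℤ) : integralClosure ℤ_[p] (GR_coefA_K p E)) : GR_coefA_K p E) :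
      AlgebraicClosure ℚ_[p])
  have h1 : (((∏ j : E →ₐ[ℚ] AlgebraicClosure ℚ_[p], GR_coefA_toO p E j α :
      integralClosure ℤ_[p] (GR_coefA_K p E)) : GR_coefA_K p E) : AlgebraicClosure ℚ_[p]) =
      ∏ j : E →ₐ[ℚ] AlgebraicClosure ℚ_[p], j (α : E) := by
    have := map_prod ((algebraMap (GR_coefA_K p E) (AlgebraicClosure ℚ_[p])).comp
      (algebraMap (integralClosure ℤ_[p] (GR_coefA_K p E)) (GR_coefA_K p E)))
      (fun j : E →ₐ[ℚ] AlgebraicClosure ℚ_[p] ↦ GR_coefA_toO p E j α) Finset.univ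
    exact this
  rw [h1, ← Algebra.norm_eq_prod_embeddings ℚ (AlgebraicClosure ℚ_[p]) (α : E),
    ← Algebra.coe_norm_int α]
  simp

/-- **Key step**: some embedding induces the given prime. -/
theorem GR_coefA_exists (𝔭 : Ideal (𝓞 E)) [h𝔭 : 𝔭.IsMaximal] (hp : ((p : ℕ) : 𝓞 E) ∈ 𝔭) :
    ∃ j : E →ₐ[ℚ] AlgebraicClosure ℚ_[p],
      (maximalIdeal (integralClosure ℤ_[p] (GR_coefA_K p E))).comap (GR_coefA_toO p E j) = 𝔭 := by
  classical
  by_contra hcon
  rw [not_exists] at hcon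
  have hnle : ∀ j : E →ₐ[ℚ] AlgebraicClosure ℚ_[p],
      ¬ 𝔭 ≤ (maximalIdeal (integralClosure ℤ_[p] (GR_coefA_K p E))).comap
        (GR_coefA_toO p E j) := by
    intro j hle
    have hne : (maximalIdeal (integralClosure ℤ_[p] (GR_coefA_K p E))).comap
        (GR_coefA_toO p E j) ≠ ⊤ := Ideal.IsPrime.ne_top'
    exact hcon j (h𝔭.eq_of_le hne hle).symm
  obtain ⟨j₀⟩ : Nonempty (E →ₐ[ℚ] AlgebraicClosure ℚ_[p]) := ⟨IsAlgClosed.lift⟩
  have havoid : ¬ ((𝔭 : Set (𝓞 E)) ⊆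
      ⋃ j ∈ ((Finset.univ : Finset (E →ₐ[ℚ] AlgebraicClosure ℚ_[p])) : Set _),
        (((maximalIdeal (integralClosure ℤ_[p] (GR_coefA_K p E))).comap
          (GR_coefA_toO p E j) : Ideal (𝓞 E)) : Set (𝓞 E))) := by
    rw [Ideal.subset_union_prime j₀ j₀ (fun j _ _ _ ↦ Ideal.IsPrime.comap _)]
    rintro ⟨j, -, hj⟩
    exact hnle j hj
  rw [Set.not_subset] at havoid
  obtain ⟨α, hα, hα'⟩ := havoid
  have hunit : ∀ j : E →ₐ[ℚ] AlgebraicClosure ℚ_[p], IsUnit (GR_coefA_toO p E j α) := by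
    intro j
    by_contra hnu
    apply hα'
    simp only [Set.mem_iUnion, Finset.coe_univ, Set.mem_univ, exists_true_left]
    exact ⟨j, (IsLocalRing.mem_maximalIdeal _).mpr hnu⟩
  have hprod : IsUnit (∏ j : E →ₐ[ℚ] AlgebraicClosure ℚ_[p], GR_coefA_toO p E j α) := by
    rw [IsUnit.prod_univ_iff]
    exact hunit
  rw [GR_coefA_prod] at hprod
  -- the norm lies in 𝔭
  have hn : (((Algebra.norm ℤ α).natAbs : ℕ) : 𝓞 E) ∈ 𝔭 := by
    rw [← Ideal.absNorm_span_singleton]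
    exact ((Ideal.span_singleton_le_iff_mem 𝔭).mpr hα) (Ideal.absNorm_mem _)
  have hdvd : p ∣ (Algebra.norm ℤ α).natAbs := by
    by_contra hnd
    have hcop : Nat.Coprime (Algebra.norm ℤ α).natAbs p :=
      (Nat.Coprime.symm ((Nat.Prime.coprime_iff_not_dvd (Fact.out : p.Prime)).mpr hnd))
    have h1 : IsCoprime (((Algebra.norm ℤ α).natAbs : ℕ) : ℤ) ((p : ℕ) : ℤ) :=
      Nat.isCoprime_iff_coprime.mpr hcop
    obtain ⟨u, v, huv⟩ := h1
    have h2 : (u : 𝓞 E) * (((Algebra.norm ℤ α).natAbs : ℕ) : 𝓞 E) + (v : 𝓞 E) * ((p : ℕ) : 𝓞 E)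
        = 1 := by
      have := congrArg (Int.cast : ℤ → 𝓞 E) huv
      simp only [Int.cast_add, Int.cast_mul, Int.cast_one, Int.cast_natCast] at this
      exact this
    have h3 : (1 : 𝓞 E) ∈ 𝔭 := by
      rw [← h2]
      exact 𝔭.add_mem (𝔭.mul_mem_left _ hn) (𝔭.mul_mem_left _ hp)
    exact h𝔭.ne_top ((Ideal.eq_top_iff_one _).mpr h3)
  have hdvd' : ((p : ℕ) : ℤ) ∣ Algebra.norm ℤ α := Int.natCast_dvd.mpr hdvd
  obtain ⟨m, hm⟩ := hdvd'
  have hmem : ((Algebra.norm ℤ α : ℤ) : integralClosure ℤ_[p] (GR_coefA_K p E)) ∈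
      maximalIdeal (integralClosure ℤ_[p] (GR_coefA_K p E)) := by
    rw [hm]
    push_cast
    exact Ideal.mul_mem_right _ _ (GR_coefA_p_mem p E)
  exact (IsLocalRing.mem_maximalIdeal _).mp hmem hprod

end construction

/-- **COEF (a).** -/
theorem GR_coefA : GR_CoefAStmt := by
  intro E _ _ 𝔭 h𝔭
  classical
  -- the residue characteristic
  have hbot : 𝔭 ≠ ⊥ := Ring.ne_bot_of_isMaximal_of_not_isField h𝔭 (RingOfIntegers.not_isField E)
  letI : Field (𝓞 E ⧸ 𝔭) := Ideal.Quotient.field 𝔭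
  haveI : Finite (𝓞 E ⧸ 𝔭) := Ideal.finiteQuotientOfFreeOfNeBot 𝔭 hbot
  obtain ⟨p, hchar⟩ := CharP.exists (𝓞 E ⧸ 𝔭)
  have hp0 : p ≠ 0 := by
    rintro rfl
    haveI : CharZero (𝓞 E ⧸ 𝔭) := CharP.charP_to_charZero _
    exact not_finite (𝓞 E ⧸ 𝔭)
  have hpp : p.Prime := (CharP.char_is_prime_or_zero (𝓞 E ⧸ 𝔭) p).resolve_right hp0
  haveI : Fact p.Prime := ⟨hpp⟩
  have hp : ((p : ℕ) : 𝓞 E) ∈ 𝔭 := by
    rw [← Ideal.Quotient.eq_zero_iff_mem, map_natCast]
    exact CharP.cast_eq_zero _ p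
  obtain ⟨j, hj⟩ := GR_coefA_exists p E 𝔭 hp
  exact ⟨integralClosure ℤ_[p] (GR_coefA_K p E), inferInstance, inferInstance,
    GR_coef_isDVR ℤ_[p] ℚ_[p] (GR_coefA_K p E),
    GR_coef_isAdicComplete ℤ_[p] ℚ_[p] (GR_coefA_K p E),
    GR_coef_finite_residue ℤ_[p] ℚ_[p] (GR_coefA_K p E),
    GR_coef_charZero ℤ_[p] ℚ_[p] (GR_coefA_K p E),
    GR_coefA_toO p E j, GR_coefA_toO_injective p E j, hj⟩

end Fermat.Agent.GalRep
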