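import Mathlib
import Fermat.Agent.GalRep.Defs

/-!
# Pillar G, package CYC: the `p`-adic cyclotomic character with values in a complete local ring

`𝒪` a local ring, complete for its maximal ideal `𝔪`, with `p ∈ 𝔪`.  We construct an inhabitant of
`GR_Cyc p 𝒪` (see `GalRep/Defs.lean`):

* `GR_cyc_phi`   : the ring homomorphism `ℤ_[p] →+* 𝒪`;
* `GR_cyc_eps`   : `ε : G_ℚ →* 𝒪ˣ`, Mathlib's `cyclotomicCharacter` pushed along `GR_cyc_phi`;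
* `GR_cyc_eps_sub_mem` : if `σ ζ = ζ ^ a` for a primitive `p ^ n`-th root of unity `ζ`, then
  `ε σ - a ∈ 𝔪 ^ n`;
* `GR_cyc_eps_frob`, `GR_cyc_eps_inertia` : `ε (Frob_ℓ) = ℓ`, `ε = 1` on inertia at `q ≠ p`;
* `GR_cyc` : `Nonempty (GR_Cyc p 𝒪)`.
-/

set_option autoImplicit false
set_option linter.unusedSectionVars false

namespace Fermat.Agent.GalRep

open IsLocalRing

/-! ### ring homomorphisms out of `ℤ_[p]` -/

section ringhom

variable (p : ℕ) [Fact p.Prime]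

/-- A ring homomorphism `ℤ_[p] →+* R` with `p ^ n = 0` in `R` is given by `x ↦ appr x n`. -/
theorem GR_cyc_ringHom_apply {R : Type*} [CommRing R] (n : ℕ) (hR : (p : R) ^ n = 0)
    (ψ : ℤ_[p] →+* R) (x : ℤ_[p]) : ψ x = (PadicInt.appr x n : R) := by
  have h1 := PadicInt.appr_spec n x
  rw [Ideal.mem_span_singleton] at h1
  obtain ⟨y, hy⟩ := h1
  have h2 : x = (PadicInt.appr x n : ℤ_[p]) + (p : ℤ_[p]) ^ n * y := by
    rw [← hy]; ring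
  have h3 : ψ x = ψ ((PadicInt.appr x n : ℤ_[p]) + (p : ℤ_[p]) ^ n * y) := by rw [← h2]
  rw [h3, map_add, map_mul, map_pow, map_natCast, map_natCast, hR, zero_mul, add_zero]

theorem GR_cyc_ringHom_ext {R : Type*} [CommRing R] (n : ℕ) (hR : (p : R) ^ n = 0)
    (ψ₁ ψ₂ : ℤ_[p] →+* R) : ψ₁ = ψ₂ := by
  ext x
  rw [GR_cyc_ringHom_apply p n hR ψ₁, GR_cyc_ringHom_apply p n hR ψ₂]

variable (𝒪 : Type) [CommRing 𝒪] [IsLocalRing 𝒪]

theorem GR_cyc_pow_eq_zero (hp : (p : 𝒪) ∈ maximalIdeal 𝒪) (n : ℕ) :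
    ((p : 𝒪 ⧸ maximalIdeal 𝒪 ^ n)) ^ n = 0 := by
  have h1 : ((p : 𝒪)) ^ n ∈ maximalIdeal 𝒪 ^ n := Ideal.pow_mem_pow hp n
  have h2 : Ideal.Quotient.mk (maximalIdeal 𝒪 ^ n) ((p : 𝒪) ^ n) = 0 :=
    Ideal.Quotient.eq_zero_iff_mem.mpr h1
  rw [map_pow, map_natCast] at h2
  exact h2

theorem GR_cyc_natCast_pow_eq_zero (hp : (p : 𝒪) ∈ maximalIdeal 𝒪) (n : ℕ) :
    (((p ^ n : ℕ) : 𝒪 ⧸ maximalIdeal 𝒪 ^ n)) = 0 := by
  rw [Nat.cast_pow]
  exact GR_cyc_pow_eq_zero p 𝒪 hp n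

/-- The level-`n` map `ℤ_[p] → ZMod (p ^ n) → 𝒪 ⧸ 𝔪 ^ n`. -/
noncomputable def GR_cyc_lvl (hp : (p : 𝒪) ∈ maximalIdeal 𝒪) (n : ℕ) :
    ℤ_[p] →+* 𝒪 ⧸ maximalIdeal 𝒪 ^ n :=
  (ZMod.castHom ((ringChar.dvd (GR_cyc_natCast_pow_eq_zero p 𝒪 hp n)))
    (𝒪 ⧸ maximalIdeal 𝒪 ^ n)).comp (PadicInt.toZModPow n)

variable [IsAdicComplete (maximalIdeal 𝒪) 𝒪]

/-- The canonical ring homomorphism `ℤ_[p] →+* 𝒪`. -/
noncomputable def GR_cyc_phi (hp : (p : 𝒪) ∈ maximalIdeal 𝒪) : ℤ_[p] →+* 𝒪 :=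
  IsAdicComplete.liftRingHom (maximalIdeal 𝒪) (GR_cyc_lvl p 𝒪 hp) (fun {m n} hle ↦ by
    refine GR_cyc_ringHom_ext p m (GR_cyc_pow_eq_zero p 𝒪 hp m) _ _)

theorem GR_cyc_phi_mem (hp : (p : 𝒪) ∈ maximalIdeal 𝒪) (n : ℕ) {x : ℤ_[p]}
    (hx : x ∈ Ideal.span {(p : ℤ_[p]) ^ n}) : GR_cyc_phi p 𝒪 hp x ∈ maximalIdeal 𝒪 ^ n := by
  rw [Ideal.mem_span_singleton] at hx
  obtain ⟨y, rfl⟩ := hx
  rw [map_mul, map_pow, map_natCast]
  exact Ideal.mul_mem_right _ _ (Ideal.pow_mem_pow hp n)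

end ringhom

/-! ### roots of unity in valuation subrings -/

section valuation

variable {L : Type*} [Field L]

/-- A root of unity lies in every valuation subring. -/
theorem GR_cyc_mem_of_pow_eq_one (A : ValuationSubring L) {η : L} {m : ℕ} (hm : m ≠ 0)
    (hη : η ^ m = 1) : η ∈ A := by
  rw [← A.valuation_le_one_iff]
  by_contra h
  rw [not_le] at h
  have h1 : 1 < A.valuation η ^ m := one_lt_pow₀ h hm
  rw [← map_pow, hη, map_one] at h1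
  exact lt_irrefl _ h1

/-- **Injectivity of reduction on roots of unity of order prime to the residue characteristic.** -/
theorem GR_cyc_eq_one_of_sub_mem (A : ValuationSubring L) {η : L} {m : ℕ}
    (hη : η ^ m = 1) (hm : (m : L) ∉ A.nonunits) (h : η - 1 ∈ A.nonunits) : η = 1 := by
  by_contra hne
  have hm0 : m ≠ 0 := by
    rintro rfl
    apply hm
    rw [A.mem_nonunits_iff]
    simp
  have hηA : η ∈ A := GR_cyc_mem_of_pow_eq_one A hm0 hη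
  -- geometric sum
  have hsum : ∑ j ∈ Finset.range m, η ^ j = 0 := by
    have h1 : (η - 1) * ∑ j ∈ Finset.range m, η ^ j = 0 := by
      rw [mul_geom_sum, hη, sub_self]
    rcases mul_eq_zero.mp h1 with h2 | h2
    · exact absurd (sub_eq_zero.mp h2) hne
    · exact h2
  have hpow : ∀ j : ℕ, A.valuation (1 - η ^ j) < 1 := by
    intro j
    have h1 : 1 - η ^ j = -((η - 1) * ∑ i ∈ Finset.range j, η ^ i) := by
      rw [mul_geom_sum]; ring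
    rw [h1, Valuation.map_neg, map_mul]
    have h2 : A.valuation (∑ i ∈ Finset.range j, η ^ i) ≤ 1 := by
      rw [A.valuation_le_one_iff]
      exact Subring.sum_mem _ (fun i _ ↦ Subring.pow_mem _ hηA i)
    calc A.valuation (η - 1) * A.valuation (∑ i ∈ Finset.range j, η ^ i)
        ≤ A.valuation (η - 1) * 1 := mul_le_mul_right h2 _
      _ = A.valuation (η - 1) := mul_one _
      _ < 1 := A.mem_nonunits_iff.mp h
  have hm' : (m : L) = ∑ j ∈ Finset.range m, (1 - η ^ j) := by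
    rw [Finset.sum_sub_distrib, hsum, sub_zero]
    simp
  apply hm
  rw [A.mem_nonunits_iff, hm']
  exact Valuation.map_sum_lt _ (by simp) (fun j _ ↦ hpow j)

/-- If `ℓ` lies in the maximal ideal of `A` and `m` is prime to `ℓ`, then `m` is a unit of `A`. -/
theorem GR_cyc_coprime_not_mem (A : ValuationSubring L) {ℓ m : ℕ} (hℓ : (ℓ : L) ∈ A.nonunits)
    (hc : Nat.Coprime m ℓ) : (m : L) ∉ A.nonunits := by
  intro hm
  have h1 : IsCoprime (m : ℤ) (ℓ : ℤ) := Nat.isCoprime_iff_coprime.mpr hc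
  obtain ⟨u, v, huv⟩ := h1
  have h2 : (u : L) * m + (v : L) * ℓ = 1 := by exact_mod_cast congrArg (Int.cast : ℤ → L) huv
  have hu : A.valuation (u : L) ≤ 1 := by
    rw [A.valuation_le_one_iff]; exact intCast_mem A u
  have hv : A.valuation (v : L) ≤ 1 := by
    rw [A.valuation_le_one_iff]; exact intCast_mem A v
  have h3 : A.valuation ((u : L) * m + (v : L) * ℓ) < 1 := by
    refine lt_of_le_of_lt (Valuation.map_add _ _ _) (max_lt ?_ ?_)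
    · rw [map_mul]
      calc A.valuation (u : L) * A.valuation (m : L) ≤ 1 * A.valuation (m : L) :=
            mul_le_mul_left hu _
        _ = A.valuation (m : L) := one_mul _
        _ < 1 := A.mem_nonunits_iff.mp hm
    · rw [map_mul]
      calc A.valuation (v : L) * A.valuation (ℓ : L) ≤ 1 * A.valuation (ℓ : L) :=
            mul_le_mul_left hv _
        _ = A.valuation (ℓ : L) := one_mul _
        _ < 1 := A.mem_nonunits_iff.mp hℓ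
  rw [h2, map_one] at h3
  exact lt_irrefl _ h3

/-- Two powers of a root of unity of order prime to the residue characteristic which are
congruent modulo the maximal ideal are equal. -/
theorem GR_cyc_pow_eq_of_sub_mem (A : ValuationSubring L) {ζ : L} {m a b : ℕ} (hm0 : m ≠ 0)
    (hζ : ζ ^ m = 1) (hm : (m : L) ∉ A.nonunits) (h : ζ ^ a - ζ ^ b ∈ A.nonunits) :
    ζ ^ a = ζ ^ b := by
  have hζ0 : ζ ≠ 0 := by
    rintro rfl
    rw [zero_pow hm0] at hζ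
    exact zero_ne_one hζ
  have hζA : ζ ∈ A := GR_cyc_mem_of_pow_eq_one A hm0 hζ
  have hinvA : (ζ ^ b)⁻¹ ∈ A := by
    refine GR_cyc_mem_of_pow_eq_one A hm0 (m := m) ?_
    rw [inv_pow, ← pow_mul, mul_comm, pow_mul, hζ, one_pow, inv_one]
  have h1 : (ζ ^ a * (ζ ^ b)⁻¹) ^ m = 1 := by
    rw [mul_pow, inv_pow, ← pow_mul, ← pow_mul, mul_comm a, mul_comm b, pow_mul, pow_mul, hζ,
      one_pow, one_pow, inv_one, mul_one]
  have h2 : ζ ^ a * (ζ ^ b)⁻¹ - 1 ∈ A.nonunits := by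
    have h3 : ζ ^ a * (ζ ^ b)⁻¹ - 1 = (ζ ^ b)⁻¹ * (ζ ^ a - ζ ^ b) := by
      field_simp
    rw [h3, A.mem_nonunits_iff, map_mul]
    calc A.valuation (ζ ^ b)⁻¹ * A.valuation (ζ ^ a - ζ ^ b)
        ≤ 1 * A.valuation (ζ ^ a - ζ ^ b) :=
          mul_le_mul_left ((A.valuation_le_one_iff _).mpr hinvA) _
      _ = A.valuation (ζ ^ a - ζ ^ b) := one_mul _
      _ < 1 := A.mem_nonunits_iff.mp h
  have h4 := GR_cyc_eq_one_of_sub_mem A h1 hm h2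
  have hb0 : ζ ^ b ≠ 0 := pow_ne_zero _ hζ0
  field_simp at h4
  exact h4

end valuation

/-! ### the character -/

section character

variable (p : ℕ) [Fact p.Prime] (𝒪 : Type) [CommRing 𝒪] [IsLocalRing 𝒪]
  [IsAdicComplete (maximalIdeal 𝒪) 𝒪]

/-- Mathlib's `p`-adic cyclotomic character of `G_ℚ`. -/
noncomputable def GR_cyc_chi : GQ →* ℤ_[p]ˣ :=
  (cyclotomicCharacter (AlgebraicClosure ℚ) p).comp
    (MulSemiringAction.toRingAut GQ (AlgebraicClosure ℚ))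

theorem GR_cyc_chi_spec (σ : GQ) {n : ℕ} (t : AlgebraicClosure ℚ) (ht : t ^ p ^ n = 1) :
    σ t = t ^ (((GR_cyc_chi p σ : ℤ_[p]ˣ) : ℤ_[p]).toZModPow n).val :=
  cyclotomicCharacter.spec p (MulSemiringAction.toRingAut GQ (AlgebraicClosure ℚ) σ) t ht

/-- The `p`-adic cyclotomic character with values in `𝒪ˣ`. -/
noncomputable def GR_cyc_eps (hp : (p : 𝒪) ∈ maximalIdeal 𝒪) : GQ →* 𝒪ˣ :=
  (Units.map (GR_cyc_phi p 𝒪 hp : ℤ_[p] →* 𝒪)).comp (GR_cyc_chi p)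

theorem GR_cyc_eps_coe (hp : (p : 𝒪) ∈ maximalIdeal 𝒪) (σ : GQ) :
    ((GR_cyc_eps p 𝒪 hp σ : 𝒪ˣ) : 𝒪) = GR_cyc_phi p 𝒪 hp ((GR_cyc_chi p σ : ℤ_[p]ˣ) : ℤ_[p]) :=
  rfl

theorem GR_cyc_exists_primitiveRoot (n : ℕ) :
    ∃ ζ : AlgebraicClosure ℚ, IsPrimitiveRoot ζ (p ^ n) :=
  HasEnoughRootsOfUnity.exists_primitiveRoot (AlgebraicClosure ℚ) (p ^ n)

/-- **Key congruence.** If `σ ζ = ζ ^ a` for a primitive `p ^ n`-th root of unity `ζ`, then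
`ε σ ≡ a mod 𝔪 ^ n`. -/
theorem GR_cyc_eps_sub_mem (hp : (p : 𝒪) ∈ maximalIdeal 𝒪) (σ : GQ) {n : ℕ}
    {ζ : AlgebraicClosure ℚ} (hζ : IsPrimitiveRoot ζ (p ^ n)) {a : ℕ} (h : σ ζ = ζ ^ a) :
    ((GR_cyc_eps p 𝒪 hp σ : 𝒪ˣ) : 𝒪) - (a : 𝒪) ∈ maximalIdeal 𝒪 ^ n := by
  set x : ℤ_[p] := ((GR_cyc_chi p σ : ℤ_[p]ˣ) : ℤ_[p]) with hx
  have h1 := GR_cyc_chi_spec p σ ζ hζ.pow_eq_one
  rw [h] at h1
  have h2 : a ≡ (x.toZModPow n).val [MOD p ^ n] := by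
    have hfin : IsOfFinOrder ζ :=
      isOfFinOrder_iff_pow_eq_one.mpr ⟨p ^ n, pow_pos (Fact.out : p.Prime).pos n, hζ.pow_eq_one⟩
    have := hfin.pow_eq_pow_iff_modEq.mp h1
    rwa [← hζ.eq_orderOf] at this
  have h3 : ((a : ℕ) : ZMod (p ^ n)) = x.toZModPow n := by
    rw [(ZMod.natCast_eq_natCast_iff _ _ _).mpr h2, ZMod.natCast_zmod_val]
  have h4 : x - (a : ℤ_[p]) ∈ RingHom.ker (PadicInt.toZModPow (p := p) n) := by
    rw [RingHom.mem_ker, map_sub, map_natCast, h3, sub_self]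
  rw [PadicInt.ker_toZModPow] at h4
  have h5 := GR_cyc_phi_mem p 𝒪 hp n h4
  rw [map_sub, map_natCast] at h5
  exact h5

/-- An element of `𝒪` lying in all powers of `𝔪` is zero. -/
theorem GR_cyc_eq_zero_of_forall_mem {x : 𝒪} (h : ∀ n : ℕ, x ∈ maximalIdeal 𝒪 ^ n) : x = 0 := by
  refine IsHausdorff.haus (I := maximalIdeal 𝒪) inferInstance x (fun n ↦ ?_)
  rw [SModEq.zero, smul_eq_mul, Ideal.mul_top]
  exact h n

/-- `ε` is adically continuous. -/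
theorem GR_cyc_eps_cont (hp : (p : 𝒪) ∈ maximalIdeal 𝒪) (n : ℕ) :
    ∃ L : IntermediateField ℚ (AlgebraicClosure ℚ), FiniteDimensional ℚ L ∧
      ∀ σ : GQ, (∀ x ∈ L, σ x = x) →
        ((GR_cyc_eps p 𝒪 hp σ : 𝒪ˣ) : 𝒪) - 1 ∈ maximalIdeal 𝒪 ^ n := by
  obtain ⟨ζ, hζ⟩ := GR_cyc_exists_primitiveRoot p n
  have hint : IsIntegral ℚ ζ :=
    (hζ.isIntegral (pow_pos (Fact.out : p.Prime).pos n)).tower_top
  refine ⟨IntermediateField.adjoin ℚ {ζ}, IntermediateField.adjoin.finiteDimensional hint,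
    fun σ hσ ↦ ?_⟩
  have h1 : σ ζ = ζ ^ 1 := by
    rw [pow_one]
    exact hσ ζ (IntermediateField.mem_adjoin_simple_self ℚ ζ)
  have h2 := GR_cyc_eps_sub_mem p 𝒪 hp σ hζ h1
  simpa using h2

/-- `ε σ = a` as soon as `σ ζ ≡ ζ ^ a` modulo the maximal ideal of a valuation subring of residue
characteristic `≠ p`, for all `p`-power roots of unity `ζ`. -/
theorem GR_cyc_eps_eq_of_congr (hp : (p : 𝒪) ∈ maximalIdeal 𝒪) (σ : GQ)
    (A : ValuationSubring (AlgebraicClosure ℚ)) {q : ℕ} (hq : q.Prime) (hqp : q ≠ p)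
    (hA : A.LiesOverPrime q) (a : ℕ)
    (h : ∀ (n : ℕ) (ζ : AlgebraicClosure ℚ), ζ ^ p ^ n = 1 → σ ζ - ζ ^ a ∈ A.nonunits) :
    ((GR_cyc_eps p 𝒪 hp σ : 𝒪ˣ) : 𝒪) = (a : 𝒪) := by
  rw [← sub_eq_zero]
  refine GR_cyc_eq_zero_of_forall_mem 𝒪 (fun n ↦ ?_)
  obtain ⟨ζ, hζ⟩ := GR_cyc_exists_primitiveRoot p n
  refine GR_cyc_eps_sub_mem p 𝒪 hp σ hζ ?_
  have hpn : p ^ n ≠ 0 := pow_ne_zero _ (Fact.out : p.Prime).ne_zero
  have hcop : Nat.Coprime (p ^ n) q :=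
    Nat.Coprime.pow_left n ((Nat.coprime_primes (Fact.out : p.Prime) hq).mpr hqp.symm)
  have hunit : ((p ^ n : ℕ) : AlgebraicClosure ℚ) ∉ A.nonunits :=
    GR_cyc_coprime_not_mem A hA hcop
  have h1 := GR_cyc_chi_spec p σ ζ hζ.pow_eq_one
  have h2 := h n ζ hζ.pow_eq_one
  rw [h1] at h2 ⊢
  exact GR_cyc_pow_eq_of_sub_mem A hpn hζ.pow_eq_one hunit h2

/-- The action of the decomposition group on the residue field, read off on elements. -/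
theorem GR_cyc_sub_mem_of_residue (A : ValuationSubring (AlgebraicClosure ℚ)) (σ : GQ)
    (hσ : σ ∈ A.decompositionSubgroup ℚ) (a : ℕ)
    (h : ∀ x : IsLocalRing.ResidueField A,
      (⟨σ, hσ⟩ : A.decompositionSubgroup ℚ) • x = x ^ a)
    {ζ : AlgebraicClosure ℚ} (hζ : ζ ∈ A) : σ ζ - ζ ^ a ∈ A.nonunits := by
  have h1 := h (IsLocalRing.residue A ⟨ζ, hζ⟩)
  rw [← IsLocalRing.ResidueField.residue_smul, ← map_pow, ← sub_eq_zero, ← map_sub,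
    IsLocalRing.residue_eq_zero_iff, ← ValuationSubring.coe_mem_nonunits_iff] at h1
  exact h1

/-- `ε (Frob_ℓ) = ℓ` for `ℓ ≠ p`. -/
theorem GR_cyc_eps_frob (hp : (p : 𝒪) ∈ maximalIdeal 𝒪) (ℓ : ℕ) (hℓ : ℓ.Prime) (hℓp : ℓ ≠ p)
    (σ : GQ) (hσ : GR_IsFrob ℓ σ) : ((GR_cyc_eps p 𝒪 hp σ : 𝒪ˣ) : 𝒪) = (ℓ : 𝒪) := by
  obtain ⟨A, hA, hdec, hfrob⟩ := hσ
  refine GR_cyc_eps_eq_of_congr p 𝒪 hp σ A hℓ hℓp hA ℓ (fun n ζ hζ ↦ ?_)
  have hpn : p ^ n ≠ 0 := pow_ne_zero _ (Fact.out : p.Prime).ne_zero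
  exact GR_cyc_sub_mem_of_residue A σ hdec ℓ hfrob (GR_cyc_mem_of_pow_eq_one A hpn hζ)

/-- `ε` is trivial on the inertia groups at `q ≠ p`. -/
theorem GR_cyc_eps_inertia (hp : (p : 𝒪) ∈ maximalIdeal 𝒪) (q : ℕ) (hq : q.Prime) (hqp : q ≠ p)
    (P : ValuationSubring (AlgebraicClosure ℚ)) (hP : P.LiesOverPrime q)
    (σ : GQ) (hσ : σ ∈ P.inertiaSubgroupIn ℚ) : GR_cyc_eps p 𝒪 hp σ = 1 := by
  obtain ⟨τ, hτ, rfl⟩ := hσ
  have hτ' : ∀ x : IsLocalRing.ResidueField P, τ • x = x ^ 1 := by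
    intro x
    have h1 : MulSemiringAction.toRingAut (P.decompositionSubgroup ℚ)
        (IsLocalRing.ResidueField P) τ = 1 := hτ
    have h2 := congrArg (fun f : RingAut (IsLocalRing.ResidueField P) ↦ f x) h1
    simpa using h2
  have h3 : ((GR_cyc_eps p 𝒪 hp ((P.decompositionSubgroup ℚ).subtype τ) : 𝒪ˣ) : 𝒪)
      = ((1 : ℕ) : 𝒪) := by
    refine GR_cyc_eps_eq_of_congr p 𝒪 hp _ P hq hqp hP 1 (fun n ζ hζ ↦ ?_)
    have hpn : p ^ n ≠ 0 := pow_ne_zero _ (Fact.out : p.Prime).ne_zero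
    exact GR_cyc_sub_mem_of_residue P τ.1 τ.2 1 hτ' (GR_cyc_mem_of_pow_eq_one P hpn hζ)
  apply Units.ext
  rw [h3]
  simp

/-- **Package CYC.** The `p`-adic cyclotomic character with values in a complete local ring
`𝒪` with `p ∈ 𝔪`. -/
noncomputable def GR_cyc_mk (hp : (p : 𝒪) ∈ maximalIdeal 𝒪) : GR_Cyc p 𝒪 where
  ε := GR_cyc_eps p 𝒪 hp
  cont := GR_cyc_eps_cont p 𝒪 hp
  frob := GR_cyc_eps_frob p 𝒪 hp
  unram := GR_cyc_eps_inertia p 𝒪 hp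

theorem GR_cyc (hp : (p : 𝒪) ∈ maximalIdeal 𝒪) : Nonempty (GR_Cyc p 𝒪) :=
  ⟨GR_cyc_mk p 𝒪 hp⟩

end character

end Fermat.Agent.GalRep
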