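import Mathlib
import Fermat.Agent.GalRep.Iface
import Fermat.Agent.GalRep.Cyc

/-!
# Pillar G, package CYC: the interface statement `GR_CycStmt`
-/

set_option autoImplicit false

namespace Fermat.Agent.GalRep

/-- **Package CYC**, in the shape of `GalRep/Iface.lean`. -/
theorem GR_cycStmt : GR_CycStmt := fun p _ 𝒪 _ _ _ _ _ hp ↦ GR_cyc p 𝒪 hp

end Fermat.Agent.GalRep
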