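import Mathlib
import Fermat.Agent.GalRep.Defs
import Fermat.Agent.Lib.FrobExists

/-!
# Pillar G, package DENS (bridge): the two-subgroup density lemma `GR_DS`

`GR_ds_of : GR_FrobCore → GR_DS`, where `GR_FrobCore` is the number-field form of Frobenius'
density theorem (existence form): for a finite Galois extension `F/ℚ`, `g ∈ Gal(F/ℚ)` and a
finite set `T` of primes there are a prime `ℓ ∉ T`, a prime `𝔏 ∣ ℓ` of `𝓞 F` with trivial inertia
and a Frobenius element `h` at `𝔏` generating the same cyclic subgroup as `g`.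
-/

set_option autoImplicit false
set_option linter.unusedSectionVars false
set_option linter.unusedVariables false
set_option linter.style.haveILetI false

open scoped Pointwise NumberField
open IntermediateField

namespace Fermat.Agent.GalRep

open ValuationSubring Fermat.Agent.Lib

local notation "ℚbar" => AlgebraicClosure ℚ

/-- Frobenius' density theorem, existence form, for number fields (output of package FD-ALG). -/
def GR_FrobCore : Prop :=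
  ∀ (F : Type) [Field F] [NumberField F] [IsGalois ℚ F] (g : F ≃ₐ[ℚ] F) (T : Finset ℕ),
    ∃ (ℓ : ℕ) (𝔏 : Ideal (𝓞 F)) (h : F ≃ₐ[ℚ] F), ℓ.Prime ∧ ℓ ∉ T ∧ 𝔏.IsPrime ∧
      (ℓ : 𝓞 F) ∈ 𝔏 ∧ (∀ σ : F ≃ₐ[ℚ] F, (∀ x : 𝓞 F, σ • x - x ∈ 𝔏) → σ = 1) ∧
      (∀ x : 𝓞 F, h • x - x ^ ℓ ∈ 𝔏) ∧ Subgroup.zpowers h = Subgroup.zpowers g

section numberfield

variable {F : Type} [Field F] [NumberField F] [IsGalois ℚ F]

/-- a prime of `𝓞 F` containing `ℓ` lies over `(ℓ)`. -/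
lemma GR_liesOver {ℓ : ℕ} (hℓ : ℓ.Prime) (P : Ideal (𝓞 F)) (hP : P.IsPrime)
    (hℓP : (ℓ : 𝓞 F) ∈ P) : P.LiesOver (Ideal.span {(ℓ : ℤ)}) := by
  have hpZ : Prime (ℓ : ℤ) := Nat.prime_iff_prime_int.mp hℓ
  have hp0 : (Ideal.span {(ℓ : ℤ)}) ≠ ⊥ := by
    rw [Ne, Ideal.span_singleton_eq_bot]
    exact_mod_cast hℓ.ne_zero
  have hmax : (Ideal.span {(ℓ : ℤ)}).IsMaximal :=
    ((Ideal.span_singleton_prime hpZ.ne_zero).mpr hpZ).isMaximal hp0
  constructor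
  refine hmax.eq_of_le ?_ ?_
  · haveI := hP
    exact (Ideal.IsPrime.under ℤ P).ne_top
  · rw [Ideal.span_singleton_le_iff_mem, Ideal.mem_comap]
    simpa using hℓP

/-- Two Frobenius elements at primes over the same `ℓ` are conjugate, if the inertia is
trivial. -/
theorem GR_nf_conj {ℓ : ℕ} (hℓ : ℓ.Prime) (P P' : Ideal (𝓞 F)) (hP : P.IsPrime)
    (hP' : P'.IsPrime) (hℓP : (ℓ : 𝓞 F) ∈ P) (hℓP' : (ℓ : 𝓞 F) ∈ P')
    (hin : ∀ σ : F ≃ₐ[ℚ] F, (∀ x : 𝓞 F, σ • x - x ∈ P) → σ = 1)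
    (h h' : F ≃ₐ[ℚ] F) (hh : ∀ x : 𝓞 F, h • x - x ^ ℓ ∈ P)
    (hh' : ∀ x : 𝓞 F, h' • x - x ^ ℓ ∈ P') :
    ∃ τ : F ≃ₐ[ℚ] F, h' = τ * h * τ⁻¹ := by
  haveI := hP
  haveI := hP'
  haveI := GR_liesOver hℓ P hP hℓP
  haveI := GR_liesOver hℓ P' hP' hℓP'
  obtain ⟨τ, hτ⟩ := Ideal.exists_smul_eq_of_isGaloisGroup (Ideal.span ({(ℓ : ℤ)} : Set ℤ)) P P'
    (F ≃ₐ[ℚ] F)
  refine ⟨τ, ?_⟩
  have key : ∀ y : 𝓞 F, (τ * h * τ⁻¹) • y - y ^ ℓ ∈ P' := by
    intro y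
    rw [← hτ, Ideal.mem_pointwise_smul_iff_inv_smul_mem, smul_sub, mul_smul, mul_smul,
      inv_smul_smul, smul_pow']
    exact hh (τ⁻¹ • y)
  have hε : ∀ z : 𝓞 F, (h' * (τ * h * τ⁻¹)⁻¹) • z - z ∈ P' := by
    intro z
    have h1 := hh' ((τ * h * τ⁻¹)⁻¹ • z)
    have h2 := key ((τ * h * τ⁻¹)⁻¹ • z)
    rw [smul_inv_smul] at h2
    have := sub_mem h1 h2
    rw [sub_sub_sub_cancel_right] at this
    rwa [mul_smul]
  have hε' : ∀ y : 𝓞 F, (τ⁻¹ * (h' * (τ * h * τ⁻¹)⁻¹) * τ) • y - y ∈ P := by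
    intro y
    have h1 := hε (τ • y)
    rw [← hτ, Ideal.mem_pointwise_smul_iff_inv_smul_mem, smul_sub, inv_smul_smul] at h1
    rwa [mul_smul, mul_smul]
  have h3 := hin _ hε'
  have h4 : h' * (τ * h * τ⁻¹)⁻¹ = 1 := by
    have := congrArg (fun x ↦ τ * x * τ⁻¹) h3
    simpa [mul_assoc] using this
  exact mul_inv_eq_one.mp h4

end numberfield

section bridge

/-- The Frobenius congruence on the valuation ring, from the Prelude's `IsFrobeniusAt`. -/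
lemma GR_frob_congr {A : ValuationSubring ℚbar} {σ : GQ} {ℓ : ℕ} (h : A.IsFrobeniusAt σ ℓ)
    (x : ℚbar) (hx : x ∈ A) : σ x - x ^ ℓ ∈ A.nonunits := by
  obtain ⟨hσ, hres⟩ := h
  have h1 := hres (IsLocalRing.residue A ⟨x, hx⟩)
  have h2 : (⟨σ, hσ⟩ : A.decompositionSubgroup ℚ) • (IsLocalRing.residue A ⟨x, hx⟩) =
      IsLocalRing.residue A ((⟨σ, hσ⟩ : A.decompositionSubgroup ℚ) • (⟨x, hx⟩ : A)) := rfl
  rw [h2, ← map_pow, ← sub_eq_zero, ← map_sub, IsLocalRing.residue_eq_zero_iff] at h1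
  have h3 := (ValuationSubring.coe_mem_nonunits_iff (A := A)).mpr h1
  exact h3

variable (F : IntermediateField ℚ ℚbar) [FiniteDimensional ℚ F] [Normal ℚ F]

/-- the inclusion `𝓞 F → A`. -/
noncomputable def GR_toVal (A : ValuationSubring ℚbar) : 𝓞 F →+* A where
  toFun x := ⟨((x : F) : ℚbar), frobExists_mem_of_isIntegral A (by
    have hx : IsIntegral ℤ (x : F) := x.2
    exact hx.map (F.val.restrictScalars ℤ))⟩
  map_one' := rfl
  map_mul' _ _ := rfl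
  map_zero' := rfl
  map_add' _ _ := rfl

/-- the prime of `𝓞 F` below `A`. -/
noncomputable def GR_primeBelow (A : ValuationSubring ℚbar) : Ideal (𝓞 F) :=
  Ideal.comap (GR_toVal F A) (IsLocalRing.maximalIdeal A)

lemma GR_mem_primeBelow (A : ValuationSubring ℚbar) (x : 𝓞 F) :
    x ∈ GR_primeBelow F A ↔ ((x : F) : ℚbar) ∈ A.nonunits := by
  rw [GR_primeBelow, Ideal.mem_comap, ← ValuationSubring.coe_mem_nonunits_iff]
  rfl

lemma GR_primeBelow_isPrime (A : ValuationSubring ℚbar) : (GR_primeBelow F A).IsPrime :=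
  Ideal.comap_isPrime (GR_toVal F A) _

lemma GR_natCast_mem_primeBelow (A : ValuationSubring ℚbar) {ℓ : ℕ} (hA : A.LiesOverPrime ℓ) :
    (ℓ : 𝓞 F) ∈ GR_primeBelow F A := by
  rw [GR_mem_primeBelow]
  have : (((ℓ : 𝓞 F) : F) : ℚbar) = (ℓ : ℚbar) := by simp
  rw [this]
  exact hA

/-- the restriction of a Frobenius element at `A` is a Frobenius element at the prime below. -/
lemma GR_res_frob (A : ValuationSubring ℚbar) {σ : GQ} {ℓ : ℕ} (h : A.IsFrobeniusAt σ ℓ)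
    (x : 𝓞 F) : (AlgEquiv.restrictNormalHom F σ) • x - x ^ ℓ ∈ GR_primeBelow F A := by
  rw [GR_mem_primeBelow]
  have h1 : ((((AlgEquiv.restrictNormalHom F σ) • x - x ^ ℓ : 𝓞 F) : F) : ℚbar) =
      σ ((x : F) : ℚbar) - ((x : F) : ℚbar) ^ ℓ := by
    have h2 : (((AlgEquiv.restrictNormalHom F σ) • x - x ^ ℓ : 𝓞 F) : F) =
        (AlgEquiv.restrictNormalHom F σ) (x : F) - (x : F) ^ ℓ := rfl
    rw [h2]
    push_cast
    rw [show ((AlgEquiv.restrictNormalHom F σ (x : F) : F) : ℚbar) = σ ((x : F) : ℚbar) from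
      AlgEquiv.restrictNormal_commutes σ F (x : F)]
  rw [h1]
  refine GR_frob_congr h _ ?_
  exact (GR_toVal F A x).2

end bridge

section assembly

/-- a group is not the union of two proper subgroups. -/
lemma GR_exists_not_mem {G : Type*} [Group G] (U₁ U₂ : Subgroup G) (h1 : U₁ ≠ ⊤)
    (h2 : U₂ ≠ ⊤) : ∃ g : G, g ∉ U₁ ∧ g ∉ U₂ := by
  obtain ⟨a, ha⟩ : ∃ a, a ∉ U₁ := by
    by_contra h
    push Not at h
    exact h1 (eq_top_iff.mpr fun x _ => h x)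
  obtain ⟨b, hb⟩ : ∃ b, b ∉ U₂ := by
    by_contra h
    push Not at h
    exact h2 (eq_top_iff.mpr fun x _ => h x)
  by_cases hab : a ∈ U₂
  · by_cases hba : b ∈ U₁
    · refine ⟨a * b, ?_, ?_⟩
      · intro h
        exact ha (by simpa using U₁.mul_mem h (U₁.inv_mem hba))
      · intro h
        exact hb (by simpa using U₂.mul_mem (U₂.inv_mem hab) h)
    · exact ⟨b, hba, hb⟩
  · exact ⟨a, ha, hab⟩

/-- **(DS)** from the number-field form of Frobenius' theorem. -/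
theorem GR_ds_of (hcore : GR_FrobCore) : GR_DS := by
  intro U₁ U₂ hn₁ hn₂ ho₁ ho₂ T H
  by_contra hcon
  push Not at hcon
  obtain ⟨g₀, hg₁, hg₂⟩ := GR_exists_not_mem U₁ U₂ hcon.1 hcon.2
  obtain ⟨L₁, hL₁, hU₁⟩ := ho₁
  obtain ⟨L₂, hL₂, hU₂⟩ := ho₂
  haveI := hL₁
  haveI := hL₂
  haveI hnormal : Normal ℚ ℚbar := (frobExists_isGalois).to_normal
  set L : IntermediateField ℚ ℚbar := L₁ ⊔ L₂ with hL
  haveI : FiniteDimensional ℚ L := IntermediateField.finiteDimensional_sup L₁ L₂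
  set F : IntermediateField ℚ ℚbar := IntermediateField.normalClosure ℚ L ℚbar with hF
  haveI : Normal ℚ F := normalClosure.normal ℚ L ℚbar
  haveI : FiniteDimensional ℚ F := normalClosure.is_finiteDimensional ℚ L ℚbar
  have hLF : L ≤ F := IntermediateField.le_normalClosure L
  haveI : NumberField F := ⟨⟩
  haveI : IsGalois ℚ F := ⟨⟩
  have hker : ∀ σ : GQ, AlgEquiv.restrictNormalHom F σ = 1 → σ ∈ U₁ ∧ σ ∈ U₂ := by
    intro σ hσ
    have hfix : ∀ x ∈ F, σ x = x := by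
      intro x hx
      have h1 : ((AlgEquiv.restrictNormalHom F σ (⟨x, hx⟩ : F) : F) : ℚbar) = σ x :=
        AlgEquiv.restrictNormal_commutes σ F ⟨x, hx⟩
      rw [hσ] at h1
      exact h1.symm
    exact ⟨hU₁ σ (fun x hx ↦ hfix x (hLF (le_sup_left (a := L₁) (b := L₂) hx))),
      hU₂ σ (fun x hx ↦ hfix x (hLF (le_sup_right (a := L₁) (b := L₂) hx)))⟩
  obtain ⟨ℓ, 𝔏, h, hℓ, hℓT, h𝔏, hℓ𝔏, hin, hfrob, hz⟩ :=
    hcore F (AlgEquiv.restrictNormalHom F g₀) T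
  obtain ⟨A, σ, hA, hσ⟩ := exists_isFrobeniusAt ℓ hℓ
  obtain ⟨τ, hτ⟩ := GR_nf_conj hℓ 𝔏 (GR_primeBelow F A) h𝔏 (GR_primeBelow_isPrime F A) hℓ𝔏
    (GR_natCast_mem_primeBelow F A hA) hin h (AlgEquiv.restrictNormalHom F σ) hfrob
    (GR_res_frob F A hσ)
  obtain ⟨τ', rfl⟩ := AlgEquiv.restrictNormalHom_surjective ℚbar τ
  have h5 : AlgEquiv.restrictNormalHom F (τ'⁻¹ * σ * τ') = h := by
    rw [map_mul, map_mul, map_inv, hτ]
    group
  have h6 : AlgEquiv.restrictNormalHom F g₀ ∈ Subgroup.zpowers h := by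
    rw [hz]
    exact Subgroup.mem_zpowers _
  obtain ⟨k, hk⟩ := Subgroup.mem_zpowers_iff.mp h6
  have h7 : AlgEquiv.restrictNormalHom F (((τ'⁻¹ * σ * τ') ^ k)⁻¹ * g₀) = 1 := by
    rw [map_mul, map_inv, map_zpow, h5, hk]
    group
  obtain ⟨hk1, hk2⟩ := hker _ h7
  rcases H ℓ hℓ hℓT σ ⟨A, hA, hσ⟩ with hσU | hσU
  · apply hg₁
    have h8 : τ'⁻¹ * σ * τ' ∈ U₁ := by
      have := hn₁.conj_mem σ hσU τ'⁻¹
      simpa using this
    have h9 := U₁.mul_mem (U₁.zpow_mem h8 k) hk1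
    simpa using h9
  · apply hg₂
    have h8 : τ'⁻¹ * σ * τ' ∈ U₂ := by
      have := hn₂.conj_mem σ hσU τ'⁻¹
      simpa using this
    have h9 := U₂.mul_mem (U₂.zpow_mem h8 k) hk2
    simpa using h9

end assembly

end Fermat.Agent.GalRep
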