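/-
Pillar G, package DENS: the final glue.  `GR_ds : GR_DS` — every element of the absolute Galois
group is, on every finite Galois level and outside every finite set of primes, conjugate into the
cyclic group generated by a Frobenius element (existence form of the Frobenius density theorem).
`GR_ds_of` (GalRep/DS.lean, the bridge to `Gal(ℚ̄/ℚ)` and the Prelude's `IsFrobeniusAt`) applied to
`FDN_frobenius` (Lib/FrobDensity.lean, number field core).
-/
import Fermat.Agent.GalRep.DS
import Fermat.Agent.Lib.FrobDensity

namespace Fermat.Agent.GalRep

/-- **Frobenius density, existence form** (the statement `GR_DS` of GalRep/Defs.lean). -/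
theorem GR_ds : GR_DS :=
  GR_ds_of (fun F _ _ _ g T => Fermat.Agent.Lib.FDN_frobenius F g T)

end Fermat.Agent.GalRep
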