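import Mathlib
import Fermat.Agent.S16.LB.HeckeCoh
import Fermat.Agent.S16.LB.LiftB

/-!
# Pillar G, package DIM (helper14), part D1: the integral cohomological Hecke action

`L := parInt N = Hom_par(Γ₀(N), ℤ)` is stable under the Hecke operators of
`S16_heckeCohHom N : HeckeAlg →+* End_ℂ Hom_par(Γ₀(N), ℂ)`; this gives

* `GRD_cast N : parInt N →ₗ[ℤ] Hom_par(Γ₀(N), ℂ)` (injective),
* `GRD_heckeL N : HeckeAlg →+* Module.End ℤ (parInt N)` with
  `GRD_cast (GRD_heckeL N r χ) = S16_heckeCohHom N r (GRD_cast χ)`,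
* `GRD_heckeL_eq_zero` : the action factors through the Hecke algebra of cusp forms.
-/

set_option autoImplicit false

open CongruenceSubgroup Matrix.SpecialLinearGroup Module
open ModularCurve ModularCurve.Period
open scoped MatrixGroups
open P2MW.S_ModularForm_heckeT_slash_eq_self_of_mem_Gamma0.ModularForm.HeckeSlashInvariance
open ModularForm

namespace Fermat.Agent.GalRep

open Fermat.Agent.S16

variable (N : ℕ) [NeZero N]

/-- integer classes as complex classes. -/
noncomputable def GRD_cast : ↥(parInt N) →ₗ[ℤ] ↥(parabolicHoms ℂ (Gamma0 N) ℂ) where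
  toFun χ := ⟨intToComplex (Gamma0 N) χ.1, fun γ hγ => by
    rw [intToComplex_apply, χ.2 γ hγ, Int.cast_zero]⟩
  map_add' χ ψ := by
    apply Subtype.ext
    exact map_add (intToComplex (Gamma0 N)) χ.1 ψ.1
  map_smul' c χ := by
    apply Subtype.ext
    exact map_zsmul (intToComplex (Gamma0 N)) c χ.1

theorem GRD_cast_apply (χ : ↥(parInt N)) (γ : Additive (Gamma0 N)) :
    ((GRD_cast N χ : ↥(parabolicHoms ℂ (Gamma0 N) ℂ)) : Additive (Gamma0 N) →+ ℂ) γ
      = ((χ : Additive (Gamma0 N) →+ ℤ) γ : ℂ) := rfl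

theorem GRD_cast_injective : Function.Injective (GRD_cast N) := by
  intro χ ψ h
  apply Subtype.ext
  refine AddMonoidHom.ext fun γ => ?_
  have := congrArg (fun φ : ↥(parabolicHoms ℂ (Gamma0 N) ℂ) =>
    (φ : Additive (Gamma0 N) →+ ℂ) γ) h
  simp only [GRD_cast_apply] at this
  exact_mod_cast this

/-- a complex parabolic class with integer values is the cast of an integer class. -/
theorem GRD_mem_range_cast (φ : ↥(parabolicHoms ℂ (Gamma0 N) ℂ))
    (h : ∀ γ : Gamma0 N, ∃ k : ℤ, (φ : Additive (Gamma0 N) →+ ℂ) (Additive.ofMul γ) = k) :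
    φ ∈ LinearMap.range (GRD_cast N) := by
  choose k hk using h
  have hadd : ∀ a b : Gamma0 N, k (a * b) = k a + k b := by
    intro a b
    have h3 := hk (a * b)
    rw [ofMul_mul, map_add, hk a, hk b] at h3
    exact_mod_cast h3.symm
  have hone : k 1 = 0 := by
    have h3 := hk 1
    rw [ofMul_one, map_zero] at h3
    exact_mod_cast h3.symm
  let χ : Additive (Gamma0 N) →+ ℤ :=
    { toFun := fun γ => k (Additive.toMul γ)
      map_zero' := hone
      map_add' := fun a b => hadd _ _ }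
  have hχ : χ ∈ parInt N := by
    intro γ hγ
    have h3 := hk γ
    rw [φ.2 γ hγ] at h3
    show k γ = 0
    exact_mod_cast h3.symm
  refine ⟨⟨χ, hχ⟩, ?_⟩
  apply Subtype.ext
  refine AddMonoidHom.ext fun γ => ?_
  rw [GRD_cast_apply]
  exact (hk (Additive.toMul γ)).symm

/-- the generators preserve the integer classes. -/
theorem GRD_heckeGen_mem_range (ℓ : Nat.Primes) (χ : ↥(parInt N)) :
    S16_heckeCohHom N (ModularCurve.heckeGen ℓ) (GRD_cast N χ) ∈ LinearMap.range (GRD_cast N) := by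
  haveI : Fact (ℓ : ℕ).Prime := ⟨ℓ.2⟩
  apply GRD_mem_range_cast
  intro γ
  by_cases hℓ : (ℓ : ℕ) ∣ N
  · obtain ⟨σ, g', hmul⟩ := S16_exists_heckeU_data (q := (ℓ : ℕ)) hℓ γ
    refine ⟨∑ i, (χ : Additive (Gamma0 N) →+ ℤ) (Additive.ofMul (g' i)), ?_⟩
    rw [S16_heckeCohHom_heckeU_primes ℓ hℓ (GRD_cast N χ) γ σ g' hmul]
    push_cast
    rfl
  · obtain ⟨σ, g', hmul⟩ := S16_exists_heckeT_data (ℓ := (ℓ : ℕ)) hℓ γ
    refine ⟨∑ i, (χ : Additive (Gamma0 N) →+ ℤ) (Additive.ofMul (g' i)), ?_⟩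
    rw [S16_heckeCohHom_heckeT_primes ℓ hℓ (GRD_cast N χ) γ σ g' hmul]
    push_cast
    rfl

/-- every Hecke operator preserves the integer classes. -/
theorem GRD_hecke_mem_range (r : ModularCurve.HeckeAlg) (χ : ↥(parInt N)) :
    S16_heckeCohHom N r (GRD_cast N χ) ∈ LinearMap.range (GRD_cast N) := by
  induction r using MvPolynomial.induction_on generalizing χ with
  | C a =>
    have h : S16_heckeCohHom N (MvPolynomial.C a) = (a : Module.End ℂ _) := by
      rw [← MvPolynomial.algebraMap_eq, eq_intCast, map_intCast]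
    rw [h]
    refine ⟨a • χ, ?_⟩
    rw [map_zsmul]
    rw [Module.End.intCast_apply]
  | add p q hp hq =>
    rw [map_add, LinearMap.add_apply]
    exact Submodule.add_mem _ (hp χ) (hq χ)
  | mul_X p ℓ hp =>
    rw [map_mul, Module.End.mul_apply]
    obtain ⟨ψ, hψ⟩ := GRD_heckeGen_mem_range N ℓ χ
    have : S16_heckeCohHom N (MvPolynomial.X ℓ) (GRD_cast N χ) = GRD_cast N ψ := hψ.symm
    rw [this]
    exact hp ψ

/-- the equivalence of `parInt N` with its image in the complex classes. -/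
noncomputable def GRD_castEquiv : ↥(parInt N) ≃ₗ[ℤ] ↥(LinearMap.range (GRD_cast N)) :=
  LinearEquiv.ofInjective (GRD_cast N) (GRD_cast_injective N)

/-- the Hecke operator `r` on integer classes, as a function. -/
noncomputable def GRD_heckeLFun (r : ModularCurve.HeckeAlg) (χ : ↥(parInt N)) : ↥(parInt N) :=
  (GRD_castEquiv N).symm ⟨S16_heckeCohHom N r (GRD_cast N χ), GRD_hecke_mem_range N r χ⟩

theorem GRD_cast_heckeLFun (r : ModularCurve.HeckeAlg) (χ : ↥(parInt N)) :
    GRD_cast N (GRD_heckeLFun N r χ) = S16_heckeCohHom N r (GRD_cast N χ) := by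
  have := (GRD_castEquiv N).apply_symm_apply
    ⟨S16_heckeCohHom N r (GRD_cast N χ), GRD_hecke_mem_range N r χ⟩
  exact congrArg Subtype.val this

/-- **D1.** The integral cohomological Hecke action on `L = Hom_par(Γ₀(N), ℤ)`. -/
noncomputable def GRD_heckeL : ModularCurve.HeckeAlg →+* Module.End ℤ ↥(parInt N) where
  toFun r :=
    { toFun := GRD_heckeLFun N r
      map_add' := fun χ ψ => by
        apply GRD_cast_injective N
        rw [map_add, GRD_cast_heckeLFun, GRD_cast_heckeLFun, GRD_cast_heckeLFun, map_add, map_add]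
      map_smul' := fun c χ => by
        apply GRD_cast_injective N
        rw [RingHom.id_apply, map_zsmul, GRD_cast_heckeLFun, GRD_cast_heckeLFun, map_zsmul,
          map_zsmul] }
  map_one' := by
    refine LinearMap.ext fun χ => ?_
    apply GRD_cast_injective N
    show GRD_cast N (GRD_heckeLFun N 1 χ) = _
    rw [GRD_cast_heckeLFun, map_one]
    rfl
  map_mul' r s := by
    refine LinearMap.ext fun χ => ?_
    apply GRD_cast_injective N
    show GRD_cast N (GRD_heckeLFun N (r * s) χ)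
      = GRD_cast N (GRD_heckeLFun N r (GRD_heckeLFun N s χ))
    rw [GRD_cast_heckeLFun, GRD_cast_heckeLFun, GRD_cast_heckeLFun, map_mul]
    rfl
  map_zero' := by
    refine LinearMap.ext fun χ => ?_
    apply GRD_cast_injective N
    show GRD_cast N (GRD_heckeLFun N 0 χ) = _
    rw [GRD_cast_heckeLFun, map_zero]
    simp
  map_add' r s := by
    refine LinearMap.ext fun χ => ?_
    apply GRD_cast_injective N
    show GRD_cast N (GRD_heckeLFun N (r + s) χ)
      = GRD_cast N (GRD_heckeLFun N r χ + GRD_heckeLFun N s χ)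
    rw [map_add (GRD_cast N), GRD_cast_heckeLFun, GRD_cast_heckeLFun, GRD_cast_heckeLFun, map_add]
    rfl

/-- compatibility with the complex action. -/
theorem GRD_heckeL_coe (r : ModularCurve.HeckeAlg) (χ : ↥(parInt N)) :
    GRD_cast N (GRD_heckeL N r χ) = S16_heckeCohHom N r (GRD_cast N χ) :=
  GRD_cast_heckeLFun N r χ

/-- the action factors through the Hecke algebra of cusp forms. -/
theorem GRD_heckeL_eq_zero (r : ModularCurve.HeckeAlg)
    (h : CuspForm.heckeEvalForms N 2 r = 0) : GRD_heckeL N r = 0 := by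
  refine LinearMap.ext fun χ => ?_
  apply GRD_cast_injective N
  rw [GRD_heckeL_coe, S16_heckeCohHom_eq_zero N r (by rw [h]; rfl)]
  simp

/-- coset formula for `T_ℓ` on integer classes. -/
theorem GRD_heckeL_heckeT (ℓ : Nat.Primes) [Fact (ℓ : ℕ).Prime] (hℓ : ¬ (ℓ : ℕ) ∣ N) (χ : ↥(parInt N)) (γ : Gamma0 N)
    (σ : Equiv.Perm (OnePoint (ZMod ℓ))) (g' : OnePoint (ZMod ℓ) → Gamma0 N)
    (hmul : ∀ i, heckeRep ℓ i * mapGL ℝ (γ : SL(2, ℤ))
      = mapGL ℝ (g' i : SL(2, ℤ)) * heckeRep ℓ (σ i)) :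
    ((GRD_heckeL N (ModularCurve.heckeGen ℓ) χ : ↥(parInt N)) : Additive (Gamma0 N) →+ ℤ)
        (Additive.ofMul γ)
      = ∑ i, (χ : Additive (Gamma0 N) →+ ℤ) (Additive.ofMul (g' i)) := by
  have h1 := S16_heckeCohHom_heckeT_primes ℓ hℓ (GRD_cast N χ) γ σ g' hmul
  rw [← GRD_heckeL_coe] at h1
  simp only [GRD_cast_apply] at h1
  exact_mod_cast h1

/-- coset formula for `U_q` on integer classes. -/
theorem GRD_heckeL_heckeU (q : Nat.Primes) [Fact (q : ℕ).Prime] (hq : (q : ℕ) ∣ N) (χ : ↥(parInt N)) (γ : Gamma0 N)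
    (σ : Equiv.Perm (ZMod q)) (g' : ZMod q → Gamma0 N)
    (hmul : ∀ i, heckeMatrix q i.val * mapGL ℝ (γ : SL(2, ℤ))
      = mapGL ℝ (g' i : SL(2, ℤ)) * heckeMatrix q (σ i).val) :
    ((GRD_heckeL N (ModularCurve.heckeGen q) χ : ↥(parInt N)) : Additive (Gamma0 N) →+ ℤ)
        (Additive.ofMul γ)
      = ∑ i, (χ : Additive (Gamma0 N) →+ ℤ) (Additive.ofMul (g' i)) := by
  have h1 := S16_heckeCohHom_heckeU_primes q hq (GRD_cast N χ) γ σ g' hmul
  rw [← GRD_heckeL_coe] at h1
  simp only [GRD_cast_apply] at h1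
  exact_mod_cast h1

end Fermat.Agent.GalRep
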