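import Mathlib
import Fermat.Agent.GalRep.Defs
import Fermat.Agent.GalRep.Tower
import Fermat.Agent.GalRep.KMDefs
import Fermat.Agent.GalRep.DimHecke
import Fermat.Prelude.Def_ModularCurve_ReductionModL

/-!
# Pillar G (GALREP): interface of the geometric packages KAPPA, HECKE, ES, TOWER (definitions only)

`F := modularFunctionFieldBar N ⊂ ℚ̄((q))`, with the Galois action on the `q`-coefficients.
A *Kummer generator* of exponent `n` is `f ≠ 0` with `n ∣ div f` (`KM_IsKum`); it is *trivial* if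
`f = c · gⁿ`.  Its *Kummer character* is the `χ : Γ₀(N) → ℤ/n` with `y ∘ γ = ζ_n^{χ γ} y` for an
`n`-th root `y` of `f` on `ℍ` (`GR_KChar`).

* `GR_KappaStmt N`  : the Kummer character is a bijection Kummer classes ≅ elliptic characters
                      (helper5's FINAL + multiplicativity + Galois stability).
* `GR_HeckeES N ℓ`  : the multiplicative Hecke operator `t_ℓ` on `F`, its Kummer character, and the
                      Eichler–Shimura relation on Kummer classes.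
* `GR_UnramStmt N`  : inertia at `q ∤ N n` acts trivially on Kummer classes of exponent `n`.
* `GR_hT N`         : the integral Hecke operators on `parInt N` indexed by `ℕ`.
* `GR_TowerStmt N`  : KAPPA + HECKE/ES + UNRAM ⇒ the tower on `parInt N`.
-/

set_option autoImplicit false

open ModularCurve AlgebraicCurve CongruenceSubgroup UpperHalfPlane Matrix.SpecialLinearGroup
open ModularCurve.Period
open scoped MatrixGroups
open P2MW.S_ModularForm_heckeT_slash_eq_self_of_mem_Gamma0.ModularForm.HeckeSlashInvariance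
open ModularForm

namespace Fermat.Agent.GalRep

open Fermat.Agent.S24 Fermat.Agent.S16

/-- the Galois action on `F = modularFunctionFieldBar N` (on `q`-coefficients). -/
noncomputable abbrev GR_gal (N : ℕ) (σ : GQ) :
    ↥(modularFunctionFieldBar N) ≃+* ↥(modularFunctionFieldBar N) :=
  arithmeticRingAut (modularFunctionFieldFull N) σ

/-- trivial Kummer generators: `f = c · gⁿ`, `c ≠ 0`, `g ≠ 0`. -/
def GR_IsTriv (N n : ℕ) (f : ↥(modularFunctionFieldBar N)) : Prop :=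
  ∃ (c : AlgebraicClosure ℚ) (g : ↥(modularFunctionFieldBar N)), c ≠ 0 ∧ g ≠ 0 ∧
    f = algebraMap (AlgebraicClosure ℚ) ↥(modularFunctionFieldBar N) c * g ^ n

/-- `χ` is the Kummer character of `f` (exponent `n`). -/
def GR_KChar (N n : ℕ) [NeZero N] (f : ↥(modularFunctionFieldBar N))
    (χ : Additive (Gamma0 N) →+ ZMod n) : Prop :=
  ∃ y : Mer, y ^ n = ev N f ∧ KM_HasChar N n y χ

/-- `χ'` is the cohomological Hecke transform of `χ` at the prime `ℓ`
(`T_ℓ` if `ℓ ∤ N`, `U_ℓ` if `ℓ ∣ N`), by the coset formulas of `S16/LB/HeckeCoh`. -/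
def GR_TcohRel (N n ℓ : ℕ) [Fact ℓ.Prime] (χ χ' : Additive (Gamma0 N) →+ ZMod n) : Prop :=
  (¬ ℓ ∣ N → ∀ (γ : Gamma0 N) (σ : Equiv.Perm (OnePoint (ZMod ℓ)))
      (g' : OnePoint (ZMod ℓ) → Gamma0 N),
      (∀ i, heckeRep ℓ i * mapGL ℝ (γ : SL(2, ℤ))
        = mapGL ℝ (g' i : SL(2, ℤ)) * heckeRep ℓ (σ i)) →
      χ' (Additive.ofMul γ) = ∑ i, χ (Additive.ofMul (g' i))) ∧
  (ℓ ∣ N → ∀ (γ : Gamma0 N) (σ : Equiv.Perm (ZMod ℓ)) (g' : ZMod ℓ → Gamma0 N),
      (∀ i, heckeMatrix ℓ i.val * mapGL ℝ (γ : SL(2, ℤ))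
        = mapGL ℝ (g' i : SL(2, ℤ)) * heckeMatrix ℓ (σ i).val) →
      χ' (Additive.ofMul γ) = ∑ i, χ (Additive.ofMul (g' i)))

/-- reduction of characters `ℤ/(n m) → ℤ/n`. -/
noncomputable def GR_redChar (N n m : ℕ) (χ : Additive (Gamma0 N) →+ ZMod (n * m)) :
    Additive (Gamma0 N) →+ ZMod n :=
  (ZMod.castHom (Dvd.intro m rfl) (ZMod n)).toAddMonoidHom.comp χ

/-- **KAPPA** (= helper5's FINAL, completed by multiplicativity and compatibility). -/
structure GR_KappaStmt (N : ℕ) [NeZero N] : Prop where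
  /-- Galois conjugates of Kummer generators are Kummer generators -/
  gal : ∀ (n : ℕ) (σ : GQ) (f : ↥(modularFunctionFieldBar N)),
    KM_IsKum (AlgebraicClosure ℚ) ↥(modularFunctionFieldBar N) n f →
    KM_IsKum (AlgebraicClosure ℚ) ↥(modularFunctionFieldBar N) n (GR_gal N σ f)
  /-- existence of the Kummer character, which is elliptic -/
  ex : ∀ (n : ℕ), 0 < n → ∀ f : ↥(modularFunctionFieldBar N),
    KM_IsKum (AlgebraicClosure ℚ) ↥(modularFunctionFieldBar N) n f →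
    ∃ χ : Additive (Gamma0 N) →+ ZMod n, KM_IsEll N n χ ∧ GR_KChar N n f χ
  /-- uniqueness -/
  uniq : ∀ (n : ℕ), 0 < n → ∀ (f : ↥(modularFunctionFieldBar N))
    (χ χ' : Additive (Gamma0 N) →+ ZMod n), f ≠ 0 → GR_KChar N n f χ → GR_KChar N n f χ' → χ = χ'
  /-- multiplicativity -/
  mul : ∀ (n : ℕ) (f f' : ↥(modularFunctionFieldBar N)) (χ χ' : Additive (Gamma0 N) →+ ZMod n),
    GR_KChar N n f χ → GR_KChar N n f' χ' → GR_KChar N n (f * f') (χ + χ')
  /-- trivial generators have the trivial character -/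
  triv : ∀ (n : ℕ), 0 < n → ∀ (f : ↥(modularFunctionFieldBar N)),
    GR_IsTriv N n f → GR_KChar N n f 0
  /-- injectivity -/
  inj : ∀ (n : ℕ), 0 < n → ∀ f : ↥(modularFunctionFieldBar N),
    KM_IsKum (AlgebraicClosure ℚ) ↥(modularFunctionFieldBar N) n f → GR_KChar N n f 0 →
    GR_IsTriv N n f
  /-- surjectivity -/
  surj : ∀ (n : ℕ), 0 < n → ∀ χ : Additive (Gamma0 N) →+ ZMod n, KM_IsEll N n χ →
    ∃ f : ↥(modularFunctionFieldBar N),
      KM_IsKum (AlgebraicClosure ℚ) ↥(modularFunctionFieldBar N) n f ∧ GR_KChar N n f χ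
  /-- compatibility with `ℤ/(n m) → ℤ/n` -/
  red : ∀ (n m : ℕ), 0 < m → ∀ (f : ↥(modularFunctionFieldBar N))
    (χ : Additive (Gamma0 N) →+ ZMod (n * m)),
    GR_KChar N (n * m) f χ → GR_KChar N n f (GR_redChar N n m χ)

/-- **HECKE + ES** at the prime `ℓ`: the multiplicative Hecke operator on `F`. -/
structure GR_HeckeES (N : ℕ) [NeZero N] (ℓ : ℕ) [Fact ℓ.Prime] where
  /-- the multiplicative Hecke operator `T_ℓ^{mult}` (`ℓ ∤ N`) resp. `U_ℓ^{mult}` (`ℓ ∣ N`) -/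
  t : ↥(modularFunctionFieldBar N) →*₀ ↥(modularFunctionFieldBar N)
  gal : ∀ (σ : GQ) (f : ↥(modularFunctionFieldBar N)), t (GR_gal N σ f) = GR_gal N σ (t f)
  const : ∀ c : AlgebraicClosure ℚ, ∃ c' : AlgebraicClosure ℚ,
    t (algebraMap (AlgebraicClosure ℚ) ↥(modularFunctionFieldBar N) c)
      = algebraMap (AlgebraicClosure ℚ) ↥(modularFunctionFieldBar N) c'
  kum : ∀ (n : ℕ) (f : ↥(modularFunctionFieldBar N)),
    KM_IsKum (AlgebraicClosure ℚ) ↥(modularFunctionFieldBar N) n f →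
    KM_IsKum (AlgebraicClosure ℚ) ↥(modularFunctionFieldBar N) n (t f)
  /-- G4: the Kummer character of `t f` is the cohomological Hecke transform -/
  char : ∀ (n : ℕ), 0 < n → ∀ (f : ↥(modularFunctionFieldBar N))
    (χ : Additive (Gamma0 N) →+ ZMod n),
    KM_IsKum (AlgebraicClosure ℚ) ↥(modularFunctionFieldBar N) n f → GR_KChar N n f χ →
    ∃ χ' : Additive (Gamma0 N) →+ ZMod n, GR_TcohRel N n ℓ χ χ' ∧ GR_KChar N n (t f) χ'
  /-- Eichler–Shimura on Kummer classes: `t f ≡ σ f · (σ⁻¹ f)^ℓ` -/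
  es : ¬ ℓ ∣ N → ∀ (n : ℕ), 0 < n → ¬ ℓ ∣ n → ∀ (f : ↥(modularFunctionFieldBar N)),
    KM_IsKum (AlgebraicClosure ℚ) ↥(modularFunctionFieldBar N) n f →
    ∀ σ : GQ, GR_IsFrob ℓ σ →
      GR_IsTriv N n (t f * (GR_gal N σ f * (GR_gal N σ⁻¹ f) ^ ℓ)⁻¹)

/-- **UNRAM**: inertia at `q ∤ N n` acts trivially on Kummer classes of exponent `n`. -/
def GR_UnramStmt (N : ℕ) : Prop :=
  ∀ (n q : ℕ), 0 < n → q.Prime → ¬ q ∣ N → ¬ q ∣ n →
    ∀ P : ValuationSubring (AlgebraicClosure ℚ), P.LiesOverPrime q →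
      ∀ τ ∈ P.inertiaSubgroupIn ℚ, ∀ f : ↥(modularFunctionFieldBar N),
        KM_IsKum (AlgebraicClosure ℚ) ↥(modularFunctionFieldBar N) n f →
        GR_IsTriv N n (GR_gal N τ f * f⁻¹)

/-- finite level: every Kummer class of exponent `n` is fixed by an open subgroup. -/
def GR_FinStmt (N : ℕ) : Prop :=
  ∀ (n : ℕ), 0 < n → ∃ L : IntermediateField ℚ (AlgebraicClosure ℚ), FiniteDimensional ℚ L ∧
    ∀ σ : GQ, (∀ x ∈ L, σ x = x) → ∀ f : ↥(modularFunctionFieldBar N),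
      KM_IsKum (AlgebraicClosure ℚ) ↥(modularFunctionFieldBar N) n f →
      GR_IsTriv N n (GR_gal N σ f * f⁻¹)

/-- (S18) as a hypothesis. -/
def GR_S18Stmt : Prop :=
  ∀ (N : ℕ) [NeZero N] {ℓ : ℕ} [Fact ℓ.Prime] (_ : ¬ ℓ ∣ N)
    (A : ValuationSubring (AlgebraicClosure ℚ)) (_ : A.LiesOverPrime ℓ)
    (_ : ModularCurve.ReductionInputsModL A N) (m : ℕ) (_ : ¬ ℓ ∣ m)
    (z : ModularCurve.JZero N) (_ : m • z = 0) (_ : ModularCurve.reductionModL A N z = 0), z = 0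

/-- (RI) reduction data exist at every good prime (TRACK 3). -/
def GR_RIStmt : Prop :=
  ∀ (N : ℕ) [NeZero N] (ℓ : ℕ), ℓ.Prime → ¬ ℓ ∣ N →
    ∀ A : ValuationSubring (AlgebraicClosure ℚ), A.LiesOverPrime ℓ →
      ModularCurve.ReductionInputsModL A N

/-- the integral Hecke operators on `parInt N`, indexed by `ℕ` (junk `0` at non-primes). -/
noncomputable def GR_hT (N : ℕ) [NeZero N] (ℓ : ℕ) : Module.End ℤ ↥(parInt N) :=
  open Classical in
  if h : ℓ.Prime then GRD_heckeL N (ModularCurve.heckeGen ⟨ℓ, h⟩) else 0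

/-- **TOWER**: the finite-level tower on `parInt N` from KAPPA, HECKE/ES, UNRAM, FIN. -/
def GR_TowerStmt : Prop :=
  ∀ (N : ℕ) [NeZero N] (p : ℕ) [Fact p.Prime], GR_KappaStmt N →
    (∀ (ℓ : ℕ) [Fact ℓ.Prime], Nonempty (GR_HeckeES N ℓ)) → GR_UnramStmt N → GR_FinStmt N →
    Nonempty (GR_Tower p N ↥(parInt N) (GR_hT N))

end Fermat.Agent.GalRep
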