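import Mathlib
import Fermat.Agent.GalRep.Defs
import Fermat.Agent.GalRep.Iface
import Fermat.Agent.GalRep.Tower
import Fermat.Agent.GalRep.Geom
import Fermat.Agent.GalRep.CoefB
import Fermat.Agent.S16.LB.LiftB

/-!
# Pillar G (GALREP): MAIN — assembly of `GR_MainStmt`

`GR_main_of`: `GR_MainStmt` from
* `GR_DimStmt`     (DIM, helper14): extension of `χ` to all Hecke operators over a finite extension
                   `K''` with integral eigenvalues, and the eigenspace of `K'' ⊗ parInt N` has dim 2;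
* `GR_LatticeStmt` (DIM/ADIC): rank of the eigen-lattice over a PID = dimension over its fraction
                   field;
* `GR_CoefBStmt`   (COEF, helper22, done), `GR_CycStmt` (CYC, helper22, done),
* `GR_AdicStmt`    (ADIC, helper1), and the tower (TOWER, helper7).
-/

set_option autoImplicit false
set_option linter.style.haveILetI false
open scoped TensorProduct
open CuspForm

namespace Fermat.Agent.GalRep

open Fermat.Agent.S16

/-- **DIM** (D4 + D6): a character of the Hecke algebra away from `S` extends, over a finite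
extension, to a system of eigenvalues of ALL Hecke operators `GR_hT N ℓ` (integral over `ℤ`) whose
eigenspace in `K'' ⊗ parInt N` is 2-dimensional. -/
def GR_DimStmt : Prop :=
  ∀ (N : ℕ) [NeZero N] (S : Finset ℕ) (K' : Type) [Field K'] [CharZero K']
    (χ : CuspForm.heckeAlgebra N 2 (↑S : Set ℕ) →+* K'),
    ∃ (K'' : Type) (_ : Field K'') (_ : Algebra K' K'') (_ : FiniteDimensional K' K'')
      (b : ℕ → K''),
      (∀ ℓ, IsIntegral ℤ (b ℓ)) ∧
      (∀ (ℓ : ℕ) (hℓ : ℓ.Prime) (hℓN : ¬ ℓ ∣ N) (hℓS : ℓ ∉ (↑S : Set ℕ)),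
        b ℓ = algebraMap K' K'' (χ (CuspForm.heckeAlgebra.T hℓ hℓN hℓS))) ∧
      Module.finrank K'' (GR_eigen K'' ↥(parInt N) (GR_hT N) b) = 2

/-- **LATTICE**: over a PID, the eigen-lattice has the rank of the eigenspace over the fraction
field. -/
def GR_LatticeStmt : Prop :=
  ∀ (𝒪 K : Type) [CommRing 𝒪] [IsDomain 𝒪] [IsPrincipalIdealRing 𝒪] [Field K] [Algebra 𝒪 K]
    [IsFractionRing 𝒪 K] (L : Type) [AddCommGroup L] [Module.Free ℤ L] [Module.Finite ℤ L]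
    (T : ℕ → Module.End ℤ L) (b : ℕ → 𝒪),
    Module.finrank 𝒪 (GR_eigen 𝒪 L T b)
      = Module.finrank K (GR_eigen K L T (fun ℓ => algebraMap 𝒪 K (b ℓ)))

/-- the integral Hecke operators commute. -/
theorem GR_hT_commute (N : ℕ) [NeZero N] (ℓ ℓ' : ℕ) : Commute (GR_hT N ℓ) (GR_hT N ℓ') := by
  unfold GR_hT
  split_ifs with h h'
  · show _ * _ = _ * _
    rw [← map_mul, ← map_mul, mul_comm]
  · exact Commute.zero_right _
  · exact Commute.zero_left _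
  · exact Commute.zero_left _

/-- an E–S datum only depends on the eigenvalues at the good primes. -/
def GR_ESDatum.congr {p N : ℕ} {S : Finset ℕ} {𝒪 : Type} [CommRing 𝒪] [IsLocalRing 𝒪]
    {a b : ℕ → 𝒪} (D : GR_ESDatum p N S 𝒪 a)
    (h : ∀ ℓ : ℕ, ℓ.Prime → ¬ ℓ ∣ N → ℓ ∉ S → a ℓ = b ℓ) : GR_ESDatum p N S 𝒪 b where
  ρ := D.ρ
  es := fun ℓ hℓ hℓN hℓS σ hσ => by
    rw [← h ℓ hℓ hℓN hℓS]
    exact D.es ℓ hℓ hℓN hℓS σ hσ
  unram := D.unram

/-- **MAIN**. -/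
theorem GR_main_of
    (hTower : ∀ (N : ℕ) [NeZero N] (p : ℕ) [Fact p.Prime],
      Nonempty (GR_Tower p N ↥(parInt N) (GR_hT N)))
    (hAdic : GR_AdicStmt) (hCoef : GR_CoefBStmt) (hCyc : GR_CycStmt)
    (hDim : GR_DimStmt) (hLat : GR_LatticeStmt) : GR_MainStmt := by
  intro p _ N _ S hpS hNS 𝒪' _ _ _ _ _ _ hp𝒪' χ
  obtain ⟨K'', iK, iA, iF, b, hbint, hbχ, hdim⟩ :=
    hDim N S (FractionRing 𝒪') ((algebraMap 𝒪' (FractionRing 𝒪')).comp χ)
  letI : Algebra 𝒪' K'' :=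
    ((algebraMap (FractionRing 𝒪') K'').comp (algebraMap 𝒪' (FractionRing 𝒪'))).toAlgebra
  haveI : IsScalarTower 𝒪' (FractionRing 𝒪') K'' := IsScalarTower.of_algebraMap_eq fun _ => rfl
  obtain ⟨𝒪'', i1, i2, i3, i4, i5, i6, i7, i8, i9, i10, i11, i12, i13, hinj⟩ :=
    hCoef 𝒪' (FractionRing 𝒪') K''
  -- the eigenvalues lie in `𝒪''`
  have hb'' : ∀ ℓ, ∃ c : 𝒪'', algebraMap 𝒪'' K'' c = b ℓ := fun ℓ =>
    IsIntegralClosure.isIntegral_iff (A := 𝒪'') |>.mp ((hbint ℓ).tower_top (A := 𝒪'))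
  choose b'' hb''spec using hb''
  have hp'' : (p : 𝒪'') ∈ IsLocalRing.maximalIdeal 𝒪'' := by
    have h1 : algebraMap 𝒪' 𝒪'' (p : 𝒪') ∈ IsLocalRing.maximalIdeal 𝒪'' := by
      rw [IsLocalRing.mem_maximalIdeal, mem_nonunits_iff]
      intro hu
      exact (IsLocalRing.mem_maximalIdeal _).mp hp𝒪' ((isUnit_map_iff (algebraMap 𝒪' 𝒪'') _).mp hu)
    simpa using h1
  obtain ⟨c⟩ := hCyc p 𝒪'' hp''
  obtain ⟨tw⟩ := hTower N p
  haveI := finite_parInt N
  haveI := free_parInt N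
  have hrank : Module.finrank 𝒪'' (GR_eigen 𝒪'' ↥(parInt N) (GR_hT N) b'') = 2 := by
    rw [hLat 𝒪'' K'' ↥(parInt N) (GR_hT N) b'']
    have : (fun ℓ => algebraMap 𝒪'' K'' (b'' ℓ)) = b := funext hb''spec
    rw [this, hdim]
  obtain ⟨D⟩ := hAdic p N S 𝒪'' hp'' hpS ↥(parInt N) (GR_hT N) (GR_hT_commute N) tw c b''
    (Or.inr hrank)
  refine ⟨𝒪'', i1, i2, i3, i4, i5, i6, i7, i8, i9, hinj, ⟨D.congr fun ℓ hℓ hℓN hℓS => ?_⟩⟩
  have hℓS' : ℓ ∉ (↑S : Set ℕ) := by simpa using hℓS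
  rw [GR_hecEig_eq 𝒪' 𝒪'' χ hℓ hℓN hℓS']
  apply IsFractionRing.injective 𝒪'' K''
  rw [hb''spec, hbχ ℓ hℓ hℓN hℓS', ← IsScalarTower.algebraMap_apply 𝒪' 𝒪'' K'']
  rfl

end Fermat.Agent.GalRep
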