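import Mathlib
import Fermat.Agent.GalRep.Tower
import Fermat.Agent.GalRep.Main

/-!
# Pillar G, package DIM (helper14): flat base change of the eigen-module

`GRD_finrank_eigen_flat` : for a PID `R` and a flat `R`-algebra `R'` the eigen-module
`GR_eigen R' L T (algebraMap ∘ b)` has the rank of `GR_eigen R L T b`.
Consequences: `GRD_lattice : GR_LatticeStmt` and `GRD_finrank_eigen_field` (field extensions).
-/

set_option autoImplicit false
open scoped TensorProduct

namespace Fermat.Agent.GalRep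

section
variable (R : Type) [CommRing R] (L : Type) [AddCommGroup L] (T : ℕ → Module.End ℤ L) (b : ℕ → R)

/-- the defect operators `T_ℓ ⊗ 1 - b_ℓ`. -/
noncomputable def GRD_defect (ℓ : ℕ) : Module.End R (R ⊗[ℤ] L) :=
  (T ℓ).baseChange R - b ℓ • (1 : Module.End R (R ⊗[ℤ] L))

theorem GRD_defect_apply (ℓ : ℕ) (x : R ⊗[ℤ] L) :
    GRD_defect R L T b ℓ x = (T ℓ).baseChange R x - b ℓ • x := rfl

theorem GRD_mem_eigen_iff (x : R ⊗[ℤ] L) :
    x ∈ GR_eigen R L T b ↔ ∀ ℓ : ℕ, ℓ.Prime → GRD_defect R L T b ℓ x = 0 := by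
  constructor
  · intro h ℓ hℓ
    rw [GRD_defect_apply, h ℓ hℓ, sub_self]
  · intro h ℓ hℓ
    have := h ℓ hℓ
    rw [GRD_defect_apply, sub_eq_zero] at this
    exact this

/-- finite reduction. -/
theorem GRD_exists_finset [IsNoetherianRing R] [Module.Finite ℤ L] :
    ∃ F : Finset ℕ, (∀ ℓ ∈ F, ℓ.Prime) ∧ ∀ ℓ : ℕ, ℓ.Prime →
      GRD_defect R L T b ℓ ∈ Submodule.span R ((fun ℓ => GRD_defect R L T b ℓ) '' (F : Set ℕ)) := by
  classical
  have hN : IsNoetherian R (Module.End R (R ⊗[ℤ] L)) := inferInstance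
  have hfg : (Submodule.span R ((fun ℓ => GRD_defect R L T b ℓ) '' {ℓ : ℕ | ℓ.Prime})).FG :=
    IsNoetherian.noetherian _
  obtain ⟨s', hs', hspan⟩ := (Submodule.fg_span_iff_fg_span_finset_subset _).mp hfg
  have hch : ∀ φ ∈ s', ∃ ℓ : ℕ, ℓ.Prime ∧ GRD_defect R L T b ℓ = φ := by
    intro φ hφ
    obtain ⟨ℓ, hℓ, h⟩ := hs' hφ
    exact ⟨ℓ, hℓ, h⟩
  choose! g hg1 hg2 using hch
  refine ⟨s'.image g, ?_, ?_⟩
  · intro ℓ hℓ
    obtain ⟨φ, hφ, rfl⟩ := Finset.mem_image.mp hℓ
    exact hg1 φ hφ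
  · intro ℓ hℓ
    have h1 : GRD_defect R L T b ℓ ∈
        Submodule.span R ((fun ℓ => GRD_defect R L T b ℓ) '' {ℓ : ℕ | ℓ.Prime}) :=
      Submodule.subset_span ⟨ℓ, hℓ, rfl⟩
    rw [hspan] at h1
    refine Submodule.span_mono ?_ h1
    intro φ hφ
    refine ⟨g φ, ?_, hg2 φ hφ⟩
    simp only [Finset.coe_image, Set.mem_image, Finset.mem_coe]
    exact ⟨φ, hφ, rfl⟩

variable (R' : Type) [CommRing R'] [Algebra R R']

/-- `R' ⊗[R] (R ⊗[ℤ] L) ≃ R' ⊗[ℤ] L`. -/
noncomputable def GRD_cancel : R' ⊗[R] (R ⊗[ℤ] L) ≃ₗ[R'] R' ⊗[ℤ] L :=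
  TensorProduct.AlgebraTensorModule.cancelBaseChange ℤ R R' R' L

theorem GRD_cancel_tmul (r' : R') (r : R) (l : L) :
    GRD_cancel R L R' (r' ⊗ₜ[R] (r ⊗ₜ[ℤ] l)) = (r • r') ⊗ₜ[ℤ] l := by
  unfold GRD_cancel
  rw [TensorProduct.AlgebraTensorModule.cancelBaseChange_tmul]

/-- the defect operators are compatible with base change. -/
theorem GRD_cancel_defect (ℓ : ℕ) (y : R' ⊗[R] (R ⊗[ℤ] L)) :
    GRD_cancel R L R' ((GRD_defect R L T b ℓ).baseChange R' y)
      = GRD_defect R' L T (fun ℓ => algebraMap R R' (b ℓ)) ℓ (GRD_cancel R L R' y) := by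
  induction y using TensorProduct.induction_on with
  | zero => simp
  | add y₁ y₂ h₁ h₂ => rw [map_add, map_add, h₁, h₂, map_add, map_add]
  | tmul r' m =>
    induction m using TensorProduct.induction_on with
    | zero => simp
    | add m₁ m₂ h₁ h₂ =>
      rw [TensorProduct.tmul_add, map_add, map_add, h₁, h₂, map_add, map_add]
    | tmul r l =>
      rw [LinearMap.baseChange_tmul, GRD_defect_apply, GRD_defect_apply, GRD_cancel_tmul,
        LinearMap.baseChange_tmul, LinearMap.baseChange_tmul, TensorProduct.tmul_sub, map_sub,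
        GRD_cancel_tmul, TensorProduct.smul_tmul', GRD_cancel_tmul, TensorProduct.smul_tmul']
      congr 2
      rw [smul_eq_mul, Algebra.smul_def, Algebra.smul_def, Algebra.smul_def, map_mul,
        Algebra.algebraMap_self, RingHom.id_apply]
      ring


/-- membership in the eigenspace over `R'`, through the cancellation isomorphism. -/
theorem GRD_cancel_mem_eigen_iff (y : R' ⊗[R] (R ⊗[ℤ] L)) :
    GRD_cancel R L R' y ∈ GR_eigen R' L T (fun ℓ => algebraMap R R' (b ℓ)) ↔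
      ∀ ℓ : ℕ, ℓ.Prime → (GRD_defect R L T b ℓ).baseChange R' y = 0 := by
  rw [GRD_mem_eigen_iff]
  refine forall_congr' fun ℓ => forall_congr' fun _ => ?_
  rw [← GRD_cancel_defect, LinearEquiv.map_eq_zero_iff]

/-- the finitely many defect operators as one linear map. -/
noncomputable def GRD_defectPi (F : Finset ℕ) : (R ⊗[ℤ] L) →ₗ[R] (F → R ⊗[ℤ] L) :=
  LinearMap.pi fun ℓ => GRD_defect R L T b ℓ.1

theorem GRD_ker_defectPi (F : Finset ℕ) (hF : ∀ ℓ ∈ F, ℓ.Prime)
    (hspan : ∀ ℓ : ℕ, ℓ.Prime →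
      GRD_defect R L T b ℓ ∈ Submodule.span R ((fun ℓ => GRD_defect R L T b ℓ) '' (F : Set ℕ))) :
    LinearMap.ker (GRD_defectPi R L T b F) = GR_eigen R L T b := by
  ext x
  rw [LinearMap.mem_ker, GRD_mem_eigen_iff]
  constructor
  · intro h ℓ hℓ
    have hx : ∀ ℓ ∈ F, GRD_defect R L T b ℓ x = 0 := fun ℓ hℓ =>
      congrFun h ⟨ℓ, hℓ⟩
    have hle : Submodule.span R ((fun ℓ => GRD_defect R L T b ℓ) '' (F : Set ℕ))
        ≤ LinearMap.ker (LinearMap.applyₗ (R := R) x : Module.End R (R ⊗[ℤ] L) →ₗ[R] _) := by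
      rw [Submodule.span_le]
      rintro _ ⟨ℓ', hℓ', rfl⟩
      exact hx ℓ' hℓ'
    exact hle (hspan ℓ hℓ)
  · intro h
    funext ℓ
    exact h ℓ.1 (hF ℓ.1 ℓ.2)

theorem GRD_ker_lTensor (F : Finset ℕ) (hF : ∀ ℓ ∈ F, ℓ.Prime)
    (hspan : ∀ ℓ : ℕ, ℓ.Prime →
      GRD_defect R L T b ℓ ∈ Submodule.span R ((fun ℓ => GRD_defect R L T b ℓ) '' (F : Set ℕ))) :
    LinearMap.ker (TensorProduct.AlgebraTensorModule.lTensor R' R' (GRD_defectPi R L T b F))
      = (GR_eigen R' L T (fun ℓ => algebraMap R R' (b ℓ))).comap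
          (GRD_cancel R L R').toLinearMap := by
  classical
  ext y
  rw [LinearMap.mem_ker, Submodule.mem_comap, LinearEquiv.coe_coe, GRD_cancel_mem_eigen_iff]
  have key : ∀ (ℓ : F), TensorProduct.piRight R R' R' (fun _ : F => R ⊗[ℤ] L)
      (TensorProduct.AlgebraTensorModule.lTensor R' R' (GRD_defectPi R L T b F) y) ℓ
        = (GRD_defect R L T b ℓ.1).baseChange R' y := by
    intro ℓ
    induction y using TensorProduct.induction_on with
    | zero => simp
    | add y₁ y₂ h₁ h₂ => rw [map_add, map_add, Pi.add_apply, h₁, h₂, map_add]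
    | tmul r' m =>
      rw [TensorProduct.AlgebraTensorModule.lTensor_tmul, TensorProduct.piRight_apply,
        TensorProduct.piRightHom_tmul, LinearMap.baseChange_tmul]
      rfl
  constructor
  · intro h ℓ hℓ
    have hx : ∀ ℓ ∈ F, (GRD_defect R L T b ℓ).baseChange R' y = 0 := by
      intro ℓ hℓ
      rw [← key ⟨ℓ, hℓ⟩, h, map_zero]
      rfl
    have hmem := hspan ℓ hℓ
    generalize GRD_defect R L T b ℓ = D at hmem ⊢
    induction hmem using Submodule.span_induction with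
    | mem φ hφ =>
      obtain ⟨ℓ', hℓ', rfl⟩ := hφ
      exact hx ℓ' hℓ'
    | zero => simp
    | add φ ψ _ _ h₁ h₂ => rw [LinearMap.baseChange_add, LinearMap.add_apply, h₁, h₂, add_zero]
    | smul r φ _ h₁ => rw [LinearMap.baseChange_smul, LinearMap.smul_apply, h₁, smul_zero]
  · intro h
    apply (TensorProduct.piRight R R' R' (fun _ : F => R ⊗[ℤ] L)).injective
    rw [map_zero]
    funext ℓ
    rw [key ℓ, h ℓ.1 (hF ℓ.1 ℓ.2)]
    rfl

/-- **flat base change of the eigen-lattice**: for a PID `R` and a flat `R`-algebra `R'`, the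
eigen-module over `R'` has the rank of the eigen-module over `R`. -/
theorem GRD_finrank_eigen_flat [IsDomain R] [IsPrincipalIdealRing R] [Nontrivial R']
    [Module.Flat R R'] [Module.Free ℤ L] [Module.Finite ℤ L] :
    Module.finrank R' (GR_eigen R' L T (fun ℓ => algebraMap R R' (b ℓ)))
      = Module.finrank R (GR_eigen R L T b) := by
  obtain ⟨F, hF, hspan⟩ := GRD_exists_finset R L T b
  have h1 := GRD_ker_defectPi R L T b F hF hspan
  have h2 := GRD_ker_lTensor R L T b R' F hF hspan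
  have e1 : ↥((GR_eigen R' L T (fun ℓ => algebraMap R R' (b ℓ))).comap
      (GRD_cancel R L R').toLinearMap) ≃ₗ[R'] ↥(GR_eigen R' L T (fun ℓ => algebraMap R R' (b ℓ))) :=
    LinearEquiv.ofSubmodule' (GRD_cancel R L R') _
  have e2 := LinearMap.tensorKerEquiv R' R' (GRD_defectPi R L T b F)
  rw [← e1.finrank_eq, ← h2, ← e2.finrank_eq, Module.finrank_baseChange, h1]

end

/-- **LATTICE** -/
theorem GRD_lattice : GR_LatticeStmt := by
  intro 𝒪 K _ _ _ _ _ _ L _ _ _ T b
  have : Module.Flat 𝒪 K := IsLocalization.flat K (nonZeroDivisors 𝒪)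
  exact (GRD_finrank_eigen_flat 𝒪 L T b K).symm

/-- field extensions do not change the dimension of the eigenspace. -/
theorem GRD_finrank_eigen_field (K K' : Type) [Field K] [Field K'] [Algebra K K']
    (L : Type) [AddCommGroup L] [Module.Free ℤ L] [Module.Finite ℤ L]
    (T : ℕ → Module.End ℤ L) (b : ℕ → K) :
    Module.finrank K' (GR_eigen K' L T (fun ℓ => algebraMap K K' (b ℓ)))
      = Module.finrank K (GR_eigen K L T b) :=
  GRD_finrank_eigen_flat K L T b K'

end Fermat.Agent.GalRep
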