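import Mathlib
import Fermat.Agent.GalRep.Main
import Fermat.Agent.GalRep.DimHecke

/-!
# Pillar G, package DIM (helper14): interface of the sub-packages of `GR_DimStmt` (definitions only)

`GR_DimStmt ⇐ GRD_ExtStmt (D6, helper6) + GRD_C2Stmt`, `GRD_C2Stmt ⇐ GRD_CTStmt + GRD_ECStmt`.
-/

set_option autoImplicit false
open scoped TensorProduct
open CuspForm ModularCurve CongruenceSubgroup ModularCurve.Period

namespace Fermat.Agent.GalRep
open Fermat.Agent.S16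

/-- **D6** (helper6): extension of a character to the full Hecke algebra. -/
def GRD_ExtStmt : Prop :=
  ∀ (N : ℕ) [NeZero N] (S : Finset ℕ) (K' : Type) [Field K'] [CharZero K']
    (χ : CuspForm.heckeAlgebra N 2 (↑S : Set ℕ) →+* K'),
    ∃ (K'' : Type) (_ : Field K'') (_ : Algebra K' K'') (_ : FiniteDimensional K' K'')
      (χ' : CuspForm.heckeAlgebra N 2 (∅ : Set ℕ) →+* K''),
      (∀ t, IsIntegral ℤ (χ' t)) ∧
      ∀ t : CuspForm.heckeAlgebra N 2 (↑S : Set ℕ),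
        χ' ⟨t.1, CuspForm.heckeAlgebra_mono (Set.empty_subset _) t.2⟩ = algebraMap K' K'' (χ t)

/-- the eigenvalue function of a character of the polynomial Hecke algebra. -/
noncomputable def GRD_eig {K : Type} [CommRing K] (lam : HeckeAlg →+* K) (ℓ : ℕ) : K :=
  open Classical in if h : ℓ.Prime then lam (heckeGen ⟨ℓ, h⟩) else 0

/-- **CT** (open): `ℂ ⊗ parInt N ≃ Hom_par(Γ₀(N), ℂ)`, Hecke-equivariantly. -/
def GRD_CTStmt : Prop :=
  ∀ (N : ℕ) [NeZero N],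
    ∃ Ψ : (ℂ ⊗[ℤ] ↥(parInt N)) ≃ₗ[ℂ] ↥(parabolicHoms ℂ (Gamma0 N) ℂ),
      (∀ (c : ℂ) (χ : ↥(parInt N)), Ψ (c ⊗ₜ[ℤ] χ) = c • GRD_cast N χ) ∧
      ∀ (r : HeckeAlg) (x : ℂ ⊗[ℤ] ↥(parInt N)),
        Ψ ((GRD_heckeL N r).baseChange ℂ x) = S16_heckeCohHom N r (Ψ x)

/-- **EC** (helper14): the complex eigenspace of `Hom_par` is 2-dimensional. -/
def GRD_ECStmt : Prop :=
  ∀ (N : ℕ) [NeZero N] (lam : HeckeAlg →+* ℂ),
    (∀ P : HeckeAlg, heckeEvalForms N 2 P = 0 → lam P = 0) →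
    ∃ W : Submodule ℂ ↥(parabolicHoms ℂ (Gamma0 N) ℂ),
      (∀ φ, φ ∈ W ↔ ∀ ℓ : Nat.Primes, S16_heckeCohHom N (heckeGen ℓ) φ = lam (heckeGen ℓ) • φ) ∧
      Module.finrank ℂ W = 2

/-- **C2** (from CT + EC): the complex eigenspace of `ℂ ⊗ parInt N` is 2-dimensional. -/
def GRD_C2Stmt : Prop :=
  ∀ (N : ℕ) [NeZero N] (lam : HeckeAlg →+* ℂ),
    (∀ P : HeckeAlg, heckeEvalForms N 2 P = 0 → lam P = 0) →
    Module.finrank ℂ (GR_eigen ℂ ↥(parInt N) (GR_hT N) (GRD_eig lam)) = 2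

end Fermat.Agent.GalRep
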