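import Mathlib
import Fermat.Agent.GalRep.DimIface
import Fermat.Agent.GalRep.DimFlat

/-!
# Pillar G, package DIM, sub-package ASM (helper1): `GR_DimStmt` from `GRD_ExtStmt` + `GRD_C2Stmt`

The eigenvalues `b ℓ = χ'(T_ℓ)` are integral over `ℤ`, hence lie in the algebraic closure `E₀` of
`ℚ` in `K''`; `E₀` embeds into `ℂ`, and the dimension of the eigenspace does not change under
field extensions (`GRD_finrank_eigen_field`).
-/

set_option autoImplicit false
set_option linter.style.haveILetI false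
open scoped TensorProduct
open CuspForm ModularCurve CongruenceSubgroup ModularCurve.Period

namespace Fermat.Agent.GalRep
open Fermat.Agent.S16

theorem GRD_eig_map {K K₁ : Type} [CommRing K] [CommRing K₁] (f : K →+* K₁)
    (lam : HeckeAlg →+* K) (ℓ : ℕ) : f (GRD_eig lam ℓ) = GRD_eig (f.comp lam) ℓ := by
  unfold GRD_eig
  split_ifs with h
  · rfl
  · exact map_zero f

theorem GRD_eig_prime {K : Type} [CommRing K] (lam : HeckeAlg →+* K) {ℓ : ℕ} (h : ℓ.Prime) :
    GRD_eig lam ℓ = lam (heckeGen ⟨ℓ, h⟩) := by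
  unfold GRD_eig
  rw [dif_pos h]

/-- **DIM, assembly.** -/
theorem GRD_dim_of (hExt : GRD_ExtStmt) (hC2 : GRD_C2Stmt) : GR_DimStmt := by
  intro N _ S K' _ _ χ
  obtain ⟨K'', iK, iA, iF, χ', hint, hχ'⟩ := hExt N S K' χ
  letI := iK
  letI := iA
  haveI : CharZero K'' := charZero_of_injective_algebraMap (algebraMap K' K'').injective
  haveI := free_parInt N
  haveI := finite_parInt N
  -- the values of `χ'` are algebraic over `ℚ`
  have hmem : ∀ t, χ' t ∈ algebraicClosure ℚ K'' := fun t =>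
    (mem_algebraicClosure_iff).mpr ((hint t).tower_top (A := ℚ)).isAlgebraic
  let χ₀ : CuspForm.heckeAlgebra N 2 (∅ : Set ℕ) →+* ↥(algebraicClosure ℚ K'') :=
    χ'.codRestrict (algebraicClosure ℚ K'') hmem
  let lam₀ : HeckeAlg →+* ↥(algebraicClosure ℚ K'') := χ₀.comp (heckeEvalForms N 2)
  -- an embedding of `E₀` into `ℂ`
  haveI : Algebra.IsAlgebraic ℚ ↥(algebraicClosure ℚ K'') := algebraicClosure.isAlgebraic ℚ K''
  let ι : ↥(algebraicClosure ℚ K'') →ₐ[ℚ] ℂ := IsAlgClosed.lift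
  letI : Algebra ↥(algebraicClosure ℚ K'') ℂ := ι.toRingHom.toAlgebra
  have h1 := GRD_finrank_eigen_field ↥(algebraicClosure ℚ K'') K'' ↥(parInt N) (GR_hT N)
    (GRD_eig lam₀)
  have h2 := GRD_finrank_eigen_field ↥(algebraicClosure ℚ K'') ℂ ↥(parInt N) (GR_hT N)
    (GRD_eig lam₀)
  have h3 := hC2 N (ι.toRingHom.comp lam₀) (fun P hP => by
    show ι (χ₀ (heckeEvalForms N 2 P)) = 0
    rw [hP, map_zero, map_zero])
  have h4 : (fun ℓ => algebraMap ↥(algebraicClosure ℚ K'') ℂ (GRD_eig lam₀ ℓ))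
      = GRD_eig (ι.toRingHom.comp lam₀) := by
    funext ℓ
    exact GRD_eig_map ι.toRingHom lam₀ ℓ
  rw [h4, h3] at h2
  refine ⟨K'', iK, iA, iF, fun ℓ => algebraMap ↥(algebraicClosure ℚ K'') K'' (GRD_eig lam₀ ℓ),
    ?_, ?_, ?_⟩
  · intro ℓ
    beta_reduce
    by_cases h : ℓ.Prime
    · rw [GRD_eig_prime lam₀ h]
      exact hint _
    · have : GRD_eig lam₀ ℓ = 0 := by
        unfold GRD_eig
        rw [dif_neg h]
      rw [this, map_zero]
      exact isIntegral_zero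
  · intro ℓ hℓ hℓN hℓS
    beta_reduce
    rw [GRD_eig_prime lam₀ hℓ, ← hχ' (CuspForm.heckeAlgebra.T hℓ hℓN hℓS)]
    show χ' (heckeEvalForms N 2 (heckeGen ⟨ℓ, hℓ⟩)) = _
    rw [CuspForm.heckeEvalForms_heckeGen_of_not_dvd (N := N) (k := 2) (ℓ := ⟨ℓ, hℓ⟩) hℓN]
    rfl
  · rw [h1, ← h2]

end Fermat.Agent.GalRep
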