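import Mathlib
import Fermat.Agent.GalRep.DimIface

/-!
# Pillar G, package DIM, piece CT: `ℂ ⊗ parInt N ≃ Hom_par(Γ₀(N), ℂ)`, Hecke-equivariantly

`GRDC_ct : GRD_CTStmt`.

* `GRDC_psi N = LinearMap.liftBaseChange ℂ (GRD_cast N)`, `c ⊗ χ ↦ c • χ`;
* surjective by `parabolic_le_span_int` (S16);
* injective: evaluate on a finite generating set `Y` of `Γ₀(N)`; `parInt N ↪ (Y → ℤ)`, `ℂ` is flat
  over `ℤ` and `ℂ ⊗ (Y → ℤ) ≃ (Y → ℂ)`;
* equivariant on pure tensors by `GRD_heckeL_coe`.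
-/

set_option autoImplicit false

open scoped TensorProduct
open CuspForm ModularCurve CongruenceSubgroup ModularCurve.Period

namespace Fermat.Agent.GalRep

open Fermat.Agent.S16

variable (N : ℕ) [NeZero N]

/-- the comparison map `ℂ ⊗ parInt N → Hom_par(Γ₀(N), ℂ)`. -/
noncomputable def GRDC_psi :
    (ℂ ⊗[ℤ] ↥(parInt N)) →ₗ[ℂ] ↥(parabolicHoms ℂ (Gamma0 N) ℂ) :=
  LinearMap.liftBaseChange ℂ (GRD_cast N)

theorem GRDC_psi_tmul (c : ℂ) (χ : ↥(parInt N)) :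
    GRDC_psi N (c ⊗ₜ[ℤ] χ) = c • GRD_cast N χ := rfl

theorem GRDC_psi_surjective : Function.Surjective (GRDC_psi N) := by
  intro φ
  -- the image of the range in the ambient space
  set R : Submodule ℂ (Additive (Gamma0 N) →+ ℂ) :=
    (LinearMap.range (GRDC_psi N)).map (parabolicHoms ℂ (Gamma0 N) ℂ).subtype with hR
  have hle : Submodule.span ℂ ((intToComplex (Gamma0 N)) ''
      {χ : Additive (Gamma0 N) →+ ℤ | IsParabolicHom (Gamma0 N) χ}) ≤ R := by
    rw [Submodule.span_le]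
    rintro _ ⟨χ, hχ, rfl⟩
    refine ⟨GRD_cast N ⟨χ, hχ⟩, ⟨(1 : ℂ) ⊗ₜ[ℤ] ⟨χ, hχ⟩, ?_⟩, rfl⟩
    rw [GRDC_psi_tmul, one_smul]
  have hφ : (φ : Additive (Gamma0 N) →+ ℂ) ∈ R := hle (parabolic_le_span_int N φ.2)
  obtain ⟨ψ, ⟨x, hx⟩, hψ⟩ := hφ
  refine ⟨x, ?_⟩
  rw [hx]
  exact Subtype.ext hψ

theorem GRDC_psi_injective : Function.Injective (GRDC_psi N) := by
  classical
  obtain ⟨Y, hY, hfin⟩ := Group.fg_iff.mp (Fermat.Agent.S22.gamma0_fg N)
  haveI : Fintype Y := hfin.fintype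
  -- evaluation on `Y`, over `ℤ` and over `ℂ`
  let evZ : ↥(parInt N) →ₗ[ℤ] (Y → ℤ) :=
    { toFun := fun χ y => (χ : Additive (Gamma0 N) →+ ℤ) (Additive.ofMul (y : Gamma0 N))
      map_add' := fun _ _ => rfl
      map_smul' := fun _ _ => rfl }
  let evC : ↥(parabolicHoms ℂ (Gamma0 N) ℂ) →ₗ[ℂ] (Y → ℂ) :=
    { toFun := fun φ y => (φ : Additive (Gamma0 N) →+ ℂ) (Additive.ofMul (y : Gamma0 N))
      map_add' := fun _ _ => rfl
      map_smul' := fun _ _ => rfl }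
  have hinjZ : Function.Injective evZ := by
    rw [← LinearMap.ker_eq_bot, LinearMap.ker_eq_bot']
    intro χ hχ
    apply Subtype.ext
    apply addHom_eq_zero_of_closure hY
    intro y hy
    exact congrFun hχ ⟨y, hy⟩
  have hflat : Function.Injective (LinearMap.lTensor ℂ evZ) :=
    Module.Flat.lTensor_preserves_injective_linearMap evZ hinjZ
  -- the two ways around the square agree
  have key : ∀ x : ℂ ⊗[ℤ] ↥(parInt N),
      evC (GRDC_psi N x) = TensorProduct.piScalarRight ℤ ℂ ℂ Y (LinearMap.lTensor ℂ evZ x) := by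
    intro x
    induction x using TensorProduct.induction_on with
    | zero => simp
    | tmul c χ =>
      rw [GRDC_psi_tmul, LinearMap.lTensor_tmul, TensorProduct.piScalarRight_apply,
        TensorProduct.piScalarRightHom_tmul]
      funext y
      show (c • GRD_cast N χ : ↥(parabolicHoms ℂ (Gamma0 N) ℂ)).1 (Additive.ofMul (y : Gamma0 N))
        = (χ : Additive (Gamma0 N) →+ ℤ) (Additive.ofMul (y : Gamma0 N)) • c
      rw [Submodule.coe_smul, AddMonoidHom.smul_apply, GRD_cast_apply, smul_eq_mul, zsmul_eq_mul,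
        mul_comm]
    | add x y hx hy => rw [map_add, map_add, map_add, map_add, hx, hy]
  rw [← LinearMap.ker_eq_bot, LinearMap.ker_eq_bot']
  intro x hx
  have h1 : TensorProduct.piScalarRight ℤ ℂ ℂ Y (LinearMap.lTensor ℂ evZ x) = 0 := by
    rw [← key, hx, map_zero]
  have h2 : LinearMap.lTensor ℂ evZ x = 0 :=
    (TensorProduct.piScalarRight ℤ ℂ ℂ Y).map_eq_zero_iff.mp h1
  exact hflat (by rw [h2, map_zero])

/-- the comparison isomorphism. -/
noncomputable def GRDC_Psi :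
    (ℂ ⊗[ℤ] ↥(parInt N)) ≃ₗ[ℂ] ↥(parabolicHoms ℂ (Gamma0 N) ℂ) :=
  LinearEquiv.ofBijective (GRDC_psi N) ⟨GRDC_psi_injective N, GRDC_psi_surjective N⟩

theorem GRDC_Psi_tmul (c : ℂ) (χ : ↥(parInt N)) :
    GRDC_Psi N (c ⊗ₜ[ℤ] χ) = c • GRD_cast N χ := rfl

theorem GRDC_Psi_hecke (r : HeckeAlg) (x : ℂ ⊗[ℤ] ↥(parInt N)) :
    GRDC_Psi N ((GRD_heckeL N r).baseChange ℂ x) = S16_heckeCohHom N r (GRDC_Psi N x) := by
  induction x using TensorProduct.induction_on with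
  | zero => simp
  | tmul c χ =>
    rw [LinearMap.baseChange_tmul, GRDC_Psi_tmul, GRDC_Psi_tmul, GRD_heckeL_coe, map_smul]
  | add x y hx hy => rw [map_add, map_add, map_add, map_add, hx, hy]

/-- **CT.** -/
theorem GRDC_ct : GRD_CTStmt := by
  intro N _
  exact ⟨GRDC_Psi N, GRDC_Psi_tmul N, GRDC_Psi_hecke N⟩

end Fermat.Agent.GalRep
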