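import Mathlib
import Fermat.Agent.S49.Lattice
import Fermat.Agent.S16.DualPair
import Fermat.Agent.S16.LB.FinalA
import Fermat.Agent.S23
import Fermat.Prelude.Def_CuspForm_HeckeLocal
import Fermat.Prelude.Def_CuspForm_HeckeEvalForms

/-!
# Pillar G, package DIM (helper14), part D3: duality between `S₂(Γ₀(N))` and the Hecke algebra

For every level `N`:
* `GRD_exists_heckePoly` : Hecke polynomials `P_k` with `a_k(f) = a₁(P_k f)`;
* `GRD_exists_eigenform` : for every ring hom `λ : HeckeAlg →+* ℂ` that factors through the Hecke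
  algebra of `S₂(Γ₀(N))` there is `f` with `a₁(P f) = λ P` for all `P`; it is an eigenform;
* `GRD_finrank_eigenForms` : the `λ`-eigenspace of `S₂(Γ₀(N))` has dimension `1`.
-/

set_option autoImplicit false

open CuspForm ModularCurve CongruenceSubgroup ModularFormClass Fermat.Agent.S49

namespace Fermat.Agent.GalRep

variable (N : ℕ) [NeZero N]

/-- the action of a Hecke polynomial on `S₂(Γ₀(N))`. -/
noncomputable def GRD_actC (P : HeckeAlg) : Module.End ℂ (CuspForm (Gamma0 N) 2) :=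
  (heckeEvalForms N 2 P).1

theorem GRD_actC_mul (P Q : HeckeAlg) (f : CuspForm (Gamma0 N) 2) :
    GRD_actC N (P * Q) f = GRD_actC N P (GRD_actC N Q f) := by
  unfold GRD_actC
  rw [map_mul]
  rfl

theorem GRD_actC_add (P Q : HeckeAlg) (f : CuspForm (Gamma0 N) 2) :
    GRD_actC N (P + Q) f = GRD_actC N P f + GRD_actC N Q f := by
  unfold GRD_actC
  rw [map_add]
  rfl

theorem GRD_actC_sub (P Q : HeckeAlg) (f : CuspForm (Gamma0 N) 2) :
    GRD_actC N (P - Q) f = GRD_actC N P f - GRD_actC N Q f := by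
  unfold GRD_actC
  rw [map_sub]
  rfl

theorem GRD_actC_C (z : ℤ) (f : CuspForm (Gamma0 N) 2) :
    GRD_actC N (MvPolynomial.C z) f = (z : ℂ) • f := by
  unfold GRD_actC
  rw [heckeEvalForms_C]
  simp only [algebraMap_int_eq, eq_intCast, SubringClass.coe_intCast]
  rw [Module.End.intCast_apply, Int.cast_smul_eq_zsmul]

theorem GRD_actC_one (f : CuspForm (Gamma0 N) 2) : GRD_actC N 1 f = f := by
  unfold GRD_actC
  rw [map_one]
  rfl

theorem GRD_actC_comm (P Q : HeckeAlg) (f : CuspForm (Gamma0 N) 2) :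
    GRD_actC N P (GRD_actC N Q f) = GRD_actC N Q (GRD_actC N P f) := by
  rw [← GRD_actC_mul, ← GRD_actC_mul, mul_comm]

/-- coefficients of `T_ℓ f`, `ℓ ∤ N`. -/
theorem GRD_qCoeff_actC_X {ℓ : Nat.Primes} (hℓ : ¬ (ℓ : ℕ) ∣ N) (f : CuspForm (Gamma0 N) 2)
    (k : ℕ) :
    qCoeff (GRD_actC N (MvPolynomial.X ℓ) f) k =
      qCoeff f (k * ℓ) + if (ℓ : ℕ) ∣ k then (ℓ : ℂ) * qCoeff f (k / ℓ) else 0 := by
  unfold GRD_actC
  have h1 : heckeEvalForms N 2 (MvPolynomial.X ℓ) = heckeAlgebra.T ℓ.2 hℓ (Set.notMem_empty _) :=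
    heckeEvalForms_heckeGen_of_not_dvd hℓ
  rw [h1, heckeAlgebra.coe_T, S49_qCoeff_heckeTLin]

/-- coefficients of `U_ℓ f`, `ℓ ∣ N`. -/
theorem GRD_qCoeff_actC_X_of_dvd {ℓ : Nat.Primes} (hℓ : (ℓ : ℕ) ∣ N) (f : CuspForm (Gamma0 N) 2)
    (k : ℕ) :
    qCoeff (GRD_actC N (MvPolynomial.X ℓ) f) k = qCoeff f (k * ℓ) := by
  unfold GRD_actC
  have h1 : heckeEvalForms N 2 (MvPolynomial.X ℓ) = heckeAlgebra.U ℓ.2 hℓ (Set.notMem_empty _) :=
    heckeEvalForms_heckeGen_of_dvd hℓ
  rw [h1, heckeAlgebra.coe_U, S49_qCoeff_heckeULin ℓ.2]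

/-- **Hecke polynomials**: `a_k(f) = a₁(P_k f)`. -/
theorem GRD_exists_heckePoly (k : ℕ) (hk : 1 ≤ k) :
    ∃ P : HeckeAlg, ∀ f : CuspForm (Gamma0 N) 2, qCoeff f k = qCoeff (GRD_actC N P f) 1 := by
  induction k using Nat.strong_induction_on with
  | _ k ih =>
    rcases Nat.lt_or_ge 1 k with hk1 | hk1
    swap
    · obtain rfl : k = 1 := le_antisymm hk1 hk
      exact ⟨1, fun f => by rw [GRD_actC_one]⟩
    have hℓ : (k.minFac).Prime := Nat.minFac_prime hk1.ne'
    obtain ⟨k', hk'⟩ : ∃ k', k = k' * k.minFac :=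
      ⟨k / k.minFac, (Nat.div_mul_cancel (Nat.minFac_dvd k)).symm⟩
    set ℓ : Nat.Primes := ⟨k.minFac, hℓ⟩ with hℓdef
    have hℓval : (ℓ : ℕ) = k.minFac := rfl
    have hk'pos : 1 ≤ k' := by
      rcases Nat.eq_zero_or_pos k' with h | h
      · rw [h, zero_mul] at hk'; omega
      · exact h
    have hk'lt : k' < k := by
      rw [hk']
      exact lt_mul_of_one_lt_right hk'pos hℓ.one_lt
    obtain ⟨P', hP'⟩ := ih k' hk'lt hk'pos
    by_cases hℓN : (ℓ : ℕ) ∣ N
    · refine ⟨P' * MvPolynomial.X ℓ, fun f => ?_⟩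
      rw [GRD_actC_mul, ← hP', GRD_qCoeff_actC_X_of_dvd N hℓN, hk']
    · by_cases hdvd : (ℓ : ℕ) ∣ k'
      · obtain ⟨k'', hk''⟩ := hdvd
        have hk''pos : 1 ≤ k'' := by
          rcases Nat.eq_zero_or_pos k'' with h | h
          · rw [h, mul_zero] at hk''; omega
          · exact h
        have hk''lt : k'' < k := by
          have : k'' ≤ k' := by
            rw [hk'']; exact Nat.le_mul_of_pos_left _ ℓ.2.pos
          omega
        obtain ⟨P'', hP''⟩ := ih k'' hk''lt hk''pos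
        have hdiv : k' / (ℓ : ℕ) = k'' := by
          rw [hk'']; exact Nat.mul_div_cancel_left _ ℓ.2.pos
        refine ⟨P' * MvPolynomial.X ℓ - MvPolynomial.C (ℓ : ℤ) * P'', fun f => ?_⟩
        rw [GRD_actC_sub, S49_qCoeff_sub, GRD_actC_mul, ← hP', GRD_qCoeff_actC_X N hℓN,
          GRD_actC_mul, GRD_actC_C, S49_qCoeff_smul, ← hP'',
          if_pos ⟨k'', hk''⟩, hdiv, hk', ← hℓval]
        push_cast
        ring
      · refine ⟨P' * MvPolynomial.X ℓ, fun f => ?_⟩
        rw [GRD_actC_mul, ← hP', GRD_qCoeff_actC_X N hℓN, if_neg hdvd, add_zero, hk', ← hℓval]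

/-- a form is determined by the numbers `a₁(P f)`. -/
theorem GRD_eq_zero_of_a1 (f : CuspForm (Gamma0 N) 2)
    (h : ∀ P : HeckeAlg, qCoeff (GRD_actC N P f) 1 = 0) : f = 0 := by
  apply S49_eq_zero_of_qCoeff
  intro n
  rcases Nat.eq_zero_or_pos n with rfl | hn
  · exact S49_qCoeff_zero _
  · obtain ⟨P, hP⟩ := GRD_exists_heckePoly N n hn
    rw [hP, h]

/-! ### the integral pairing -/

/-- the structure map `ℤ[X_ℓ] → 𝕋_lat`. -/
noncomputable def GRD_rho : HeckeAlg →+* ↥(heckeLatticeAlgebra N ∅) :=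
  (latticeRestrictHom N ∅).toRingHom.comp (heckeEvalForms N 2)

theorem GRD_rho_surjective : Function.Surjective (GRD_rho N) := by
  intro t
  obtain ⟨s, rfl⟩ := latticeRestrictHom_surjective N ∅ t
  obtain ⟨P, rfl⟩ := Fermat.Agent.S16.heckeEvalForms_surjective N 2 s
  exact ⟨P, rfl⟩

theorem GRD_rho_apply_coe (P : HeckeAlg) (f : ↥(intLattice N 2)) :
    ((((GRD_rho N P : ↥(heckeLatticeAlgebra N ∅)) : Module.End ℤ ↥(intLattice N 2)) f :
      ↥(intLattice N 2)) : CuspForm (Gamma0 N) 2) = GRD_actC N P (f : CuspForm (Gamma0 N) 2) :=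
  rfl

/-- `ρ P = 0` iff `P` acts as zero on `S₂(Γ₀(N))`. -/
theorem GRD_rho_eq_zero_iff (P : HeckeAlg) : GRD_rho N P = 0 ↔ heckeEvalForms N 2 P = 0 := by
  have hbij := latticeRestrictHom_bijective N ∅ (Fermat.Agent.S23.result N)
  constructor
  · intro h
    apply hbij.1
    rw [map_zero]
    exact h
  · intro h
    show latticeRestrictHom N ∅ (heckeEvalForms N 2 P) = 0
    rw [h, map_zero]

/-- `a₁` as a linear form on the lattice. -/
noncomputable def GRD_a1 : ↥(intLattice N 2) →ₗ[ℤ] ℤ where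
  toFun := S49_intCoeff 1
  map_add' := S49_intCoeff_add 1
  map_smul' z x := by
    rw [S49_intCoeff_zsmul]; rfl

omit [NeZero N] in
theorem GRD_a1_apply (f : ↥(intLattice N 2)) : GRD_a1 N f = S49_intCoeff 1 f := rfl

/-- the pairing `L × T → ℤ`, `(f, t) ↦ a₁(t f)`. -/
noncomputable def GRD_pair : ↥(intLattice N 2) →ₗ[ℤ] (↥(heckeLatticeAlgebra N ∅) →ₗ[ℤ] ℤ) :=
  LinearMap.mk₂ ℤ (fun f t => GRD_a1 N (t.1 f))
    (fun f g t => by simp only [map_add])
    (fun z f t => by simp only [map_smul])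
    (fun f s t => by
      show GRD_a1 N ((s + t).1 f) = _
      rw [show ((s + t : ↥(heckeLatticeAlgebra N ∅)).1) = s.1 + t.1 from rfl,
        LinearMap.add_apply, map_add])
    (fun z f t => by
      show GRD_a1 N ((z • t).1 f) = _
      rw [show ((z • t : ↥(heckeLatticeAlgebra N ∅)).1) = z • t.1 from rfl,
        LinearMap.smul_apply, map_smul])

theorem GRD_pair_apply (f : ↥(intLattice N 2)) (t : ↥(heckeLatticeAlgebra N ∅)) :
    GRD_pair N f t = S49_intCoeff 1 (t.1 f) := rfl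

theorem GRD_pair_rho (f : ↥(intLattice N 2)) (P : HeckeAlg) :
    ((GRD_pair N f (GRD_rho N P) : ℤ) : ℂ)
      = qCoeff (GRD_actC N P (f : CuspForm (Gamma0 N) 2)) 1 := by
  rw [GRD_pair_apply, ← S49_intCoeff_spec, GRD_rho_apply_coe]

theorem GRD_pair_injective : Function.Injective (GRD_pair N) := by
  rw [injective_iff_map_eq_zero]
  intro f hf
  apply Subtype.ext
  apply GRD_eq_zero_of_a1
  intro P
  rw [← GRD_pair_rho, hf]
  simp

theorem GRD_pair_flip_injective : Function.Injective (GRD_pair N).flip := by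
  rw [injective_iff_map_eq_zero]
  intro t ht
  obtain ⟨Q, rfl⟩ := GRD_rho_surjective N t
  apply Subtype.ext
  apply LinearMap.ext
  intro f
  apply Subtype.ext
  rw [GRD_rho_apply_coe]
  apply GRD_eq_zero_of_a1
  intro P
  rw [GRD_actC_comm, ← GRD_rho_apply_coe N P f, ← GRD_pair_rho]
  have := LinearMap.congr_fun ht (((GRD_rho N P : ↥(heckeLatticeAlgebra N ∅)) :
    Module.End ℤ ↥(intLattice N 2)) f)
  rw [LinearMap.flip_apply] at this
  rw [this]
  simp

theorem GRD_finrank_eq :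
    Module.finrank ℤ ↥(heckeLatticeAlgebra N ∅) = Module.finrank ℤ ↥(intLattice N 2) := by
  have := intLattice.moduleFinite N
  have := intLattice.moduleFree N
  apply le_antisymm
  · have := LinearMap.finrank_le_finrank_of_injective (GRD_pair_flip_injective N)
    rwa [Module.finrank_linearMap_self] at this
  · have := LinearMap.finrank_le_finrank_of_injective (GRD_pair_injective N)
    rwa [Module.finrank_linearMap_self] at this

/-- `a₁` as a linear form on `S₂(Γ₀(N))`. -/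
noncomputable def GRD_a1C : CuspForm (Gamma0 N) 2 →ₗ[ℂ] ℂ where
  toFun f := qCoeff f 1
  map_add' f g := S49_qCoeff_add f g 1
  map_smul' c f := by
    rw [S49_qCoeff_smul]; rfl

omit [NeZero N] in
theorem GRD_a1C_apply (f : CuspForm (Gamma0 N) 2) : GRD_a1C N f = qCoeff f 1 := rfl

theorem GRD_a1_act_of_pair (g : ↥(intLattice N 2)) (c : ℤ)
    (ψ : ↥(heckeLatticeAlgebra N ∅) →ₗ[ℤ] ℤ) (h : GRD_pair N g = c • ψ) (P : HeckeAlg) :
    qCoeff (GRD_actC N P (g : CuspForm (Gamma0 N) 2)) 1 = (c : ℂ) * ((ψ (GRD_rho N P) : ℤ) : ℂ) := by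
  rw [← GRD_pair_rho, h, LinearMap.smul_apply, smul_eq_mul]
  push_cast
  rfl

theorem GRD_a1C_sum {ι : Type*} (s : Finset ι) (a : ι → ℂ) (F : ι → CuspForm (Gamma0 N) 2)
    (P : HeckeAlg) :
    qCoeff (GRD_actC N P (∑ i ∈ s, a i • F i)) 1
      = ∑ i ∈ s, a i * qCoeff (GRD_actC N P (F i)) 1 := by
  have h1 : qCoeff (GRD_actC N P (∑ i ∈ s, a i • F i)) 1
      = (GRD_a1C N ∘ₗ GRD_actC N P) (∑ i ∈ s, a i • F i) := rfl
  rw [h1, map_sum]
  refine Finset.sum_congr rfl fun i _ => ?_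
  rw [map_smul, smul_eq_mul]
  rfl

set_option maxHeartbeats 1600000 in
/-- every additive map `𝕋 → ℂ` is `P ↦ a₁(P f)` for a cusp form `f`. -/
theorem GRD_exists_form (φ : ↥(heckeLatticeAlgebra N ∅) →ₗ[ℤ] ℂ) :
    ∃ f : CuspForm (Gamma0 N) 2, ∀ P : HeckeAlg,
      qCoeff (GRD_actC N P f) 1 = φ (GRD_rho N P) := by
  classical
  have := intLattice.moduleFinite N
  have := intLattice.moduleFree N
  set b := Module.Free.chooseBasis ℤ ↥(heckeLatticeAlgebra N ∅) with hb
  have hrk : Module.finrank ℤ (↥(heckeLatticeAlgebra N ∅) →ₗ[ℤ] ℤ)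
      ≤ Module.finrank ℤ ↥(intLattice N 2) := by
    rw [Module.finrank_linearMap_self, GRD_finrank_eq]
  have hex : ∀ i, ∃ c : ℤ, c ≠ 0 ∧ c • b.coord i ∈ LinearMap.range (GRD_pair N) := fun i =>
    Fermat.Agent.S16.S16_exists_smul_mem_range (GRD_pair N) (GRD_pair_injective N) hrk (b.coord i)
  choose c hc0 hc using hex
  choose g hg using hc
  refine ⟨∑ i, (φ (b i) / (c i : ℂ)) • ((g i : ↥(intLattice N 2)) : CuspForm (Gamma0 N) 2),
    fun P => ?_⟩
  rw [GRD_a1C_sum]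
  conv_rhs => rw [← b.sum_repr (GRD_rho N P)]
  rw [map_sum]
  refine Finset.sum_congr rfl fun i _ => ?_
  rw [GRD_a1_act_of_pair N (g i) (c i) (b.coord i) (hg i) P, map_zsmul, zsmul_eq_mul,
    Module.Basis.coord_apply]
  have : (c i : ℂ) ≠ 0 := by exact_mod_cast hc0 i
  field_simp

/-! ### eigenforms -/

/-- the eigenspace of `S₂(Γ₀(N))` for a character of the polynomial Hecke algebra. -/
def GRD_eigenForms (lam : HeckeAlg →+* ℂ) : Submodule ℂ (CuspForm (Gamma0 N) 2) where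
  carrier := {f | ∀ ℓ : Nat.Primes, GRD_actC N (heckeGen ℓ) f = lam (heckeGen ℓ) • f}
  zero_mem' := by intro ℓ; simp
  add_mem' := by
    intro x y hx hy ℓ
    rw [map_add, hx ℓ, hy ℓ, smul_add]
  smul_mem' := by
    intro c x hx ℓ
    rw [map_smul, hx ℓ, smul_comm]

theorem GRD_mem_eigenForms (lam : HeckeAlg →+* ℂ) (f : CuspForm (Gamma0 N) 2) :
    f ∈ GRD_eigenForms N lam ↔
      ∀ ℓ : Nat.Primes, GRD_actC N (heckeGen ℓ) f = lam (heckeGen ℓ) • f := Iff.rfl

theorem GRD_mem_eigenForms_iff (lam : HeckeAlg →+* ℂ) (f : CuspForm (Gamma0 N) 2) :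
    f ∈ GRD_eigenForms N lam ↔ ∀ P : HeckeAlg, GRD_actC N P f = lam P • f := by
  constructor
  · intro h P
    induction P using MvPolynomial.induction_on with
    | C z =>
      rw [GRD_actC_C, show (MvPolynomial.C z : HeckeAlg) = (z : HeckeAlg) from eq_intCast _ z,
        map_intCast]
    | add P Q hP hQ => rw [GRD_actC_add, hP, hQ, map_add, add_smul]
    | mul_X P ℓ hP =>
      rw [GRD_actC_mul, show (MvPolynomial.X ℓ : HeckeAlg) = heckeGen ℓ from rfl, h ℓ, map_smul,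
        hP, map_mul, smul_smul, mul_comm]
  · intro h ℓ
    exact h _

/-- **existence of the eigenform** of a character of the Hecke algebra. -/
theorem GRD_exists_eigenform (lam : HeckeAlg →+* ℂ)
    (hlam : ∀ P : HeckeAlg, heckeEvalForms N 2 P = 0 → lam P = 0) :
    ∃ f : CuspForm (Gamma0 N) 2, f ∈ GRD_eigenForms N lam ∧ qCoeff f 1 = 1 := by
  have hker : RingHom.ker (GRD_rho N) ≤ RingHom.ker lam := by
    intro P hP
    rw [RingHom.mem_ker] at hP ⊢
    exact hlam P ((GRD_rho_eq_zero_iff N P).mp hP)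
  set lam' : ↥(heckeLatticeAlgebra N ∅) →+* ℂ :=
    RingHom.liftOfSurjective (GRD_rho N) (GRD_rho_surjective N) ⟨lam, hker⟩ with hlam'
  have hcomp : ∀ P, lam' (GRD_rho N P) = lam P := fun P =>
    RingHom.liftOfRightInverse_comp_apply (GRD_rho N) _ _ ⟨lam, hker⟩ P
  obtain ⟨f, hf⟩ := GRD_exists_form N lam'.toAddMonoidHom.toIntLinearMap
  have hf' : ∀ P, qCoeff (GRD_actC N P f) 1 = lam P := fun P => by
    rw [hf P]
    exact hcomp P
  refine ⟨f, (GRD_mem_eigenForms_iff N lam f).mpr fun Q => ?_, ?_⟩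
  · rw [← sub_eq_zero]
    apply GRD_eq_zero_of_a1
    intro P
    rw [map_sub, S49_qCoeff_sub, map_smul, S49_qCoeff_smul, ← GRD_actC_mul, hf', hf', map_mul]
    ring
  · have := hf' 1
    rwa [GRD_actC_one, map_one] at this

/-- **multiplicity one**: the eigenspace of a character of the full Hecke algebra is a line. -/
theorem GRD_finrank_eigenForms (lam : HeckeAlg →+* ℂ)
    (hlam : ∀ P : HeckeAlg, heckeEvalForms N 2 P = 0 → lam P = 0) :
    Module.finrank ℂ ↥(GRD_eigenForms N lam) = 1 := by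
  obtain ⟨f₀, hf₀, h1⟩ := GRD_exists_eigenform N lam hlam
  have hne : f₀ ≠ 0 := by
    rintro rfl
    rw [S49_qCoeff_zero_form] at h1
    exact zero_ne_one h1
  have hspan : GRD_eigenForms N lam = Submodule.span ℂ {f₀} := by
    apply le_antisymm
    · intro f hf
      rw [Submodule.mem_span_singleton]
      refine ⟨qCoeff f 1, ?_⟩
      rw [← sub_eq_zero]
      apply GRD_eq_zero_of_a1
      intro P
      have hg : qCoeff f 1 • f₀ - f ∈ GRD_eigenForms N lam :=
        Submodule.sub_mem _ (Submodule.smul_mem _ _ hf₀) hf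
      rw [(GRD_mem_eigenForms_iff N lam _).mp hg P, S49_qCoeff_smul, S49_qCoeff_sub,
        S49_qCoeff_smul, h1]
      ring
    · rw [Submodule.span_le, Set.singleton_subset_iff]
      exact hf₀
  rw [hspan]
  exact finrank_span_singleton hne

end Fermat.Agent.GalRep
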