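import Mathlib
import Fermat.Agent.GalRep.DimIface
import Fermat.Agent.GalRep.DimDual

/-!
# Pillar G, package DIM (helper14): the complex eigenspaces

* `GRD_ec : GRD_ECStmt` : the eigenspace of `Hom_par(Γ₀(N), ℂ)` for a character of the full Hecke
  algebra is 2-dimensional (Eichler–Shimura `S₂ × S₂ ≃ Hom_par` + multiplicity one);
* `GRD_c2_of : GRD_CTStmt → GRD_ECStmt → GRD_C2Stmt`.
-/

set_option autoImplicit false
open scoped TensorProduct
open CuspForm ModularCurve CongruenceSubgroup ModularCurve.Period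

namespace Fermat.Agent.GalRep
open Fermat.Agent.S16

variable (N : ℕ) [NeZero N]

theorem GRD_heckeCoh_esEquiv (r : HeckeAlg) (f g : CuspForm (Gamma0 N) 2) :
    S16_heckeCohHom N r (S16_esEquiv N (f, g))
      = S16_esEquiv N (GRD_actC N r f, GRD_actC N r g) := by
  rw [S16_heckeCohHom_apply, S16_endHom_apply]
  rfl

/-- `p.prod q ≃ p × q`. -/
def GRD_prodEquiv {R M M' : Type*} [Ring R] [AddCommGroup M] [Module R M] [AddCommGroup M']
    [Module R M'] (p : Submodule R M) (q : Submodule R M') : ↥(p.prod q) ≃ₗ[R] ↥p × ↥q where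
  toFun x := (⟨x.1.1, x.2.1⟩, ⟨x.1.2, x.2.2⟩)
  invFun y := ⟨(y.1.1, y.2.1), ⟨y.1.2, y.2.2⟩⟩
  map_add' _ _ := rfl
  map_smul' _ _ := rfl
  left_inv _ := rfl
  right_inv _ := rfl

/-- **EC** -/
theorem GRD_ec : GRD_ECStmt := by
  intro N _ lam hlam
  refine ⟨((GRD_eigenForms N lam).prod (GRD_eigenForms N lam)).map
    (S16_esEquiv N).toLinearMap, ?_, ?_⟩
  · intro φ
    obtain ⟨⟨f, g⟩, rfl⟩ := (S16_esEquiv N).surjective φ
    rw [Submodule.mem_map]
    constructor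
    · rintro ⟨⟨f', g'⟩, hfg, h⟩
      have h' := (S16_esEquiv N).injective h
      rw [Prod.mk.injEq] at h'
      obtain ⟨rfl, rfl⟩ := h'
      rw [Submodule.mem_prod] at hfg
      intro ℓ
      rw [GRD_heckeCoh_esEquiv, (GRD_mem_eigenForms N lam _).mp hfg.1 ℓ,
        (GRD_mem_eigenForms N lam _).mp hfg.2 ℓ, ← Prod.smul_mk, map_smul]
    · intro h
      refine ⟨(f, g), ?_, rfl⟩
      rw [Submodule.mem_prod]
      have h2 : ∀ ℓ : Nat.Primes, (GRD_actC N (heckeGen ℓ) f, GRD_actC N (heckeGen ℓ) g)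
          = (lam (heckeGen ℓ) • f, lam (heckeGen ℓ) • g) := by
        intro ℓ
        apply (S16_esEquiv N).injective
        rw [← GRD_heckeCoh_esEquiv, h ℓ, ← Prod.smul_mk, map_smul]
      constructor
      · intro ℓ
        exact (Prod.mk.injEq _ _ _ _ ▸ h2 ℓ).1
      · intro ℓ
        exact (Prod.mk.injEq _ _ _ _ ▸ h2 ℓ).2
  · have h1 := GRD_finrank_eigenForms N lam hlam
    have e : ↥((GRD_eigenForms N lam).prod (GRD_eigenForms N lam)) ≃ₗ[ℂ]
        ↥(((GRD_eigenForms N lam).prod (GRD_eigenForms N lam)).map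
          (S16_esEquiv N).toLinearMap) :=
      (S16_esEquiv N).submoduleMap _
    have hfin : Module.Finite ℂ ↥(GRD_eigenForms N lam) :=
      Module.finite_of_finrank_pos (by rw [h1]; exact one_pos)
    rw [← e.finrank_eq,
      (GRD_prodEquiv (GRD_eigenForms N lam) (GRD_eigenForms N lam)).finrank_eq,
      Module.finrank_prod, h1]

theorem GRD_hT_prime {ℓ : ℕ} (h : ℓ.Prime) :
    GR_hT N ℓ = GRD_heckeL N (heckeGen ⟨ℓ, h⟩) := by
  unfold GR_hT
  rw [dif_pos h]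

theorem GRD_eig_prime' {K : Type} [CommRing K] (lam : HeckeAlg →+* K) {ℓ : ℕ} (h : ℓ.Prime) :
    GRD_eig lam ℓ = lam (heckeGen ⟨ℓ, h⟩) := by
  unfold GRD_eig
  rw [dif_pos h]

/-- **C2** from CT and EC. -/
theorem GRD_c2_of (hCT : GRD_CTStmt) (hEC : GRD_ECStmt) : GRD_C2Stmt := by
  intro N _ lam hlam
  obtain ⟨Ψ, -, hΨ⟩ := hCT N
  obtain ⟨W, hW, hfin⟩ := hEC N lam hlam
  have hEq : GR_eigen ℂ ↥(parInt N) (GR_hT N) (GRD_eig lam) = W.comap Ψ.toLinearMap := by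
    ext x
    rw [Submodule.mem_comap, LinearEquiv.coe_coe, hW]
    constructor
    · intro hx ℓ
      have h1 := hx ℓ.1 ℓ.2
      rw [GRD_hT_prime N ℓ.2, GRD_eig_prime' lam ℓ.2] at h1
      have h1' : (GRD_heckeL N (heckeGen ℓ)).baseChange ℂ x = lam (heckeGen ℓ) • x := h1
      rw [← hΨ, h1', map_smul]
    · intro hx ℓ hℓ
      rw [GRD_hT_prime N hℓ, GRD_eig_prime' lam hℓ]
      apply Ψ.injective
      rw [hΨ, hx ⟨ℓ, hℓ⟩, map_smul]
  rw [hEq, (LinearEquiv.ofSubmodule' Ψ W).finrank_eq, hfin]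

/-- the complex eigenspace of `ℂ ⊗ parInt N` is 2-dimensional, given CT. -/
theorem GRD_c2_of_ct (hCT : GRD_CTStmt) : GRD_C2Stmt := GRD_c2_of hCT GRD_ec

end Fermat.Agent.GalRep
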