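import Mathlib
import Fermat.Prelude.Def_CuspForm_HeckeAlgebra
import Fermat.Agent.S22.Main
import Fermat.Agent.GalRep.DimIface

/-!
# Pillar G (GALREP), package DIM, piece D6: extension of characters

* `GRD6_exists_lift` (pure algebra): `A → B` injective and integral, `B` a finitely generated
  `ℤ`-module, `χ : A →+* K'` into a field.  Then there are a finite extension `K''/K'` and
  `χ' : B →+* K''` extending `χ` (lying-over + `IsAlgClosed.lift`).
* `GRD6_extend`: the same for `heckeAlgebra N 2 S ≤ heckeAlgebra N 2 S₀` (`S₀ ⊆ S`), with values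
  integral over `ℤ`.
-/

set_option autoImplicit false

open IntermediateField

namespace Fermat.Agent.GalRep

section algebra

/-- **D6, pure algebra**: extension of a character along an injective integral ring extension
with finitely generated underlying group. -/
theorem GRD6_exists_lift {A B K' : Type} [CommRing A] [CommRing B] [Field K']
    (ι : A →+* B) (hι : Function.Injective ι) (hint : ι.IsIntegral) [Module.Finite ℤ B]
    (χ : A →+* K') :
    ∃ (K'' : Type) (_ : Field K'') (_ : Algebra K' K'') (_ : FiniteDimensional K' K'')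
      (χ' : B →+* K''), ∀ a, χ' (ι a) = algebraMap K' K'' (χ a) := by
  classical
  let _ : Algebra A B := ι.toAlgebra
  have : Algebra.IsIntegral A B := ⟨hint⟩
  have hprime : (RingHom.ker χ).IsPrime := RingHom.ker_isPrime χ
  -- lying over
  have hker : (⊥ : Ideal B).comap (algebraMap A B) ≤ RingHom.ker χ := by
    intro a ha
    rw [Ideal.mem_comap, Ideal.mem_bot] at ha
    have : a = 0 := hι (by rw [map_zero]; exact ha)
    rw [this]
    exact (RingHom.ker χ).zero_mem
  obtain ⟨Q, -, hQprime, hQP⟩ :=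
    Ideal.exists_ideal_over_prime_of_isIntegral (RingHom.ker χ) (⊥ : Ideal B) hker
  -- the map `B → Ω`
  let Ω := AlgebraicClosure K'
  let χΩ : A →+* Ω := (algebraMap K' Ω).comp χ
  have hkerΩ : RingHom.ker χΩ = RingHom.ker χ := by
    ext a
    simp only [RingHom.mem_ker, χΩ, RingHom.comp_apply]
    exact map_eq_zero_iff _ (algebraMap K' Ω).injective
  -- the quotient rings
  let R := A ⧸ RingHom.ker χ
  let S' := B ⧸ Q
  let j : R →+* S' := Ideal.quotientMap Q (algebraMap A B) (le_of_eq hQP.symm)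
  have hj : Function.Injective j := Ideal.quotientMap_injective' (le_of_eq hQP)
  let g : R →+* Ω := Ideal.Quotient.lift (RingHom.ker χ) χΩ (fun a ha => by
    have : a ∈ RingHom.ker χΩ := by rw [hkerΩ]; exact ha
    exact this)
  have hg : Function.Injective g := by
    rw [injective_iff_map_eq_zero]
    intro x hx
    obtain ⟨a, rfl⟩ := Ideal.Quotient.mk_surjective x
    rw [Ideal.Quotient.eq_zero_iff_mem]
    have : χΩ a = 0 := hx
    rw [← hkerΩ]
    exact this
  let _ : Algebra R S' := j.toAlgebra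
  let _ : Algebra R Ω := g.toAlgebra
  have : IsDomain S' := Ideal.Quotient.isDomain Q
  have : IsDomain R := hg.isDomain g
  have : Module.IsTorsionFree R S' := Module.isTorsionFree_iff_algebraMap_injective.mpr hj
  have : Module.IsTorsionFree R Ω := Module.isTorsionFree_iff_algebraMap_injective.mpr hg
  have : Algebra.IsIntegral R S' := by
    refine ⟨fun x => ?_⟩
    obtain ⟨b, rfl⟩ := Ideal.Quotient.mk_surjective x
    obtain ⟨p, hp, hpb⟩ := hint b
    refine ⟨p.map (Ideal.Quotient.mk (RingHom.ker χ)), hp.map _, ?_⟩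
    rw [Polynomial.eval₂_map]
    have hcomp : (algebraMap R S').comp (Ideal.Quotient.mk (RingHom.ker χ)) =
        (Ideal.Quotient.mk Q).comp ι := by
      ext a
      rfl
    rw [hcomp, ← Polynomial.hom_eval₂, hpb, map_zero]
  let f : S' →ₐ[R] Ω := IsAlgClosed.lift
  let χ₀ : B →+* Ω := (f : S' →+* Ω).comp (Ideal.Quotient.mk Q)
  have hχ₀ : ∀ a, χ₀ (ι a) = algebraMap K' Ω (χ a) := by
    intro a
    have h1 : χ₀ (ι a) = f (algebraMap R S' (Ideal.Quotient.mk (RingHom.ker χ) a)) := rfl
    rw [h1, f.commutes]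
    rfl
  -- the finite extension
  obtain ⟨s, hs⟩ := (Module.Finite.fg_top : (⊤ : Submodule ℤ B).FG)
  let K'' : IntermediateField K' Ω := IntermediateField.adjoin K' (χ₀ '' (s : Set B))
  have hfin : FiniteDimensional K' K'' := by
    apply IntermediateField.finiteDimensional_adjoin
    intro x _
    exact (Algebra.IsAlgebraic.isAlgebraic x).isIntegral
  have hmem : ∀ b : B, χ₀ b ∈ K'' := by
    intro b
    have hb : b ∈ Submodule.span ℤ (s : Set B) := by rw [hs]; exact Submodule.mem_top
    induction hb using Submodule.span_induction with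
    | mem x hx => exact IntermediateField.subset_adjoin K' _ ⟨x, hx, rfl⟩
    | zero => rw [map_zero]; exact K''.zero_mem
    | add x y _ _ hx hy => rw [map_add]; exact K''.add_mem hx hy
    | smul n x _ hx =>
      rw [zsmul_eq_mul, map_mul, map_intCast]
      exact K''.mul_mem (intCast_mem K'' n) hx
  refine ⟨K'', inferInstance, inferInstance, hfin, χ₀.codRestrict K''.toSubfield hmem, ?_⟩
  intro a
  apply Subtype.ext
  exact hχ₀ a

end algebra

section hecke

open CuspForm

/-- **D6**: a character of the Hecke algebra away from `S` extends, over a finite extension, to a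
character of the Hecke algebra away from `S₀ ⊆ S`; its values are integral over `ℤ`. -/
theorem GRD6_extend_of_subset (N : ℕ) [NeZero N] {S₀ S : Set ℕ} (h : S₀ ⊆ S) (K' : Type) [Field K']
    (χ : heckeAlgebra N 2 S →+* K') :
    ∃ (K'' : Type) (_ : Field K'') (_ : Algebra K' K'') (_ : FiniteDimensional K' K'')
      (χ' : heckeAlgebra N 2 S₀ →+* K''),
      (∀ t : heckeAlgebra N 2 S,
        χ' (Subalgebra.inclusion (heckeAlgebra_mono (N := N) (k := 2) h) t) =
          algebraMap K' K'' (χ t)) ∧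
      ∀ t, IsIntegral ℤ (χ' t) := by
  have hfin : Module.Finite ℤ (heckeAlgebra N 2 S₀) :=
    Fermat.Agent.S22.moduleFinite_heckeAlgebra N 2 S₀
  have hintZ : ∀ t : heckeAlgebra N 2 S₀, IsIntegral ℤ t := fun t => IsIntegral.of_finite ℤ t
  let ι : heckeAlgebra N 2 S →+* heckeAlgebra N 2 S₀ :=
    (Subalgebra.inclusion (heckeAlgebra_mono (N := N) (k := 2) h)).toRingHom
  have hι : Function.Injective ι := Subalgebra.inclusion_injective _
  have hint : ι.IsIntegral := by
    intro t
    obtain ⟨p, hp, hpt⟩ := hintZ t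
    refine ⟨p.map (Int.castRingHom _), hp.map _, ?_⟩
    rw [Polynomial.eval₂_map]
    have hcomp : ι.comp (Int.castRingHom (heckeAlgebra N 2 S)) =
        algebraMap ℤ (heckeAlgebra N 2 S₀) := RingHom.ext_int _ _
    rw [hcomp]
    exact hpt
  obtain ⟨K'', hF, hA, hfd, χ', hχ'⟩ := GRD6_exists_lift ι hι hint χ
  refine ⟨K'', hF, hA, hfd, χ', fun t => hχ' t, fun t => ?_⟩
  obtain ⟨p, hp, hpt⟩ := hintZ t
  refine ⟨p, hp, ?_⟩
  have hcomp : χ'.comp (algebraMap ℤ (heckeAlgebra N 2 S₀)) = algebraMap ℤ K'' :=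
    RingHom.ext_int _ _
  rw [← hcomp, ← Polynomial.hom_eval₂, hpt, map_zero]

/-- **D6**, the form used by `GR_DimStmt`: extension to the full Hecke algebra
`heckeAlgebra N 2 ∅`, compatible on the operators `T_ℓ` (`ℓ ∤ N`, `ℓ ∉ S`). -/
theorem GRD6_extend (N : ℕ) [NeZero N] (S : Set ℕ) (K' : Type) [Field K']
    (χ : heckeAlgebra N 2 S →+* K') :
    ∃ (K'' : Type) (_ : Field K'') (_ : Algebra K' K'') (_ : FiniteDimensional K' K'')
      (χ' : heckeAlgebra N 2 (∅ : Set ℕ) →+* K''),
      (∀ (ℓ : ℕ) (hℓ : ℓ.Prime) (hℓN : ¬ ℓ ∣ N) (hℓS : ℓ ∉ S),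
        χ' (heckeAlgebra.T hℓ hℓN (Set.notMem_empty ℓ)) =
          algebraMap K' K'' (χ (heckeAlgebra.T hℓ hℓN hℓS))) ∧
      (∀ (q : ℕ) (hq : q.Prime) (hqN : q ∣ N) (hqS : q ∉ S),
        χ' (heckeAlgebra.U hq hqN (Set.notMem_empty q)) =
          algebraMap K' K'' (χ (heckeAlgebra.U hq hqN hqS))) ∧
      ∀ t, IsIntegral ℤ (χ' t) := by
  obtain ⟨K'', hF, hA, hfd, χ', hχ', hint⟩ :=
    GRD6_extend_of_subset N (Set.empty_subset S) K' χ
  refine ⟨K'', hF, hA, hfd, χ', fun ℓ hℓ hℓN hℓS => ?_, fun q hq hqN hqS => ?_, hint⟩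
  · rw [← hχ']
    rfl
  · rw [← hχ']
    rfl

/-- **D6** in the packaged form of `GalRep/DimIface.lean`. -/
theorem GRD6_ext : GRD_ExtStmt := by
  intro N _ S K' _ _ χ
  obtain ⟨K'', hF, hA, hfd, χ', hχ', hint⟩ :=
    GRD6_extend_of_subset N (Set.empty_subset (↑S : Set ℕ)) K' χ
  exact ⟨K'', hF, hA, hfd, χ', hint, fun t => hχ' t⟩

end hecke

end Fermat.Agent.GalRep
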