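import Mathlib
import Fermat.Agent.GalRep.DimIface
import Fermat.Agent.GalRep.DimEC
import Fermat.Agent.GalRep.DimCT
import Fermat.Agent.GalRep.DimExt
import Fermat.Agent.GalRep.DimAsm

/-!
# Pillar G, package DIM: final assembly

`GRD_dim : GR_DimStmt` (D4 + D6 of `NOTES/items/29_plan.md`), from
* `GRD6_extend_of_subset` (helper6, extension of the character),
* `GRDC_ct` (helper13, `ℂ ⊗ parInt N ≃ Hom_par(Γ₀(N), ℂ)`),
* `GRD_ec` (helper14, multiplicity one + Eichler–Shimura),
* `GRD_dim_of` (helper1, descent to algebraic numbers + field extension invariance).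
-/

set_option autoImplicit false
open CuspForm

namespace Fermat.Agent.GalRep

/-- **D6** in the shape of `GRD_ExtStmt`. -/
theorem GRD_ext : GRD_ExtStmt := by
  intro N _ S K' _ _ χ
  obtain ⟨K'', hF, hA, hfd, χ', hχ', hint⟩ :=
    GRD6_extend_of_subset N (Set.empty_subset (↑S : Set ℕ)) K' χ
  exact ⟨K'', hF, hA, hfd, χ', hint, fun t => hχ' t⟩

/-- **C2**: the complex eigenspace of `ℂ ⊗ parInt N` is 2-dimensional. -/
theorem GRD_c2 : GRD_C2Stmt := GRD_c2_of GRDC_ct GRD_ec

/-- **DIM**. -/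
theorem GRD_dim : GR_DimStmt := GRD_dim_of GRD_ext GRD_c2

end Fermat.Agent.GalRep
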