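import Mathlib

/-!
# Pillar G, package W1 (helper15), part 2: pure algebra

* `GRW_isAlgClosed_quot` : the residue field of `ℤ̄ = integralClosure ℤ ℂ` at a maximal ideal is
  algebraically closed;
* `GRW_exists_embedding` : a finite field `k''` receiving `A/I` embeds, compatibly, into any field
  `k` that receives `A/I` through an algebraically closed field;
* `GRW_exists_numberField` : a ring hom from a finite `ℤ`-algebra to `ℂ` factors through the ring
  of integers of a number field.
-/

set_option autoImplicit false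

namespace Fermat.Agent.GalRep

open Polynomial

/-- the residue fields of `ℤ̄` are algebraically closed. -/
theorem GRW_isAlgClosed_quot (I : Ideal (integralClosure ℤ ℂ)) [hI : I.IsMaximal] :
    @IsAlgClosed (integralClosure ℤ ℂ ⧸ I) (Ideal.Quotient.field I) := by
  let _ : Field (integralClosure ℤ ℂ ⧸ I) := Ideal.Quotient.field I
  apply IsAlgClosed.of_exists_root
  intro f hf hirr
  have hsurj : Function.Surjective (Ideal.Quotient.mk I) := Ideal.Quotient.mk_surjective
  have hmem : f ∈ Polynomial.lifts (Ideal.Quotient.mk I) := by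
    rw [Polynomial.lifts_iff_coeff_lifts]
    intro n
    exact Set.mem_range.2 (hsurj _)
  obtain ⟨F, hFmap, hFdeg, hFmonic⟩ := Polynomial.lifts_and_natDegree_eq_and_monic hmem hf
  have hdeg : 0 < F.natDegree := by
    rw [hFdeg]
    exact hirr.natDegree_pos
  -- a root in `ℂ`
  set G : ℂ[X] := F.map (algebraMap (integralClosure ℤ ℂ) ℂ) with hG
  have hGmonic : G.Monic := hFmonic.map _
  have hGnat : G.natDegree = F.natDegree := hFmonic.natDegree_map _
  have hGdeg : G.degree ≠ 0 := by
    rw [Polynomial.degree_eq_natDegree hGmonic.ne_zero, hGnat]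
    exact_mod_cast hdeg.ne'
  obtain ⟨z, hz⟩ := IsAlgClosed.exists_root G hGdeg
  have hzint : IsIntegral (integralClosure ℤ ℂ) z := by
    refine ⟨F, hFmonic, ?_⟩
    rw [← Polynomial.eval_map]
    exact hz
  have hzZ : IsIntegral ℤ z := isIntegral_trans z hzint
  set z' : integralClosure ℤ ℂ := ⟨z, hzZ⟩ with hz'
  have hroot : F.eval z' = 0 := by
    have hinj : Function.Injective (algebraMap (integralClosure ℤ ℂ) ℂ) := Subtype.val_injective
    apply hinj
    rw [map_zero, ← Polynomial.eval₂_at_apply, ← Polynomial.eval_map]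
    exact hz
  refine ⟨Ideal.Quotient.mk I z', ?_⟩
  rw [← hFmap, Polynomial.eval_map, Polynomial.eval₂_at_apply, hroot, map_zero]

/-- compatible embedding of a finite residue field. -/
theorem GRW_exists_embedding {A Q k'' k : Type} [CommRing A] [Field Q] [IsAlgClosed Q]
    [Field k''] [Finite k''] [Field k]
    (θ : A →+* k'') (φQ : A →+* Q) (ιQ : Q →+* k) (I : Ideal A) [hI : I.IsMaximal]
    (hθ : RingHom.ker θ = I) (hφ : RingHom.ker φQ = I) :
    ∃ ψ : k'' →+* k, ∀ a, ψ (θ a) = ιQ (φQ a) := by
  let _ : Field (A ⧸ I) := Ideal.Quotient.field I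
  let f1 : A ⧸ I →+* k'' := Ideal.Quotient.lift I θ (fun a ha => by
    rw [← hθ] at ha; exact ha)
  let f2 : A ⧸ I →+* Q := Ideal.Quotient.lift I φQ (fun a ha => by
    rw [← hφ] at ha; exact ha)
  let _ : Algebra (A ⧸ I) k'' := f1.toAlgebra
  let _ : Algebra (A ⧸ I) Q := f2.toAlgebra
  have : Module.Finite (A ⧸ I) k'' := Module.Finite.of_finite
  have : Algebra.IsAlgebraic (A ⧸ I) k'' := Algebra.IsAlgebraic.of_finite _ _
  let g : k'' →ₐ[A ⧸ I] Q := IsAlgClosed.lift
  refine ⟨ιQ.comp g.toRingHom, fun a => ?_⟩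
  have h1 : θ a = algebraMap (A ⧸ I) k'' (Ideal.Quotient.mk I a) := by
    exact (Ideal.Quotient.lift_mk I θ _).symm
  have h2 : φQ a = algebraMap (A ⧸ I) Q (Ideal.Quotient.mk I a) := by
    exact (Ideal.Quotient.lift_mk I φQ _).symm
  rw [h1, h2, RingHom.comp_apply]
  congr 1
  exact g.commutes _

/-- a ring hom from a finite `ℤ`-algebra to `ℂ` factors through the ring of integers of a
number field. -/
theorem GRW_exists_numberField {𝕋 : Type} [CommRing 𝕋] [Module.Finite ℤ 𝕋] (χ₀ : 𝕋 →+* ℂ) :
    ∃ (E : Type) (_ : Field E) (_ : NumberField E) (e : E →+* ℂ)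
      (χ₁ : 𝕋 →+* NumberField.RingOfIntegers E),
      ∀ T, e (algebraMap (NumberField.RingOfIntegers E) E (χ₁ T)) = χ₀ T := by
  classical
  obtain ⟨s, hs⟩ := (Module.Finite.fg_top : (⊤ : Submodule ℤ 𝕋).FG)
  set St : Set ℂ := χ₀ '' (s : Set 𝕋) with hSt
  have hfin : St.Finite := (Finset.finite_toSet s).image _
  have hint : ∀ T : 𝕋, IsIntegral ℤ (χ₀ T) := fun T =>
    (Algebra.IsIntegral.isIntegral T).map χ₀.toIntAlgHom
  have hintQ : ∀ x ∈ St, IsIntegral ℚ x := by
    rintro _ ⟨T, -, rfl⟩
    exact (hint T).tower_top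
  have : Finite St := hfin.to_subtype
  have hfd : FiniteDimensional ℚ (IntermediateField.adjoin ℚ St) :=
    IntermediateField.finiteDimensional_adjoin hintQ
  have hnf : NumberField (IntermediateField.adjoin ℚ St) := { }
  have hmem : ∀ T, χ₀ T ∈ IntermediateField.adjoin ℚ St := by
    intro T
    have hT : T ∈ Submodule.span ℤ (s : Set 𝕋) := by rw [hs]; trivial
    induction hT using Submodule.span_induction with
    | mem x hx => exact IntermediateField.subset_adjoin ℚ St ⟨x, hx, rfl⟩
    | zero => rw [map_zero]; exact zero_mem _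
    | add x y _ _ hx hy => rw [map_add]; exact add_mem hx hy
    | smul n x _ hx =>
      rw [zsmul_eq_mul, map_mul, map_intCast]
      exact mul_mem (intCast_mem _ n) hx
  let f : 𝕋 →+* (IntermediateField.adjoin ℚ St) :=
    χ₀.codRestrict (IntermediateField.adjoin ℚ St) hmem
  let _ : Algebra 𝕋 (IntermediateField.adjoin ℚ St) := f.toAlgebra
  let χ₁ : 𝕋 →ₐ[ℤ] NumberField.RingOfIntegers (IntermediateField.adjoin ℚ St) :=
    IsIntegralClosure.lift ℤ (NumberField.RingOfIntegers (IntermediateField.adjoin ℚ St))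
      (IntermediateField.adjoin ℚ St)
  refine ⟨IntermediateField.adjoin ℚ St, inferInstance, hnf,
    algebraMap (IntermediateField.adjoin ℚ St) ℂ, χ₁.toRingHom, fun T => ?_⟩
  have h1 : algebraMap (NumberField.RingOfIntegers (IntermediateField.adjoin ℚ St))
      (IntermediateField.adjoin ℚ St) (χ₁ T) = f T :=
    IsIntegralClosure.algebraMap_lift ℤ
      (NumberField.RingOfIntegers (IntermediateField.adjoin ℚ St))
      (IntermediateField.adjoin ℚ St) T
  change algebraMap (IntermediateField.adjoin ℚ St) ℂ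
    (algebraMap (NumberField.RingOfIntegers (IntermediateField.adjoin ℚ St))
      (IntermediateField.adjoin ℚ St) (χ₁ T)) = χ₀ T
  rw [h1]
  rfl

end Fermat.Agent.GalRep
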