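import Mathlib
import Fermat.Prelude.Def_CuspForm_HeckeAlgebra
import Fermat.Agent.S49.QCoeff
import Fermat.Agent.S22.Main

/-!
# Pillar G, package W1 (helper15), part 1: the eigencharacter of a normalised eigenform

For a normalised eigenform `g` (Prelude sense: relations between `q`-coefficients) on `Γ₀(N)`:

* `GRW_coeff_rel`     : `a_{nℓ} + [ℓ ∣ n] ℓ a_{n/ℓ} = a_ℓ a_n` for `ℓ ∤ N`;
* `GRW_heckeT_eigen`  : `T_ℓ g = a_ℓ • g` for `ℓ ∤ N`;
* `GRW_eigenChar`     : the ring hom `𝕋 → ℂ`, `T ↦ a₁(T g)`, on the Hecke algebra away from `S`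
  (`S` containing the primes of `N`), with `T g = χ(T) • g`, `χ(T_ℓ) = a_ℓ` and integral values.
-/

set_option autoImplicit false

namespace Fermat.Agent.GalRep

open CuspForm ModularFormClass CongruenceSubgroup Fermat.Agent.S49

variable {N : ℕ}

theorem GRW_coeff_rel {g : CuspForm (Gamma0 N) 2} (hg : g.IsNormalizedEigenform) {ℓ : ℕ}
    (hℓ : ℓ.Prime) (hℓN : ¬ ℓ ∣ N) (n : ℕ) :
    qCoeff g (n * ℓ) + (if ℓ ∣ n then (ℓ : ℂ) * qCoeff g (n / ℓ) else 0)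
      = qCoeff g ℓ * qCoeff g n := by
  rcases Nat.eq_zero_or_pos n with rfl | hn
  · simp [S49_qCoeff_zero]
  obtain ⟨r, m, hm, rfl⟩ := Nat.exists_eq_pow_mul_and_not_dvd hn.ne' ℓ hℓ.ne_one
  have hcop : ∀ j : ℕ, (ℓ ^ j).Coprime m := fun j =>
    Nat.Coprime.pow_left j ((Nat.Prime.coprime_iff_not_dvd hℓ).2 hm)
  cases r with
  | zero =>
    have hnd : ¬ ℓ ∣ ℓ ^ 0 * m := by simpa using hm
    rw [if_neg hnd, add_zero]
    have h1 : ℓ ^ 0 * m * ℓ = ℓ * m := by ring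
    have h2 : ℓ ^ 0 * m = m := by ring
    rw [h1, h2, hg.qCoeff_mul_of_coprime ℓ m (by simpa using hcop 1)]
  | succ r =>
    have hd : ℓ ∣ ℓ ^ (r + 1) * m := Dvd.dvd.mul_right (dvd_pow_self ℓ (Nat.succ_ne_zero r)) m
    rw [if_pos hd]
    have h1 : ℓ ^ (r + 1) * m * ℓ = ℓ ^ (r + 2) * m := by ring
    have h2 : ℓ ^ (r + 1) * m / ℓ = ℓ ^ r * m := by
      have : ℓ ^ (r + 1) * m = ℓ * (ℓ ^ r * m) := by ring
      rw [this, Nat.mul_div_cancel_left _ hℓ.pos]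
    rw [h1, h2, hg.qCoeff_mul_of_coprime _ _ (hcop (r + 2)),
      hg.qCoeff_mul_of_coprime _ _ (hcop r), hg.qCoeff_mul_of_coprime _ _ (hcop (r + 1)),
      hg.qCoeff_prime_pow_of_not_dvd ℓ r hℓ hℓN]
    ring

theorem GRW_heckeT_eigen {g : CuspForm (Gamma0 N) 2} (hg : g.IsNormalizedEigenform) {ℓ : ℕ}
    (hℓ : ℓ.Prime) (hℓN : ¬ ℓ ∣ N) :
    CuspForm.heckeTLin 2 hℓ hℓN g = qCoeff g ℓ • g := by
  have h0 : CuspForm.heckeTLin 2 hℓ hℓN g + (-(qCoeff g ℓ)) • g = 0 := by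
    apply S49_eq_zero_of_qCoeff
    intro n
    rw [S49_qCoeff_add, S49_qCoeff_smul, S49_qCoeff_heckeTLin, GRW_coeff_rel hg hℓ hℓN n]
    ring
  rw [neg_smul] at h0
  exact eq_of_sub_eq_zero (by rw [sub_eq_add_neg]; exact h0)

section char

variable [NeZero N] {S : Set ℕ}

/-- every element of the Hecke algebra away from `S ⊇ primes(N)` has `g` as an eigenvector. -/
theorem GRW_exists_eigen {g : CuspForm (Gamma0 N) 2} (hg : g.IsNormalizedEigenform)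
    (hNS : ∀ q : ℕ, q.Prime → q ∣ N → q ∈ S)
    (T : Module.End ℂ (CuspForm (Gamma0 N) 2)) (hT : T ∈ CuspForm.heckeAlgebra N 2 S) :
    ∃ c : ℂ, T g = c • g := by
  unfold CuspForm.heckeAlgebra at hT
  induction hT using Algebra.adjoin_induction with
  | mem T hT =>
    rcases hT with ⟨ℓ, hℓ, hℓN, -, rfl⟩ | ⟨q, hqN, hq, hqS, rfl⟩
    · exact ⟨_, GRW_heckeT_eigen hg hℓ hℓN⟩
    · exact absurd (hNS q hq hqN) hqS
  | algebraMap r =>
    refine ⟨(r : ℂ), ?_⟩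
    rw [Algebra.algebraMap_eq_smul_one, LinearMap.smul_apply, Module.End.one_apply]
    exact (Int.cast_smul_eq_zsmul ℂ r g).symm
  | add T T' _ _ hT hT' =>
    obtain ⟨c, hc⟩ := hT
    obtain ⟨c', hc'⟩ := hT'
    exact ⟨c + c', by rw [LinearMap.add_apply, hc, hc', add_smul]⟩
  | mul T T' _ _ hT hT' =>
    obtain ⟨c, hc⟩ := hT
    obtain ⟨c', hc'⟩ := hT'
    exact ⟨c' * c, by rw [Module.End.mul_apply, hc', map_smul, hc, smul_smul]⟩

omit [NeZero N] in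
theorem GRW_qCoeff_one_smul {g : CuspForm (Gamma0 N) 2} (hg : g.IsNormalizedEigenform) (c : ℂ) :
    qCoeff (⇑(c • g)) 1 = c := by
  rw [S49_qCoeff_smul, hg.qCoeff_one, mul_one]

/-- the eigencharacter `T ↦ a₁(T g)`. -/
noncomputable def GRW_eigenChar {g : CuspForm (Gamma0 N) 2} (hg : g.IsNormalizedEigenform)
    (hNS : ∀ q : ℕ, q.Prime → q ∣ N → q ∈ S) : CuspForm.heckeAlgebra N 2 S →+* ℂ where
  toFun T := qCoeff (⇑((T : Module.End ℂ (CuspForm (Gamma0 N) 2)) g)) 1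
  map_one' := by
    change qCoeff (⇑((1 : Module.End ℂ (CuspForm (Gamma0 N) 2)) g)) 1 = 1
    rw [Module.End.one_apply, hg.qCoeff_one]
  map_mul' T T' := by
    obtain ⟨c, hc⟩ := GRW_exists_eigen hg hNS T T.2
    obtain ⟨c', hc'⟩ := GRW_exists_eigen hg hNS T' T'.2
    change qCoeff (⇑((((T : Module.End ℂ (CuspForm (Gamma0 N) 2)) *
      (T' : Module.End ℂ (CuspForm (Gamma0 N) 2)))) g)) 1 = _
    rw [Module.End.mul_apply, hc', map_smul, hc, smul_smul, GRW_qCoeff_one_smul hg,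
      GRW_qCoeff_one_smul hg, GRW_qCoeff_one_smul hg, mul_comm]
  map_zero' := by
    change qCoeff (⇑((0 : Module.End ℂ (CuspForm (Gamma0 N) 2)) g)) 1 = 0
    rw [LinearMap.zero_apply]
    have := S49_qCoeff_smul (N := N) 0 g 1
    rw [zero_smul, zero_mul] at this
    exact this
  map_add' T T' := by
    change qCoeff (⇑((((T : Module.End ℂ (CuspForm (Gamma0 N) 2)) +
      (T' : Module.End ℂ (CuspForm (Gamma0 N) 2)))) g)) 1 = _
    rw [LinearMap.add_apply, S49_qCoeff_add]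

theorem GRW_eigenChar_spec {g : CuspForm (Gamma0 N) 2} (hg : g.IsNormalizedEigenform)
    (hNS : ∀ q : ℕ, q.Prime → q ∣ N → q ∈ S) (T : CuspForm.heckeAlgebra N 2 S) :
    (T : Module.End ℂ (CuspForm (Gamma0 N) 2)) g = GRW_eigenChar hg hNS T • g := by
  obtain ⟨c, hc⟩ := GRW_exists_eigen hg hNS T T.2
  have : GRW_eigenChar hg hNS T = c := by
    change qCoeff (⇑((T : Module.End ℂ (CuspForm (Gamma0 N) 2)) g)) 1 = c
    rw [hc, GRW_qCoeff_one_smul hg]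
  rw [this, hc]

theorem GRW_eigenChar_T {g : CuspForm (Gamma0 N) 2} (hg : g.IsNormalizedEigenform)
    (hNS : ∀ q : ℕ, q.Prime → q ∣ N → q ∈ S) {ℓ : ℕ} (hℓ : ℓ.Prime) (hℓN : ¬ ℓ ∣ N)
    (hℓS : ℓ ∉ S) :
    GRW_eigenChar hg hNS (CuspForm.heckeAlgebra.T hℓ hℓN hℓS) = qCoeff g ℓ := by
  change qCoeff (⇑(CuspForm.heckeTLin 2 hℓ hℓN g)) 1 = qCoeff g ℓ
  rw [GRW_heckeT_eigen hg hℓ hℓN, GRW_qCoeff_one_smul hg]

theorem GRW_eigenChar_integral {g : CuspForm (Gamma0 N) 2} (hg : g.IsNormalizedEigenform)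
    (hNS : ∀ q : ℕ, q.Prime → q ∣ N → q ∈ S) (T : CuspForm.heckeAlgebra N 2 S) :
    IsIntegral ℤ (GRW_eigenChar hg hNS T) := by
  have : Module.Finite ℤ (CuspForm.heckeAlgebra N 2 S) :=
    Fermat.Agent.S22.moduleFinite_heckeAlgebra N 2 S
  have hT : IsIntegral ℤ T := Algebra.IsIntegral.isIntegral T
  exact hT.map (GRW_eigenChar hg hNS).toIntAlgHom

end char

end Fermat.Agent.GalRep
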