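import Mathlib
import Fermat.Agent.GalRep.Iface
import Fermat.Agent.GalRep.W1Eigen
import Fermat.Agent.GalRep.W1Alg
import Fermat.Agent.GalRep.CoefA

/-!
# Pillar G, package W1 (helper15): S29 from S30

`GRW_S29_of : GR_S30Stmt → GR_CoefAStmt → GR_S29Stmt`.
-/

set_option autoImplicit false

namespace Fermat.Agent.GalRep

open Polynomial CuspForm ModularFormClass CongruenceSubgroup IsLocalRing NumberField
open scoped TensorProduct

/-- the trivial two-dimensional representation (used for the vacuous level `N = 0`). -/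
noncomputable def GRW_trivialRep (k : Type) [Field k] : ResidualGaloisRep k where
  V := Fin 2 → k
  finrank_eq := by simp
  ρ := 1
  factorsThroughFiniteLevel := ⟨⊥, inferInstance, fun _ _ => rfl⟩

/-- kernel of the reduction map through a local homomorphism. -/
theorem GRW_ker_residue_comp {A B C : Type} [CommRing A] [CommRing B] [IsLocalRing B]
    [CommRing C] [IsLocalRing C] (ι : A →+* B) (f : B →+* C) [IsLocalHom f] :
    RingHom.ker ((residue C).comp (f.comp ι)) = (maximalIdeal B).comap ι := by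
  ext x
  rw [RingHom.mem_ker, RingHom.comp_apply, RingHom.comp_apply, residue_eq_zero_iff,
    Ideal.mem_comap, mem_maximalIdeal, mem_maximalIdeal, mem_nonunits_iff, mem_nonunits_iff,
    isUnit_map_iff]

/-- the charpoly of the base change of the reduction. -/
theorem GRW_charpoly_residual_baseChange {A : Type} [CommRing A] [IsLocalRing A]
    (ρ : GaloisRepAdic A) {k : Type} [Field k] (ψ : ResidueField A →+* k)
    (σ : AlgebraicClosure ℚ ≃ₐ[ℚ] AlgebraicClosure ℚ) :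
    LinearMap.charpoly ((ρ.residual.baseChangeAlong ψ).ρ σ)
      = ((LinearMap.charpoly (ρ.ρ σ)).map (residue A)).map ψ := by
  let _ : Algebra (ResidueField A) k := ψ.toAlgebra
  change LinearMap.charpoly (((ρ.ρ σ).baseChange (ResidueField A)).baseChange k) = _
  rw [LinearMap.charpoly_baseChange, LinearMap.charpoly_baseChange]
  rfl

theorem GRW_residual_baseChange_one {A : Type} [CommRing A] [IsLocalRing A]
    (ρ : GaloisRepAdic A) {k : Type} [Field k] (ψ : ResidueField A →+* k)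
    (σ : AlgebraicClosure ℚ ≃ₐ[ℚ] AlgebraicClosure ℚ) (h : ρ.ρ σ = 1) :
    (ρ.residual.baseChangeAlong ψ).ρ σ = 1 := by
  let _ : Algebra (ResidueField A) k := ψ.toAlgebra
  change ((ρ.ρ σ).baseChange (ResidueField A)).baseChange k = 1
  rw [h, LinearMap.baseChange_one, LinearMap.baseChange_one]

/-- **W1**: S29 from S30 (and COEF (a)). -/
theorem GRW_S29_of (h30 : GR_S30Stmt) (hA : GR_CoefAStmt) : GR_S29Stmt := by
  intro N g hg p hp k _ _ φ
  rcases Nat.eq_zero_or_pos N with rfl | hN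
  · exact ⟨GRW_trivialRep k, fun ℓ _ hℓN => absurd (dvd_zero ℓ) hℓN,
      fun ℓ _ hℓ => absurd (by simp) hℓ⟩
  have : NeZero N := ⟨hN.ne'⟩
  have : Fact p.Prime := ⟨hp⟩
  -- the set `S`
  set S : Finset ℕ := insert p N.primeFactors with hS
  have hpS : p ∈ S := Finset.mem_insert_self _ _
  have hNS : ∀ q : ℕ, q.Prime → q ∣ N → q ∈ S := fun q hq hqN =>
    Finset.mem_insert_of_mem (Nat.mem_primeFactors.2 ⟨hq, hqN, hN.ne'⟩)
  have hNS' : ∀ q : ℕ, q.Prime → q ∣ N → q ∈ (↑S : Set ℕ) := fun q hq hqN =>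
    Finset.mem_coe.2 (hNS q hq hqN)
  -- the eigencharacter and its number field
  have hfin : Module.Finite ℤ (CuspForm.heckeAlgebra N 2 (↑S : Set ℕ)) :=
    Fermat.Agent.S22.moduleFinite_heckeAlgebra N 2 _
  obtain ⟨E, _, _, e, χ₁, hχ₁⟩ := GRW_exists_numberField (GRW_eigenChar (S := (↑S : Set ℕ)) hg hNS')
  have hje : ∀ x : 𝓞 E, (e.comp (algebraMap (𝓞 E) E)) x ∈ integralClosure ℤ ℂ := fun x =>
    map_isIntegral_int (e.comp (algebraMap (𝓞 E) E)) (Algebra.IsIntegral.isIntegral x)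
  let j : 𝓞 E →+* integralClosure ℤ ℂ :=
    (e.comp (algebraMap (𝓞 E) E)).codRestrict (integralClosure ℤ ℂ) hje
  have hj : ∀ x : 𝓞 E, ((j x : integralClosure ℤ ℂ) : ℂ) = e (algebraMap (𝓞 E) E x) := fun _ => rfl
  -- the prime `𝔭`
  set 𝔭 : Ideal (𝓞 E) := RingHom.ker (φ.comp j) with h𝔭
  have h𝔭prime : 𝔭.IsPrime := RingHom.ker_isPrime _
  have hp𝔭 : (p : 𝓞 E) ∈ 𝔭 := by
    rw [h𝔭, RingHom.mem_ker, map_natCast]
    exact CharP.cast_eq_zero k p
  have h𝔭bot : 𝔭 ≠ ⊥ := by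
    intro h
    rw [h, Ideal.mem_bot] at hp𝔭
    exact (Nat.cast_ne_zero.2 hp.ne_zero) hp𝔭
  have h𝔭max : 𝔭.IsMaximal := h𝔭prime.isMaximal h𝔭bot
  obtain ⟨𝒪', i1, i2, i3, i4, i5, i6, ι, -, hιcomap⟩ := hA E 𝔭
  have hp𝒪' : (p : 𝒪') ∈ maximalIdeal 𝒪' := by
    have h1 : (p : 𝓞 E) ∈ (maximalIdeal 𝒪').comap ι := by rw [hιcomap]; exact hp𝔭
    simpa using h1
  obtain ⟨𝒪'', j1, j2, j3, j4, j5, j6, j7, j8, j9, -, ρ, hρ, hun⟩ :=
    h30 p N S hpS hNS 𝒪' hp𝒪' (ι.comp χ₁)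
  -- the residue maps
  have hθ : RingHom.ker ((residue 𝒪'').comp ((algebraMap 𝒪' 𝒪'').comp ι)) = 𝔭 := by
    rw [GRW_ker_residue_comp, hιcomap]
  -- the algebraically closed field `ℤ̄ / ker φ`
  have hIprime : (RingHom.ker φ).IsPrime := RingHom.ker_isPrime _
  have hImax : (RingHom.ker φ).IsMaximal := by
    apply Ideal.isMaximal_of_isIntegral_of_isMaximal_comap (R := ℤ) (RingHom.ker φ)
    have hc : ((RingHom.ker φ).comap (algebraMap ℤ (integralClosure ℤ ℂ))).IsPrime :=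
      Ideal.comap_isPrime _ _
    apply hc.isMaximal
    intro h0
    have hmem : (p : ℤ) ∈ (RingHom.ker φ).comap (algebraMap ℤ (integralClosure ℤ ℂ)) := by
      rw [Ideal.mem_comap, RingHom.mem_ker, map_natCast, map_natCast]
      exact CharP.cast_eq_zero k p
    rw [h0, Ideal.mem_bot] at hmem
    exact hp.ne_zero (by exact_mod_cast hmem)
  let _ : Field (integralClosure ℤ ℂ ⧸ RingHom.ker φ) := Ideal.Quotient.field _
  have hQ : IsAlgClosed (integralClosure ℤ ℂ ⧸ RingHom.ker φ) := GRW_isAlgClosed_quot _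
  have hφQ : RingHom.ker ((Ideal.Quotient.mk (RingHom.ker φ)).comp j) = 𝔭 := by
    ext x
    rw [RingHom.mem_ker, RingHom.comp_apply, Ideal.Quotient.eq_zero_iff_mem, h𝔭, RingHom.mem_ker,
      RingHom.mem_ker, RingHom.comp_apply]
  obtain ⟨ψ, hψ⟩ := GRW_exists_embedding ((residue 𝒪'').comp ((algebraMap 𝒪' 𝒪'').comp ι))
    ((Ideal.Quotient.mk (RingHom.ker φ)).comp j)
    (Ideal.Quotient.lift (RingHom.ker φ) φ (fun a ha => ha)) 𝔭 hθ hφQ
  have hψ' : ∀ x : 𝓞 E, ψ (residue 𝒪'' (algebraMap 𝒪' 𝒪'' (ι x))) = φ (j x) := by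
    intro x
    have h1 := hψ x
    rw [RingHom.comp_apply, RingHom.comp_apply, RingHom.comp_apply] at h1
    exact h1.trans (Ideal.Quotient.lift_mk _ _ _)
  refine ⟨ρ.residual.baseChangeAlong ψ, ?_, ?_⟩
  · intro ℓ hℓ hℓN hℓk A hAℓ σ hσ
    have hℓp : ℓ ≠ p := by
      rintro rfl
      exact hℓk (CharP.cast_eq_zero k ℓ)
    have hℓS : ℓ ∉ (↑S : Set ℕ) := by
      rw [Finset.mem_coe, hS, Finset.mem_insert, Nat.mem_primeFactors]
      rintro (h | h)
      · exact hℓp h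
      · exact hℓN h.2.1
    refine ⟨j (χ₁ (CuspForm.heckeAlgebra.T hℓ hℓN hℓS)), ?_, ?_⟩
    · rw [hj, hχ₁, GRW_eigenChar_T]
    · rw [GRW_charpoly_residual_baseChange, hρ ℓ hℓ hℓN hℓS A hAℓ σ hσ]
      simp only [Polynomial.map_add, Polynomial.map_sub, Polynomial.map_mul, Polynomial.map_pow,
        Polynomial.map_X, Polynomial.map_C, map_natCast, RingHom.comp_apply,
        Polynomial.map_natCast]
      rw [hψ']
  · intro ℓ hℓ hℓNp A hAℓ σ hσ
    have hℓN : ¬ ℓ ∣ N := fun h => hℓNp (Dvd.dvd.mul_right h p)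
    have hℓp : ℓ ≠ p := by
      rintro rfl
      exact hℓNp (Dvd.intro_left N rfl)
    exact GRW_residual_baseChange_one ρ ψ σ (hun ℓ hℓ hℓN hℓp A hAℓ σ hσ)

/-- S29 from S30. -/
theorem GRW_S29_of_S30 (h30 : GR_S30Stmt) : GR_S29Stmt := GRW_S29_of h30 GR_coefA

end Fermat.Agent.GalRep
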