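import Mathlib
import Fermat.Prelude.Def_FreyPackage_EigenformResidualAttachment
import Fermat.Agent.GalRep.Iface
import Fermat.Agent.S13.Assemble
import Fermat.Agent.Lib.DivPolyCount

/-!
# Pillar G (GALREP), package W2: S42 from S29

`GRW2_S42_of_S29 : GR_S29Stmt → ∀ P M, 0 < M → P.EigenformResidualAttachmentAt M`.

Inputs: the statement of S29 (residual representation attached to a normalised eigenform),
finiteness of `E[p]` for the Frey curve (`Lib/DivPolyCount`), and the finite-level statement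
`S13_asm_open`.  The number field `F` is the normal closure of the compositum of the two finite
levels.
-/

set_option autoImplicit false
set_option linter.style.haveILetI false
set_option linter.unusedSectionVars false

open WeierstrassCurve WeierstrassCurve.Affine.Point Polynomial
open scoped CongruenceSubgroup

namespace Fermat.Agent.GalRep

/-- in rank 2, trace and determinant are read off from the characteristic polynomial. -/
theorem GRW2_trace_of_charpoly {k V : Type} [Field k] [AddCommGroup V] [Module k V]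
    [Module.Finite k V] [Module.Free k V]
    (h2 : Module.finrank k V = 2) (f : Module.End k V) (t d : k)
    (h : LinearMap.charpoly f = X ^ 2 - C t * X + C d) :
    LinearMap.trace k V f = t ∧ LinearMap.det f = d := by
  let b := Module.finBasis k V
  have hcard : Fintype.card (Fin (Module.finrank k V)) = 2 := by rw [Fintype.card_fin, h2]
  have hc : (LinearMap.toMatrix b b f).charpoly = X ^ 2 - C t * X + C d := by
    rw [← h, LinearMap.charpoly_toMatrix]
  haveI : Nonempty (Fin (Module.finrank k V)) := by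
    rw [h2]; exact ⟨0⟩
  constructor
  · rw [LinearMap.trace_eq_matrix_trace k b f, Matrix.trace_eq_neg_charpoly_coeff, hc, hcard]
    simp [coeff_C]
  · rw [← LinearMap.det_toMatrix b f, Matrix.det_eq_sign_charpoly_coeff, hc, hcard]
    simp [coeff_X, coeff_C]

local notation "ℚbar" => AlgebraicClosure ℚ
local notation "Gℚ" => (AlgebraicClosure ℚ ≃ₐ[ℚ] AlgebraicClosure ℚ)

/-- a finite Galois extension of `ℚ` inside `ℚ̄` containing two given finite levels. -/
theorem GRW2_exists_galois (L₁ L₂ : IntermediateField ℚ ℚbar) (h₁ : FiniteDimensional ℚ L₁)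
    (h₂ : FiniteDimensional ℚ L₂) :
    ∃ L : IntermediateField ℚ ℚbar, FiniteDimensional ℚ L ∧ IsGalois ℚ L ∧ L₁ ≤ L ∧ L₂ ≤ L := by
  haveI : FiniteDimensional ℚ ↥(L₁ ⊔ L₂) := IntermediateField.finiteDimensional_sup L₁ L₂
  haveI : Normal ℚ ℚbar := (Fermat.Agent.Lib.frobExists_isGalois).to_normal
  refine ⟨IntermediateField.normalClosure ℚ ↥(L₁ ⊔ L₂) ℚbar, ?_, ?_, ?_, ?_⟩
  · exact normalClosure.is_finiteDimensional ℚ ↥(L₁ ⊔ L₂) ℚbar
  · haveI : Normal ℚ ↥(IntermediateField.normalClosure ℚ ↥(L₁ ⊔ L₂) ℚbar) :=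
      normalClosure.normal ℚ ↥(L₁ ⊔ L₂) ℚbar
    exact IsGalois.mk
  · exact le_trans le_sup_left (IntermediateField.le_normalClosure (L₁ ⊔ L₂))
  · exact le_trans le_sup_right (IntermediateField.le_normalClosure (L₁ ⊔ L₂))

/-- characteristic `p` of a quotient field in which `p = 0`. -/
theorem GRW2_charP {R : Type} [CommRing R] (𝔪 : Ideal R) [h𝔪 : 𝔪.IsMaximal] {p : ℕ}
    (hp : p.Prime) (hp𝔪 : (p : R) ∈ 𝔪) : CharP (R ⧸ 𝔪) p := by
  have hp0 : ((p : ℕ) : R ⧸ 𝔪) = 0 := by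
    have h : Ideal.Quotient.mk 𝔪 (p : R) = 0 := Ideal.Quotient.eq_zero_iff_mem.mpr hp𝔪
    simpa using h
  haveI : Nontrivial (R ⧸ 𝔪) := Ideal.Quotient.nontrivial_iff.mpr h𝔪.ne_top
  have hdvd : ringChar (R ⧸ 𝔪) ∣ p := (ringChar.spec (R ⧸ 𝔪) p).mp hp0
  rcases (Nat.dvd_prime hp).mp hdvd with h1 | h1
  · exact absurd h1 (CharP.ringChar_ne_one)
  · rw [← h1]
    exact ringChar.charP (R ⧸ 𝔪)

open Fermat.Agent.S13 Fermat.Agent.Lib in
/-- **W2**: S42 from S29. -/
theorem GRW2_S42_of_S29 (h29 : GR_S29Stmt) (P : FreyPackage) :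
    ∀ M : ℕ, 0 < M → P.EigenformResidualAttachmentAt M := by
  intro M _ g hg 𝔪 h𝔪 hp𝔪
  classical
  letI : Field (integralClosure ℤ ℂ ⧸ 𝔪) := Ideal.Quotient.field 𝔪
  haveI hchar : CharP (integralClosure ℤ ℂ ⧸ 𝔪) P.p := GRW2_charP 𝔪 P.pp hp𝔪
  obtain ⟨ρ, hatt, -⟩ := h29 hg P.pp (Ideal.Quotient.mk 𝔪)
  -- the two finite levels
  obtain ⟨L₁, hL₁, hρ1⟩ := ρ.factorsThroughFiniteLevel
  have hp2 : P.p ≠ 2 := by have := P.hp5; omega
  have hfin := (dp_card_torsion_le (P.freyCurve⁄(AlgebraicClosure ℚ)) P.pp hp2).1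
  obtain ⟨S, hS⟩ := S13_asm_open P hfin
  have hL₂ : FiniteDimensional ℚ ↥(IntermediateField.adjoin ℚ (S : Set ℚbar)) :=
    IntermediateField.finiteDimensional_adjoin fun x _ =>
      ((frobExists_isAlgClosure.isAlgebraic).isAlgebraic x).isIntegral
  obtain ⟨L, hLfin, hLgal, hL₁L, hL₂L⟩ :=
    GRW2_exists_galois L₁ (IntermediateField.adjoin ℚ (S : Set ℚbar)) hL₁ hL₂
  haveI : NumberField ↥L := { to_charZero := inferInstance, to_finiteDimensional := hLfin }
  have hfix : ∀ σ : Gℚ, σ ∈ (AlgEquiv.restrictNormalHom (F := ℚ) (K₁ := ℚbar) ↥L).ker →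
      ∀ x ∈ L, σ x = x := by
    intro σ hσ x hx
    rw [MonoidHom.mem_ker] at hσ
    have h1 := AlgEquiv.restrictNormal_commutes σ ↥L ⟨x, hx⟩
    have h2 : σ.restrictNormal ↥L = 1 := hσ
    rw [h2] at h1
    exact h1.symm
  refine ⟨integralClosure ℤ ℂ ⧸ 𝔪, inferInstance, ZMod.algebra _ P.p, ρ.V, inferInstance,
    inferInstance, ρ.ρ, Ideal.Quotient.mk 𝔪, ↥L, inferInstance, inferInstance, hLgal,
    inferInstance, inferInstance, ?_, ρ.finrank_eq, ?_, ?_, ?_⟩
  · rw [Ideal.mk_ker]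
  · intro σ hσ
    have hσL := hfix σ hσ
    refine Subgroup.mem_inf.mpr ⟨MonoidHom.mem_ker.mpr ?_, MonoidHom.mem_ker.mpr ?_⟩
    · refine LinearMap.ext fun Q => Subtype.ext ?_
      have hQ : P.p • Q.1 = 0 := by
        have h := Q.2
        rw [Submodule.mem_torsionBy_iff] at h
        rw [← natCast_zsmul]
        exact h
      exact hS σ (fun s hs => hσL s (hL₂L (IntermediateField.subset_adjoin ℚ _ hs))) Q.1 hQ
    · exact hρ1 σ fun x hx => hσL x (hL₁L hx)
  · intro ℓ hℓ hℓM hℓp A hA τ hτ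
    have hℓk : ((ℓ : ℕ) : integralClosure ℤ ℂ ⧸ 𝔪) ≠ 0 := by
      intro h0
      have := (CharP.cast_eq_zero_iff (integralClosure ℤ ℂ ⧸ 𝔪) P.p ℓ).mp h0
      exact hℓp ((Nat.prime_dvd_prime_iff_eq P.pp hℓ).mp this).symm
    obtain ⟨a, ha, hc⟩ := hatt ℓ hℓ hℓM hℓk A hA τ hτ
    exact ⟨a, ha, (GRW2_trace_of_charpoly ρ.finrank_eq _ _ _ hc).1⟩
  · intro ℓ hℓ hℓM hℓp A hA τ hτ
    have hℓk : ((ℓ : ℕ) : integralClosure ℤ ℂ ⧸ 𝔪) ≠ 0 := by
      intro h0
      have := (CharP.cast_eq_zero_iff (integralClosure ℤ ℂ ⧸ 𝔪) P.p ℓ).mp h0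
      exact hℓp ((Nat.prime_dvd_prime_iff_eq P.pp hℓ).mp this).symm
    obtain ⟨a, ha, hc⟩ := hatt ℓ hℓ hℓM hℓk A hA τ hτ
    exact (GRW2_trace_of_charpoly ρ.finrank_eq _ _ _ hc).2

end Fermat.Agent.GalRep
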