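import Fermat.Agent.GalRep.TowerDone
import Fermat.Agent.GalRep.DimFinal
import Fermat.Agent.GalRep.W1
import Fermat.Agent.GalRep.W2

/-!
# Pillar G (GALREP): the unconditional results

* `GR_S30_done`      : the statement of S30;
* `GR_S29_done`      : the statement of S29;
* `GR_S42_done`      : the statement of S42.
-/

set_option autoImplicit false

namespace Fermat.Agent.GalRep

/-- **S30**, unconditional. -/
theorem GR_S30_done : GR_S30Stmt :=
  GR_S30_final GRT3_s18 GRT3_ri (fun N _ => KMF_kappa_final N)
    GRHX_hecke_all GRD_dim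

/-- **S29**, unconditional. -/
theorem GR_S29_done : GR_S29Stmt := GRW_S29_of_S30 GR_S30_done

/-- **S42**, unconditional. -/
theorem GR_S42_done (P : FreyPackage) : ∀ M : ℕ, 0 < M → P.EigenformResidualAttachmentAt M :=
  GRW2_S42_of_S29 GR_S29_done P

end Fermat.Agent.GalRep
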