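import Fermat.Agent.GalRep.ESRed

/-!
# Pillar G, package ES (helper16), part 3: Eichler–Shimura on Kummer generators

`F = ℚ̄(X₀(N)) = modularFunctionFieldBar N ⊂ ℚ̄((q))`, `σ • f` the arithmetic Galois action on the
`q`-coefficients, `A ⊂ ℚ̄` a valuation subring over `ℓ`, `h : ReductionInputsModL A N`, and the
statement of S18 for `(A, N, ℓ)` as a hypothesis `hS18`.

* `ES_frob`: `σ` a Frobenius at `A`, `t : F → F` any map with the `q`-expansion formula (H1)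
  `(t f)(q^ℓ) = f(q^{ℓ²}) · ∏_{i<ℓ} f(ζ^i q)`, `f` and `t f` Kummer of exponent `n`, `ℓ ∤ n`:
  `t f = (σ • f) · (σ⁻¹ • f)^ℓ · c · gⁿ`.
* `ES_inertia`: `τ` in the inertia group of `A`, `f` Kummer of exponent `n`, `ℓ ∤ n`:
  `τ • f = f · c · gⁿ`.
-/

set_option autoImplicit false
set_option synthInstance.maxHeartbeats 400000
set_option maxHeartbeats 1000000
set_option linter.unusedSectionVars false
set_option linter.style.haveILetI false

open HahnSeries IntermediateField AlgebraicCurve ModularCurve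

namespace Fermat.Agent.GalRep

open Fermat.Agent.S18 Fermat.Agent.Lib

section gal

variable (N : ℕ) [NeZero N]

/-- `n ∣ div f ⇒ n ∣ div (g • f)`. -/
theorem ES_kum_smul (g : SemilinearAut (AlgebraicClosure ℚ) ↥(modularFunctionFieldBar N))
    (n : ℕ) (f : ↥(modularFunctionFieldBar N))
    (hk : ∀ v : Place (AlgebraicClosure ℚ) ↥(modularFunctionFieldBar N), (n : ℤ) ∣ v.ord f)
    (v : Place (AlgebraicClosure ℚ) ↥(modularFunctionFieldBar N)) : (n : ℤ) ∣ v.ord (g • f) := by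
  have h1 := SemilinearAut.ord_smul g (g⁻¹ • v) f
  rw [smul_inv_smul] at h1
  rw [h1]
  exact hk _

theorem ES_gal_ne_zero (g : SemilinearAut (AlgebraicClosure ℚ) ↥(modularFunctionFieldBar N))
    {f : ↥(modularFunctionFieldBar N)} (hf : f ≠ 0) : g • f ≠ 0 := by
  intro h0
  apply hf
  have := congrArg (fun x => g⁻¹ • x) h0
  simpa using this

variable (A : ValuationSubring (AlgebraicClosure ℚ))

/-- the Galois action on the integral series. -/
theorem ES_gal_int (g : A.decompositionSubgroup ℚ) (s : S18_B A N) :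
    S18_Bι A N ⟨ES_act A g s.1, ES_act_mem_B A N g s.2⟩ =
      arithmeticGalois (modularFunctionFieldFull N)
        ((g : AlgebraicClosure ℚ ≃ₐ[ℚ] AlgebraicClosure ℚ)) • S18_Bι A N s := by
  apply Subtype.ext
  rw [coe_arithmeticGalois_smul]
  exact ES_ι_act A g s.1

theorem ES_ρ_act_ne_zero (g : A.decompositionSubgroup ℚ) {y : LaurentSeries A}
    (hy : S18_ρ A y ≠ 0) : S18_ρ A (ES_act A g y) ≠ 0 := by
  intro h0
  apply hy
  have h1 : y = ES_act A g⁻¹ (ES_act A g y) := by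
    rw [← ES_act_mul, inv_mul_cancel, ES_act_one]
  rw [h1, ES_ρ_act, h0, map_zero]

/-- a root of unity of `ℚ̄` of order dividing `ℓ` is a unit of `A`. -/
theorem ES_exists_unit (ℓ : ℕ) (hℓ : 0 < ℓ) (ζ : (AlgebraicClosure ℚ)ˣ) (hζ : ζ ^ ℓ = 1) :
    ∃ u : Aˣ, Units.map (A.subtype : A →* AlgebraicClosure ℚ) u = ζ ∧ u ^ ℓ = 1 := by
  obtain ⟨m, rfl⟩ : ∃ m, ℓ = m + 1 := ⟨ℓ - 1, by omega⟩
  have hinv : ζ⁻¹ = ζ ^ m := by
    rw [inv_eq_iff_eq_inv, eq_inv_iff_mul_eq_one, ← pow_succ', hζ]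
  have hinv' : ((ζ⁻¹ : (AlgebraicClosure ℚ)ˣ) : AlgebraicClosure ℚ) =
      ((ζ : (AlgebraicClosure ℚ)ˣ) : AlgebraicClosure ℚ) ^ m := by
    rw [hinv, Units.val_pow_eq_pow_val]
  have hzinv : ((ζ : (AlgebraicClosure ℚ)ˣ) : AlgebraicClosure ℚ) =
      (((ζ⁻¹ : (AlgebraicClosure ℚ)ˣ)) : AlgebraicClosure ℚ) ^ m := by
    have : ζ = (ζ⁻¹) ^ m := by
      rw [inv_pow, ← hinv, inv_inv]
    conv_lhs => rw [this]
    rw [Units.val_pow_eq_pow_val]
  have hmem : ((ζ : (AlgebraicClosure ℚ)ˣ) : AlgebraicClosure ℚ) ∈ A ∧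
      ((ζ⁻¹ : (AlgebraicClosure ℚ)ˣ) : AlgebraicClosure ℚ) ∈ A := by
    rcases A.mem_or_inv_mem (ζ : AlgebraicClosure ℚ) with h1 | h1
    · exact ⟨h1, by rw [hinv']; exact pow_mem h1 m⟩
    · have h2 : ((ζ⁻¹ : (AlgebraicClosure ℚ)ˣ) : AlgebraicClosure ℚ) ∈ A := by
        rwa [Units.val_inv_eq_inv_val]
      exact ⟨by rw [hzinv]; exact pow_mem h2 m, h2⟩
  refine ⟨⟨⟨ζ, hmem.1⟩, ⟨(ζ⁻¹ : (AlgebraicClosure ℚ)ˣ), hmem.2⟩, ?_, ?_⟩, ?_, ?_⟩
  · apply Subtype.ext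
    simp
  · apply Subtype.ext
    simp
  · apply Units.ext
    rfl
  · apply Units.ext
    apply Subtype.ext
    have := congrArg (fun x : (AlgebraicClosure ℚ)ˣ => (x : AlgebraicClosure ℚ)) hζ
    simpa using this

end gal

section main

variable (N : ℕ) [NeZero N] (ℓ : ℕ) [NeZero ℓ] (hℓ : ℓ.Prime)
  (A : ValuationSubring (AlgebraicClosure ℚ)) (hA : A.LiesOverPrime ℓ)
  (h : ReductionInputsModL A N)

include hℓ hA in
/-- the reduction of an `ℓ`-th root of unity is `1`. -/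
theorem ES_residue_unit (u : Aˣ) (hu : u ^ ℓ = 1) : IsLocalRing.residue A (u : A) = 1 := by
  haveI : Fact ℓ.Prime := ⟨hℓ⟩
  haveI : CharP (IsLocalRing.ResidueField A) ℓ := S18_residue_charP A ℓ hℓ hA
  have h1 : (IsLocalRing.residue A (u : A)) ^ ℓ = 1 := by
    rw [← map_pow, ← Units.val_pow_eq_pow_val, hu, Units.val_one, map_one]
  have h2 : (IsLocalRing.residue A (u : A) - 1) ^ ℓ = 0 := by
    rw [sub_pow_char, h1, one_pow, sub_self]
  exact sub_eq_zero.mp (pow_eq_zero_iff (NeZero.ne ℓ) |>.mp h2)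

/-- properties of an operator `t` with the `q`-expansion formula (H1). -/
theorem ES_t_mul (ζ : (AlgebraicClosure ℚ)ˣ)
    (t : ↥(modularFunctionFieldBar N) → ↥(modularFunctionFieldBar N))
    (ht : ∀ f : ↥(modularFunctionFieldBar N), f ≠ 0 →
      qExpand (AlgebraicClosure ℚ) ℓ (t f : LaurentSeries (AlgebraicClosure ℚ)) =
        ES_rhs ℓ ζ (f : LaurentSeries (AlgebraicClosure ℚ)))
    (f g : ↥(modularFunctionFieldBar N)) (hf : f ≠ 0) (hg : g ≠ 0) :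
    t (f * g) = t f * t g := by
  apply Subtype.ext
  apply qExpand_injective (R := AlgebraicClosure ℚ) ℓ
  rw [ht _ (mul_ne_zero hf hg)]
  show ES_rhs ℓ ζ ((f : LaurentSeries (AlgebraicClosure ℚ)) * g) =
    qExpand (AlgebraicClosure ℚ) ℓ ((t f : LaurentSeries (AlgebraicClosure ℚ)) * t g)
  rw [ES_rhs_mul, map_mul, ht f hf, ht g hg]

theorem ES_rhs_ne_zero (ζ : (AlgebraicClosure ℚ)ˣ) {x : LaurentSeries (AlgebraicClosure ℚ)}
    (hx : x ≠ 0) : ES_rhs ℓ ζ x ≠ 0 := by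
  rw [ES_rhs]
  refine mul_ne_zero ?_ (Finset.prod_ne_zero_iff.mpr fun i _ => ?_)
  · intro h0
    exact hx (qExpand_injective ℓ (qExpand_injective ℓ (by rw [h0, map_zero, map_zero])))
  · intro h0
    apply hx
    ext n
    have := congrArg (fun y : LaurentSeries (AlgebraicClosure ℚ) => y.coeff n) h0
    simp only [ES_tw_coeff, HahnSeries.coeff_zero] at this
    rw [HahnSeries.coeff_zero]
    exact (Units.mul_right_eq_zero _).mp this

theorem ES_t_ne_zero (ζ : (AlgebraicClosure ℚ)ˣ)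
    (t : ↥(modularFunctionFieldBar N) → ↥(modularFunctionFieldBar N))
    (ht : ∀ f : ↥(modularFunctionFieldBar N), f ≠ 0 →
      qExpand (AlgebraicClosure ℚ) ℓ (t f : LaurentSeries (AlgebraicClosure ℚ)) =
        ES_rhs ℓ ζ (f : LaurentSeries (AlgebraicClosure ℚ)))
    (f : ↥(modularFunctionFieldBar N)) (hf : f ≠ 0) : t f ≠ 0 := by
  intro h0
  have h1 := ht f hf
  rw [h0] at h1
  have h2 : ES_rhs ℓ ζ (f : LaurentSeries (AlgebraicClosure ℚ)) = 0 := by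
    rw [← h1]
    exact map_zero _
  exact ES_rhs_ne_zero ℓ ζ (fun hx => hf (Subtype.ext hx)) h2

theorem ES_t_const (ζ : (AlgebraicClosure ℚ)ˣ)
    (t : ↥(modularFunctionFieldBar N) → ↥(modularFunctionFieldBar N))
    (ht : ∀ f : ↥(modularFunctionFieldBar N), f ≠ 0 →
      qExpand (AlgebraicClosure ℚ) ℓ (t f : LaurentSeries (AlgebraicClosure ℚ)) =
        ES_rhs ℓ ζ (f : LaurentSeries (AlgebraicClosure ℚ)))
    (c : AlgebraicClosure ℚ) (hc : c ≠ 0) :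
    t (algebraMap (AlgebraicClosure ℚ) ↥(modularFunctionFieldBar N) c) =
      algebraMap (AlgebraicClosure ℚ) ↥(modularFunctionFieldBar N) (c ^ (ℓ + 1)) := by
  apply Subtype.ext
  apply qExpand_injective (R := AlgebraicClosure ℚ) ℓ
  rw [ht _ (by rwa [Ne, map_eq_zero])]
  show ES_rhs ℓ ζ (algebraMap (AlgebraicClosure ℚ) (LaurentSeries (AlgebraicClosure ℚ)) c) =
    qExpand (AlgebraicClosure ℚ) ℓ
      (algebraMap (AlgebraicClosure ℚ) (LaurentSeries (AlgebraicClosure ℚ)) (c ^ (ℓ + 1)))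
  rw [algebraMap_laurentSeries_eq_single, algebraMap_laurentSeries_eq_single]
  show ES_rhs ℓ ζ (HahnSeries.C c) = qExpand (AlgebraicClosure ℚ) ℓ (HahnSeries.C (c ^ (ℓ + 1)))
  rw [ES_rhs_C, qExpand_C]

include hℓ hA in
/-- **Eichler–Shimura congruence, divisor form**:
`r_* div (t f) = r_* div ((σ • f) · (σ⁻¹ • f)^ℓ)` for every `f ∈ F^×`. -/
theorem ES_frob_rdiv
    (σ : AlgebraicClosure ℚ ≃ₐ[ℚ] AlgebraicClosure ℚ) (hσ : A.IsFrobeniusAt σ ℓ)
    (ζ : (AlgebraicClosure ℚ)ˣ) (hζ : ζ ^ ℓ = 1)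
    (t : ↥(modularFunctionFieldBar N) → ↥(modularFunctionFieldBar N))
    (ht : ∀ f : ↥(modularFunctionFieldBar N), f ≠ 0 →
      qExpand (AlgebraicClosure ℚ) ℓ (t f : LaurentSeries (AlgebraicClosure ℚ)) =
        ES_rhs ℓ ζ (f : LaurentSeries (AlgebraicClosure ℚ)))
    (f : ↥(modularFunctionFieldBar N)) (hf : f ≠ 0) :
    ES_rdiv N A h (t f) =
      ES_rdiv N A h ((arithmeticGalois (modularFunctionFieldFull N) σ • f) *
        (arithmeticGalois (modularFunctionFieldFull N) σ⁻¹ • f) ^ ℓ) := by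
  haveI : Fact ℓ.Prime := ⟨hℓ⟩
  haveI : CharP (IsLocalRing.ResidueField A) ℓ := S18_residue_charP A ℓ hℓ hA
  set g : A.decompositionSubgroup ℚ := ⟨σ, hσ.mem_decompositionSubgroup⟩ with hg
  have hginv : ((g⁻¹ : A.decompositionSubgroup ℚ) :
      AlgebraicClosure ℚ ≃ₐ[ℚ] AlgebraicClosure ℚ) = σ⁻¹ := rfl
  have hfrobhom : MulSemiringAction.toRingHom (A.decompositionSubgroup ℚ)
      (IsLocalRing.ResidueField A) g = frobenius (IsLocalRing.ResidueField A) ℓ :=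
    RingHom.ext fun x => hσ.smul_residue_eq x
  obtain ⟨u, hu1, hu2⟩ := ES_exists_unit A ℓ hℓ.pos ζ hζ
  have hures : IsLocalRing.residue A (u : A) = 1 := ES_residue_unit ℓ hℓ A hA u hu2
  refine ES_key N A h t
    (fun f => (arithmeticGalois (modularFunctionFieldFull N) σ • f) *
      (arithmeticGalois (modularFunctionFieldFull N) σ⁻¹ • f) ^ ℓ)
    (fun f g hf hg => ES_t_mul N ℓ ζ t ht f g hf hg) ?_
    (fun f hf => ES_t_ne_zero N ℓ ζ t ht f hf) ?_
    (fun c hc => ⟨_, ES_t_const N ℓ ζ t ht c hc⟩) ?_ ?_ f hf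
  · intro f g _ _
    simp only [smul_mul', mul_pow]
    ring
  · intro f hf
    exact mul_ne_zero (ES_gal_ne_zero N _ hf) (pow_ne_zero _ (ES_gal_ne_zero N _ hf))
  · intro c _
    refine ⟨σ c * (σ⁻¹ c) ^ ℓ, ?_⟩
    show (arithmeticGalois (modularFunctionFieldFull N) σ •
        algebraMap (AlgebraicClosure ℚ) ↥(modularFunctionFieldBar N) c) *
      (arithmeticGalois (modularFunctionFieldFull N) σ⁻¹ •
        algebraMap (AlgebraicClosure ℚ) ↥(modularFunctionFieldBar N) c) ^ ℓ = _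
    rw [SemilinearAut.smul_algebraMap, SemilinearAut.smul_algebraMap, ← map_pow, ← map_mul]
    rfl
  · intro s hs
    have hs0 : S18_ρ A s.1 ≠ 0 := fun h0 => hs (Subtype.ext h0)
    set a : S18_B A N := ⟨ES_act A g s.1, ES_act_mem_B A N g s.2⟩ with ha
    set b : S18_B A N := ⟨ES_act A g⁻¹ s.1, ES_act_mem_B A N g⁻¹ s.2⟩ with hb
    have hW : qExpand (AlgebraicClosure ℚ) ℓ
        ((t (S18_Bι A N s) : ↥(modularFunctionFieldBar N)) :
          LaurentSeries (AlgebraicClosure ℚ)) =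
        ES_rhs ℓ (Units.map ((A.subtype : A →+* AlgebraicClosure ℚ) : A →* AlgebraicClosure ℚ) u)
          (coeffMap A.subtype s.1) := by
      rw [ht _ (S18_Bι_ne_zero A N hs)]
      have : Units.map ((A.subtype : A →+* AlgebraicClosure ℚ) : A →* AlgebraicClosure ℚ) u = ζ :=
        hu1
      rw [this]
      rfl
    obtain ⟨w, hw1, hw2⟩ := ES_exists_int ℓ A.subtype Subtype.val_injective u s.1 _ hW
    have hρw : S18_ρ A w = qExpand (IsLocalRing.ResidueField A) ℓ (S18_ρ A s.1) *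
        coeffMap (frobenius (IsLocalRing.ResidueField A) ℓ) (S18_ρ A s.1) :=
      ES_red_int ℓ (IsLocalRing.residue A) u hures s.1 w hw2
    have hρa : S18_ρ A a.1 =
        coeffMap (frobenius (IsLocalRing.ResidueField A) ℓ) (S18_ρ A s.1) := by
      rw [ha, ES_ρ_act, hfrobhom]
    have hρb : (S18_ρ A b.1) ^ ℓ = qExpand (IsLocalRing.ResidueField A) ℓ (S18_ρ A s.1) := by
      rw [LT_pow_char ℓ, ← hfrobhom, ← ES_ρ_act, hb, ← ES_act_mul, mul_inv_cancel, ES_act_one]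
    have hwB : w ∈ S18_B A N := by
      refine (S18_mem_B A N).mpr ⟨?_, ?_⟩
      · rw [show S18_ι A w = coeffMap A.subtype w from rfl, hw1]
        exact (t (S18_Bι A N s)).2
      · rw [hρw, ← hρb, ← hρa]
        exact mul_mem (pow_mem ((S18_mem_B A N).mp b.2).2 ℓ) ((S18_mem_B A N).mp a.2).2
    refine ⟨⟨w, hwB⟩, a * b ^ ℓ, Subtype.ext hw1, ?_, ?_, ?_⟩
    · rw [map_mul, map_pow, ha, hb, ES_gal_int N A g s, ES_gal_int N A g⁻¹ s, hginv]
    · apply Subtype.ext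
      show S18_ρ A w = S18_ρ A (a.1 * b.1 ^ ℓ)
      rw [map_mul, map_pow, hρa, hρb, hρw, mul_comm]
    · intro h0
      have h1 : S18_ρ A w = 0 := congrArg Subtype.val h0
      rw [hρw, ← hρb, ← hρa] at h1
      rcases mul_eq_zero.mp h1 with h2 | h2
      · exact ES_ρ_act_ne_zero A g⁻¹ hs0 (pow_eq_zero_iff (NeZero.ne ℓ) |>.mp h2)
      · exact ES_ρ_act_ne_zero A g hs0 h2

/-- **inertia acts trivially, divisor form**: `r_* div (τ • f) = r_* div f`. -/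
theorem ES_inertia_rdiv
    (τ : AlgebraicClosure ℚ ≃ₐ[ℚ] AlgebraicClosure ℚ) (hτ : τ ∈ A.inertiaSubgroupIn ℚ)
    (f : ↥(modularFunctionFieldBar N)) (hf : f ≠ 0) :
    ES_rdiv N A h (arithmeticGalois (modularFunctionFieldFull N) τ • f) = ES_rdiv N A h f := by
  obtain ⟨g, hgI, rfl⟩ := hτ
  have hgid : MulSemiringAction.toRingHom (A.decompositionSubgroup ℚ)
      (IsLocalRing.ResidueField A) g = RingHom.id _ := by
    have h1 : MulSemiringAction.toRingAut (A.decompositionSubgroup ℚ)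
        (IsLocalRing.ResidueField A) g = 1 := hgI
    ext x
    exact congrArg (fun e : RingAut (IsLocalRing.ResidueField A) => e x) h1
  refine ES_key N A h
    (fun f => arithmeticGalois (modularFunctionFieldFull N)
      ((A.decompositionSubgroup ℚ).subtype g) • f) (fun f => f)
    (fun f g _ _ => smul_mul' _ f g) (fun f g _ _ => rfl)
    (fun f hf => ES_gal_ne_zero N _ hf) (fun f hf => hf)
    (fun c _ => ⟨_, SemilinearAut.smul_algebraMap _ c⟩) (fun c _ => ⟨c, rfl⟩) ?_ f hf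
  intro s hs
  have hs0 : S18_ρ A s.1 ≠ 0 := fun h0 => hs (Subtype.ext h0)
  refine ⟨⟨ES_act A g s.1, ES_act_mem_B A N g s.2⟩, s, ES_gal_int N A g s, rfl, ?_, ?_⟩
  · apply Subtype.ext
    show S18_ρ A (ES_act A g s.1) = S18_ρ A s.1
    rw [ES_ρ_act, hgid, coeffMap_id]
  · intro h0
    exact ES_ρ_act_ne_zero A g hs0 (congrArg Subtype.val h0)

include hℓ hA h in
/-- **ES**, quotient form: `t f / ((σ • f) · (σ⁻¹ • f)^ℓ) = c · gⁿ`. -/
theorem ES_frob_triv (n : ℕ) (hℓn : ¬ ℓ ∣ n)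
    (hS18 : ∀ m : ℕ, ¬ ℓ ∣ m → ∀ z : JZero N, m • z = 0 → reductionModL A N z = 0 → z = 0)
    (σ : AlgebraicClosure ℚ ≃ₐ[ℚ] AlgebraicClosure ℚ) (hσ : A.IsFrobeniusAt σ ℓ)
    (ζ : (AlgebraicClosure ℚ)ˣ) (hζ : ζ ^ ℓ = 1)
    (t : ↥(modularFunctionFieldBar N) → ↥(modularFunctionFieldBar N))
    (ht : ∀ f : ↥(modularFunctionFieldBar N), f ≠ 0 →
      qExpand (AlgebraicClosure ℚ) ℓ (t f : LaurentSeries (AlgebraicClosure ℚ)) =
        ES_rhs ℓ ζ (f : LaurentSeries (AlgebraicClosure ℚ)))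
    (f : ↥(modularFunctionFieldBar N)) (hf : f ≠ 0)
    (hkum : ∀ v : Place (AlgebraicClosure ℚ) ↥(modularFunctionFieldBar N), (n : ℤ) ∣ v.ord f)
    (hkumt : ∀ v : Place (AlgebraicClosure ℚ) ↥(modularFunctionFieldBar N),
      (n : ℤ) ∣ v.ord (t f)) :
    ∃ (c : AlgebraicClosure ℚ) (g : ↥(modularFunctionFieldBar N)), c ≠ 0 ∧ g ≠ 0 ∧
      t f * ((arithmeticGalois (modularFunctionFieldFull N) σ • f) *
        (arithmeticGalois (modularFunctionFieldFull N) σ⁻¹ • f) ^ ℓ)⁻¹ =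
        algebraMap (AlgebraicClosure ℚ) ↥(modularFunctionFieldBar N) c * g ^ n := by
  set x := (arithmeticGalois (modularFunctionFieldFull N) σ • f) *
    (arithmeticGalois (modularFunctionFieldFull N) σ⁻¹ • f) ^ ℓ with hx
  have hx0 : x ≠ 0 :=
    mul_ne_zero (ES_gal_ne_zero N _ hf) (pow_ne_zero _ (ES_gal_ne_zero N _ hf))
  have htf0 : t f ≠ 0 := ES_t_ne_zero N ℓ ζ t ht f hf
  have hu0 : t f * x⁻¹ ≠ 0 := mul_ne_zero htf0 (inv_ne_zero hx0)
  have hrd : ES_rdiv N A h (t f * x⁻¹) = 0 := by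
    rw [ES_rdiv_mul N A h htf0 (inv_ne_zero hx0), ES_rdiv_inv,
      ES_frob_rdiv N ℓ hℓ A hA h σ hσ ζ hζ t ht f hf, ← hx, add_neg_cancel]
  have hk : ∀ v : Place (AlgebraicClosure ℚ) ↥(modularFunctionFieldBar N),
      (n : ℤ) ∣ v.ord (t f * x⁻¹) := by
    intro v
    rw [v.ord_mul htf0 (inv_ne_zero hx0), v.ord_inv, hx,
      v.ord_mul (ES_gal_ne_zero N _ hf) (pow_ne_zero _ (ES_gal_ne_zero N _ hf)),
      ← zpow_natCast, v.ord_zpow]
    exact dvd_add (hkumt v) (Dvd.dvd.neg_right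
      (dvd_add (ES_kum_smul N _ n f hkum v) (Dvd.dvd.mul_left (ES_kum_smul N _ n f hkum v) _)))
  exact ES_kummer N A h ℓ n hℓn hS18 _ hu0 hk hrd

include hℓ hA h in
/-- **ES** (Eichler–Shimura on Kummer generators).  `σ` a Frobenius at `A | ℓ`, `t` any operator on
`F` with the `q`-expansion formula (H1) of `T_ℓ^{mult}`, `f` and `t f` Kummer generators of
exponent `n`, `ℓ ∤ n`.  Then `t f = (σ • f) · (σ⁻¹ • f)^ℓ · c · gⁿ`. -/
theorem ES_frob (n : ℕ) (hℓn : ¬ ℓ ∣ n)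
    (hS18 : ∀ m : ℕ, ¬ ℓ ∣ m → ∀ z : JZero N, m • z = 0 → reductionModL A N z = 0 → z = 0)
    (σ : AlgebraicClosure ℚ ≃ₐ[ℚ] AlgebraicClosure ℚ) (hσ : A.IsFrobeniusAt σ ℓ)
    (ζ : (AlgebraicClosure ℚ)ˣ) (hζ : ζ ^ ℓ = 1)
    (t : ↥(modularFunctionFieldBar N) → ↥(modularFunctionFieldBar N))
    (ht : ∀ f : ↥(modularFunctionFieldBar N), f ≠ 0 →
      qExpand (AlgebraicClosure ℚ) ℓ (t f : LaurentSeries (AlgebraicClosure ℚ)) =
        ES_rhs ℓ ζ (f : LaurentSeries (AlgebraicClosure ℚ)))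
    (f : ↥(modularFunctionFieldBar N)) (hf : f ≠ 0)
    (hkum : ∀ v : Place (AlgebraicClosure ℚ) ↥(modularFunctionFieldBar N), (n : ℤ) ∣ v.ord f)
    (hkumt : ∀ v : Place (AlgebraicClosure ℚ) ↥(modularFunctionFieldBar N),
      (n : ℤ) ∣ v.ord (t f)) :
    ∃ (c : AlgebraicClosure ℚ) (g : ↥(modularFunctionFieldBar N)), c ≠ 0 ∧ g ≠ 0 ∧
      t f = (arithmeticGalois (modularFunctionFieldFull N) σ • f) *
        (arithmeticGalois (modularFunctionFieldFull N) σ⁻¹ • f) ^ ℓ *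
        algebraMap (AlgebraicClosure ℚ) ↥(modularFunctionFieldBar N) c * g ^ n := by
  obtain ⟨c, g, hc, hg, hcg⟩ :=
    ES_frob_triv N ℓ hℓ A hA h n hℓn hS18 σ hσ ζ hζ t ht f hf hkum hkumt
  refine ⟨c, g, hc, hg, ?_⟩
  have hx0 : (arithmeticGalois (modularFunctionFieldFull N) σ • f) *
      (arithmeticGalois (modularFunctionFieldFull N) σ⁻¹ • f) ^ ℓ ≠ 0 :=
    mul_ne_zero (ES_gal_ne_zero N _ hf) (pow_ne_zero _ (ES_gal_ne_zero N _ hf))
  generalize (arithmeticGalois (modularFunctionFieldFull N) σ • f) *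
      (arithmeticGalois (modularFunctionFieldFull N) σ⁻¹ • f) ^ ℓ = x at hcg hx0 ⊢
  have e : t f = x * (t f * x⁻¹) := by field_simp
  rw [e, hcg]
  ring

include h in
/-- **ES, inertia**, quotient form: `(τ • f) / f = c · gⁿ`. -/
theorem ES_inertia_triv (n : ℕ) (hℓn : ¬ ℓ ∣ n)
    (hS18 : ∀ m : ℕ, ¬ ℓ ∣ m → ∀ z : JZero N, m • z = 0 → reductionModL A N z = 0 → z = 0)
    (τ : AlgebraicClosure ℚ ≃ₐ[ℚ] AlgebraicClosure ℚ) (hτ : τ ∈ A.inertiaSubgroupIn ℚ)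
    (f : ↥(modularFunctionFieldBar N)) (hf : f ≠ 0)
    (hkum : ∀ v : Place (AlgebraicClosure ℚ) ↥(modularFunctionFieldBar N), (n : ℤ) ∣ v.ord f) :
    ∃ (c : AlgebraicClosure ℚ) (g : ↥(modularFunctionFieldBar N)), c ≠ 0 ∧ g ≠ 0 ∧
      (arithmeticGalois (modularFunctionFieldFull N) τ • f) * f⁻¹ =
        algebraMap (AlgebraicClosure ℚ) ↥(modularFunctionFieldBar N) c * g ^ n := by
  have hτf0 : arithmeticGalois (modularFunctionFieldFull N) τ • f ≠ 0 := ES_gal_ne_zero N _ hf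
  have hu0 : (arithmeticGalois (modularFunctionFieldFull N) τ • f) * f⁻¹ ≠ 0 :=
    mul_ne_zero hτf0 (inv_ne_zero hf)
  have hrd : ES_rdiv N A h ((arithmeticGalois (modularFunctionFieldFull N) τ • f) * f⁻¹) = 0 := by
    rw [ES_rdiv_mul N A h hτf0 (inv_ne_zero hf), ES_rdiv_inv,
      ES_inertia_rdiv N A h τ hτ f hf, add_neg_cancel]
  have hk : ∀ v : Place (AlgebraicClosure ℚ) ↥(modularFunctionFieldBar N),
      (n : ℤ) ∣ v.ord ((arithmeticGalois (modularFunctionFieldFull N) τ • f) * f⁻¹) := by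
    intro v
    rw [v.ord_mul hτf0 (inv_ne_zero hf), v.ord_inv]
    exact dvd_add (ES_kum_smul N _ n f hkum v) (Dvd.dvd.neg_right (hkum v))
  exact ES_kummer N A h ℓ n hℓn hS18 _ hu0 hk hrd

include h in
/-- **ES, inertia**: `τ` in the inertia group of `A | ℓ`, `f` a Kummer generator of exponent `n`,
`ℓ ∤ n`.  Then `τ • f = f · c · gⁿ`. -/
theorem ES_inertia (n : ℕ) (hℓn : ¬ ℓ ∣ n)
    (hS18 : ∀ m : ℕ, ¬ ℓ ∣ m → ∀ z : JZero N, m • z = 0 → reductionModL A N z = 0 → z = 0)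
    (τ : AlgebraicClosure ℚ ≃ₐ[ℚ] AlgebraicClosure ℚ) (hτ : τ ∈ A.inertiaSubgroupIn ℚ)
    (f : ↥(modularFunctionFieldBar N)) (hf : f ≠ 0)
    (hkum : ∀ v : Place (AlgebraicClosure ℚ) ↥(modularFunctionFieldBar N), (n : ℤ) ∣ v.ord f) :
    ∃ (c : AlgebraicClosure ℚ) (g : ↥(modularFunctionFieldBar N)), c ≠ 0 ∧ g ≠ 0 ∧
      arithmeticGalois (modularFunctionFieldFull N) τ • f =
        f * algebraMap (AlgebraicClosure ℚ) ↥(modularFunctionFieldBar N) c * g ^ n := by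
  obtain ⟨c, g, hc, hg, hcg⟩ := ES_inertia_triv N ℓ A h n hℓn hS18 τ hτ f hf hkum
  refine ⟨c, g, hc, hg, ?_⟩
  generalize arithmeticGalois (modularFunctionFieldFull N) τ • f = y at hcg ⊢
  have e : y = f * (y * f⁻¹) := by field_simp
  rw [e, hcg]
  ring

end main

end Fermat.Agent.GalRep
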