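import Fermat.Agent.GalRep.ESSeries
import Fermat.Agent.S18.Reduce
import Fermat.Agent.S18.ResField

/-!
# Pillar G, package ES (helper16), part 2: reduction of divisors of `T_ℓ^{mult} f`, `σ • f`

`A ⊂ ℚ̄` a valuation subring over `ℓ ∤ N`, `h : ReductionInputsModL A N`, `r = placeReductionModL h`.

* `ES_act A g`: the action of `g ∈ D_A` (decomposition group) on `A((q))`; `ES_ι_act`, `ES_ρ_act`;
* `ES_coeffMap_mem`: coefficient maps preserve the modular function fields `F_k`;
* `ES_div N f`: the divisor of `f ∈ F` as a function; `ES_rdiv h f = r_* (div f)`;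
* `ES_key`: two multiplicative operators on `F` which agree after reduction on the integral series
  have the same `r_* ∘ div`;
* `ES_kummer`: `n ∣ div u`, `r_* (div u) = 0`, `ℓ ∤ n`, S18 `⇒ u = c · gⁿ`.
-/

set_option autoImplicit false
set_option synthInstance.maxHeartbeats 400000
set_option maxHeartbeats 1000000
set_option linter.unusedSectionVars false
set_option linter.style.haveILetI false

open HahnSeries IntermediateField AlgebraicCurve ModularCurve

namespace Fermat.Agent.GalRep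

open Fermat.Agent.S18 Fermat.Agent.Lib

section coeff

/-- coefficient maps preserve the modular function fields. -/
theorem ES_coeffMap_mem {K K' : Type*} [Field K] [Field K'] (N : ℕ) [NeZero N] (φ : K →+* K')
    {f : LaurentSeries K} (hf : f ∈ modularFunctionFieldFullC K N) :
    coeffMap φ f ∈ modularFunctionFieldFullC K' N := by
  have hle : (modularFunctionFieldFullC K N).toSubfield ≤
      (modularFunctionFieldFullC K' N).toSubfield.comap (coeffMap φ) := by
    rw [modularFunctionFieldFullC, IntermediateField.adjoin_toSubfield, Subfield.closure_le]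
    rintro x (⟨c, rfl⟩ | ⟨d, hne, hdvd, rfl⟩)
    · show coeffMap φ (algebraMap K (LaurentSeries K) c) ∈ modularFunctionFieldFullC K' N
      rw [algebraMap_laurentSeries_eq_single, coeffMap_single,
        ← algebraMap_laurentSeries_eq_single]
      exact (modularFunctionFieldFullC K' N).algebraMap_mem _
    · haveI := hne
      show coeffMap φ (qExpand K d (jqModC K)) ∈ modularFunctionFieldFullC K' N
      rw [coeffMap_qExpand, coeffMap_jqModC]
      exact jqModCd_mem_full K' N hdvd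
  exact hle hf

end coeff

section act

variable {L : Type*} [Field L] [Algebra ℚ L] (A : ValuationSubring L)

/-- the action of the decomposition group on `A((q))`. -/
noncomputable def ES_act (g : A.decompositionSubgroup ℚ) : LaurentSeries A →+* LaurentSeries A :=
  coeffMap (MulSemiringAction.toRingHom (A.decompositionSubgroup ℚ) A g)

theorem ES_act_coeff (g : A.decompositionSubgroup ℚ) (y : LaurentSeries A) (n : ℤ) :
    (ES_act A g y).coeff n = g • y.coeff n := rfl

theorem ES_ι_act (g : A.decompositionSubgroup ℚ) (y : LaurentSeries A) :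
    S18_ι A (ES_act A g y) = coeffMap (((g : L ≃ₐ[ℚ] L) : L ≃ₐ[ℚ] L) : L →+* L) (S18_ι A y) := by
  ext n
  rfl

theorem ES_ρ_act (g : A.decompositionSubgroup ℚ) (y : LaurentSeries A) :
    S18_ρ A (ES_act A g y) =
      coeffMap (MulSemiringAction.toRingHom (A.decompositionSubgroup ℚ)
        (IsLocalRing.ResidueField A) g) (S18_ρ A y) := by
  ext n
  show IsLocalRing.residue A (g • y.coeff n) = g • IsLocalRing.residue A (y.coeff n)
  exact IsLocalRing.ResidueField.residue_smul _ g (y.coeff n)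

theorem ES_act_mul (g g' : A.decompositionSubgroup ℚ) (y : LaurentSeries A) :
    ES_act A (g * g') y = ES_act A g (ES_act A g' y) := by
  ext n
  rw [ES_act_coeff, ES_act_coeff, ES_act_coeff, mul_smul]

theorem ES_act_one (y : LaurentSeries A) : ES_act A 1 y = y := by
  ext n
  rw [ES_act_coeff, one_smul]

variable (N : ℕ) [NeZero N]

/-- the decomposition group preserves the ring `B` of integral series. -/
theorem ES_act_mem_B (g : A.decompositionSubgroup ℚ) {y : LaurentSeries A}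
    (hy : y ∈ S18_B A N) : ES_act A g y ∈ S18_B A N := by
  refine (S18_mem_B A N).mpr ⟨?_, ?_⟩
  · rw [ES_ι_act]
    exact coeffMap_mem_laurentBaseChange _ hy.1
  · rw [ES_ρ_act]
    exact ES_coeffMap_mem N _ hy.2

end act

section div

variable (N : ℕ) [NeZero N]

open Classical in
/-- the divisor of a function of `F = ℚ̄(X₀(N))` (`0` for `f = 0`). -/
noncomputable def ES_div (f : ↥(modularFunctionFieldBar N)) :
    Divisor (AlgebraicClosure ℚ) ↥(modularFunctionFieldBar N) :=
  if hf : f ≠ 0 then ((S18_hPD N).exists_divisor f hf).choose else 0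

theorem ES_div_apply (f : ↥(modularFunctionFieldBar N))
    (P : Place (AlgebraicClosure ℚ) ↥(modularFunctionFieldBar N)) :
    ES_div N f P = P.ord f := by
  by_cases hf : f ≠ 0
  · rw [ES_div, dif_pos hf]
    exact ((S18_hPD N).exists_divisor f hf).choose_spec.1 P
  · push Not at hf
    subst hf
    simp [ES_div]

theorem ES_degree_div (f : ↥(modularFunctionFieldBar N)) :
    Divisor.degree (ES_div N f) = 0 := by
  by_cases hf : f ≠ 0
  · rw [ES_div, dif_pos hf]
    exact ((S18_hPD N).exists_divisor f hf).choose_spec.2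
  · rw [ES_div, dif_neg hf, map_zero]

theorem ES_div_mul {f g : ↥(modularFunctionFieldBar N)} (hf : f ≠ 0) (hg : g ≠ 0) :
    ES_div N (f * g) = ES_div N f + ES_div N g := by
  ext P
  rw [Finsupp.add_apply, ES_div_apply, ES_div_apply, ES_div_apply, P.ord_mul hf hg]

theorem ES_div_inv (f : ↥(modularFunctionFieldBar N)) :
    ES_div N f⁻¹ = - ES_div N f := by
  ext P
  rw [Finsupp.neg_apply, ES_div_apply, ES_div_apply, P.ord_inv]

theorem ES_div_pow (f : ↥(modularFunctionFieldBar N)) (n : ℕ) :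
    ES_div N (f ^ n) = n • ES_div N f := by
  ext P
  rw [Finsupp.smul_apply, ES_div_apply, ES_div_apply, ← zpow_natCast, P.ord_zpow, nsmul_eq_mul]

theorem ES_div_algebraMap (c : AlgebraicClosure ℚ) :
    ES_div N (algebraMap (AlgebraicClosure ℚ) ↥(modularFunctionFieldBar N) c) = 0 := by
  ext P
  rw [ES_div_apply, S18_Spec.ord_algebraMap, Finsupp.zero_apply]

theorem ES_div_principal {f : ↥(modularFunctionFieldBar N)} (hf : f ≠ 0) :
    ES_div N f ∈ Divisor.principal (K := AlgebraicClosure ℚ)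
      (F := ↥(modularFunctionFieldBar N)) :=
  ⟨f, hf, fun P => ES_div_apply N f P⟩

variable (A : ValuationSubring (AlgebraicClosure ℚ)) (h : ReductionInputsModL A N)

/-- `r_* (div f)`. -/
noncomputable def ES_rdiv (f : ↥(modularFunctionFieldBar N)) :
    Divisor (IsLocalRing.ResidueField A)
      ↥(modularFunctionFieldFullC (IsLocalRing.ResidueField A) N) :=
  Finsupp.mapDomain (placeReductionModL h) (ES_div N f)

theorem ES_rdiv_mul {f g : ↥(modularFunctionFieldBar N)} (hf : f ≠ 0) (hg : g ≠ 0) :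
    ES_rdiv N A h (f * g) = ES_rdiv N A h f + ES_rdiv N A h g := by
  rw [ES_rdiv, ES_div_mul N hf hg, Finsupp.mapDomain_add]
  rfl

theorem ES_rdiv_inv (f : ↥(modularFunctionFieldBar N)) :
    ES_rdiv N A h f⁻¹ = - ES_rdiv N A h f := by
  rw [ES_rdiv, ES_div_inv, ← Finsupp.mapDomain.addMonoidHom_apply, map_neg]
  rfl

theorem ES_rdiv_pow (f : ↥(modularFunctionFieldBar N)) (n : ℕ) :
    ES_rdiv N A h (f ^ n) = n • ES_rdiv N A h f := by
  rw [ES_rdiv, ES_div_pow, ← Finsupp.mapDomain.addMonoidHom_apply, map_nsmul]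
  rfl

theorem ES_rdiv_algebraMap (c : AlgebraicClosure ℚ) :
    ES_rdiv N A h (algebraMap (AlgebraicClosure ℚ) ↥(modularFunctionFieldBar N) c) = 0 := by
  rw [ES_rdiv, ES_div_algebraMap, Finsupp.mapDomain_zero]

/-- property (2) of `r` on the integral series. -/
theorem ES_rdiv_int (s : S18_B A N) (hs : S18_Bρ A N s ≠ 0)
    (Q : Place (IsLocalRing.ResidueField A)
      ↥(modularFunctionFieldFullC (IsLocalRing.ResidueField A) N)) :
    ES_rdiv N A h (S18_Bι A N s) Q = Q.ord (S18_Bρ A N s) :=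
  (isPlaceReductionModL_placeReductionModL h).2 s.1 s.2.1 s.2.2
    (fun h0 => hs (Subtype.ext h0)) (ES_div N (S18_Bι A N s))
    (fun P => ES_div_apply N _ P) Q

/-- two integral series with the same reduction have the same `r_* ∘ div`. -/
theorem ES_rdiv_int_congr (w₁ w₂ : S18_B A N) (hw : S18_Bρ A N w₁ = S18_Bρ A N w₂)
    (hw₁ : S18_Bρ A N w₁ ≠ 0) :
    ES_rdiv N A h (S18_Bι A N w₁) = ES_rdiv N A h (S18_Bι A N w₂) := by
  ext Q
  rw [ES_rdiv_int N A h w₁ hw₁ Q, ES_rdiv_int N A h w₂ (hw ▸ hw₁) Q, hw]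

/-- **key lemma**: two multiplicative operators on `F` which agree after reduction on the
integral series have the same `r_* ∘ div`. -/
theorem ES_key (Φ₁ Φ₂ : ↥(modularFunctionFieldBar N) → ↥(modularFunctionFieldBar N))
    (hm₁ : ∀ f g, f ≠ 0 → g ≠ 0 → Φ₁ (f * g) = Φ₁ f * Φ₁ g)
    (hm₂ : ∀ f g, f ≠ 0 → g ≠ 0 → Φ₂ (f * g) = Φ₂ f * Φ₂ g)
    (hn₁ : ∀ f, f ≠ 0 → Φ₁ f ≠ 0) (hn₂ : ∀ f, f ≠ 0 → Φ₂ f ≠ 0)
    (hc₁ : ∀ c : AlgebraicClosure ℚ, c ≠ 0 → ∃ c' : AlgebraicClosure ℚ,
      Φ₁ (algebraMap (AlgebraicClosure ℚ) ↥(modularFunctionFieldBar N) c) =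
        algebraMap (AlgebraicClosure ℚ) ↥(modularFunctionFieldBar N) c')
    (hc₂ : ∀ c : AlgebraicClosure ℚ, c ≠ 0 → ∃ c' : AlgebraicClosure ℚ,
      Φ₂ (algebraMap (AlgebraicClosure ℚ) ↥(modularFunctionFieldBar N) c) =
        algebraMap (AlgebraicClosure ℚ) ↥(modularFunctionFieldBar N) c')
    (hint : ∀ s : S18_B A N, S18_Bρ A N s ≠ 0 → ∃ w₁ w₂ : S18_B A N,
      S18_Bι A N w₁ = Φ₁ (S18_Bι A N s) ∧ S18_Bι A N w₂ = Φ₂ (S18_Bι A N s) ∧
        S18_Bρ A N w₁ = S18_Bρ A N w₂ ∧ S18_Bρ A N w₁ ≠ 0)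
    (f : ↥(modularFunctionFieldBar N)) (hf : f ≠ 0) :
    ES_rdiv N A h (Φ₁ f) = ES_rdiv N A h (Φ₂ f) := by
  obtain ⟨c, s₁, s₂, hc, h1, h2, hrep⟩ :=
    S18_exists_rep A N (S18_hPD N) (S18_hconst N) h.choose_spec.2 f hf
  have hs1 := S18_Bι_ne_zero A N h1
  have hs2 := S18_Bι_ne_zero A N h2
  have hcF : algebraMap (AlgebraicClosure ℚ) ↥(modularFunctionFieldBar N) c ≠ 0 := by
    rwa [Ne, map_eq_zero]
  -- the general shape for one operator
  have gen : ∀ Φ : ↥(modularFunctionFieldBar N) → ↥(modularFunctionFieldBar N),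
      (∀ f g, f ≠ 0 → g ≠ 0 → Φ (f * g) = Φ f * Φ g) → (∀ f, f ≠ 0 → Φ f ≠ 0) →
      (∀ c : AlgebraicClosure ℚ, c ≠ 0 → ∃ c' : AlgebraicClosure ℚ,
        Φ (algebraMap (AlgebraicClosure ℚ) ↥(modularFunctionFieldBar N) c) =
          algebraMap (AlgebraicClosure ℚ) ↥(modularFunctionFieldBar N) c') →
      ES_rdiv N A h (Φ f) =
        ES_rdiv N A h (Φ (S18_Bι A N s₁)) - ES_rdiv N A h (Φ (S18_Bι A N s₂)) := by
    intro Φ hm hn hcΦ
    have e := congrArg Φ hrep
    rw [hm _ _ hf hs2, hm _ _ hcF hs1] at e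
    have e' := congrArg (ES_rdiv N A h) e
    rw [ES_rdiv_mul N A h (hn _ hf) (hn _ hs2), ES_rdiv_mul N A h (hn _ hcF) (hn _ hs1)] at e'
    obtain ⟨c', hc'⟩ := hcΦ c hc
    rw [hc', ES_rdiv_algebraMap, zero_add] at e'
    rw [← e']
    abel
  rw [gen Φ₁ hm₁ hn₁ hc₁, gen Φ₂ hm₂ hn₂ hc₂]
  obtain ⟨w₁, w₂, e1, e2, e3, e4⟩ := hint s₁ h1
  obtain ⟨v₁, v₂, k1, k2, k3, k4⟩ := hint s₂ h2
  rw [← e1, ← e2, ← k1, ← k2, ES_rdiv_int_congr N A h w₁ w₂ e3 e4,
    ES_rdiv_int_congr N A h v₁ v₂ k3 k4]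

/-- **Kummer descent through S18**: a function `u` with `n ∣ div u`, `r_* (div u) = 0`,
`ℓ ∤ n`, is a constant times an `n`-th power. -/
theorem ES_kummer (ℓ n : ℕ) (hℓn : ¬ ℓ ∣ n)
    (hS18 : ∀ m : ℕ, ¬ ℓ ∣ m → ∀ z : JZero N, m • z = 0 → reductionModL A N z = 0 → z = 0)
    (u : ↥(modularFunctionFieldBar N)) (hu : u ≠ 0)
    (hkum : ∀ v : Place (AlgebraicClosure ℚ) ↥(modularFunctionFieldBar N), (n : ℤ) ∣ v.ord u)
    (hr : ES_rdiv N A h u = 0) :
    ∃ (c : AlgebraicClosure ℚ) (g : ↥(modularFunctionFieldBar N)), c ≠ 0 ∧ g ≠ 0 ∧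
      u = algebraMap (AlgebraicClosure ℚ) ↥(modularFunctionFieldBar N) c * g ^ n := by
  have hn0 : n ≠ 0 := fun h0 => hℓn (h0 ▸ dvd_zero ℓ)
  have hnZ : (n : ℤ) ≠ 0 := by exact_mod_cast hn0
  -- the divisor `D' = div u / n`
  set D' : Divisor (AlgebraicClosure ℚ) ↥(modularFunctionFieldBar N) :=
    Finsupp.mapRange (fun x : ℤ => x / (n : ℤ)) (by simp) (ES_div N u) with hD'
  have hD'app : ∀ v, (n : ℤ) * D' v = v.ord u := by
    intro v
    rw [hD', Finsupp.mapRange_apply, ES_div_apply]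
    exact Int.mul_ediv_cancel' (hkum v)
  have hnD' : n • D' = ES_div N u := by
    ext v
    rw [Finsupp.smul_apply, nsmul_eq_mul, hD'app, ES_div_apply]
  have hdeg : Divisor.degree D' = 0 := by
    have h1 : n • Divisor.degree D' = 0 := by
      rw [← map_nsmul, hnD', ES_degree_div]
    rw [nsmul_eq_mul] at h1
    rcases mul_eq_zero.mp h1 with h2 | h2
    · exact absurd h2 hnZ
    · exact h2
  have hmap : Finsupp.mapDomain (placeReductionModL h) D' = 0 := by
    have h1 : n • Finsupp.mapDomain (placeReductionModL h) D' = 0 := by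
      rw [← Finsupp.mapDomain.addMonoidHom_apply, ← map_nsmul, hnD']
      exact hr
    ext Q
    have h2 := congrArg (fun E => E Q) h1
    simp only [Finsupp.smul_apply, nsmul_eq_mul, Finsupp.zero_apply] at h2
    rcases mul_eq_zero.mp h2 with h3 | h3
    · exact absurd h3 hnZ
    · rw [h3, Finsupp.zero_apply]
  set Dz : Divisor.degZero (K := AlgebraicClosure ℚ) (F := ↥(modularFunctionFieldBar N)) :=
    ⟨D', hdeg⟩ with hDz
  have hz1 : n • (Pic0.mk Dz : JZero N) = 0 := by
    have : (n • Dz : Divisor.degZero (K := AlgebraicClosure ℚ)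
        (F := ↥(modularFunctionFieldBar N))) ∈
        (Divisor.principal (K := AlgebraicClosure ℚ)
          (F := ↥(modularFunctionFieldBar N))).addSubgroupOf Divisor.degZero := by
      rw [AddSubgroup.mem_addSubgroupOf, AddSubgroupClass.coe_nsmul]
      show n • D' ∈ _
      rw [hnD']
      exact ES_div_principal N hu
    exact (QuotientAddGroup.eq_zero_iff _).mpr this
  have hz2 : reductionModL A N (Pic0.mk Dz) = 0 := by
    rw [reductionModL_mk h Dz]
    have : reductionDegZeroAlong (placeReductionModL h)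
        (isPlaceReductionModL_placeReductionModL h).1 Dz = 0 := by
      apply Subtype.ext
      rw [coe_reductionDegZeroAlong]
      exact hmap
    rw [this]
    rfl
  have hz := hS18 n hℓn (Pic0.mk Dz) hz1 hz2
  have hprin : D' ∈ Divisor.principal (K := AlgebraicClosure ℚ)
      (F := ↥(modularFunctionFieldBar N)) := by
    have := (QuotientAddGroup.eq_zero_iff _).mp hz
    rwa [AddSubgroup.mem_addSubgroupOf] at this
  obtain ⟨g, hg0, hg⟩ := hprin
  have hgn : g ^ n ≠ 0 := pow_ne_zero _ hg0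
  have hq0 : u * (g ^ n)⁻¹ ≠ 0 := mul_ne_zero hu (inv_ne_zero hgn)
  obtain ⟨c, hc⟩ := S18_hconst N _ hq0 (fun P => by
    rw [P.ord_mul hu (inv_ne_zero hgn), P.ord_inv, ← zpow_natCast, P.ord_zpow, ← hg P,
      hD'app P]
    ring)
  refine ⟨c, g, ?_, hg0, ?_⟩
  · rintro rfl
    rw [map_zero] at hc
    exact hq0 hc
  · rw [← hc]
    field_simp

end div

end Fermat.Agent.GalRep
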