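import Mathlib
import Fermat.Prelude.Def_ModularCurve_X0
import Fermat.Prelude.Def_ModularCurve_LaurentCoeff
import Fermat.Prelude.Thm_ModularCurve_coeffMap_qExpand
import Fermat.Agent.Lib.LaurentTheta
import Fermat.Agent.Lib.CuspTwist

/-!
# Pillar G, package ES (helper16), part 1: the series-level Hecke operator and its reduction

* `ES_tw u : R((q)) →+* R((q))`, `q ↦ u q` for a unit `u` of a commutative ring `R`;
* `ES_rhs ℓ u f = f(q^{ℓ²}) · ∏_{i<ℓ} f(u^i q)`: the right-hand side of the `q`-expansion formula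
  (H1) `(T_ℓ^{mult} f)(q^ℓ) = f(q^{ℓ²}) · ∏_{ζ^ℓ = 1} f(ζ q)`;
* `ES_rhs_char`: in characteristic `ℓ`, `ES_rhs ℓ 1 f = (f(q^ℓ) · f^φ)(q^ℓ)`, `φ` = Frobenius on the
  coefficients;
* `ES_exists_int`: integrality of `T_ℓ^{mult} y` for an integral series `y`;
* `ES_descend`: descent along `q ↦ q^n` over a ring.
-/

set_option autoImplicit false

open ModularCurve HahnSeries

namespace Fermat.Agent.GalRep

open Fermat.Agent.Lib

section tw

variable {R : Type*} [CommRing R]

/-- the twisted series `f(u q)`, `u` a unit. -/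
noncomputable def ES_twFun (u : Rˣ) (f : LaurentSeries R) : LaurentSeries R where
  coeff n := ((u ^ n : Rˣ) : R) * f.coeff n
  isPWO_support' := f.isPWO_support.mono (fun n hn => by
    simp only [Function.mem_support, ne_eq] at hn
    exact fun h0 => hn (by rw [h0, mul_zero]))

@[simp]
theorem ES_twFun_coeff (u : Rˣ) (f : LaurentSeries R) (n : ℤ) :
    (ES_twFun u f).coeff n = ((u ^ n : Rˣ) : R) * f.coeff n := rfl

theorem ES_twFun_support (u : Rˣ) (f : LaurentSeries R) :
    (ES_twFun u f).support = f.support := by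
  ext n
  simp only [HahnSeries.mem_support, ES_twFun_coeff, ne_eq]
  constructor
  · exact fun h h0 => h (by rw [h0, mul_zero])
  · intro h h0
    exact h ((Units.mul_right_eq_zero (u ^ n)).mp h0)

/-- the twist `q ↦ u q` as a ring endomorphism of `R((q))`. -/
noncomputable def ES_tw (u : Rˣ) : LaurentSeries R →+* LaurentSeries R where
  toFun := ES_twFun u
  map_one' := by
    ext n
    rw [ES_twFun_coeff, HahnSeries.coeff_one]
    split_ifs with h
    · subst h; simp
    · simp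
  map_mul' f g := by
    ext n
    rw [ES_twFun_coeff, HahnSeries.coeff_mul, HahnSeries.coeff_mul, Finset.mul_sum]
    have hset : Finset.antidiagonal (ES_twFun u f).isPWO_support
        (ES_twFun u g).isPWO_support n =
        Finset.antidiagonal f.isPWO_support g.isPWO_support n := by
      ext ij
      simp only [Finset.mem_antidiagonal, ES_twFun_support]
    rw [hset]
    refine Finset.sum_congr rfl (fun ij hij => ?_)
    have hsum : ij.1 + ij.2 = n := (Finset.mem_antidiagonal.mp hij).2.2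
    rw [ES_twFun_coeff, ES_twFun_coeff, ← hsum, zpow_add, Units.val_mul]
    ring
  map_zero' := by
    ext n
    simp
  map_add' f g := by
    ext n
    simp [mul_add]

@[simp]
theorem ES_tw_coeff (u : Rˣ) (f : LaurentSeries R) (n : ℤ) :
    (ES_tw u f).coeff n = ((u ^ n : Rˣ) : R) * f.coeff n := rfl

theorem ES_tw_one (f : LaurentSeries R) : ES_tw (1 : Rˣ) f = f := by
  ext n
  simp

theorem ES_coeffMap_tw {S : Type*} [CommRing S] (φ : R →+* S) (u : Rˣ) (f : LaurentSeries R) :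
    coeffMap φ (ES_tw u f) = ES_tw (Units.map (φ : R →* S) u) (coeffMap φ f) := by
  ext n
  rw [coeffMap_coeff, ES_tw_coeff, ES_tw_coeff, coeffMap_coeff, map_mul, ← map_zpow]
  rfl

/-- comparison with the twist `CU_twist` over a field. -/
theorem ES_tw_mk0 {L : Type*} [Field L] (ζ : L) (hζ : ζ ≠ 0) (f : LaurentSeries L) :
    ES_tw (Units.mk0 ζ hζ) f = CU_twist ζ hζ f := by
  ext n
  rw [ES_tw_coeff, CU_twist_coeff, Units.val_zpow_eq_zpow_val, Units.val_mk0]

/-- descent along `q ↦ q ^ n`, over a ring. -/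
theorem ES_descend (n : ℕ) [NeZero n] (y : LaurentSeries R)
    (hy : ∀ m : ℤ, y.coeff m ≠ 0 → (n : ℤ) ∣ m) :
    ∃ Y : LaurentSeries R, qExpand R n Y = y := by
  have hn : (0 : ℤ) < n := by exact_mod_cast Nat.pos_of_ne_zero (NeZero.ne n)
  have hbdd : BddBelow (Function.support (fun k : ℤ => y.coeff (n * k))) := by
    by_cases hy0 : y = 0
    · refine ⟨0, fun k hk => ?_⟩
      simp [hy0] at hk
    refine ⟨min y.order 0, fun k hk => ?_⟩
    have h1 : y.order ≤ n * k := HahnSeries.order_le_of_coeff_ne_zero hk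
    rcases le_or_gt 0 k with h | h
    · exact le_trans (min_le_right _ _) h
    · have : (n : ℤ) * k ≤ k := by nlinarith
      exact le_trans (min_le_left _ _) (le_trans h1 this)
  refine ⟨HahnSeries.ofSuppBddBelow _ hbdd, ?_⟩
  ext m
  by_cases hm : (n : ℤ) ∣ m
  · obtain ⟨k, rfl⟩ := hm
    rw [qExpand_coeff_mul]
    rfl
  · rw [qExpand_coeff_of_not_dvd _ _ hm]
    by_contra h
    exact hm (hy m (Ne.symm h))

theorem ES_qExpand_C (n : ℕ) [NeZero n] (c : R) :
    qExpand R n (HahnSeries.C c) = HahnSeries.C c := qExpand_C n c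

theorem ES_tw_C (u : Rˣ) (c : R) : ES_tw u (HahnSeries.C c) = HahnSeries.C c := by
  ext n
  rw [ES_tw_coeff]
  show _ * (HahnSeries.single (0 : ℤ) c).coeff n = (HahnSeries.single (0 : ℤ) c).coeff n
  by_cases h : n = 0
  · subst h; simp
  · rw [HahnSeries.coeff_single_of_ne h, mul_zero]

end tw

section rhs

variable {R : Type*} [CommRing R]

/-- `f(q^{ℓ²}) · ∏_{i<ℓ} f(u^i q)`: the right-hand side of (H1). -/
noncomputable def ES_rhs (ℓ : ℕ) [NeZero ℓ] (u : Rˣ) (f : LaurentSeries R) : LaurentSeries R :=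
  qExpand R ℓ (qExpand R ℓ f) * ∏ i ∈ Finset.range ℓ, ES_tw (u ^ i) f

variable (ℓ : ℕ) [NeZero ℓ]

theorem ES_rhs_one (u : Rˣ) : ES_rhs ℓ u (1 : LaurentSeries R) = 1 := by
  simp [ES_rhs]

theorem ES_rhs_mul (u : Rˣ) (f g : LaurentSeries R) :
    ES_rhs ℓ u (f * g) = ES_rhs ℓ u f * ES_rhs ℓ u g := by
  simp only [ES_rhs, map_mul, Finset.prod_mul_distrib]
  ring

theorem ES_rhs_C (u : Rˣ) (c : R) :
    ES_rhs ℓ u (HahnSeries.C c) = HahnSeries.C (c ^ (ℓ + 1)) := by
  simp only [ES_rhs, ES_qExpand_C, ES_tw_C, Finset.prod_const, Finset.card_range]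
  rw [← map_pow, ← map_mul, pow_succ']

theorem ES_coeffMap_rhs {S : Type*} [CommRing S] (φ : R →+* S) (u : Rˣ) (f : LaurentSeries R) :
    coeffMap φ (ES_rhs ℓ u f) = ES_rhs ℓ (Units.map (φ : R →* S) u) (coeffMap φ f) := by
  simp only [ES_rhs, map_mul, map_prod, coeffMap_qExpand, ES_coeffMap_tw, map_pow]

/-- in characteristic `ℓ`: `f(q^{ℓ²}) · f(q)^ℓ = (f(q^ℓ) · f^φ(q))(q^ℓ)`. -/
theorem ES_rhs_char [Fact ℓ.Prime] [CharP R ℓ] (f : LaurentSeries R) :
    ES_rhs ℓ (1 : Rˣ) f = qExpand R ℓ (qExpand R ℓ f * coeffMap (frobenius R ℓ) f) := by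
  simp only [ES_rhs, one_pow, ES_tw_one, Finset.prod_const, Finset.card_range, map_mul]
  rw [LT_pow_char ℓ f]

/-- **integrality of `T_ℓ^{mult}`**: if `ι : R → L` is injective, `y ∈ R((q))` and
`W ∈ L((q))` satisfies (H1) for `ι y`, then `W = ι w` with `w ∈ R((q))` satisfying (H1)
for `y`. -/
theorem ES_exists_int {L : Type*} [CommRing L] (ι : R →+* L) (hι : Function.Injective ι)
    (u : Rˣ) (y : LaurentSeries R) (W : LaurentSeries L)
    (hW : qExpand L ℓ W = ES_rhs ℓ (Units.map (ι : R →* L) u) (coeffMap ι y)) :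
    ∃ w : LaurentSeries R, coeffMap ι w = W ∧ qExpand R ℓ w = ES_rhs ℓ u y := by
  have hz : coeffMap ι (ES_rhs ℓ u y) = qExpand L ℓ W := by
    rw [hW, ES_coeffMap_rhs]
  obtain ⟨w, hw⟩ := ES_descend ℓ (ES_rhs ℓ u y) (fun m hm => by
    by_contra hnd
    apply hm
    apply hι
    rw [map_zero, ← coeffMap_coeff, hz, qExpand_coeff_of_not_dvd ℓ _ hnd])
  refine ⟨w, ?_, hw⟩
  apply qExpand_injective (R := L) ℓ
  rw [← coeffMap_qExpand, hw, hz]

/-- the reduction of `T_ℓ^{mult} y`: if `ρ u = 1` and the target has characteristic `ℓ`. -/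
theorem ES_red_int {k : Type*} [CommRing k] [Fact ℓ.Prime] [CharP k ℓ] (ρ : R →+* k)
    (u : Rˣ) (hu : ρ u = 1) (y w : LaurentSeries R) (hw : qExpand R ℓ w = ES_rhs ℓ u y) :
    coeffMap ρ w = qExpand k ℓ (coeffMap ρ y) * coeffMap (frobenius k ℓ) (coeffMap ρ y) := by
  apply qExpand_injective (R := k) ℓ
  have hu' : Units.map (ρ : R →* k) u = 1 := Units.ext hu
  rw [← coeffMap_qExpand, hw, ES_coeffMap_rhs, hu', ES_rhs_char]

end rhs

end Fermat.Agent.GalRep
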