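import Fermat.Agent.GalRep.ES
import Fermat.Agent.GalRep.Geom

/-!
# Pillar G, package ES (helper16), part 4: wiring into the interface `Geom.lean`

* `ES_unram : GR_S18Stmt → GR_RIStmt → GR_UnramStmt N` (package UNRAM);
* `ES_es`: the field `es` of `GR_HeckeES N ℓ`, for every `t` with the `q`-expansion formula (H1)
  and the field `kum`.
-/

set_option autoImplicit false
set_option synthInstance.maxHeartbeats 400000
set_option maxHeartbeats 1000000
set_option linter.unusedSectionVars false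
set_option linter.style.haveILetI false

open HahnSeries IntermediateField AlgebraicCurve ModularCurve

namespace Fermat.Agent.GalRep

/-- **UNRAM** from S18 + RI. -/
theorem ES_unram (h18 : GR_S18Stmt) (hRI : GR_RIStmt) (N : ℕ) [NeZero N] : GR_UnramStmt N := by
  intro n q _ hq hqN hqn P hP τ hτ f hf
  haveI : Fact q.Prime := ⟨hq⟩
  haveI : NeZero q := ⟨hq.ne_zero⟩
  have h := hRI N q hq hqN P hP
  exact ES_inertia_triv N q P h n hqn
    (fun m hm z hmz hz => h18 N hqN P hP h m hm z hmz hz) τ hτ f hf.1 hf.2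

/-- the field **es** of `GR_HeckeES N ℓ` from S18 + RI, for an operator `t` with the
`q`-expansion formula (H1) `(t f)(q^ℓ) = f(q^{ℓ²}) · ∏_{i<ℓ} f(ζ^i q)` preserving Kummer
generators. -/
theorem ES_es (h18 : GR_S18Stmt) (hRI : GR_RIStmt) (N : ℕ) [NeZero N] (ℓ : ℕ) [Fact ℓ.Prime]
    [NeZero ℓ] (ζ : (AlgebraicClosure ℚ)ˣ) (hζ : ζ ^ ℓ = 1)
    (t : ↥(modularFunctionFieldBar N) →*₀ ↥(modularFunctionFieldBar N))
    (ht : ∀ f : ↥(modularFunctionFieldBar N), f ≠ 0 →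
      qExpand (AlgebraicClosure ℚ) ℓ (t f : LaurentSeries (AlgebraicClosure ℚ)) =
        ES_rhs ℓ ζ (f : LaurentSeries (AlgebraicClosure ℚ)))
    (hkum : ∀ (n : ℕ) (f : ↥(modularFunctionFieldBar N)),
      KM_IsKum (AlgebraicClosure ℚ) ↥(modularFunctionFieldBar N) n f →
      KM_IsKum (AlgebraicClosure ℚ) ↥(modularFunctionFieldBar N) n (t f)) :
    ¬ ℓ ∣ N → ∀ (n : ℕ), 0 < n → ¬ ℓ ∣ n → ∀ (f : ↥(modularFunctionFieldBar N)),
    KM_IsKum (AlgebraicClosure ℚ) ↥(modularFunctionFieldBar N) n f →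
    ∀ σ : GQ, GR_IsFrob ℓ σ →
      GR_IsTriv N n (t f * (GR_gal N σ f * (GR_gal N σ⁻¹ f) ^ ℓ)⁻¹) := by
  rintro hℓN n _ hℓn f hf σ ⟨A, hA, hσ⟩
  have hℓ : ℓ.Prime := Fact.out
  have h := hRI N ℓ hℓ hℓN A hA
  exact ES_frob_triv N ℓ hℓ A hA h n hℓn
    (fun m hm z hmz hz => h18 N hℓN A hA h m hm z hmz hz) σ hσ ζ hζ t ht f hf.1 hf.2
    (hkum n f hf).2

end Fermat.Agent.GalRep
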