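import Mathlib
import Fermat.Agent.GalRep.Geom
import Fermat.Agent.S22.Gamma0FG

/-!
# Pillar G (GALREP), package FIN (helper21): finite level of Kummer classes

* `GRF_finite_hom`   : homomorphisms from a finitely generated group to a finite monoid are
  finite in number.
* `GRF_exists_level` : every `f ∈ F = modularFunctionFieldBar N` is fixed by the Galois group of a
  number field.
* `GR_fin`           : `GR_KappaStmt N → GR_FinStmt N`.
-/

set_option autoImplicit false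

open ModularCurve AlgebraicCurve CongruenceSubgroup IntermediateField
open scoped MatrixGroups

namespace Fermat.Agent.GalRep

/-- homomorphisms from a finitely generated group to a finite additive monoid are finite in
number. -/
theorem GRF_finite_hom (G A : Type*) [Group G] [hG : Group.FG G] [AddCommMonoid A] [Finite A] :
    Finite (Additive G →+ A) := by
  obtain ⟨S, hS, hSfin⟩ := Group.fg_iff.1 hG
  have : Finite S := hSfin
  let Φ : (Additive G →+ A) → (S → A) := fun χ s => χ (Additive.ofMul (s : G))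
  have hΦ : Function.Injective Φ := by
    intro χ χ' h
    have h1 : AddMonoidHom.toMultiplicativeRight χ = AddMonoidHom.toMultiplicativeRight χ' := by
      apply MonoidHom.eq_of_eqOn_dense hS
      intro s hs
      exact congrArg Multiplicative.ofAdd (congrFun h ⟨s, hs⟩)
    exact AddMonoidHom.toMultiplicativeRight.injective h1
  exact Finite.of_injective Φ hΦ

/-- every element of `F` is fixed by the Galois group of a number field. -/
theorem GRF_exists_level (N : ℕ) (f : ↥(modularFunctionFieldBar N)) :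
    ∃ L : IntermediateField ℚ (AlgebraicClosure ℚ), FiniteDimensional ℚ L ∧
      ∀ σ : GQ, (∀ x ∈ L, σ x = x) → GR_gal N σ f = f := by
  obtain ⟨x, hx⟩ := f
  suffices h : ∃ L : IntermediateField ℚ (AlgebraicClosure ℚ), FiniteDimensional ℚ L ∧
      ∀ σ : GQ, (∀ c ∈ L, σ c = c) →
        coeffMap ((σ : AlgebraicClosure ℚ ≃ₐ[ℚ] AlgebraicClosure ℚ) :
          AlgebraicClosure ℚ →+* AlgebraicClosure ℚ) x = x by
    obtain ⟨L, hL, h⟩ := h
    exact ⟨L, hL, fun σ hσ => Subtype.ext (h σ hσ)⟩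
  have hx' := (mem_laurentBaseChange_iff (L := AlgebraicClosure ℚ)
    (F₀ := modularFunctionFieldFull N)).1 hx
  clear hx
  induction hx' using Subfield.closure_induction with
  | mem y hy =>
      rcases hy with ⟨a, rfl⟩ | ⟨z, hz, rfl⟩
      · refine ⟨ℚ⟮a⟯, ?_, fun σ hσ => ?_⟩
        · exact IntermediateField.adjoin.finiteDimensional
            ((AlgebraicClosure.isAlgebraic ℚ).isAlgebraic a).isIntegral
        · rw [coeffMap_algebraMap]
          congr 1
          exact hσ a (mem_adjoin_simple_self ℚ a)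
      · exact ⟨⊥, inferInstance, fun σ _ => coeffMap_coeffEmb σ z⟩
  | one => exact ⟨⊥, inferInstance, fun σ _ => map_one _⟩
  | add x y _ _ hx hy =>
      obtain ⟨L₁, h1, h1'⟩ := hx
      obtain ⟨L₂, h2, h2'⟩ := hy
      refine ⟨L₁ ⊔ L₂, IntermediateField.finiteDimensional_sup L₁ L₂, fun σ hσ => ?_⟩
      rw [map_add, h1' σ (fun c hc => hσ c ((le_sup_left : L₁ ≤ L₁ ⊔ L₂) hc)),
        h2' σ (fun c hc => hσ c ((le_sup_right : L₂ ≤ L₁ ⊔ L₂) hc))]
  | neg x _ hx =>
      obtain ⟨L₁, h1, h1'⟩ := hx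
      exact ⟨L₁, h1, fun σ hσ => by rw [map_neg, h1' σ hσ]⟩
  | inv x _ hx =>
      obtain ⟨L₁, h1, h1'⟩ := hx
      exact ⟨L₁, h1, fun σ hσ => by rw [map_inv₀, h1' σ hσ]⟩
  | mul x y _ _ hx hy =>
      obtain ⟨L₁, h1, h1'⟩ := hx
      obtain ⟨L₂, h2, h2'⟩ := hy
      refine ⟨L₁ ⊔ L₂, IntermediateField.finiteDimensional_sup L₁ L₂, fun σ hσ => ?_⟩
      rw [map_mul, h1' σ (fun c hc => hσ c ((le_sup_left : L₁ ≤ L₁ ⊔ L₂) hc)),
        h2' σ (fun c hc => hσ c ((le_sup_right : L₂ ≤ L₁ ⊔ L₂) hc))]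

section Kum

variable {K F : Type} [Field K] [Field F] [Algebra K F]

theorem GRF_isKum_mul {n : ℕ} {f g : F} (hf : KM_IsKum K F n f) (hg : KM_IsKum K F n g) :
    KM_IsKum K F n (f * g) := by
  refine ⟨mul_ne_zero hf.1 hg.1, fun v => ?_⟩
  rw [v.ord_mul hf.1 hg.1]
  exact dvd_add (hf.2 v) (hg.2 v)

theorem GRF_isKum_inv {n : ℕ} {f : F} (hf : KM_IsKum K F n f) : KM_IsKum K F n f⁻¹ := by
  refine ⟨inv_ne_zero hf.1, fun v => ?_⟩
  rw [v.ord_inv]
  exact (dvd_neg).2 (hf.2 v)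

end Kum

/-- **FIN** from the four properties `ex`, `uniq`, `mul`, `inj` of the Kummer character. -/
theorem GRF_fin_of (N : ℕ) [NeZero N]
    (hex : ∀ (n : ℕ), 0 < n → ∀ f : ↥(modularFunctionFieldBar N),
      KM_IsKum (AlgebraicClosure ℚ) ↥(modularFunctionFieldBar N) n f →
      ∃ χ : Additive (Gamma0 N) →+ ZMod n, GR_KChar N n f χ)
    (huniq : ∀ (n : ℕ), 0 < n → ∀ (f : ↥(modularFunctionFieldBar N))
      (χ χ' : Additive (Gamma0 N) →+ ZMod n), f ≠ 0 → GR_KChar N n f χ → GR_KChar N n f χ' →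
      χ = χ')
    (hmul : ∀ (n : ℕ), 0 < n → ∀ (f f' : ↥(modularFunctionFieldBar N))
      (χ χ' : Additive (Gamma0 N) →+ ZMod n),
      GR_KChar N n f χ → GR_KChar N n f' χ' → GR_KChar N n (f * f') (χ + χ'))
    (hinj : ∀ (n : ℕ), 0 < n → ∀ f : ↥(modularFunctionFieldBar N),
      KM_IsKum (AlgebraicClosure ℚ) ↥(modularFunctionFieldBar N) n f → GR_KChar N n f 0 →
      GR_IsTriv N n f) :
    GR_FinStmt N := by
  classical
  intro n hn
  have hn0 : NeZero n := ⟨hn.ne'⟩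
  have hfg := Fermat.Agent.S22.gamma0_fg N
  have hfin : Finite (Additive (Gamma0 N) →+ ZMod n) := GRF_finite_hom _ _
  -- representatives of the Kummer classes
  have hrep : ∀ χ : Additive (Gamma0 N) →+ ZMod n, ∃ f₀ : ↥(modularFunctionFieldBar N),
      (∃ f : ↥(modularFunctionFieldBar N),
        KM_IsKum (AlgebraicClosure ℚ) ↥(modularFunctionFieldBar N) n f ∧ GR_KChar N n f χ) →
      KM_IsKum (AlgebraicClosure ℚ) ↥(modularFunctionFieldBar N) n f₀ ∧ GR_KChar N n f₀ χ := by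
    intro χ
    by_cases h : ∃ f : ↥(modularFunctionFieldBar N),
        KM_IsKum (AlgebraicClosure ℚ) ↥(modularFunctionFieldBar N) n f ∧ GR_KChar N n f χ
    · obtain ⟨f, hf⟩ := h
      exact ⟨f, fun _ => hf⟩
    · exact ⟨1, fun h' => absurd h' h⟩
  choose rep hrep using hrep
  choose Lf hLf hLf' using fun χ : Additive (Gamma0 N) →+ ZMod n => GRF_exists_level N (rep χ)
  refine ⟨⨆ χ, Lf χ, IntermediateField.finiteDimensional_iSup_of_finite, ?_⟩
  intro σ hσ f hf
  obtain ⟨χ, hχ⟩ := hex n hn f hf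
  obtain ⟨hk₀, hχ₀⟩ := hrep χ ⟨f, hf, hχ⟩
  have hσ₀ : GR_gal N σ (rep χ) = rep χ :=
    hLf' χ σ (fun c hc => hσ c ((le_iSup Lf χ : Lf χ ≤ ⨆ χ, Lf χ) hc))
  -- the character of `(rep χ)⁻¹`
  have hkinv := GRF_isKum_inv hk₀
  obtain ⟨χ', hχ'⟩ := hex n hn _ hkinv
  have h1 : GR_KChar N n (rep χ * (rep χ)⁻¹) (χ + χ') := hmul n hn _ _ _ _ hχ₀ hχ'
  rw [mul_inv_cancel₀ hk₀.1] at h1
  have h1' : GR_KChar N n (1 : ↥(modularFunctionFieldBar N)) 0 := by
    have hk1 : KM_IsKum (AlgebraicClosure ℚ) ↥(modularFunctionFieldBar N) n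
        (1 : ↥(modularFunctionFieldBar N)) := by
      refine ⟨one_ne_zero, fun v => ?_⟩
      rw [v.ord_one]
      exact dvd_zero _
    obtain ⟨χ₁, hχ₁⟩ := hex n hn 1 hk1
    have h11 := hmul n hn _ _ _ _ hχ₁ hχ₁
    rw [one_mul] at h11
    have := huniq n hn 1 _ _ one_ne_zero h11 hχ₁
    have hz : χ₁ = 0 := by
      have h3 : χ₁ + χ₁ = χ₁ + 0 := by rw [this, add_zero]
      exact add_left_cancel h3
    rwa [hz] at hχ₁
  have hsum : χ + χ' = 0 := huniq n hn 1 _ _ one_ne_zero h1 h1'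
  have h2 : GR_KChar N n (f * (rep χ)⁻¹) 0 := by
    have := hmul n hn _ _ _ _ hχ hχ'
    rwa [hsum] at this
  obtain ⟨c, g, hc, hg, hfg⟩ := hinj n hn _ (GRF_isKum_mul hf hkinv) h2
  have hcF : algebraMap (AlgebraicClosure ℚ) ↥(modularFunctionFieldBar N) c ≠ 0 := by
    rw [Ne, map_eq_zero]
    exact hc
  have hf' : f = rep χ * (algebraMap (AlgebraicClosure ℚ) ↥(modularFunctionFieldBar N) c *
      g ^ n) := by
    rw [← hfg, mul_comm f, ← mul_assoc, mul_inv_cancel₀ hk₀.1, one_mul]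
  have hσc : GR_gal N σ (algebraMap (AlgebraicClosure ℚ) ↥(modularFunctionFieldBar N) c) =
      algebraMap (AlgebraicClosure ℚ) ↥(modularFunctionFieldBar N) (σ c) :=
    arithmeticRingAut_algebraMap (modularFunctionFieldFull N) σ c
  have hσg : GR_gal N σ g ≠ 0 := by
    rw [Ne, map_eq_zero_iff _ (GR_gal N σ).injective]
    exact hg
  have hσc0 : σ c ≠ 0 := by
    rw [Ne, map_eq_zero_iff _ σ.injective]
    exact hc
  refine ⟨σ c / c, GR_gal N σ g * g⁻¹, div_ne_zero hσc0 hc, mul_ne_zero hσg (inv_ne_zero hg), ?_⟩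
  have hσf : GR_gal N σ f = rep χ * (algebraMap (AlgebraicClosure ℚ)
      ↥(modularFunctionFieldBar N) (σ c) * (GR_gal N σ g) ^ n) := by
    conv_lhs => rw [hf']
    rw [map_mul, map_mul, map_pow, hσ₀, hσc]
  have hr0 : rep χ ≠ 0 := hk₀.1
  rw [hσf]
  conv_lhs => rw [hf']
  rw [map_div₀, mul_pow, inv_pow]
  field_simp

/-- **FIN**: every Kummer class of exponent `n` is fixed by an open subgroup. -/
theorem GR_fin (N : ℕ) [NeZero N] (hK : GR_KappaStmt N) : GR_FinStmt N :=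
  GRF_fin_of N
    (fun n hn f hf => by
      obtain ⟨χ, -, hχ⟩ := hK.ex n hn f hf
      exact ⟨χ, hχ⟩)
    hK.uniq (fun n _ => hK.mul n) hK.inj

end Fermat.Agent.GalRep
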