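import Mathlib
import Fermat.Agent.S16.LB.LiftB
import Fermat.Agent.GalRep.DimHecke

/-!
# Pillar G, package TOWER (helper7), part 1: `ℤ/n ⊗ parInt N ≅` elliptic characters mod `n`

* `GRT_X N n` : the `ℤ/n`-module of the elliptic characters `Γ₀(N) → ℤ/n`
  (those killing the elements of trace `0, ±1, ±2`);
* `GRT_iso N n` : `ℤ/n ⊗ parInt N ≃ GRT_X N n` (`a ⊗ χ ↦ a • (χ mod n)`), for `n ≠ 0`
  (surjective by `S16_exists_lift`, injective by `exists_div_of_redMod_eq_zero`);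
* `GRT_iso_cast` : compatibility with the reductions `ℤ/(n m) → ℤ/n`;
* `GRT_TX N n ℓ` : the Hecke operator on `GRT_X N n` transported from `parInt N`, with the
  coset formulas `GRT_TX_heckeT`, `GRT_TX_heckeU`.
-/

set_option autoImplicit false

open CongruenceSubgroup Matrix.SpecialLinearGroup Module
open ModularCurve ModularCurve.Period
open scoped MatrixGroups TensorProduct
open P2MW.S_ModularForm_heckeT_slash_eq_self_of_mem_Gamma0.ModularForm.HeckeSlashInvariance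
open ModularForm

namespace Fermat.Agent.GalRep

open Fermat.Agent.S16

variable (N : ℕ) [NeZero N]

/-- The elliptic characters `Γ₀(N) → ℤ/n`. -/
def GRT_X (n : ℕ) : Submodule (ZMod n) (Additive (Gamma0 N) →+ ZMod n) where
  carrier := {χ | ∀ γ : Gamma0 N,
    ((γ : SL(2, ℤ)) : Matrix (Fin 2) (Fin 2) ℤ).trace ^ 2 ≤ 4 → χ (Additive.ofMul γ) = 0}
  zero_mem' := fun _ _ => rfl
  add_mem' := by
    intro φ ψ hφ hψ γ hγ
    show φ (Additive.ofMul γ) + ψ (Additive.ofMul γ) = 0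
    rw [hφ γ hγ, hψ γ hγ, add_zero]
  smul_mem' := by
    intro c φ hφ γ hγ
    show c • φ (Additive.ofMul γ) = 0
    rw [hφ γ hγ, smul_zero]

variable {N} in
omit [NeZero N] in
theorem GRT_mem_X {n : ℕ} {χ : Additive (Gamma0 N) →+ ZMod n} :
    χ ∈ GRT_X N n ↔ ∀ γ : Gamma0 N,
      ((γ : SL(2, ℤ)) : Matrix (Fin 2) (Fin 2) ℤ).trace ^ 2 ≤ 4 → χ (Additive.ofMul γ) = 0 :=
  Iff.rfl

/-- reduction mod `n` of the integral parabolic classes. -/
noncomputable def GRT_red (n : ℕ) : ↥(parInt N) →ₗ[ℤ] ↥(GRT_X N n) where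
  toFun χ := ⟨redMod n (Gamma0 N) χ.1, fun γ hγ => by
    rw [redMod_apply, ell_of_parabolic χ.1 χ.2 γ hγ, Int.cast_zero]⟩
  map_add' χ ψ := by
    apply Subtype.ext
    exact map_add (redMod n (Gamma0 N)) χ.1 ψ.1
  map_smul' c χ := by
    apply Subtype.ext
    exact map_zsmul (redMod n (Gamma0 N)) c χ.1

omit [NeZero N] in
theorem GRT_red_apply (n : ℕ) (χ : ↥(parInt N)) (γ : Additive (Gamma0 N)) :
    ((GRT_red N n χ : ↥(GRT_X N n)) : Additive (Gamma0 N) →+ ZMod n) γ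
      = (((χ : Additive (Gamma0 N) →+ ℤ) γ : ℤ) : ZMod n) := rfl

/-- the map `ℤ/n ⊗ parInt N → GRT_X N n`, `a ⊗ χ ↦ a • (χ mod n)`. -/
noncomputable def GRT_phi (n : ℕ) : (ZMod n ⊗[ℤ] ↥(parInt N)) →ₗ[ZMod n] ↥(GRT_X N n) :=
  (GRT_red N n).liftBaseChange (ZMod n)

omit [NeZero N] in
theorem GRT_phi_tmul (n : ℕ) (a : ZMod n) (χ : ↥(parInt N)) :
    GRT_phi N n (a ⊗ₜ χ) = a • GRT_red N n χ := rfl

omit [NeZero N] in
/-- every element of `ℤ/n ⊗ L` is of the form `1 ⊗ χ`. -/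
theorem GRT_exists_one_tmul (n : ℕ) [NeZero n] (x : ZMod n ⊗[ℤ] ↥(parInt N)) :
    ∃ χ : ↥(parInt N), x = (1 : ZMod n) ⊗ₜ[ℤ] χ := by
  induction x using TensorProduct.induction_on with
  | zero => exact ⟨0, (TensorProduct.tmul_zero _ _).symm⟩
  | tmul a χ =>
    refine ⟨(a.val : ℤ) • χ, ?_⟩
    rw [← TensorProduct.smul_tmul]
    congr 1
    rw [zsmul_eq_mul, mul_one, Int.cast_natCast, ZMod.natCast_zmod_val]
  | add x y hx hy =>
    obtain ⟨χ, rfl⟩ := hx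
    obtain ⟨ψ, rfl⟩ := hy
    exact ⟨χ + ψ, (TensorProduct.tmul_add _ _ _).symm⟩

omit [NeZero N] in
theorem GRT_phi_injective (n : ℕ) [NeZero n] : Function.Injective (GRT_phi N n) := by
  rw [injective_iff_map_eq_zero]
  intro x hx
  obtain ⟨χ, rfl⟩ := GRT_exists_one_tmul N n x
  rw [GRT_phi_tmul, one_smul] at hx
  have h0 : redMod n (Gamma0 N) χ.1 = 0 := congrArg Subtype.val hx
  obtain ⟨χ', hχ', hχ⟩ := exists_div_of_redMod_eq_zero (NeZero.ne n) χ.2 h0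
  have : χ = (n : ℤ) • (⟨χ', hχ'⟩ : ↥(parInt N)) := by
    apply Subtype.ext
    rw [hχ]
    simp
  rw [this, ← TensorProduct.smul_tmul]
  simp

theorem GRT_phi_surjective (n : ℕ) [NeZero n] : Function.Surjective (GRT_phi N n) := by
  intro ψ
  obtain ⟨χ, hχ, h⟩ := S16_exists_lift n (NeZero.ne n) ψ.1 ψ.2
  refine ⟨(1 : ZMod n) ⊗ₜ[ℤ] (⟨χ, hχ⟩ : ↥(parInt N)), ?_⟩
  rw [GRT_phi_tmul, one_smul]
  apply Subtype.ext
  refine AddMonoidHom.ext fun γ => ?_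
  exact h γ

/-- **`ℤ/n ⊗ parInt N ≅` elliptic characters mod `n`.** -/
noncomputable def GRT_iso (n : ℕ) [NeZero n] :
    (ZMod n ⊗[ℤ] ↥(parInt N)) ≃ₗ[ZMod n] ↥(GRT_X N n) :=
  LinearEquiv.ofBijective (GRT_phi N n) ⟨GRT_phi_injective N n, GRT_phi_surjective N n⟩

theorem GRT_iso_tmul (n : ℕ) [NeZero n] (a : ZMod n) (χ : ↥(parInt N)) :
    GRT_iso N n (a ⊗ₜ χ) = a • GRT_red N n χ := rfl

theorem GRT_iso_one_tmul (n : ℕ) [NeZero n] (χ : ↥(parInt N)) :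
    GRT_iso N n ((1 : ZMod n) ⊗ₜ χ) = GRT_red N n χ := by
  rw [GRT_iso_tmul, one_smul]

/-- every elliptic character is the reduction of an integral class. -/
theorem GRT_exists_red (n : ℕ) [NeZero n] (ψ : ↥(GRT_X N n)) :
    ∃ χ : ↥(parInt N), GRT_red N n χ = ψ := by
  obtain ⟨x, hx⟩ := GRT_phi_surjective N n ψ
  obtain ⟨χ, rfl⟩ := GRT_exists_one_tmul N n x
  exact ⟨χ, by rw [← hx, GRT_phi_tmul, one_smul]⟩

/-! ### compatibility with the reductions `ℤ/n' → ℤ/n` -/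

omit [NeZero N] in
/-- reduction of elliptic characters along `ℤ/n' → ℤ/n`. -/
theorem GRT_cast_mem {n n' : ℕ} (h : n ∣ n') (ψ : ↥(GRT_X N n')) :
    (ZMod.castHom h (ZMod n)).toAddMonoidHom.comp (ψ : Additive (Gamma0 N) →+ ZMod n')
      ∈ GRT_X N n := by
  intro γ hγ
  show ZMod.castHom h (ZMod n) ((ψ : Additive (Gamma0 N) →+ ZMod n') (Additive.ofMul γ)) = 0
  rw [ψ.2 γ hγ, map_zero]

omit [NeZero N] in
theorem GRT_phi_cast {n n' : ℕ} (h : n ∣ n') (x : ZMod n' ⊗[ℤ] ↥(parInt N)) :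
    ((GRT_phi N n (LinearMap.rTensor ↥(parInt N)
        ((ZMod.castHom h (ZMod n)).toAddMonoidHom.toIntLinearMap) x) : ↥(GRT_X N n)) :
          Additive (Gamma0 N) →+ ZMod n)
      = (ZMod.castHom h (ZMod n)).toAddMonoidHom.comp
          ((GRT_phi N n' x : ↥(GRT_X N n')) : Additive (Gamma0 N) →+ ZMod n') := by
  induction x using TensorProduct.induction_on with
  | zero =>
    simp only [map_zero]
    exact (AddMonoidHom.comp_zero _).symm
  | tmul a χ =>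
    rw [LinearMap.rTensor_tmul, GRT_phi_tmul, GRT_phi_tmul]
    refine AddMonoidHom.ext fun γ => ?_
    show ZMod.castHom h (ZMod n) a * ((((χ : Additive (Gamma0 N) →+ ℤ) γ : ℤ)) : ZMod n)
      = ZMod.castHom h (ZMod n) (a * ((((χ : Additive (Gamma0 N) →+ ℤ) γ : ℤ)) : ZMod n'))
    rw [map_mul, map_intCast]
  | add x y hx hy =>
    simp only [map_add]
    rw [Submodule.coe_add, Submodule.coe_add, hx, hy]
    exact (AddMonoidHom.comp_add _ _ _).symm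

/-! ### Hecke operators on the elliptic characters -/

/-- the operator on `GRT_X N n` induced by an endomorphism of `parInt N`. -/
noncomputable def GRT_TX (n : ℕ) [NeZero n] (T : Module.End ℤ ↥(parInt N)) :
    Module.End (ZMod n) ↥(GRT_X N n) :=
  (GRT_iso N n).conj (T.baseChange (ZMod n))

theorem GRT_TX_iso (n : ℕ) [NeZero n] (T : Module.End ℤ ↥(parInt N))
    (x : ZMod n ⊗[ℤ] ↥(parInt N)) :
    GRT_TX N n T (GRT_iso N n x) = GRT_iso N n (T.baseChange (ZMod n) x) := by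
  unfold GRT_TX
  rw [LinearEquiv.conj_apply_apply, LinearEquiv.symm_apply_apply]

theorem GRT_TX_red (n : ℕ) [NeZero n] (T : Module.End ℤ ↥(parInt N)) (χ : ↥(parInt N)) :
    GRT_TX N n T (GRT_red N n χ) = GRT_red N n (T χ) := by
  rw [← GRT_iso_one_tmul, GRT_TX_iso, LinearMap.baseChange_tmul, GRT_iso_one_tmul]

/-- coset formula for `T_ℓ` on elliptic characters. -/
theorem GRT_TX_heckeT (n : ℕ) [NeZero n] (ℓ : Nat.Primes) [Fact (ℓ : ℕ).Prime]
    (hℓ : ¬ (ℓ : ℕ) ∣ N) (ψ : ↥(GRT_X N n)) (γ : Gamma0 N)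
    (σ : Equiv.Perm (OnePoint (ZMod ℓ))) (g' : OnePoint (ZMod ℓ) → Gamma0 N)
    (hmul : ∀ i, heckeRep ℓ i * mapGL ℝ (γ : SL(2, ℤ))
      = mapGL ℝ (g' i : SL(2, ℤ)) * heckeRep ℓ (σ i)) :
    ((GRT_TX N n (GRD_heckeL N (ModularCurve.heckeGen ℓ)) ψ : ↥(GRT_X N n)) :
        Additive (Gamma0 N) →+ ZMod n) (Additive.ofMul γ)
      = ∑ i, (ψ : Additive (Gamma0 N) →+ ZMod n) (Additive.ofMul (g' i)) := by
  obtain ⟨χ, rfl⟩ := GRT_exists_red N n ψ
  rw [GRT_TX_red, GRT_red_apply, GRD_heckeL_heckeT N ℓ hℓ χ γ σ g' hmul]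
  push_cast
  rfl

/-- coset formula for `U_q` on elliptic characters. -/
theorem GRT_TX_heckeU (n : ℕ) [NeZero n] (q : Nat.Primes) [Fact (q : ℕ).Prime]
    (hq : (q : ℕ) ∣ N) (ψ : ↥(GRT_X N n)) (γ : Gamma0 N)
    (σ : Equiv.Perm (ZMod q)) (g' : ZMod q → Gamma0 N)
    (hmul : ∀ i, heckeMatrix q i.val * mapGL ℝ (γ : SL(2, ℤ))
      = mapGL ℝ (g' i : SL(2, ℤ)) * heckeMatrix q (σ i).val) :
    ((GRT_TX N n (GRD_heckeL N (ModularCurve.heckeGen q)) ψ : ↥(GRT_X N n)) :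
        Additive (Gamma0 N) →+ ZMod n) (Additive.ofMul γ)
      = ∑ i, (ψ : Additive (Gamma0 N) →+ ZMod n) (Additive.ofMul (g' i)) := by
  obtain ⟨χ, rfl⟩ := GRT_exists_red N n ψ
  rw [GRT_TX_red, GRT_red_apply, GRD_heckeL_heckeU N q hq χ γ σ g' hmul]
  push_cast
  rfl

end Fermat.Agent.GalRep
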