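import Mathlib
import Fermat.Agent.GalRep.Geom
import Fermat.Agent.GalRep.TwrIso

/-!
# Pillar G, package TOWER (helper7), part 2: the Galois action on the elliptic characters

From `GR_KappaStmt N` (the Kummer character is a bijection between Kummer classes of exponent `n`
and elliptic characters `Γ₀(N) → ℤ/n`, Galois stable) we get the action of `G_ℚ` on
`GRT_X N n`: `GRT_act hK n hn : GQ →* Module.End (ZMod n) (GRT_X N n)`, characterised by
`GRT_act_spec`: if `χ` is the Kummer character of `f` then `GRT_act σ χ` is the Kummer character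
of `σ f`.
-/

set_option autoImplicit false

open ModularCurve AlgebraicCurve CongruenceSubgroup UpperHalfPlane Matrix.SpecialLinearGroup
open ModularCurve.Period
open scoped MatrixGroups TensorProduct

namespace Fermat.Agent.GalRep

open Fermat.Agent.S24 Fermat.Agent.S16

variable {N : ℕ} [NeZero N]

/-! ### Kummer generators: closure properties -/

omit [NeZero N] in
theorem GRT_isKum_mul {n : ℕ} {f g : ↥(modularFunctionFieldBar N)}
    (hf : KM_IsKum (AlgebraicClosure ℚ) ↥(modularFunctionFieldBar N) n f)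
    (hg : KM_IsKum (AlgebraicClosure ℚ) ↥(modularFunctionFieldBar N) n g) :
    KM_IsKum (AlgebraicClosure ℚ) ↥(modularFunctionFieldBar N) n (f * g) := by
  refine ⟨mul_ne_zero hf.1 hg.1, fun v => ?_⟩
  rw [v.ord_mul hf.1 hg.1]
  exact dvd_add (hf.2 v) (hg.2 v)

omit [NeZero N] in
theorem GRT_isKum_inv {n : ℕ} {f : ↥(modularFunctionFieldBar N)}
    (hf : KM_IsKum (AlgebraicClosure ℚ) ↥(modularFunctionFieldBar N) n f) :
    KM_IsKum (AlgebraicClosure ℚ) ↥(modularFunctionFieldBar N) n f⁻¹ := by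
  refine ⟨inv_ne_zero hf.1, fun v => ?_⟩
  rw [v.ord_inv]
  exact (dvd_neg).mpr (hf.2 v)

omit [NeZero N] in
theorem GRT_isKum_of_dvd {n n' : ℕ} (h : n ∣ n') {f : ↥(modularFunctionFieldBar N)}
    (hf : KM_IsKum (AlgebraicClosure ℚ) ↥(modularFunctionFieldBar N) n' f) :
    KM_IsKum (AlgebraicClosure ℚ) ↥(modularFunctionFieldBar N) n f :=
  ⟨hf.1, fun v => (Int.natCast_dvd_natCast.mpr h).trans (hf.2 v)⟩

omit [NeZero N] in
theorem GRT_isTriv_one (n : ℕ) : GR_IsTriv N n (1 : ↥(modularFunctionFieldBar N)) :=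
  ⟨1, 1, one_ne_zero, one_ne_zero, by rw [map_one, one_pow, one_mul]⟩

omit [NeZero N] in
theorem GRT_isTriv_gal {n : ℕ} (σ : GQ) {f : ↥(modularFunctionFieldBar N)}
    (h : GR_IsTriv N n f) : GR_IsTriv N n (GR_gal N σ f) := by
  obtain ⟨c, g, hc, hg, rfl⟩ := h
  refine ⟨σ c, GR_gal N σ g, ?_, ?_, ?_⟩
  · exact (map_ne_zero_iff σ σ.injective).mpr hc
  · exact (map_ne_zero_iff (GR_gal N σ) (GR_gal N σ).injective).mpr hg
  · rw [map_mul, map_pow]
    congr 1
    exact arithmeticRingAut_algebraMap (modularFunctionFieldFull N) σ c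

omit [NeZero N] in
theorem GRT_gal_one (f : ↥(modularFunctionFieldBar N)) : GR_gal N 1 f = f := by
  have h : SemilinearAut.toRingAut
      (arithmeticGalois (L := AlgebraicClosure ℚ) (modularFunctionFieldFull N) 1) f
      = SemilinearAut.toRingAut
        (1 : SemilinearAut (AlgebraicClosure ℚ) ↥(modularFunctionFieldBar N)) f := by
    rw [map_one]
  exact h

omit [NeZero N] in
theorem GRT_gal_mul (σ τ : GQ) (f : ↥(modularFunctionFieldBar N)) :
    GR_gal N (σ * τ) f = GR_gal N σ (GR_gal N τ f) := by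
  have h : SemilinearAut.toRingAut
      (arithmeticGalois (L := AlgebraicClosure ℚ) (modularFunctionFieldFull N) (σ * τ)) f
      = SemilinearAut.toRingAut
        (arithmeticGalois (L := AlgebraicClosure ℚ) (modularFunctionFieldFull N) σ *
          arithmeticGalois (L := AlgebraicClosure ℚ) (modularFunctionFieldFull N) τ) f := by
    rw [map_mul]
  exact h

/-! ### consequences of KAPPA -/

section kappa

variable (hK : GR_KappaStmt N)

include hK

/-- the Kummer character of the inverse. -/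
theorem GRT_kchar_inv {n : ℕ} (hn : 0 < n) {f : ↥(modularFunctionFieldBar N)}
    (hf : KM_IsKum (AlgebraicClosure ℚ) ↥(modularFunctionFieldBar N) n f)
    {χ : Additive (Gamma0 N) →+ ZMod n} (h : GR_KChar N n f χ) : GR_KChar N n f⁻¹ (-χ) := by
  obtain ⟨ψ, -, hψ⟩ := hK.ex n hn f⁻¹ (GRT_isKum_inv hf)
  have h1 := hK.mul n f f⁻¹ χ ψ h hψ
  rw [mul_inv_cancel₀ hf.1] at h1
  have h0 := hK.triv n hn 1 (GRT_isTriv_one n)
  have h2 := hK.uniq n hn 1 (χ + ψ) 0 one_ne_zero h1 h0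
  have hψ' : ψ = -χ := by
    rw [eq_neg_iff_add_eq_zero, add_comm]
    exact h2
  rw [← hψ']
  exact hψ

/-- Kummer generators with the same character differ by a trivial one. -/
theorem GRT_isTriv_of_kchar_eq {n : ℕ} (hn : 0 < n) {f g : ↥(modularFunctionFieldBar N)}
    (hf : KM_IsKum (AlgebraicClosure ℚ) ↥(modularFunctionFieldBar N) n f)
    (hg : KM_IsKum (AlgebraicClosure ℚ) ↥(modularFunctionFieldBar N) n g)
    {χ : Additive (Gamma0 N) →+ ZMod n} (h1 : GR_KChar N n f χ) (h2 : GR_KChar N n g χ) :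
    GR_IsTriv N n (f * g⁻¹) := by
  apply hK.inj n hn _ (GRT_isKum_mul hf (GRT_isKum_inv hg))
  have h := hK.mul n f g⁻¹ χ (-χ) h1 (GRT_kchar_inv hK hn hg h2)
  rwa [add_neg_cancel] at h

/-- multiplying by a trivial generator does not change the character. -/
theorem GRT_kchar_of_isTriv_mul {n : ℕ} (hn : 0 < n) {f g : ↥(modularFunctionFieldBar N)}
    {χ : Additive (Gamma0 N) →+ ZMod n} (ht : GR_IsTriv N n (f * g⁻¹)) (hg0 : g ≠ 0)
    (h : GR_KChar N n g χ) : GR_KChar N n f χ := by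
  have h0 := hK.triv n hn _ ht
  have h1 := hK.mul n _ g 0 χ h0 h
  rwa [inv_mul_cancel_right₀ hg0, zero_add] at h1

/-- the character of a Galois conjugate only depends on the character. -/
theorem GRT_kchar_gal_congr {n : ℕ} (hn : 0 < n) (σ : GQ)
    {f g : ↥(modularFunctionFieldBar N)}
    (hf : KM_IsKum (AlgebraicClosure ℚ) ↥(modularFunctionFieldBar N) n f)
    (hg : KM_IsKum (AlgebraicClosure ℚ) ↥(modularFunctionFieldBar N) n g)
    {χ : Additive (Gamma0 N) →+ ZMod n} (h1 : GR_KChar N n f χ) (h2 : GR_KChar N n g χ)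
    {χ' : Additive (Gamma0 N) →+ ZMod n} (h : GR_KChar N n (GR_gal N σ g) χ') :
    GR_KChar N n (GR_gal N σ f) χ' := by
  have ht := GRT_isTriv_gal σ (GRT_isTriv_of_kchar_eq hK hn hf hg h1 h2)
  rw [map_mul, map_inv₀] at ht
  exact GRT_kchar_of_isTriv_mul hK hn ht
    ((map_ne_zero_iff (GR_gal N σ) (GR_gal N σ).injective).mpr hg.1) h

/-- existence of the transported character. -/
theorem GRT_exists_act {n : ℕ} (hn : 0 < n) (σ : GQ) (χ : ↥(GRT_X N n)) :
    ∃ χ' : ↥(GRT_X N n), ∀ f : ↥(modularFunctionFieldBar N),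
      KM_IsKum (AlgebraicClosure ℚ) ↥(modularFunctionFieldBar N) n f →
      GR_KChar N n f (χ : Additive (Gamma0 N) →+ ZMod n) →
      GR_KChar N n (GR_gal N σ f) (χ' : Additive (Gamma0 N) →+ ZMod n) := by
  obtain ⟨f0, hf0, hχ⟩ := hK.surj n hn χ.1 χ.2
  obtain ⟨χ', hell, hχ'⟩ := hK.ex n hn _ (hK.gal n σ f0 hf0)
  exact ⟨⟨χ', hell⟩, fun f hf h => GRT_kchar_gal_congr hK hn σ hf hf0 h hχ hχ'⟩

/-- the action of `σ` on the elliptic characters, as a function. -/
noncomputable def GRT_actFun {n : ℕ} (hn : 0 < n) (σ : GQ) (χ : ↥(GRT_X N n)) : ↥(GRT_X N n) :=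
  (GRT_exists_act hK hn σ χ).choose

theorem GRT_actFun_spec {n : ℕ} (hn : 0 < n) (σ : GQ) (χ : ↥(GRT_X N n))
    {f : ↥(modularFunctionFieldBar N)}
    (hf : KM_IsKum (AlgebraicClosure ℚ) ↥(modularFunctionFieldBar N) n f)
    (h : GR_KChar N n f (χ : Additive (Gamma0 N) →+ ZMod n)) :
    GR_KChar N n (GR_gal N σ f)
      (GRT_actFun hK hn σ χ : Additive (Gamma0 N) →+ ZMod n) :=
  (GRT_exists_act hK hn σ χ).choose_spec f hf h

/-- characterisation of the action. -/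
theorem GRT_actFun_eq {n : ℕ} (hn : 0 < n) (σ : GQ) (χ χ' : ↥(GRT_X N n))
    {f : ↥(modularFunctionFieldBar N)}
    (hf : KM_IsKum (AlgebraicClosure ℚ) ↥(modularFunctionFieldBar N) n f)
    (h : GR_KChar N n f (χ : Additive (Gamma0 N) →+ ZMod n))
    (h' : GR_KChar N n (GR_gal N σ f) (χ' : Additive (Gamma0 N) →+ ZMod n)) :
    GRT_actFun hK hn σ χ = χ' := by
  apply Subtype.ext
  exact hK.uniq n hn (GR_gal N σ f) _ _
    ((map_ne_zero_iff (GR_gal N σ) (GR_gal N σ).injective).mpr hf.1)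
    (GRT_actFun_spec hK hn σ χ hf h) h'

theorem GRT_actFun_add {n : ℕ} (hn : 0 < n) (σ : GQ) (χ ψ : ↥(GRT_X N n)) :
    GRT_actFun hK hn σ (χ + ψ) = GRT_actFun hK hn σ χ + GRT_actFun hK hn σ ψ := by
  obtain ⟨f, hf, hχ⟩ := hK.surj n hn χ.1 χ.2
  obtain ⟨g, hg, hψ⟩ := hK.surj n hn ψ.1 ψ.2
  refine GRT_actFun_eq hK hn σ (χ + ψ) _ (GRT_isKum_mul hf hg) (hK.mul n f g _ _ hχ hψ) ?_
  rw [map_mul]
  exact hK.mul n _ _ _ _ (GRT_actFun_spec hK hn σ χ hf hχ) (GRT_actFun_spec hK hn σ ψ hg hψ)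

theorem GRT_actFun_zero {n : ℕ} (hn : 0 < n) (σ : GQ) :
    GRT_actFun hK hn σ (0 : ↥(GRT_X N n)) = 0 := by
  have h := GRT_actFun_add hK hn σ (0 : ↥(GRT_X N n)) 0
  rw [add_zero] at h
  exact left_eq_add.mp h

theorem GRT_actFun_one {n : ℕ} (hn : 0 < n) (χ : ↥(GRT_X N n)) :
    GRT_actFun hK hn 1 χ = χ := by
  obtain ⟨f, hf, hχ⟩ := hK.surj n hn χ.1 χ.2
  refine GRT_actFun_eq hK hn 1 χ χ hf hχ ?_
  rw [GRT_gal_one]
  exact hχ

theorem GRT_actFun_mul {n : ℕ} (hn : 0 < n) (σ τ : GQ) (χ : ↥(GRT_X N n)) :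
    GRT_actFun hK hn (σ * τ) χ = GRT_actFun hK hn σ (GRT_actFun hK hn τ χ) := by
  obtain ⟨f, hf, hχ⟩ := hK.surj n hn χ.1 χ.2
  refine GRT_actFun_eq hK hn (σ * τ) χ _ hf hχ ?_
  rw [GRT_gal_mul]
  exact GRT_actFun_spec hK hn σ _ (hK.gal n τ f hf) (GRT_actFun_spec hK hn τ χ hf hχ)

/-- **The Galois action on the elliptic characters mod `n`.** -/
noncomputable def GRT_act {n : ℕ} (hn : 0 < n) :
    GQ →* Module.End (ZMod n) ↥(GRT_X N n) where
  toFun σ := AddMonoidHom.toZModLinearMap n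
    { toFun := GRT_actFun hK hn σ
      map_zero' := GRT_actFun_zero hK hn σ
      map_add' := GRT_actFun_add hK hn σ }
  map_one' := by
    refine LinearMap.ext fun χ => ?_
    exact GRT_actFun_one hK hn χ
  map_mul' σ τ := by
    refine LinearMap.ext fun χ => ?_
    exact GRT_actFun_mul hK hn σ τ χ

theorem GRT_act_apply {n : ℕ} (hn : 0 < n) (σ : GQ) (χ : ↥(GRT_X N n)) :
    GRT_act hK hn σ χ = GRT_actFun hK hn σ χ := rfl

theorem GRT_act_spec {n : ℕ} (hn : 0 < n) (σ : GQ) (χ : ↥(GRT_X N n))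
    {f : ↥(modularFunctionFieldBar N)}
    (hf : KM_IsKum (AlgebraicClosure ℚ) ↥(modularFunctionFieldBar N) n f)
    (h : GR_KChar N n f (χ : Additive (Gamma0 N) →+ ZMod n)) :
    GR_KChar N n (GR_gal N σ f)
      ((GRT_act hK hn σ χ : ↥(GRT_X N n)) : Additive (Gamma0 N) →+ ZMod n) :=
  GRT_actFun_spec hK hn σ χ hf h

theorem GRT_act_eq {n : ℕ} (hn : 0 < n) (σ : GQ) (χ χ' : ↥(GRT_X N n))
    {f : ↥(modularFunctionFieldBar N)}
    (hf : KM_IsKum (AlgebraicClosure ℚ) ↥(modularFunctionFieldBar N) n f)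
    (h : GR_KChar N n f (χ : Additive (Gamma0 N) →+ ZMod n))
    (h' : GR_KChar N n (GR_gal N σ f) (χ' : Additive (Gamma0 N) →+ ZMod n)) :
    GRT_act hK hn σ χ = χ' :=
  GRT_actFun_eq hK hn σ χ χ' hf h h'

/-- if `σ f / f` is trivial for all Kummer generators, `σ` acts trivially. -/
theorem GRT_act_eq_one {n : ℕ} (hn : 0 < n) (σ : GQ)
    (h : ∀ f : ↥(modularFunctionFieldBar N),
      KM_IsKum (AlgebraicClosure ℚ) ↥(modularFunctionFieldBar N) n f →
      GR_IsTriv N n (GR_gal N σ f * f⁻¹)) :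
    GRT_act hK hn σ = 1 := by
  refine LinearMap.ext fun χ => ?_
  obtain ⟨f, hf, hχ⟩ := hK.surj n hn χ.1 χ.2
  exact GRT_act_eq hK hn σ χ χ hf hχ (GRT_kchar_of_isTriv_mul hK hn (h f hf) hf.1 hχ)

end kappa

end Fermat.Agent.GalRep
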