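import Mathlib
import Fermat.Agent.GalRep.Geom
import Fermat.Agent.GalRep.TwrIso
import Fermat.Agent.GalRep.TwrAct

/-!
# Pillar G, package TOWER (helper7), part 3: the finite-level tower

`GR_tower : GR_TowerStmt` — from KAPPA, HECKE/ES, UNRAM and FIN to the Galois–Hecke tower
`GR_Tower p N (parInt N) (GR_hT N)` on `ℤ/p^k ⊗ parInt N ≅ {elliptic characters Γ₀(N) → ℤ/p^k}`.
-/

set_option autoImplicit false

open ModularCurve AlgebraicCurve CongruenceSubgroup UpperHalfPlane Matrix.SpecialLinearGroup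
open ModularCurve.Period
open scoped MatrixGroups TensorProduct
open P2MW.S_ModularForm_heckeT_slash_eq_self_of_mem_Gamma0.ModularForm.HeckeSlashInvariance
open ModularForm

namespace Fermat.Agent.GalRep

open Fermat.Agent.S24 Fermat.Agent.S16

variable {N : ℕ} [NeZero N]

section kappa

variable (hK : GR_KappaStmt N)

include hK

/-- the Kummer character of a power. -/
theorem GRT_kchar_pow {n : ℕ} (hn : 0 < n) {f : ↥(modularFunctionFieldBar N)}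
    {χ : Additive (Gamma0 N) →+ ZMod n} (h : GR_KChar N n f χ) (m : ℕ) :
    GR_KChar N n (f ^ m) (m • χ) := by
  induction m with
  | zero =>
    rw [pow_zero, zero_smul]
    exact hK.triv n hn 1 (GRT_isTriv_one n)
  | succ m ih =>
    rw [pow_succ, succ_nsmul]
    exact hK.mul n _ _ _ _ ih h

/-- compatibility of the Galois action with the reduction `ℤ/n' → ℤ/n`. -/
theorem GRT_act_cast {n n' : ℕ} (hn : 0 < n) (hn' : 0 < n') (h : n ∣ n') (σ : GQ)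
    (ψ : ↥(GRT_X N n')) :
    (ZMod.castHom h (ZMod n)).toAddMonoidHom.comp
        ((GRT_act hK hn' σ ψ : ↥(GRT_X N n')) : Additive (Gamma0 N) →+ ZMod n')
      = ((GRT_act hK hn σ ⟨_, GRT_cast_mem N h ψ⟩ : ↥(GRT_X N n)) :
          Additive (Gamma0 N) →+ ZMod n) := by
  obtain ⟨m, rfl⟩ := h
  have hm : 0 < m := Nat.pos_of_mul_pos_left hn'
  obtain ⟨f, hf, hψ⟩ := hK.surj (n * m) hn' ψ.1 ψ.2
  have hfn : KM_IsKum (AlgebraicClosure ℚ) ↥(modularFunctionFieldBar N) n f :=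
    GRT_isKum_of_dvd (Dvd.intro m rfl) hf
  have h1 : GR_KChar N n f (GR_redChar N n m ψ.1) := hK.red n m hm f ψ.1 hψ
  have h2 : GR_KChar N n (GR_gal N σ f)
      (GR_redChar N n m (GRT_act hK hn' σ ψ : ↥(GRT_X N (n * m))).1) :=
    hK.red n m hm _ _ (GRT_act_spec hK hn' σ ψ hf hψ)
  have h3 := GRT_act_spec hK hn σ ⟨_, GRT_cast_mem N (Dvd.intro m rfl) ψ⟩ hfn h1
  exact hK.uniq n hn (GR_gal N σ f) _ _
    ((map_ne_zero_iff (GR_gal N σ) (GR_gal N σ).injective).mpr hf.1) h2 h3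

end kappa

/-- the cohomological Hecke transform is the transported Hecke operator. -/
theorem GRT_tcohRel_eq {n : ℕ} [NeZero n] (ℓ : ℕ) [hℓ : Fact ℓ.Prime] (χ : ↥(GRT_X N n))
    (χ' : Additive (Gamma0 N) →+ ZMod n)
    (h : GR_TcohRel N n ℓ (χ : Additive (Gamma0 N) →+ ZMod n) χ') :
    χ' = ((GRT_TX N n (GR_hT N ℓ) χ : ↥(GRT_X N n)) : Additive (Gamma0 N) →+ ZMod n) := by
  have hT : GR_hT N ℓ = GRD_heckeL N (ModularCurve.heckeGen ⟨ℓ, hℓ.out⟩) := by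
    unfold GR_hT
    rw [dif_pos hℓ.out]
  rw [hT]
  refine AddMonoidHom.ext fun γ => ?_
  obtain ⟨γ, rfl⟩ : ∃ γ' : Gamma0 N, Additive.ofMul γ' = γ := ⟨Additive.toMul γ, rfl⟩
  have : Fact ((⟨ℓ, hℓ.out⟩ : Nat.Primes) : ℕ).Prime := hℓ
  by_cases hℓN : ℓ ∣ N
  · obtain ⟨σ, g', hmul⟩ := S16_exists_heckeU_data (q := ℓ) hℓN γ
    rw [h.2 hℓN γ σ g' hmul]
    exact (GRT_TX_heckeU N n ⟨ℓ, hℓ.out⟩ hℓN χ γ σ g' hmul).symm
  · obtain ⟨σ, g', hmul⟩ := S16_exists_heckeT_data (ℓ := ℓ) hℓN γ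
    rw [h.1 hℓN γ σ g' hmul]
    exact (GRT_TX_heckeT N n ⟨ℓ, hℓ.out⟩ hℓN χ γ σ g' hmul).symm

section hecke

variable (hK : GR_KappaStmt N)

include hK

omit hK in
/-- the character of `t f`. -/
theorem GRT_kchar_t {n : ℕ} [NeZero n] (hn : 0 < n) (ℓ : ℕ) [Fact ℓ.Prime]
    (H : GR_HeckeES N ℓ) (χ : ↥(GRT_X N n)) {f : ↥(modularFunctionFieldBar N)}
    (hf : KM_IsKum (AlgebraicClosure ℚ) ↥(modularFunctionFieldBar N) n f)
    (h : GR_KChar N n f (χ : Additive (Gamma0 N) →+ ZMod n)) :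
    GR_KChar N n (H.t f)
      ((GRT_TX N n (GR_hT N ℓ) χ : ↥(GRT_X N n)) : Additive (Gamma0 N) →+ ZMod n) := by
  obtain ⟨χ', h1, h2⟩ := H.char n hn f χ.1 hf h
  rw [← GRT_tcohRel_eq ℓ χ χ' h1]
  exact h2

/-- the Galois action commutes with the Hecke operators. -/
theorem GRT_act_TX {n : ℕ} [NeZero n] (hn : 0 < n)
    (hH : ∀ (ℓ : ℕ) [Fact ℓ.Prime], Nonempty (GR_HeckeES N ℓ)) (ℓ : ℕ) (σ : GQ)
    (χ : ↥(GRT_X N n)) :
    GRT_act hK hn σ (GRT_TX N n (GR_hT N ℓ) χ) = GRT_TX N n (GR_hT N ℓ) (GRT_act hK hn σ χ) := by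
  by_cases hℓ : ℓ.Prime
  · have : Fact ℓ.Prime := ⟨hℓ⟩
    obtain ⟨H⟩ := hH ℓ
    obtain ⟨f, hf, hχ⟩ := hK.surj n hn χ.1 χ.2
    have h1 := GRT_kchar_t hn ℓ H χ hf hχ
    have h2 := GRT_kchar_t hn ℓ H (GRT_act hK hn σ χ) (hK.gal n σ f hf)
      (GRT_act_spec hK hn σ χ hf hχ)
    rw [H.gal] at h2
    exact GRT_act_eq hK hn σ _ _ (H.kum n f hf) h1 h2
  · have hT : GR_hT N ℓ = 0 := by
      unfold GR_hT
      rw [dif_neg hℓ]
    have h0 : GRT_TX N n (0 : Module.End ℤ ↥(parInt N)) = 0 := by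
      unfold GRT_TX
      rw [LinearMap.baseChange_zero, map_zero]
    rw [hT, h0, LinearMap.zero_apply, LinearMap.zero_apply, map_zero]

/-- the Eichler–Shimura relation on the elliptic characters. -/
theorem GRT_act_es {n : ℕ} [NeZero n] (hn : 0 < n) (ℓ : ℕ) [Fact ℓ.Prime]
    (H : GR_HeckeES N ℓ) (hℓN : ¬ ℓ ∣ N) (hℓn : ¬ ℓ ∣ n) (σ : GQ) (hσ : GR_IsFrob ℓ σ)
    (χ : ↥(GRT_X N n)) :
    GRT_TX N n (GR_hT N ℓ) χ = GRT_act hK hn σ χ + ℓ • GRT_act hK hn σ⁻¹ χ := by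
  obtain ⟨f, hf, hχ⟩ := hK.surj n hn χ.1 χ.2
  have h1 := GRT_kchar_t hn ℓ H χ hf hχ
  have ht := H.es hℓN n hn hℓn f hf σ hσ
  have hne : GR_gal N σ f * (GR_gal N σ⁻¹ f) ^ ℓ ≠ 0 :=
    mul_ne_zero ((map_ne_zero_iff (GR_gal N σ) (GR_gal N σ).injective).mpr hf.1)
      (pow_ne_zero _ ((map_ne_zero_iff (GR_gal N σ⁻¹) (GR_gal N σ⁻¹).injective).mpr hf.1))
  have h2 : GR_KChar N n (GR_gal N σ f * (GR_gal N σ⁻¹ f) ^ ℓ)
      (((GRT_act hK hn σ χ + ℓ • GRT_act hK hn σ⁻¹ χ : ↥(GRT_X N n)) :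
        Additive (Gamma0 N) →+ ZMod n)) := by
    rw [Submodule.coe_add, Submodule.coe_smul_of_tower]
    exact hK.mul n _ _ _ _ (GRT_act_spec hK hn σ χ hf hχ)
      (GRT_kchar_pow hK hn (GRT_act_spec hK hn σ⁻¹ χ hf hχ) ℓ)
  have h3 := GRT_kchar_of_isTriv_mul hK hn ht hne h2
  apply Subtype.ext
  exact hK.uniq n hn (H.t f) _ _ (H.kum n f hf).1 h1 h3

end hecke

/-! ### the tower -/

/-- the Galois action on `ℤ/n ⊗ parInt N`. -/
noncomputable def GRT_r (hK : GR_KappaStmt N) (n : ℕ) [NeZero n] :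
    GQ →* Module.End (ZMod n) (ZMod n ⊗[ℤ] ↥(parInt N)) :=
  ((GRT_iso N n).symm.conjRingEquiv.toMonoidHom).comp
    (GRT_act hK (Nat.pos_of_ne_zero (NeZero.ne n)))

theorem GRT_iso_r (hK : GR_KappaStmt N) (n : ℕ) [NeZero n] (σ : GQ)
    (x : ZMod n ⊗[ℤ] ↥(parInt N)) :
    GRT_iso N n (GRT_r hK n σ x)
      = GRT_act hK (Nat.pos_of_ne_zero (NeZero.ne n)) σ (GRT_iso N n x) := by
  unfold GRT_r
  simp

theorem GRT_r_eq_one (hK : GR_KappaStmt N) (n : ℕ) [NeZero n] (σ : GQ)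
    (h : GRT_act hK (Nat.pos_of_ne_zero (NeZero.ne n)) σ = 1) : GRT_r hK n σ = 1 := by
  unfold GRT_r
  rw [MonoidHom.comp_apply, h, map_one]

theorem GRT_iso_baseChange (n : ℕ) [NeZero n] (T : Module.End ℤ ↥(parInt N))
    (x : ZMod n ⊗[ℤ] ↥(parInt N)) :
    GRT_iso N n (T.baseChange (ZMod n) x) = GRT_TX N n T (GRT_iso N n x) :=
  (GRT_TX_iso N n T x).symm

section fields

variable (hK : GR_KappaStmt N)

/-- compatibility with reduction. -/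
theorem GRT_r_compat {n n' : ℕ} [NeZero n] [NeZero n'] (h : n ∣ n') (σ : GQ)
    (x : ZMod n' ⊗[ℤ] ↥(parInt N)) :
    LinearMap.rTensor ↥(parInt N) ((ZMod.castHom h (ZMod n)).toAddMonoidHom.toIntLinearMap)
        (GRT_r hK n' σ x)
      = GRT_r hK n σ (LinearMap.rTensor ↥(parInt N)
          ((ZMod.castHom h (ZMod n)).toAddMonoidHom.toIntLinearMap) x) := by
  apply (GRT_iso N n).injective
  apply Subtype.ext
  have e1 := GRT_phi_cast N h (GRT_r hK n' σ x)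
  have e2 := GRT_phi_cast N h x
  have e3 := GRT_act_cast hK (Nat.pos_of_ne_zero (NeZero.ne n))
    (Nat.pos_of_ne_zero (NeZero.ne n')) h σ (GRT_iso N n' x)
  have e4 := congrArg Subtype.val (GRT_iso_r hK n' σ x)
  rw [GRT_iso_r]
  refine e1.trans ?_
  have e4' : ((GRT_phi N n' (GRT_r hK n' σ x) : ↥(GRT_X N n')) :
      Additive (Gamma0 N) →+ ZMod n') = _ := e4
  rw [e4', e3]
  congr 2
  apply Subtype.ext
  exact e2.symm

/-- the Galois action commutes with the Hecke operators. -/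
theorem GRT_r_commute (hH : ∀ (ℓ : ℕ) [Fact ℓ.Prime], Nonempty (GR_HeckeES N ℓ))
    (n : ℕ) [NeZero n] (σ : GQ) (ℓ : ℕ) :
    Commute (GRT_r hK n σ) ((GR_hT N ℓ).baseChange (ZMod n)) := by
  show GRT_r hK n σ * (GR_hT N ℓ).baseChange (ZMod n)
    = (GR_hT N ℓ).baseChange (ZMod n) * GRT_r hK n σ
  refine LinearMap.ext fun x => ?_
  apply (GRT_iso N n).injective
  rw [Module.End.mul_apply, Module.End.mul_apply, GRT_iso_r, GRT_iso_baseChange,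
    GRT_iso_baseChange, GRT_iso_r]
  exact GRT_act_TX hK _ hH ℓ σ _

omit [NeZero N] in
/-- abstract form of the Eichler–Shimura transport. -/
theorem GRT_abs_es {R M X : Type*} [CommRing R] [AddCommGroup M] [Module R M]
    [AddCommGroup X] [Module R X] (e : M ≃ₗ[R] X) (r T : Module.End R M) (a TX : Module.End R X)
    (c : R) (hr : ∀ x, e (r x) = a (e x)) (hT : ∀ x, e (T x) = TX (e x))
    (h : ∀ y, TX (a y) = a (a y) + c • y) :
    r * r - T * r + c • (1 : Module.End R M) = 0 := by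
  refine LinearMap.ext fun x => ?_
  apply e.injective
  simp only [LinearMap.add_apply, LinearMap.sub_apply, Module.End.mul_apply, LinearMap.smul_apply,
    Module.End.one_apply, LinearMap.zero_apply, map_add, map_sub, map_smul, map_zero, hr, hT, h]
  abel

/-- the Eichler–Shimura relation. -/
theorem GRT_r_es (n : ℕ) [NeZero n] (ℓ : ℕ) [Fact ℓ.Prime] (H : GR_HeckeES N ℓ)
    (hℓN : ¬ ℓ ∣ N) (hℓn : ¬ ℓ ∣ n) (σ : GQ) (hσ : GR_IsFrob ℓ σ) :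
    GRT_r hK n σ * GRT_r hK n σ - (GR_hT N ℓ).baseChange (ZMod n) * GRT_r hK n σ
      + (ℓ : ZMod n) • (1 : Module.End (ZMod n) (ZMod n ⊗[ℤ] ↥(parInt N))) = 0 := by
  refine GRT_abs_es (GRT_iso N n) (GRT_r hK n σ) ((GR_hT N ℓ).baseChange (ZMod n))
    (GRT_act hK (Nat.pos_of_ne_zero (NeZero.ne n)) σ) (GRT_TX N n (GR_hT N ℓ)) (ℓ : ZMod n)
    (GRT_iso_r hK n σ) (GRT_iso_baseChange n (GR_hT N ℓ)) (fun y => ?_)
  have hes := GRT_act_es hK (Nat.pos_of_ne_zero (NeZero.ne n)) ℓ H hℓN hℓn σ hσ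
    (GRT_act hK (Nat.pos_of_ne_zero (NeZero.ne n)) σ y)
  have hinv : GRT_act hK (Nat.pos_of_ne_zero (NeZero.ne n)) σ⁻¹
      (GRT_act hK (Nat.pos_of_ne_zero (NeZero.ne n)) σ y) = y := by
    rw [← Module.End.mul_apply, ← map_mul, inv_mul_cancel, map_one, Module.End.one_apply]
  rw [hes, hinv, Nat.cast_smul_eq_nsmul]


end fields

/-- **TOWER**: the finite-level Galois–Hecke tower on `parInt N`. -/
theorem GR_tower : GR_TowerStmt := by
  intro N _ p hp hK hH hU hF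
  have hne : ∀ k : ℕ, NeZero (p ^ k) := fun k => ⟨pow_ne_zero k hp.out.ne_zero⟩
  have hpos : ∀ k : ℕ, 0 < p ^ k := fun k => pow_pos hp.out.pos k
  have hndvd : ∀ (k q : ℕ), q.Prime → q ≠ p → ¬ q ∣ p ^ k := by
    intro k q hq hqp hdvd
    exact hqp ((Nat.prime_dvd_prime_iff_eq hq hp.out).mp (hq.dvd_of_dvd_pow hdvd))
  refine ⟨{
    r := fun k => @GRT_r N _ hK (p ^ k) (hne k)
    compat := ?_
    fin := ?_
    hecke := ?_
    es := ?_
    unram := ?_ }⟩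
  · intro k σ x
    exact @GRT_r_compat N _ hK (p ^ k) (p ^ (k + 1)) (hne k) (hne (k + 1))
      (pow_dvd_pow p (Nat.le_succ k)) σ x
  · intro k
    obtain ⟨L, hL, h⟩ := hF (p ^ k) (hpos k)
    refine ⟨L, hL, fun σ hσ => ?_⟩
    exact @GRT_r_eq_one N _ hK (p ^ k) (hne k) σ
      (GRT_act_eq_one hK _ σ (h σ hσ))
  · intro k σ ℓ
    exact @GRT_r_commute N _ hK hH (p ^ k) (hne k) σ ℓ
  · intro k ℓ hℓ hℓN hℓp σ hσ
    have : Fact ℓ.Prime := ⟨hℓ⟩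
    obtain ⟨H⟩ := hH ℓ
    exact @GRT_r_es N _ hK (p ^ k) (hne k) ℓ _ H hℓN (hndvd k ℓ hℓ hℓp) σ hσ
  · intro k q hq hqN hqp P hP τ hτ
    exact @GRT_r_eq_one N _ hK (p ^ k) (hne k) τ
      (GRT_act_eq_one hK _ τ (hU (p ^ k) q (hpos k) hq hqN (hndvd k q hq hqp) P hP τ hτ))

end Fermat.Agent.GalRep
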