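import Mathlib
import Fermat.Agent.GalRep.Main
import Fermat.Agent.GalRep.AlgFinal
import Fermat.Agent.GalRep.DSFinal
import Fermat.Agent.GalRep.CycStmt
import Fermat.Agent.GalRep.CoefB
import Fermat.Agent.GalRep.Adic
import Fermat.Agent.GalRep.Fin
import Fermat.Agent.GalRep.TwrFinal
import Fermat.Agent.GalRep.DimFlat
import Fermat.Agent.GalRep.ESWire

/-!
# Pillar G (GALREP): final assembly of S30 from the packages

* `GR_S30_final_of`: S30 from TOWER, KAPPA, HECKE+ES, UNRAM, DIM, LATTICE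
  (ALG, DENS, CYC, COEF, ADIC, FIN, MAIN are plugged in).
* `GR_S30_final`: S30 from what is still open: S18 and RI (TRACK 3), KAPPA, HECKE, DIM
  (TOWER, LATTICE, UNRAM are plugged in).
-/

set_option autoImplicit false

namespace Fermat.Agent.GalRep

/-- the tower at every level, from the geometric packages. -/
theorem GR_tower_of (hTower : GR_TowerStmt)
    (hKappa : ∀ (N : ℕ) [NeZero N], GR_KappaStmt N)
    (hHecke : ∀ (N : ℕ) [NeZero N] (ℓ : ℕ) [Fact ℓ.Prime], Nonempty (GR_HeckeES N ℓ))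
    (hUnram : ∀ (N : ℕ) [NeZero N], GR_UnramStmt N) :
    ∀ (N : ℕ) [NeZero N] (p : ℕ) [Fact p.Prime],
      Nonempty (GR_Tower p N ↥(Fermat.Agent.S16.parInt N) (GR_hT N)) :=
  fun N _ p _ => hTower N p (hKappa N) (fun ℓ _ => hHecke N ℓ) (hUnram N) (GR_fin N (hKappa N))

/-- **S30 from the packages** (first form). -/
theorem GR_S30_final_of (hTower : GR_TowerStmt)
    (hKappa : ∀ (N : ℕ) [NeZero N], GR_KappaStmt N)
    (hHecke : ∀ (N : ℕ) [NeZero N] (ℓ : ℕ) [Fact ℓ.Prime], Nonempty (GR_HeckeES N ℓ))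
    (hUnram : ∀ (N : ℕ) [NeZero N], GR_UnramStmt N)
    (hDim : GR_DimStmt) (hLat : GR_LatticeStmt) : GR_S30Stmt :=
  GR_S30_of
    (GR_main_of (GR_tower_of hTower hKappa hHecke hUnram) GRA_adic GR_coefB GR_cycStmt hDim hLat)
    GR_alg GR_ds GR_cycStmt

/-- **S30 from what is still open** (S18 + RI from TRACK 3; KAPPA, HECKE, DIM). -/
theorem GR_S30_final (h18 : GR_S18Stmt) (hRI : GR_RIStmt)
    (hKappa : ∀ (N : ℕ) [NeZero N], GR_KappaStmt N)
    (hHecke : ∀ (N : ℕ) [NeZero N] (ℓ : ℕ) [Fact ℓ.Prime], Nonempty (GR_HeckeES N ℓ))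
    (hDim : GR_DimStmt) : GR_S30Stmt :=
  GR_S30_final_of GR_tower hKappa hHecke (fun N _ => ES_unram h18 hRI N) hDim GRD_lattice

end Fermat.Agent.GalRep
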