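import Fermat.Agent.GalRep.ESSeries
import Fermat.Prelude.Def_ModularCurve_ArithmeticGalois

/-!
# Pillar G, package HECKE, piece SER (helper16): the operator `t` from the stability statement

`F = modularFunctionFieldBar N ⊂ ℚ̄((q))`, `ℓ` prime, `ζ` a primitive `ℓ`-th root of unity.
`GRS_rhs N ℓ ζ f` is the right-hand side of the `q`-expansion formula (H1):
`f(q^{ℓ²}) · ∏_{i<ℓ} f(ζ^i q)` if `ℓ ∤ N` (operator `T_ℓ^{mult}`), `∏_{i<ℓ} f(ζ^i q)` if `ℓ ∣ N`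
(operator `U_ℓ^{mult}`).

From `GRS_Stab N ℓ ζ` (: every `GRS_rhs N ℓ ζ f`, `f ∈ F`, is `g(q^ℓ)` with `g ∈ F`) we build
* `GRS_t : F →*₀ F` with `GRS_t_spec` (= (H1)),
* `GRS_t_gal` (Galois equivariance), `GRS_t_const`,
and in `GalRep/HeckeSerT.lean`
* `GRS_t_es` (Eichler–Shimura on Kummer classes, from package ES),
* `GRS_heckeES`: the datum `GR_HeckeES N ℓ` from STAB + `kum` + `char` (+ S18 + RI).

This file has a light import closure (series level only).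
-/

set_option autoImplicit false
set_option synthInstance.maxHeartbeats 400000
set_option maxHeartbeats 1000000
set_option linter.unusedSectionVars false
set_option linter.style.haveILetI false

open HahnSeries IntermediateField AlgebraicCurve ModularCurve

namespace Fermat.Agent.GalRep

section series

variable {R : Type*} [CommRing R]

/-- `∏_{i<ℓ} f(u^i q)`. -/
noncomputable def GRS_prodTw (ℓ : ℕ) (u : Rˣ) (f : LaurentSeries R) : LaurentSeries R :=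
  ∏ i ∈ Finset.range ℓ, ES_tw (u ^ i) f

theorem GRS_rhs_eq (ℓ : ℕ) [NeZero ℓ] (u : Rˣ) (f : LaurentSeries R) :
    ES_rhs ℓ u f = qExpand R ℓ (qExpand R ℓ f) * GRS_prodTw ℓ u f := rfl

theorem GRS_prodTw_one (ℓ : ℕ) (u : Rˣ) : GRS_prodTw ℓ u (1 : LaurentSeries R) = 1 := by
  simp [GRS_prodTw]

theorem GRS_prodTw_mul (ℓ : ℕ) (u : Rˣ) (f g : LaurentSeries R) :
    GRS_prodTw ℓ u (f * g) = GRS_prodTw ℓ u f * GRS_prodTw ℓ u g := by
  simp only [GRS_prodTw, map_mul, Finset.prod_mul_distrib]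

theorem GRS_prodTw_zero (ℓ : ℕ) [NeZero ℓ] (u : Rˣ) :
    GRS_prodTw ℓ u (0 : LaurentSeries R) = 0 := by
  rw [GRS_prodTw]
  exact Finset.prod_eq_zero (Finset.mem_range.mpr (Nat.pos_of_ne_zero (NeZero.ne ℓ)))
    (map_zero _)

theorem GRS_prodTw_C (ℓ : ℕ) (u : Rˣ) (c : R) :
    GRS_prodTw ℓ u (HahnSeries.C c) = HahnSeries.C (c ^ ℓ) := by
  simp only [GRS_prodTw, ES_tw_C, Finset.prod_const, Finset.card_range, map_pow]

theorem GRS_coeffMap_prodTw {S : Type*} [CommRing S] (φ : R →+* S) (ℓ : ℕ) (u : Rˣ)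
    (f : LaurentSeries R) :
    coeffMap φ (GRS_prodTw ℓ u f) = GRS_prodTw ℓ (Units.map (φ : R →* S) u) (coeffMap φ f) := by
  simp only [GRS_prodTw, map_prod, ES_coeffMap_tw, map_pow]

/-- the twist depends only on the exponent modulo the order of `u`. -/
theorem GRS_tw_pow_mod (ℓ : ℕ) (u : Rˣ) (hu : u ^ ℓ = 1) (m : ℕ) (f : LaurentSeries R) :
    ES_tw (u ^ (m % ℓ)) f = ES_tw (u ^ m) f := by
  have : u ^ m = u ^ (m % ℓ) := by
    conv_lhs => rw [← Nat.div_add_mod m ℓ]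
    rw [_root_.pow_add, _root_.pow_mul, hu, one_pow, one_mul]
  rw [this]

/-- **independence of the primitive root**: `∏_i f((u^a)^i q) = ∏_i f(u^i q)` for `a` prime
to `ℓ`. -/
theorem GRS_prodTw_pow (ℓ : ℕ) [NeZero ℓ] (u : Rˣ) (hu : u ^ ℓ = 1) (a : ℕ)
    (ha : Nat.Coprime a ℓ) (f : LaurentSeries R) :
    GRS_prodTw ℓ (u ^ a) f = GRS_prodTw ℓ u f := by
  have hℓ : 0 < ℓ := Nat.pos_of_ne_zero (NeZero.ne ℓ)
  rw [GRS_prodTw, GRS_prodTw, Finset.prod_range, Finset.prod_range]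
  -- the permutation `i ↦ a * i mod ℓ` of `Fin ℓ`
  let e : Fin ℓ → Fin ℓ := fun i => ⟨(a * i.1) % ℓ, Nat.mod_lt _ hℓ⟩
  have hinj : Function.Injective e := by
    intro i j hij
    have h1 : (a * i.1) % ℓ = (a * j.1) % ℓ := congrArg Fin.val hij
    have h2 : a * i.1 ≡ a * j.1 [MOD ℓ] := h1
    have h3 : i.1 ≡ j.1 [MOD ℓ] := Nat.ModEq.cancel_left_of_coprime ha.symm h2
    have h4 : i.1 % ℓ = j.1 % ℓ := h3
    rw [Nat.mod_eq_of_lt i.2, Nat.mod_eq_of_lt j.2] at h4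
    exact Fin.ext h4
  have hbij : Function.Bijective e := Finite.injective_iff_bijective.mp hinj
  refine Fintype.prod_bijective e hbij _ _ (fun i => ?_)
  show ES_tw ((u ^ a) ^ i.1) f = ES_tw (u ^ ((a * i.1) % ℓ)) f
  rw [GRS_tw_pow_mod ℓ u hu, _root_.pow_mul]

/-- the right-hand side of (H1): `T_ℓ^{mult}` for `ℓ ∤ N`, `U_ℓ^{mult}` for `ℓ ∣ N`. -/
noncomputable def GRS_rhs (N ℓ : ℕ) [NeZero ℓ] (u : Rˣ) (f : LaurentSeries R) : LaurentSeries R :=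
  if ℓ ∣ N then GRS_prodTw ℓ u f else ES_rhs ℓ u f

variable (N ℓ : ℕ) [NeZero ℓ]

theorem GRS_rhs_of_dvd (h : ℓ ∣ N) (u : Rˣ) (f : LaurentSeries R) :
    GRS_rhs N ℓ u f = GRS_prodTw ℓ u f := if_pos h

theorem GRS_rhs_of_not_dvd (h : ¬ ℓ ∣ N) (u : Rˣ) (f : LaurentSeries R) :
    GRS_rhs N ℓ u f = ES_rhs ℓ u f := if_neg h

theorem GRS_rhs_one (u : Rˣ) : GRS_rhs N ℓ u (1 : LaurentSeries R) = 1 := by
  by_cases h : ℓ ∣ N
  · rw [GRS_rhs_of_dvd N ℓ h, GRS_prodTw_one]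
  · rw [GRS_rhs_of_not_dvd N ℓ h, ES_rhs_one]

theorem GRS_rhs_zero (u : Rˣ) : GRS_rhs N ℓ u (0 : LaurentSeries R) = 0 := by
  by_cases h : ℓ ∣ N
  · rw [GRS_rhs_of_dvd N ℓ h, GRS_prodTw_zero]
  · rw [GRS_rhs_of_not_dvd N ℓ h, GRS_rhs_eq, GRS_prodTw_zero, mul_zero]

theorem GRS_rhs_mul (u : Rˣ) (f g : LaurentSeries R) :
    GRS_rhs N ℓ u (f * g) = GRS_rhs N ℓ u f * GRS_rhs N ℓ u g := by
  by_cases h : ℓ ∣ N
  · simp only [GRS_rhs_of_dvd N ℓ h, GRS_prodTw_mul]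
  · simp only [GRS_rhs_of_not_dvd N ℓ h, ES_rhs_mul]

theorem GRS_rhs_C (u : Rˣ) (c : R) :
    GRS_rhs N ℓ u (HahnSeries.C c) = HahnSeries.C (c ^ (if ℓ ∣ N then ℓ else ℓ + 1)) := by
  by_cases h : ℓ ∣ N
  · rw [GRS_rhs_of_dvd N ℓ h, GRS_prodTw_C, if_pos h]
  · rw [GRS_rhs_of_not_dvd N ℓ h, ES_rhs_C, if_neg h]

theorem GRS_coeffMap_rhs {S : Type*} [CommRing S] (φ : R →+* S) (u : Rˣ)
    (f : LaurentSeries R) :
    coeffMap φ (GRS_rhs N ℓ u f) = GRS_rhs N ℓ (Units.map (φ : R →* S) u) (coeffMap φ f) := by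
  by_cases h : ℓ ∣ N
  · simp only [GRS_rhs_of_dvd N ℓ h, GRS_coeffMap_prodTw]
  · simp only [GRS_rhs_of_not_dvd N ℓ h, ES_coeffMap_rhs]

theorem GRS_rhs_pow (u : Rˣ) (hu : u ^ ℓ = 1) (a : ℕ) (ha : Nat.Coprime a ℓ)
    (f : LaurentSeries R) : GRS_rhs N ℓ (u ^ a) f = GRS_rhs N ℓ u f := by
  by_cases h : ℓ ∣ N
  · rw [GRS_rhs_of_dvd N ℓ h, GRS_rhs_of_dvd N ℓ h, GRS_prodTw_pow ℓ u hu a ha]
  · rw [GRS_rhs_of_not_dvd N ℓ h, GRS_rhs_of_not_dvd N ℓ h, GRS_rhs_eq, GRS_rhs_eq,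
      GRS_prodTw_pow ℓ u hu a ha]

end series

section stab

variable (N ℓ : ℕ) [NeZero ℓ]

/-- **STAB**: every `GRS_rhs N ℓ ζ f`, `f ∈ F_N`, is `g(q^ℓ)` for some `g ∈ F_N`. -/
def GRS_Stab (ζ : (AlgebraicClosure ℚ)ˣ) : Prop :=
  ∀ f : ↥(modularFunctionFieldBar N), ∃ g : ↥(modularFunctionFieldBar N),
    qExpand (AlgebraicClosure ℚ) ℓ (g : LaurentSeries (AlgebraicClosure ℚ))
      = GRS_rhs N ℓ ζ (f : LaurentSeries (AlgebraicClosure ℚ))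

variable {N ℓ} {ζ : (AlgebraicClosure ℚ)ˣ}

/-- the underlying function of the multiplicative Hecke operator. -/
noncomputable def GRS_tFun (hst : GRS_Stab N ℓ ζ) (f : ↥(modularFunctionFieldBar N)) :
    ↥(modularFunctionFieldBar N) :=
  (hst f).choose

theorem GRS_tFun_spec (hst : GRS_Stab N ℓ ζ) (f : ↥(modularFunctionFieldBar N)) :
    qExpand (AlgebraicClosure ℚ) ℓ (GRS_tFun hst f : LaurentSeries (AlgebraicClosure ℚ))
      = GRS_rhs N ℓ ζ (f : LaurentSeries (AlgebraicClosure ℚ)) :=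
  (hst f).choose_spec

/-- characterisation of `GRS_tFun`. -/
theorem GRS_tFun_eq (hst : GRS_Stab N ℓ ζ) (f g : ↥(modularFunctionFieldBar N))
    (h : qExpand (AlgebraicClosure ℚ) ℓ (g : LaurentSeries (AlgebraicClosure ℚ))
      = GRS_rhs N ℓ ζ (f : LaurentSeries (AlgebraicClosure ℚ))) :
    GRS_tFun hst f = g :=
  Subtype.ext (qExpand_injective ℓ ((GRS_tFun_spec hst f).trans h.symm))

/-- the multiplicative Hecke operator `T_ℓ^{mult}` (`ℓ ∤ N`) resp. `U_ℓ^{mult}` (`ℓ ∣ N`)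
on `F_N`, from STAB. -/
noncomputable def GRS_t (hst : GRS_Stab N ℓ ζ) :
    ↥(modularFunctionFieldBar N) →*₀ ↥(modularFunctionFieldBar N) where
  toFun := GRS_tFun hst
  map_zero' := GRS_tFun_eq hst 0 0 (by
    show qExpand (AlgebraicClosure ℚ) ℓ 0 = GRS_rhs N ℓ ζ 0
    rw [map_zero, GRS_rhs_zero])
  map_one' := GRS_tFun_eq hst 1 1 (by
    show qExpand (AlgebraicClosure ℚ) ℓ 1 = GRS_rhs N ℓ ζ 1
    rw [map_one, GRS_rhs_one])
  map_mul' f g := GRS_tFun_eq hst (f * g) (GRS_tFun hst f * GRS_tFun hst g) (by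
    show qExpand (AlgebraicClosure ℚ) ℓ
        ((GRS_tFun hst f : LaurentSeries (AlgebraicClosure ℚ)) * (GRS_tFun hst g : LaurentSeries _))
      = GRS_rhs N ℓ ζ ((f : LaurentSeries (AlgebraicClosure ℚ)) * (g : LaurentSeries _))
    rw [map_mul, GRS_rhs_mul, GRS_tFun_spec, GRS_tFun_spec])

/-- **(H1)**: the `q`-expansion formula for `GRS_t`. -/
theorem GRS_t_spec (hst : GRS_Stab N ℓ ζ) (f : ↥(modularFunctionFieldBar N)) :
    qExpand (AlgebraicClosure ℚ) ℓ (GRS_t hst f : LaurentSeries (AlgebraicClosure ℚ))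
      = GRS_rhs N ℓ ζ (f : LaurentSeries (AlgebraicClosure ℚ)) :=
  GRS_tFun_spec hst f

/-- characterisation of `GRS_t`. -/
theorem GRS_t_eq (hst : GRS_Stab N ℓ ζ) (f g : ↥(modularFunctionFieldBar N))
    (h : qExpand (AlgebraicClosure ℚ) ℓ (g : LaurentSeries (AlgebraicClosure ℚ))
      = GRS_rhs N ℓ ζ (f : LaurentSeries (AlgebraicClosure ℚ))) :
    GRS_t hst f = g :=
  GRS_tFun_eq hst f g h

/-- for `ℓ ∤ N`: `(t f)(q^ℓ) = f(q^{ℓ²}) ∏_i f(ζ^i q)`. -/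
theorem GRS_t_spec_of_not_dvd (hst : GRS_Stab N ℓ ζ) (h : ¬ ℓ ∣ N)
    (f : ↥(modularFunctionFieldBar N)) :
    qExpand (AlgebraicClosure ℚ) ℓ (GRS_t hst f : LaurentSeries (AlgebraicClosure ℚ))
      = ES_rhs ℓ ζ (f : LaurentSeries (AlgebraicClosure ℚ)) := by
  rw [GRS_t_spec, GRS_rhs_of_not_dvd N ℓ h]

/-- for `ℓ ∣ N`: `(t f)(q^ℓ) = ∏_i f(ζ^i q)`. -/
theorem GRS_t_spec_of_dvd (hst : GRS_Stab N ℓ ζ) (h : ℓ ∣ N)
    (f : ↥(modularFunctionFieldBar N)) :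
    qExpand (AlgebraicClosure ℚ) ℓ (GRS_t hst f : LaurentSeries (AlgebraicClosure ℚ))
      = GRS_prodTw ℓ ζ (f : LaurentSeries (AlgebraicClosure ℚ)) := by
  rw [GRS_t_spec, GRS_rhs_of_dvd N ℓ h]

/-- a Galois conjugate of a primitive root is a coprime power of it. -/
theorem GRS_map_zeta (hζ : IsPrimitiveRoot (ζ : AlgebraicClosure ℚ) ℓ)
    (σ : AlgebraicClosure ℚ ≃ₐ[ℚ] AlgebraicClosure ℚ) :
    ∃ a : ℕ, Nat.Coprime a ℓ ∧
      Units.map ((σ : AlgebraicClosure ℚ →+* AlgebraicClosure ℚ) :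
        AlgebraicClosure ℚ →* AlgebraicClosure ℚ) ζ = ζ ^ a := by
  have hℓ : 0 < ℓ := Nat.pos_of_ne_zero (NeZero.ne ℓ)
  have h1 : IsPrimitiveRoot (σ (ζ : AlgebraicClosure ℚ)) ℓ :=
    hζ.map_of_injective (f := σ) σ.injective
  obtain ⟨a, -, ha⟩ := hζ.eq_pow_of_pow_eq_one h1.pow_eq_one
  refine ⟨a, ?_, ?_⟩
  · rw [← hζ.pow_iff_coprime hℓ a, ha]
    exact h1
  · apply Units.ext
    rw [Units.val_pow_eq_pow_val, ha]
    rfl

/-- **gal**: `GRS_t` commutes with the Galois action on `q`-coefficients. -/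
theorem GRS_t_gal (hst : GRS_Stab N ℓ ζ) (hζ : IsPrimitiveRoot (ζ : AlgebraicClosure ℚ) ℓ)
    (σ : AlgebraicClosure ℚ ≃ₐ[ℚ] AlgebraicClosure ℚ) (f : ↥(modularFunctionFieldBar N)) :
    GRS_t hst (arithmeticRingAut (modularFunctionFieldFull N) σ f)
      = arithmeticRingAut (modularFunctionFieldFull N) σ (GRS_t hst f) := by
  refine GRS_t_eq hst _ _ ?_
  obtain ⟨a, ha, hσ⟩ := GRS_map_zeta hζ σ
  have hu : ζ ^ ℓ = 1 := Units.ext (by rw [Units.val_pow_eq_pow_val]; exact hζ.pow_eq_one)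
  rw [coe_arithmeticRingAut_apply, coe_arithmeticRingAut_apply, ← coeffMap_qExpand, GRS_t_spec,
    GRS_coeffMap_rhs, hσ, GRS_rhs_pow N ℓ ζ hu a ha]

/-- **const** (explicit): `t c = c ^ ℓ` (`ℓ ∣ N`) resp. `c ^ (ℓ+1)` (`ℓ ∤ N`). -/
theorem GRS_t_const (hst : GRS_Stab N ℓ ζ) (c : AlgebraicClosure ℚ) :
    GRS_t hst (algebraMap (AlgebraicClosure ℚ) ↥(modularFunctionFieldBar N) c)
      = algebraMap (AlgebraicClosure ℚ) ↥(modularFunctionFieldBar N)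
          (c ^ (if ℓ ∣ N then ℓ else ℓ + 1)) := by
  refine GRS_t_eq hst _ _ ?_
  show qExpand (AlgebraicClosure ℚ) ℓ (algebraMap (AlgebraicClosure ℚ)
      (LaurentSeries (AlgebraicClosure ℚ)) _)
    = GRS_rhs N ℓ ζ (algebraMap (AlgebraicClosure ℚ) (LaurentSeries (AlgebraicClosure ℚ)) c)
  rw [algebraMap_laurentSeries_eq_single, algebraMap_laurentSeries_eq_single]
  exact (qExpand_C ℓ _).trans (GRS_rhs_C N ℓ ζ c).symm

/-- **const** in the form of `GR_HeckeES.const`. -/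
theorem GRS_t_const' (hst : GRS_Stab N ℓ ζ) (c : AlgebraicClosure ℚ) :
    ∃ c' : AlgebraicClosure ℚ,
      GRS_t hst (algebraMap (AlgebraicClosure ℚ) ↥(modularFunctionFieldBar N) c)
        = algebraMap (AlgebraicClosure ℚ) ↥(modularFunctionFieldBar N) c' :=
  ⟨_, GRS_t_const hst c⟩

/-- `t f ≠ 0` for `f ≠ 0`. -/
theorem GRS_t_ne_zero (hst : GRS_Stab N ℓ ζ) {f : ↥(modularFunctionFieldBar N)} (hf : f ≠ 0) :
    GRS_t hst f ≠ 0 := by
  intro h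
  have h1 : GRS_t hst f * GRS_t hst f⁻¹ = 1 := by
    rw [← map_mul, mul_inv_cancel₀ hf, map_one]
  rw [h, zero_mul] at h1
  exact zero_ne_one h1

end stab

end Fermat.Agent.GalRep
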