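import Mathlib
import Fermat.Agent.S24.EvExists
import Fermat.Agent.GalRep.ESSeries
import Fermat.Agent.GalRep.HeckeSer
import Fermat.Prelude.Def_ModularForm_HeckeOperator

/-!
# Pillar G, package HECKE, piece CONV (helper19), part 1: the multiplicative Hecke operator on
bounded holomorphic `1`-periodic functions and its `q`-expansion

For `u : ℍ → ℂ` put
* `GRHB_comp α u τ = u (α • τ)` (`α ∈ GL₂(ℝ)`),
* `GRHB_U ℓ u = ∏_{j<ℓ} u ∘ heckeMatrix ℓ j`, i.e. `τ ↦ ∏_{j<ℓ} u((τ+j)/ℓ)`,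
* `GRHB_T ℓ u = (u ∘ heckeDiagMatrix ℓ) · GRHB_U ℓ u`, i.e. `τ ↦ u(ℓτ) ∏_{j<ℓ} u((τ+j)/ℓ)`.

Main results (for `u ∈ BddSub`):
* `GRHB_U_mem`, `GRHB_T_mem` : `U u, T u ∈ BddSub`;
* `GRHB_qExpand_UB`, `GRHB_qExpand_TB` : the `q`-expansion formulas
  `(U u)(q^ℓ) = ∏_{i<ℓ} u(ζ^i q)`, `(T u)(q^ℓ) = u(q^{ℓ²}) ∏_{i<ℓ} u(ζ^i q) = ES_rhs ℓ ζ u`,
  `ζ = exp(2πi/ℓ)` (`GRHB_zeta ℓ`, a primitive `ℓ`-th root of unity: `GRHB_zeta_primitive`).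
-/

set_option autoImplicit false

open UpperHalfPlane hiding I
open scoped MatrixGroups Manifold ModularForm
open CongruenceSubgroup ModularCurve Function ModularForm

noncomputable section

namespace Fermat.Agent.GalRep

open Fermat.Agent.S24

local notation "𝕢" => Function.Periodic.qParam

/-! ### generalities on `BddSub` -/

/-- `u ∈ BddSub` is `1`-periodic: `u σ' = u σ` if `σ' = σ + n`. -/
theorem GRHB_per {u : ℍ → ℂ} (hu : u ∈ BddSub) (n : ℕ) (σ σ' : ℍ)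
    (h : (σ' : ℂ) = (σ : ℂ) + n) : u σ' = u σ := by
  have h1 := (hu.2.1.nat_mul n) (σ : ℂ)
  simp only [comp_apply, mul_one] at h1
  rw [← h, ofComplex_apply, ofComplex_apply] at h1
  exact h1

/-- periodicity of `u ∘ ofComplex` from invariance under `τ ↦ τ + 1`. -/
theorem GRHB_periodic_of {u : ℍ → ℂ}
    (h : ∀ τ σ : ℍ, (σ : ℂ) = (τ : ℂ) + 1 → u σ = u τ) : Periodic (u ∘ ofComplex) 1 := by
  intro z
  simp only [comp_apply]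
  by_cases hz : 0 < z.im
  · have hz1 : 0 < (z + 1).im := by simpa using hz
    apply h
    rw [ofComplex_apply_of_im_pos hz1, ofComplex_apply_of_im_pos hz]
  · have hz1 : ¬ 0 < (z + 1).im := by simpa using hz
    rw [ofComplex_apply_of_im_nonpos (not_lt.mp hz), ofComplex_apply_of_im_nonpos (not_lt.mp hz1)]

/-- a product over `range ℓ` of an `ℓ`-periodic function is shift invariant. -/
theorem GRHB_prod_shift {M : Type*} [CommMonoid M] (ℓ : ℕ) (g : ℕ → M) (hg : g ℓ = g 0) :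
    ∏ j ∈ Finset.range ℓ, g (j + 1) = ∏ j ∈ Finset.range ℓ, g j := by
  rcases ℓ with _ | m
  · simp
  · rw [Finset.prod_range_succ, Finset.prod_range_succ', hg]

/-! ### real shifts -/

/-- the shift `τ ↦ u (τ + x)`, `x` real. -/
def GRHB_sh (x : ℝ) (u : ℍ → ℂ) : ℍ → ℂ := fun τ => u (x +ᵥ τ)

theorem GRHB_sh_mdiff {u : ℍ → ℂ} (hu : MDiff u) (x : ℝ) : MDiff (GRHB_sh x u) := by
  rw [mdifferentiable_iff] at hu ⊢
  have h1 : DifferentiableOn ℂ ((u ∘ ofComplex) ∘ (fun z : ℂ ↦ (x : ℂ) + z))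
      {z | 0 < z.im} := by
    apply hu.comp (by fun_prop)
    intro z hz
    simpa using hz
  refine h1.congr ?_
  intro z hz
  have hz0 : 0 < z.im := hz
  have hz' : 0 < ((x : ℂ) + z).im := by simpa using hz0
  simp only [comp_apply, GRHB_sh]
  rw [ofComplex_apply_of_im_pos hz0, ofComplex_apply_of_im_pos hz']
  congr 1

theorem GRHB_sh_mem {u : ℍ → ℂ} (hu : u ∈ BddSub) (x : ℝ) : GRHB_sh x u ∈ BddSub := by
  refine ⟨GRHB_sh_mdiff hu.1 x, ?_, ?_⟩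
  · apply GRHB_periodic_of
    intro τ σ h
    unfold GRHB_sh
    apply GRHB_per hu 1
    rw [coe_vadd, coe_vadd, h]
    push_cast
    ring
  · have h3 := hu.2.2
    rw [UpperHalfPlane.isBoundedAtImInfty_iff] at h3 ⊢
    obtain ⟨M, A, h⟩ := h3
    refine ⟨M, A, fun τ hτ => ?_⟩
    apply h
    simpa using hτ

/-- the unit `exp(2πi x)`. -/
def GRHB_e (x : ℝ) : ℂˣ := Units.mk0 (Complex.exp (2 * Real.pi * Complex.I * x)) (Complex.exp_ne_zero _)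

theorem GRHB_qParam_vadd (x : ℝ) (τ : ℍ) :
    𝕢 (1 : ℝ) ((x +ᵥ τ : ℍ) : ℂ) = (GRHB_e x : ℂ) * 𝕢 (1 : ℝ) (τ : ℂ) := by
  unfold GRHB_e Function.Periodic.qParam
  rw [Units.val_mk0, ← Complex.exp_add]
  congr 1
  rw [coe_vadd]
  push_cast
  ring

theorem GRHB_qExpansion_sh_coeff {u : ℍ → ℂ} (hu : u ∈ BddSub) (x : ℝ) (m : ℕ) :
    (qExpansion 1 (GRHB_sh x u)).coeff m = (GRHB_e x : ℂ) ^ m * (qExpansion 1 u).coeff m := by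
  have hsum : ∀ τ : ℍ, HasSum (fun n : ℕ =>
      ((GRHB_e x : ℂ) ^ n * (qExpansion 1 u).coeff n) • 𝕢 (1 : ℝ) (τ : ℂ) ^ n)
      (GRHB_sh x u τ) := by
    intro τ
    have h1 := hasSum_qExpansion one_pos hu.2.1 hu.1 hu.2.2 (x +ᵥ τ)
    rw [GRHB_qParam_vadd] at h1
    refine h1.congr_fun ?_ |>.congr_fun fun _ => rfl
    intro n
    simp only [smul_eq_mul, mul_pow]
    ring
  exact (qExpansion_coeff_unique_fun
    (analyticAt_cuspFunction_of_mem (GRHB_sh_mem hu x)) hsum m).symm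

theorem GRHB_ofPowerSeries_sh {u : ℍ → ℂ} (hu : u ∈ BddSub) (x : ℝ) :
    HahnSeries.ofPowerSeries ℤ ℂ (qExpansion 1 (GRHB_sh x u)) =
      ES_tw (GRHB_e x) (HahnSeries.ofPowerSeries ℤ ℂ (qExpansion 1 u)) := by
  ext k
  rw [ES_tw_coeff]
  rcases lt_or_ge k 0 with hk | hk
  · rw [ofPowerSeries_coeff_of_neg _ hk, ofPowerSeries_coeff_of_neg _ hk, mul_zero]
  · obtain ⟨n, rfl⟩ := Int.eq_ofNat_of_zero_le hk
    rw [HahnSeries.ofPowerSeries_apply_coeff, HahnSeries.ofPowerSeries_apply_coeff,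
      GRHB_qExpansion_sh_coeff hu]
    simp

/-! ### composition with upper triangular matrices -/

/-- `u ∘ (α • ·)`. -/
def GRHB_comp (α : GL (Fin 2) ℝ) (u : ℍ → ℂ) : ℍ → ℂ := fun τ => u (α • τ)

theorem GRHB_comp_mdiff {u : ℍ → ℂ} (hu : MDiff u) {α : GL (Fin 2) ℝ} (hα : 0 < α.det.val) :
    MDiff (GRHB_comp α u) :=
  hu.comp (mdifferentiable_smul hα)

theorem GRHB_im_heckeMatrix {ℓ : ℕ} (hℓ : ℓ ≠ 0) (j : ℕ) (τ : ℍ) :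
    (heckeMatrix ℓ j • τ : ℍ).im = τ.im / ℓ := by
  have h := congrArg Complex.im (coe_heckeMatrix_smul hℓ j τ)
  rw [UpperHalfPlane.coe_im] at h
  rw [h]
  have : ((τ : ℂ) + j) / (ℓ : ℂ) = ((τ : ℂ) + j) * ((ℓ : ℝ)⁻¹ : ℝ) := by
    push_cast; rw [div_eq_mul_inv]
  rw [this, Complex.mul_im]
  simp
  ring

theorem GRHB_im_heckeDiagMatrix {ℓ : ℕ} (hℓ : ℓ ≠ 0) (τ : ℍ) :
    (heckeDiagMatrix ℓ • τ : ℍ).im = ℓ * τ.im := by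
  have h := congrArg Complex.im (coe_heckeDiagMatrix_smul hℓ τ)
  rw [UpperHalfPlane.coe_im] at h
  rw [h]
  simp

theorem GRHB_bdd_heckeMatrix {ℓ : ℕ} (hℓ : ℓ ≠ 0) (j : ℕ) {u : ℍ → ℂ}
    (hu : IsBoundedAtImInfty u) : IsBoundedAtImInfty (GRHB_comp (heckeMatrix ℓ j) u) := by
  rw [UpperHalfPlane.isBoundedAtImInfty_iff] at hu ⊢
  obtain ⟨M, A, h⟩ := hu
  refine ⟨M, ℓ * A, fun τ hτ => ?_⟩
  apply h
  rw [GRHB_im_heckeMatrix hℓ]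
  have hpos : (0 : ℝ) < ℓ := by exact_mod_cast Nat.pos_of_ne_zero hℓ
  rw [le_div_iff₀ hpos]
  linarith

theorem GRHB_bdd_heckeDiagMatrix {ℓ : ℕ} (hℓ : ℓ ≠ 0) {u : ℍ → ℂ}
    (hu : IsBoundedAtImInfty u) : IsBoundedAtImInfty (GRHB_comp (heckeDiagMatrix ℓ) u) := by
  rw [UpperHalfPlane.isBoundedAtImInfty_iff] at hu ⊢
  obtain ⟨M, A, h⟩ := hu
  refine ⟨M, max A 0, fun τ hτ => ?_⟩
  apply h
  rw [GRHB_im_heckeDiagMatrix hℓ]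
  have h1 : A ≤ τ.im := le_trans (le_max_left _ _) hτ
  have h2 : (1 : ℝ) ≤ ℓ := by exact_mod_cast Nat.pos_of_ne_zero hℓ
  have h3 : 0 < τ.im := τ.im_pos
  nlinarith

theorem GRHB_comp_diag_mem {ℓ : ℕ} (hℓ : ℓ ≠ 0) {u : ℍ → ℂ} (hu : u ∈ BddSub) :
    GRHB_comp (heckeDiagMatrix ℓ) u ∈ BddSub := by
  refine ⟨GRHB_comp_mdiff hu.1 (det_heckeDiagMatrix_pos ℓ), ?_, GRHB_bdd_heckeDiagMatrix hℓ hu.2.2⟩
  apply GRHB_periodic_of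
  intro τ σ h
  unfold GRHB_comp
  apply GRHB_per hu ℓ
  rw [coe_heckeDiagMatrix_smul hℓ, coe_heckeDiagMatrix_smul hℓ, h]
  ring

/-- `U_ℓ^{mult}` on functions: `τ ↦ ∏_{j<ℓ} u((τ+j)/ℓ)`. -/
def GRHB_U (ℓ : ℕ) (u : ℍ → ℂ) : ℍ → ℂ := ∏ j ∈ Finset.range ℓ, GRHB_comp (heckeMatrix ℓ j) u

/-- `T_ℓ^{mult}` on functions: `τ ↦ u(ℓτ) ∏_{j<ℓ} u((τ+j)/ℓ)`. -/
def GRHB_T (ℓ : ℕ) (u : ℍ → ℂ) : ℍ → ℂ := GRHB_comp (heckeDiagMatrix ℓ) u * GRHB_U ℓ u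

theorem GRHB_U_apply (ℓ : ℕ) (u : ℍ → ℂ) (τ : ℍ) :
    GRHB_U ℓ u τ = ∏ j ∈ Finset.range ℓ, u (heckeMatrix ℓ j • τ) := by
  unfold GRHB_U
  rw [Finset.prod_apply]
  rfl

theorem GRHB_T_apply (ℓ : ℕ) (u : ℍ → ℂ) (τ : ℍ) :
    GRHB_T ℓ u τ = u (heckeDiagMatrix ℓ • τ) * ∏ j ∈ Finset.range ℓ, u (heckeMatrix ℓ j • τ) := by
  unfold GRHB_T
  rw [Pi.mul_apply, GRHB_U_apply]
  rfl

theorem GRHB_U_mem {ℓ : ℕ} (hℓ : ℓ ≠ 0) {u : ℍ → ℂ} (hu : u ∈ BddSub) : GRHB_U ℓ u ∈ BddSub := by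
  refine ⟨?_, ?_, ?_⟩
  · have : GRHB_U ℓ u ∈ Hol := by
      unfold GRHB_U
      exact prod_mem (fun j _ => GRHB_comp_mdiff hu.1 (det_heckeMatrix_pos ℓ j))
    exact this
  · apply GRHB_periodic_of
    intro τ σ h
    rw [GRHB_U_apply, GRHB_U_apply]
    have h1 : ∀ j : ℕ, u (heckeMatrix ℓ j • σ) = u (heckeMatrix ℓ (j + 1) • τ) := by
      intro j
      congr 1
      apply UpperHalfPlane.ext
      rw [coe_heckeMatrix_smul hℓ, coe_heckeMatrix_smul hℓ, h]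
      push_cast
      ring
    rw [Finset.prod_congr rfl (fun j _ => h1 j)]
    apply GRHB_prod_shift ℓ (fun j => u (heckeMatrix ℓ j • τ))
    apply GRHB_per hu 1
    rw [coe_heckeMatrix_smul hℓ, coe_heckeMatrix_smul hℓ]
    have hℓ' : (ℓ : ℂ) ≠ 0 := by exact_mod_cast hℓ
    field_simp
    push_cast
    ring
  · have : GRHB_U ℓ u ∈ Filter.boundedFilterSubalgebra ℂ atImInfty := by
      unfold GRHB_U
      exact prod_mem (fun j _ => GRHB_bdd_heckeMatrix hℓ j hu.2.2)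
    exact this

theorem GRHB_T_mem {ℓ : ℕ} (hℓ : ℓ ≠ 0) {u : ℍ → ℂ} (hu : u ∈ BddSub) : GRHB_T ℓ u ∈ BddSub :=
  mul_mem (GRHB_comp_diag_mem hℓ hu) (GRHB_U_mem hℓ hu)

/-! ### the operators on `BddSub` and the `q`-expansion formulas -/

/-- the `q`-expansion `BddSub → ℂ((q))`. -/
def GRHB_th : BddSub →+* LaurentSeries ℂ := (HahnSeries.ofPowerSeries ℤ ℂ).comp qExpHom

theorem GRHB_th_apply (u : BddSub) :
    GRHB_th u = HahnSeries.ofPowerSeries ℤ ℂ (qExpansion 1 (u : ℍ → ℂ)) := rfl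

theorem GRHB_th_injective : Function.Injective GRHB_th := ofPowerSeries_comp_qExpHom_injective

theorem GRHB_thetaHom_algebraMap (u : BddSub) :
    thetaHom (algebraMap BddSub BFrac u) = GRHB_th u := thetaHom_algebraMap u

/-- the shift on `BddSub`. -/
def GRHB_shB (x : ℝ) (u : BddSub) : BddSub := ⟨GRHB_sh x u, GRHB_sh_mem u.2 x⟩

/-- `τ ↦ u (d τ)` on `BddSub`. -/
def GRHB_scB (d : ℕ) [NeZero d] (u : BddSub) : BddSub :=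
  ⟨scaleFun d u, scaleFun_mem_BddSub (Nat.pos_of_ne_zero (NeZero.ne d)) u.2⟩

/-- `U_ℓ^{mult}` on `BddSub`. -/
def GRHB_UB (ℓ : ℕ) [NeZero ℓ] (u : BddSub) : BddSub := ⟨GRHB_U ℓ u, GRHB_U_mem (NeZero.ne ℓ) u.2⟩

/-- `T_ℓ^{mult}` on `BddSub`. -/
def GRHB_TB (ℓ : ℕ) [NeZero ℓ] (u : BddSub) : BddSub := ⟨GRHB_T ℓ u, GRHB_T_mem (NeZero.ne ℓ) u.2⟩

/-- the diagonal part `τ ↦ u(ℓ τ)` on `BddSub` (via `heckeDiagMatrix`). -/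
def GRHB_DB (ℓ : ℕ) [NeZero ℓ] (u : BddSub) : BddSub :=
  ⟨GRHB_comp (heckeDiagMatrix ℓ) u, GRHB_comp_diag_mem (NeZero.ne ℓ) u.2⟩

theorem GRHB_TB_eq (ℓ : ℕ) [NeZero ℓ] (u : BddSub) : GRHB_TB ℓ u = GRHB_DB ℓ u * GRHB_UB ℓ u := rfl

theorem GRHB_th_shB (x : ℝ) (u : BddSub) : GRHB_th (GRHB_shB x u) = ES_tw (GRHB_e x) (GRHB_th u) :=
  GRHB_ofPowerSeries_sh u.2 x

theorem GRHB_th_scB (d : ℕ) [NeZero d] (u : BddSub) :
    GRHB_th (GRHB_scB d u) = qExpand ℂ d (GRHB_th u) :=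
  ofPowerSeries_qExpansion_scaleFun u.2

theorem GRHB_heckeDiag_smul {ℓ : ℕ} (hℓ : ℓ ≠ 0) (τ : ℍ) :
    heckeDiagMatrix ℓ • τ = Fermat.Agent.S28.ut ℓ 0 1 • τ := by
  apply UpperHalfPlane.ext
  rw [coe_heckeDiagMatrix_smul hℓ, coe_ut_one_smul (Nat.pos_of_ne_zero hℓ)]

theorem GRHB_DB_eq (ℓ : ℕ) [NeZero ℓ] (u : BddSub) : GRHB_DB ℓ u = GRHB_scB ℓ u := by
  apply Subtype.ext
  funext τ
  show (u : ℍ → ℂ) (heckeDiagMatrix ℓ • τ) = (u : ℍ → ℂ) (Fermat.Agent.S28.ut ℓ 0 1 • τ)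
  rw [GRHB_heckeDiag_smul (NeZero.ne ℓ)]

theorem GRHB_coe_prod {ι : Type*} (s : Finset ι) (f : ι → BddSub) (τ : ℍ) :
    ((∏ i ∈ s, f i : BddSub) : ℍ → ℂ) τ = ∏ i ∈ s, (f i : ℍ → ℂ) τ := by
  classical
  induction s using Finset.induction_on with
  | empty => simp
  | insert a s ha ih =>
    rw [Finset.prod_insert ha, Finset.prod_insert ha, ← ih]
    rfl

/-- `(U u)(ℓτ) = ∏_{j<ℓ} u(τ + j/ℓ)`. -/
theorem GRHB_scB_UB (ℓ : ℕ) [NeZero ℓ] (u : BddSub) :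
    GRHB_scB ℓ (GRHB_UB ℓ u) = ∏ j ∈ Finset.range ℓ, GRHB_shB ((j : ℝ) / ℓ) u := by
  have hℓ : ℓ ≠ 0 := NeZero.ne ℓ
  apply Subtype.ext
  funext τ
  rw [GRHB_coe_prod]
  show GRHB_U ℓ u (Fermat.Agent.S28.ut ℓ 0 1 • τ) = _
  rw [GRHB_U_apply]
  refine Finset.prod_congr rfl (fun j _ => ?_)
  show _ = (u : ℍ → ℂ) (((j : ℝ) / ℓ) +ᵥ τ)
  have hpt : heckeMatrix ℓ j • (Fermat.Agent.S28.ut ℓ 0 1 • τ) = (((j : ℝ) / ℓ) +ᵥ τ : ℍ) := by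
    apply UpperHalfPlane.ext
    rw [coe_heckeMatrix_smul hℓ, coe_ut_one_smul (Nat.pos_of_ne_zero hℓ), coe_vadd]
    have hℓ' : (ℓ : ℂ) ≠ 0 := by exact_mod_cast hℓ
    push_cast
    field_simp
    ring
  rw [hpt]

/-- the primitive root of unity `exp(2πi/ℓ)` as a unit. -/
def GRHB_zeta (ℓ : ℕ) : ℂˣ := GRHB_e (1 / ℓ)

theorem GRHB_e_div (ℓ j : ℕ) : GRHB_e ((j : ℝ) / ℓ) = GRHB_zeta ℓ ^ j := by
  apply Units.ext
  unfold GRHB_zeta GRHB_e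
  rw [Units.val_pow_eq_pow_val, Units.val_mk0, Units.val_mk0, ← Complex.exp_nat_mul]
  congr 1
  push_cast
  ring

theorem GRHB_zeta_val (ℓ : ℕ) :
    (GRHB_zeta ℓ : ℂ) = Complex.exp (2 * Real.pi * Complex.I / ℓ) := by
  unfold GRHB_zeta GRHB_e
  rw [Units.val_mk0]
  congr 1
  push_cast
  ring

theorem GRHB_zeta_primitive {ℓ : ℕ} (hℓ : ℓ ≠ 0) : IsPrimitiveRoot (GRHB_zeta ℓ : ℂ) ℓ := by
  rw [GRHB_zeta_val]
  exact Complex.isPrimitiveRoot_exp ℓ hℓ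

theorem GRHB_zeta_primitive' {ℓ : ℕ} (hℓ : ℓ ≠ 0) : IsPrimitiveRoot (GRHB_zeta ℓ) ℓ :=
  IsPrimitiveRoot.coe_units_iff.mp (GRHB_zeta_primitive hℓ)

/-- **`q`-expansion of `U_ℓ^{mult} u`**: `(U u)(q^ℓ) = ∏_{i<ℓ} u(ζ^i q)`. -/
theorem GRHB_qExpand_UB (ℓ : ℕ) [NeZero ℓ] (u : BddSub) :
    qExpand ℂ ℓ (GRHB_th (GRHB_UB ℓ u)) = GRS_prodTw ℓ (GRHB_zeta ℓ) (GRHB_th u) := by
  rw [← GRHB_th_scB, GRHB_scB_UB, map_prod]
  unfold GRS_prodTw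
  refine Finset.prod_congr rfl (fun j _ => ?_)
  rw [GRHB_th_shB, GRHB_e_div]

/-- **`q`-expansion of `T_ℓ^{mult} u`**: `(T u)(q^ℓ) = u(q^{ℓ²}) ∏_{i<ℓ} u(ζ^i q)`. -/
theorem GRHB_qExpand_TB (ℓ : ℕ) [NeZero ℓ] (u : BddSub) :
    qExpand ℂ ℓ (GRHB_th (GRHB_TB ℓ u)) = ES_rhs ℓ (GRHB_zeta ℓ) (GRHB_th u) := by
  rw [GRHB_TB_eq, map_mul, map_mul, GRHB_qExpand_UB, GRHB_DB_eq, GRHB_th_scB, GRS_rhs_eq]

end Fermat.Agent.GalRep
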