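import Mathlib
import Fermat.Agent.GalRep.KMDefs
import Fermat.Agent.S24.PlaceOfVal

/-!
# Pillar G, package KM: the easy half of the dictionary (ORD)

For an abstract valuation `w` (trivial on `K`) and a Kummer generator `f` of exponent `n`:
`n ∣ w f`, and more precisely there is `M ≥ 0` and `j` with `w f = M * (n * j)` and `w = M · ord`
(`KM_isVal_kum`).  Applied to `w = ord_τ ∘ e` this gives `KM_dvd_ordM`.
-/

set_option autoImplicit false

open ModularCurve AlgebraicCurve CongruenceSubgroup UpperHalfPlane Matrix.SpecialLinearGroup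
open scoped MatrixGroups

namespace Fermat.Agent.GalRep

open Fermat.Agent.S24

/-- A valuation which takes no positive value is trivial. -/
theorem KM_isVal_trivial {K F : Type} [Field K] [Field F] [Algebra K F] {w : F → ℤ}
    (hw : IsVal (K := K) w) (h : ∀ x : F, x ≠ 0 → w x ≤ 0) (f : F) (hf : f ≠ 0) : w f = 0 := by
  have h1 := h f hf
  have h2 := h f⁻¹ (inv_ne_zero hf)
  rw [hw.inv hf] at h2
  omega

/-- **Structure of an abstract valuation at a Kummer generator.**  Either `w` is trivial, or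
`w = M · ord_v` for a place `v`, `M = w π > 0`; in both cases `w f = M * (n * j)` where `π` has
value `M` (`π = 1`, `M = 0` in the trivial case). -/
theorem KM_isVal_kum {K F : Type} [Field K] [Field F] [Algebra K F] {w : F → ℤ}
    (hw : IsVal (K := K) w) {n : ℕ} {f : F} (hf : KM_IsKum K F n f) :
    ∃ (M j : ℤ) (π : F), π ≠ 0 ∧ w π = M ∧ 0 ≤ M ∧ w f = M * ((n : ℤ) * j) := by
  by_cases htriv : ∀ x : F, x ≠ 0 → w x ≤ 0
  · exact ⟨0, 0, 1, one_ne_zero, hw.one, le_refl _, by
      rw [KM_isVal_trivial hw htriv f hf.1]; ring⟩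
  · push Not at htriv
    obtain ⟨x, hx0, hx⟩ := htriv
    obtain ⟨M, hM, ⟨π, hπ0, hπ⟩, hMf⟩ := hw.exists_mul_ord x hx0 hx
    obtain ⟨j, hj⟩ := hf.2 (hw.place x hx0 hx)
    exact ⟨M, j, π, hπ0, hπ, hM.le, by rw [hMf f hf.1, hj]⟩

theorem KM_isVal_dvd {K F : Type} [Field K] [Field F] [Algebra K F] {w : F → ℤ}
    (hw : IsVal (K := K) w) {n : ℕ} {f : F} (hf : KM_IsKum K F n f) : (n : ℤ) ∣ w f := by
  obtain ⟨M, j, π, -, -, -, h⟩ := KM_isVal_kum hw hf
  exact ⟨M * j, by rw [h]; ring⟩

/-- the valuation `f ↦ ord_τ (e f)` attached to a realisation and a point of `ℍ`. -/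
theorem KM_real_isVal {N : ℕ} {K F : Type} [Field K] [Field F] [Algebra K F]
    {ι : K →+* ℂ} {e : F →+* Mer} (he : KM_Real N K F ι e) (τ : ℍ) :
    IsVal (K := K) (fun f : F => S24_ordM τ (e f)) :=
  S24_isVal_ordM ι e he.const τ

/-- the same for a conjugate `f ↦ ord_τ ((e f) ∘ γ)`. -/
theorem KM_real_isVal_conj {N : ℕ} {K F : Type} [Field K] [Field F] [Algebra K F]
    {ι : K →+* ℂ} {e : F →+* Mer} (he : KM_Real N K F ι e) (γ : SL(2, ℤ)) (τ : ℍ) :
    IsVal (K := K) (fun f : F => S24_ordM τ (merComp γ (e f))) :=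
  S24_isVal_ordM ι ((merComp γ).comp e)
    (fun c => by rw [RingHom.comp_apply, he.const, merComp_const]) τ

/-- **ORD** (easy half of the dictionary): place-divisibility ⇒ analytic divisibility. -/
theorem KM_dvd_ordM {N n : ℕ} {K F : Type} [Field K] [Field F] [Algebra K F]
    {ι : K →+* ℂ} {e : F →+* Mer} (he : KM_Real N K F ι e) {f : F} (hf : KM_IsKum K F n f)
    (τ : ℍ) : (n : ℤ) ∣ S24_ordM τ (e f) :=
  KM_isVal_dvd (KM_real_isVal he τ) hf

/-- the image of a Kummer generator is nonzero. -/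
theorem KM_real_ne_zero {K F : Type} [Field K] [Field F] [Algebra K F]
    (e : F →+* Mer) {n : ℕ} {f : F} (hf : KM_IsKum K F n f) : e f ≠ 0 :=
  (map_ne_zero e).mpr hf.1

/-- a root of the image of a Kummer generator is nonzero. -/
theorem KM_root_ne_zero {K F : Type} [Field K] [Field F] [Algebra K F]
    (e : F →+* Mer) {n : ℕ} (hn : 0 < n) {f : F} (hf : KM_IsKum K F n f) {y : Mer}
    (hy : y ^ n = e f) : y ≠ 0 := by
  rintro rfl
  rw [zero_pow hn.ne'] at hy
  exact KM_real_ne_zero e hf hy.symm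

end Fermat.Agent.GalRep
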