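import Mathlib
import Fermat.Agent.GalRep.KMOrd

/-!
# Pillar G, package KM: roots of unity in `Mer` and the multiplier lemma with a constant

* `KM_zeta_*`: elementary properties of `KM_zeta n a = exp (2πi a / n)`;
* `KM_exists_zeta_of_pow_eq_one`: an `n`-th root of unity in the field `Mer` is a constant;
* `KM_merComp_congr`: `merComp γ` only depends on the action of `γ` on `ℍ`;
* `KM_denom_zpow_ordM`: if `γ τ = τ` and `x ∘ γ = c · x` then `c = (denom γ τ ^ 2) ^ (- ord_τ x)`.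
-/

set_option autoImplicit false

open ModularCurve AlgebraicCurve CongruenceSubgroup UpperHalfPlane Matrix.SpecialLinearGroup
open Filter Topology
open scoped MatrixGroups

namespace Fermat.Agent.GalRep

open Fermat.Agent.S24

/-! ### `KM_zeta` -/

theorem KM_zeta_eq_pow (n : ℕ) (a : ZMod n) :
    KM_zeta n a = Complex.exp (2 * Real.pi * Complex.I / (n : ℂ)) ^ a.val := by
  rw [KM_zeta, ← Complex.exp_nat_mul]
  congr 1
  ring

theorem KM_zeta_ne_zero (n : ℕ) (a : ZMod n) : KM_zeta n a ≠ 0 := Complex.exp_ne_zero _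

theorem KM_zeta_zero (n : ℕ) : KM_zeta n 0 = 1 := by
  rw [KM_zeta_eq_pow]
  simp

theorem KM_zeta_natCast {n : ℕ} (hn : 0 < n) (k : ℕ) :
    KM_zeta n (k : ZMod n) = Complex.exp (2 * Real.pi * Complex.I / (n : ℂ)) ^ k := by
  have hprim := Complex.isPrimitiveRoot_exp n hn.ne'
  rw [KM_zeta_eq_pow, ZMod.val_natCast]
  conv_rhs => rw [← Nat.mod_add_div k n]
  rw [pow_add, pow_mul, hprim.pow_eq_one, one_pow, mul_one]

theorem KM_zeta_add {n : ℕ} (hn : 0 < n) (a b : ZMod n) :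
    KM_zeta n (a + b) = KM_zeta n a * KM_zeta n b := by
  have : NeZero n := ⟨hn.ne'⟩
  have ha : a = ((a.val : ℕ) : ZMod n) := (ZMod.natCast_zmod_val a).symm
  have hb : b = ((b.val : ℕ) : ZMod n) := (ZMod.natCast_zmod_val b).symm
  have hab : a + b = ((a.val + b.val : ℕ) : ZMod n) := by
    push_cast
    rw [← ha, ← hb]
  rw [hab, KM_zeta_natCast hn, pow_add, ← KM_zeta_eq_pow, ← KM_zeta_eq_pow]

theorem KM_zeta_pow {n : ℕ} (hn : 0 < n) (a : ZMod n) : KM_zeta n a ^ n = 1 := by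
  have hprim := Complex.isPrimitiveRoot_exp n hn.ne'
  rw [KM_zeta_eq_pow, ← pow_mul, Nat.mul_comm, pow_mul, hprim.pow_eq_one, one_pow]

theorem KM_zeta_injective {n : ℕ} (hn : 0 < n) : Function.Injective (KM_zeta n) := by
  have : NeZero n := ⟨hn.ne'⟩
  intro a b h
  have hprim := Complex.isPrimitiveRoot_exp n hn.ne'
  rw [KM_zeta_eq_pow, KM_zeta_eq_pow] at h
  have := hprim.pow_inj (ZMod.val_lt a) (ZMod.val_lt b) h
  exact ZMod.val_injective n this

theorem KM_zeta_eq_one_iff {n : ℕ} (hn : 0 < n) (a : ZMod n) : KM_zeta n a = 1 ↔ a = 0 := by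
  constructor
  · intro h
    apply KM_zeta_injective hn
    rw [h, KM_zeta_zero]
  · rintro rfl
    exact KM_zeta_zero n

/-- `KM_zeta n (k : ZMod n)` for an integer `k`. -/
theorem KM_zeta_intCast {n : ℕ} (hn : 0 < n) (k : ℤ) :
    KM_zeta n (k : ZMod n) = Complex.exp (2 * Real.pi * Complex.I * (k : ℂ) / (n : ℂ)) := by
  have : NeZero n := ⟨hn.ne'⟩
  have hn0 : (n : ℂ) ≠ 0 := by exact_mod_cast hn.ne'
  rw [KM_zeta]
  apply Complex.exp_eq_exp_iff_exists_int.mpr
  have h1 : (((k : ZMod n).val : ℕ) : ℤ) = k % (n : ℤ) := by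
    rw [ZMod.val_intCast]
  refine ⟨-(k / (n : ℤ)), ?_⟩
  have h2 : (k : ℤ) = k % (n : ℤ) + (n : ℤ) * (k / (n : ℤ)) := (Int.emod_add_mul_ediv k n).symm
  have h3 : (k : ℂ) = (((k : ZMod n).val : ℕ) : ℂ) + (n : ℂ) * ((k / (n : ℤ) : ℤ) : ℂ) := by
    have : ((k : ℤ) : ℂ) = (((k % (n : ℤ) + (n : ℤ) * (k / (n : ℤ)) : ℤ)) : ℂ) := by
      rw [← h2]
    rw [this, ← h1]
    push_cast
    ring
  rw [h3]
  push_cast
  field_simp
  ring

/-! ### roots of unity in `Mer` -/

/-- An `n`-th root of unity in the field `Mer` is a constant. -/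
theorem KM_exists_zeta_of_pow_eq_one {n : ℕ} (hn : 0 < n) (u : Mer) (hu : u ^ n = 1) :
    ∃ a : ZMod n, u = algebraMap ℂ Mer (KM_zeta n a) := by
  have : NeZero n := ⟨hn.ne'⟩
  have hprim := Complex.isPrimitiveRoot_exp n hn.ne'
  have hinj : Function.Injective (algebraMap ℂ Mer) := (algebraMap ℂ Mer).injective
  have hprim' : IsPrimitiveRoot (algebraMap ℂ Mer (Complex.exp (2 * Real.pi * Complex.I / n))) n :=
    hprim.map_of_injective hinj
  obtain ⟨i, -, hi⟩ := hprim'.eq_pow_of_pow_eq_one hu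
  refine ⟨(i : ZMod n), ?_⟩
  rw [KM_zeta_natCast hn, map_pow, hi]

/-! ### `merComp` only depends on the action on `ℍ` -/

theorem KM_holComp_congr {γ γ' : SL(2, ℤ)} (h : ∀ z : ℍ, γ • z = γ' • z) :
    holComp γ = holComp γ' := by
  ext f τ
  show (f : ℍ → ℂ) (γ • τ) = (f : ℍ → ℂ) (γ' • τ)
  rw [h]

theorem KM_merComp_congr {γ γ' : SL(2, ℤ)} (h : ∀ z : ℍ, γ • z = γ' • z) :
    merComp γ = merComp γ' := by
  apply IsLocalization.ringHom_ext (nonZeroDivisors Hol)
  ext f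
  simp only [RingHom.comp_apply, merComp_algebraMap, KM_holComp_congr h]

theorem KM_merComp_neg_one (x : Mer) : merComp (-1) x = x := by
  have h : merComp (-1 : SL(2, ℤ)) = merComp 1 :=
    KM_merComp_congr (fun z => by
      have := ModularGroup.SL_neg_smul (1 : SL(2, ℤ)) z
      simpa using this)
  rw [h, merComp_one]
  rfl

end Fermat.Agent.GalRep
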