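import Mathlib
import Fermat.Agent.GalRep.KMMult
import Fermat.Agent.S24.Elliptic

/-!
# Pillar G, package KM: the multiplier of a root at an elliptic point is trivial

* `KM_zpow_order_eq_of_comp`, `KM_denom_zpow_ordM`: the multiplier lemma with a constant `c`:
  if `γ τ = τ` and `x ∘ γ = c · x` then `(1 / denom γ τ ^ 2) ^ (ord_τ x) = c`;
* `KM_char_elliptic`: if `yⁿ = e f` for a Kummer generator `f` and `γ ∈ Γ₀(N)` fixes a point of
  `ℍ`, then `y ∘ γ = y`.
-/

set_option autoImplicit false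
set_option maxHeartbeats 400000

open ModularCurve AlgebraicCurve CongruenceSubgroup UpperHalfPlane Matrix.SpecialLinearGroup
open Filter Topology
open scoped MatrixGroups

namespace Fermat.Agent.GalRep

open Fermat.Agent.S24

/-- If `g` has order `k` at `x` and `g ∘ m = c · g` for a local biholomorphism `m` fixing `x`
with derivative `lam`, then `lam ^ k = c`. -/
theorem KM_zpow_order_eq_of_comp {g m : ℂ → ℂ} {x lam c : ℂ} {k : ℤ}
    (hg : MeromorphicAt g x) (hk : meromorphicOrderAt g x = k)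
    (hm : HasDerivAt m lam x) (hmx : m x = x) (hlam : lam ≠ 0)
    (hinv : ∀ᶠ z in 𝓝[≠] x, g (m z) = c * g z) : lam ^ k = c := by
  obtain ⟨h, hh_an, hh_ne, hh_eq⟩ := (meromorphicOrderAt_eq_int_iff hg).mp hk
  have hmd : DifferentiableAt ℂ m x := hm.differentiableAt
  have hμc : ContinuousAt (dslope m x) x := continuousAt_dslope_same.mpr hmd
  have hμx : dslope m x x = lam := by rw [dslope_same, hm.deriv]
  have hμne : ∀ᶠ z in 𝓝 x, dslope m x z ≠ 0 :=
    hμc.eventually_ne (by rw [hμx]; exact hlam)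
  have hmz : ∀ z, m z - x = (z - x) * dslope m x z := by
    intro z
    have := sub_smul_dslope m x z
    rw [smul_eq_mul, hmx] at this
    exact this.symm
  have hmne : ∀ᶠ z in 𝓝[≠] x, m z ∈ ({x}ᶜ : Set ℂ) := by
    have h1 : ∀ᶠ z in 𝓝[≠] x, dslope m x z ≠ 0 := hμne.filter_mono nhdsWithin_le_nhds
    filter_upwards [h1, self_mem_nhdsWithin] with z hz1 hz2
    have hz2' : z - x ≠ 0 := sub_ne_zero.mpr hz2
    simp only [Set.mem_compl_iff, Set.mem_singleton_iff]
    intro hzx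
    have := hmz z
    rw [hzx, sub_self] at this
    exact (mul_ne_zero hz2' hz1) this.symm
  have hmt : Tendsto m (𝓝[≠] x) (𝓝[≠] x) := by
    apply tendsto_nhdsWithin_of_tendsto_nhds_of_eventually_within _ _ hmne
    have := hmd.continuousAt.tendsto
    rw [hmx] at this
    exact this.mono_left nhdsWithin_le_nhds
  have hcomp : ∀ᶠ z in 𝓝[≠] x, g (m z) = (m z - x) ^ k • h (m z) := hmt.eventually hh_eq
  have key : ∀ᶠ z in 𝓝[≠] x, dslope m x z ^ k * h (m z) = c * h z := by
    filter_upwards [hcomp, hh_eq, hinv, self_mem_nhdsWithin] with z h1 h2 h3 hz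
    have hz' : z - x ≠ 0 := sub_ne_zero.mpr hz
    rw [h1, h2, hmz z, mul_zpow, smul_eq_mul, smul_eq_mul, mul_assoc, mul_left_comm c] at h3
    exact mul_left_cancel₀ (zpow_ne_zero k hz') h3
  have hcm : ContinuousAt (fun z => h (m z)) x := by
    have : ContinuousAt h (m x) := by rw [hmx]; exact hh_an.continuousAt
    exact ContinuousAt.comp (f := m) (g := h) this hmd.continuousAt
  have hL : Tendsto (fun z => dslope m x z ^ k * h (m z)) (𝓝[≠] x) (𝓝 (lam ^ k * h x)) := by
    have h1 : ContinuousAt (fun z => dslope m x z ^ k) x :=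
      hμc.zpow₀ k (Or.inl (by rw [hμx]; exact hlam))
    have h2 : Tendsto (fun z => dslope m x z ^ k * h (m z)) (𝓝 x)
        (𝓝 (dslope m x x ^ k * h (m x))) := (h1.mul hcm).tendsto
    rw [hμx, hmx] at h2
    exact h2.mono_left nhdsWithin_le_nhds
  have hR : Tendsto (fun z => dslope m x z ^ k * h (m z)) (𝓝[≠] x) (𝓝 (c * h x)) := by
    have h0 : Tendsto (fun z => c * h z) (𝓝[≠] x) (𝓝 (c * h x)) :=
      ((continuousAt_const.mul hh_an.continuousAt).tendsto).mono_left nhdsWithin_le_nhds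
    exact h0.congr' (key.mono fun z hz => hz.symm)
  have := tendsto_nhds_unique hL hR
  have h3 : (lam ^ k - c) * h x = 0 := by rw [sub_mul, this]; ring
  rcases mul_eq_zero.mp h3 with h4 | h4
  · exact sub_eq_zero.mp h4
  · exact absurd h4 hh_ne

/-- **Multiplier lemma in `Mer` with a constant.** If `γ ∈ SL(2,ℤ)` fixes `τ` and
`x ∘ γ = c · x`, `x ≠ 0`, then `(1 / denom γ τ ^ 2) ^ ord_τ x = c`. -/
theorem KM_denom_zpow_ordM {γ : SL(2, ℤ)} {τ : ℍ} (hfix : γ • τ = τ) {x : Mer} (hx : x ≠ 0)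
    {c : ℂ} (hinv : merComp γ x = algebraMap ℂ Mer c * x) :
    (1 / denom γ τ ^ 2) ^ (S24_ordM τ x) = c := by
  obtain ⟨a, b, hb, rfl⟩ := S24_exists_eq_div x
  have ha : a ≠ 0 := by
    rintro rfl
    simp at hx
  have hb' := S24_algebraMap_ne_zero hb
  have hγb := S24_holComp_ne_zero γ hb
  have hγb' := S24_algebraMap_ne_zero hγb
  -- cross-multiplied transformation rule
  have hcross : holComp γ a * b = algebraMap ℂ Hol c * (a * holComp γ b) := by
    rw [map_div₀, merComp_algebraMap, merComp_algebraMap, ← mul_div_assoc,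
      div_eq_div_iff hγb' hb'] at hinv
    apply IsFractionRing.injective Hol Mer
    rw [map_mul, map_mul, map_mul, ← IsScalarTower.algebraMap_apply ℂ Hol Mer, ← mul_assoc]
    exact hinv
  have hpt : ∀ z : ℍ, (a : ℍ → ℂ) (γ • z) * (b : ℍ → ℂ) z
      = c * ((a : ℍ → ℂ) z * (b : ℍ → ℂ) (γ • z)) := by
    intro z
    have := congrFun (congrArg Subtype.val hcross) z
    simpa using this
  set g : ℍ → ℂ := fun z => (a : ℍ → ℂ) z / (b : ℍ → ℂ) z with hg
  have hgm : MeromorphicAt (g ∘ ofComplex) (τ : ℂ) := S24_merAt_div_hol a b τ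
  have hgo : meromorphicOrderAt (g ∘ ofComplex) (τ : ℂ) =
      ((S24_ordM τ (algebraMap Hol Mer a / algebraMap Hol Mer b) : ℤ) : WithTop ℤ) := by
    rw [S24_ordM_div_hol τ ha hb]
    exact S24_ordAt_div_hol ha hb τ
  have hdet0 : ((γ : GL (Fin 2) ℝ)).val.det = 1 := by
    have := (Matrix.SpecialLinearGroup.map (Int.castRingHom ℝ) γ).det_coe
    simpa using this
  have hdet : (0 : ℝ) < ((γ : GL (Fin 2) ℝ)).val.det := by rw [hdet0]; exact one_pos
  have hm := (UpperHalfPlane.hasStrictDerivAt_smul hdet τ).hasDerivAt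
  rw [hdet0, Complex.ofReal_one] at hm
  refine KM_zpow_order_eq_of_comp hgm hgo hm ?_ ?_ ?_
  · simp only [ofComplex_apply]
    exact congrArg _ hfix
  · exact div_ne_zero one_ne_zero (pow_ne_zero _ (denom_ne_zero _ τ))
  · filter_upwards [S24_Hol_eventually_ne hb τ, S24_Hol_eventually_ne hγb τ] with z hz1 hz2
    have hz2' : (b : ℍ → ℂ) (γ • ofComplex z) ≠ 0 := hz2
    simp only [Function.comp_apply, hg, ofComplex_apply]
    show (a : ℍ → ℂ) (γ • ofComplex z) / (b : ℍ → ℂ) (γ • ofComplex z) =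
      c * ((a : ℍ → ℂ) (ofComplex z) / (b : ℍ → ℂ) (ofComplex z))
    rw [← mul_div_assoc, div_eq_div_iff hz2' hz1, mul_assoc]
    exact hpt (ofComplex z)

/-- the multiplier of a root: `(y ∘ γ) = ζ · y` for a constant root of unity. -/
theorem KM_exists_mult {N n : ℕ} (hn : 0 < n) {K F : Type} [Field K] [Field F] [Algebra K F]
    {ι : K →+* ℂ} {e : F →+* Mer} (he : KM_Real N K F ι e) {f : F} (hf : KM_IsKum K F n f)
    {y : Mer} (hy : y ^ n = e f) (γ : SL(2, ℤ)) (hγ : γ ∈ Gamma0 N) :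
    ∃ a : ZMod n, merComp γ y = algebraMap ℂ Mer (KM_zeta n a) * y := by
  have hy0 : y ≠ 0 := KM_root_ne_zero e hn hf hy
  have h1 : (merComp γ y / y) ^ n = 1 := by
    rw [div_pow, ← map_pow, hy, he.inv γ hγ f]
    exact div_self (KM_real_ne_zero e hf)
  obtain ⟨a, ha⟩ := KM_exists_zeta_of_pow_eq_one hn _ h1
  exact ⟨a, by rw [← ha, div_mul_cancel₀ _ hy0]⟩

/-- **CHAR-ELL**: at a fixed point `τ` of `γ ∈ Γ₀(N)`, the multiplier of a root is trivial. -/
theorem KM_char_elliptic {N n : ℕ} (hn : 0 < n) {K F : Type} [Field K] [Field F] [Algebra K F]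
    {ι : K →+* ℂ} {e : F →+* Mer} (he : KM_Real N K F ι e) {f : F} (hf : KM_IsKum K F n f)
    {y : Mer} (hy : y ^ n = e f) (γ : SL(2, ℤ)) (hγ : γ ∈ Gamma0 N) (τ : ℍ) (hfix : γ • τ = τ) :
    merComp γ y = y := by
  have hy0 : y ≠ 0 := KM_root_ne_zero e hn hf hy
  obtain ⟨a, ha⟩ := KM_exists_mult hn he hf hy γ hγ
  have hc := KM_denom_zpow_ordM hfix hy0 ha
  -- the valuation at `τ`
  obtain ⟨M, j, π, hπ0, hπM, -, hMf⟩ := KM_isVal_kum (KM_real_isVal he τ) hf
  have hπ : (1 / denom γ τ ^ 2) ^ M = 1 := by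
    have h1 : merComp γ (e π) = algebraMap ℂ Mer 1 * e π := by
      rw [map_one, one_mul, he.inv γ hγ π]
    have := KM_denom_zpow_ordM hfix ((map_ne_zero e).mpr hπ0) h1
    rwa [show S24_ordM τ (e π) = M from hπM] at this
  -- `n * ord_τ y = M * n * j`
  have hord : S24_ordM τ y = M * j := by
    have h1 : S24_ordM τ (y ^ n) = (n : ℤ) * S24_ordM τ y := by
      have hv : IsVal (K := ℂ) (fun x : Mer => S24_ordM τ x) :=
        S24_isVal_ordM (RingHom.id ℂ) (RingHom.id Mer) (fun c => rfl) τ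
      exact hv.pow hy0 n
    rw [hy] at h1
    have h2 : (n : ℤ) * S24_ordM τ y = (n : ℤ) * (M * j) := by
      rw [← h1]
      show S24_ordM τ (e f) = _
      rw [show S24_ordM τ (e f) = M * ((n : ℤ) * j) from hMf]
      ring
    have hn' : (n : ℤ) ≠ 0 := by exact_mod_cast hn.ne'
    exact mul_left_cancel₀ hn' h2
  rw [hord, zpow_mul, hπ, one_zpow] at hc
  rw [ha, ← hc, map_one, one_mul]

end Fermat.Agent.GalRep
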