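import Mathlib
import Fermat.Agent.GalRep.KMMult
import Fermat.Agent.GalRep.KMHol
import Fermat.Agent.GalRep.KMLevel

/-!
# Pillar G, package KM: the multiplier of an `r`-th root at the cusp `i∞`

`KM_par_core`: if `Y ^ r = Φ`, `Φ` has order `m` at `i∞` in the parameter `exp (2πiτ/N)`
(`CuspFrac N Φ m c₁`) and `Y ∘ T^k = c · Y`, then `c = exp (2πi k m / (N r))`.
-/

set_option autoImplicit false

open scoped Real Topology Manifold MatrixGroups
open UpperHalfPlane hiding I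
open Complex Filter Function

namespace Fermat.Agent.GalRep

open Fermat.Agent.S24

local notation "𝕢" => Function.Periodic.qParam

/-- powers of a `CuspFrac`. -/
theorem KM_cuspFrac_pow {N : ℕ} [NeZero N] {φ : Mer} {n : ℤ} {c : ℂ} (h : CuspFrac N φ n c)
    (r : ℕ) : CuspFrac N (φ ^ r) (r * n) (c ^ r) := by
  induction r with
  | zero =>
    have := CuspFrac.const (N := N) (z := 1) one_ne_zero
    simpa using this
  | succ r ih =>
    have := ih.mul h
    rw [pow_succ, pow_succ]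
    convert this using 1
    push_cast
    ring

/-- a holomorphic function which is periodic and whose `r`-th power is of moderate growth is of
moderate growth. -/
theorem KM_meroCusp_of_pow {N : ℕ} [NeZero N] {r : ℕ} (hr : 0 < r) {g : ℍ → ℂ}
    (hper : ∀ τ : ℍ, g ((N : ℝ) +ᵥ τ) = g τ) (hol : MDiff g) (hpow : MeroCusp N (g ^ r)) :
    MeroCusp N g where
  per := hper
  hol := hol
  bdd := by
    obtain ⟨m, hm⟩ := hpow.bdd
    refine ⟨m, ?_⟩
    rw [isBoundedAtImInfty_iff] at hm ⊢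
    obtain ⟨M, A, h⟩ := hm
    refine ⟨max M 1, A, fun τ hτ ↦ ?_⟩
    have h1 := h τ hτ
    have hq : ‖𝕢 (N : ℝ) τ‖ ≤ 1 := by
      have hN : (0 : ℝ) < N := by exact_mod_cast Nat.pos_of_ne_zero (NeZero.ne N)
      have := Function.Periodic.norm_qParam_lt_iff hN 0 (τ : ℂ)
      simp only [mul_zero, zero_div, Real.exp_zero] at this
      exact (this.mpr τ.im_pos).le
    -- `‖q^m g‖^r ≤ ‖q^m g^r‖ ≤ M`
    set x : ℝ := ‖𝕢 (N : ℝ) τ ^ m * g τ‖ with hx
    have hx0 : 0 ≤ x := norm_nonneg _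
    have hxr : x ^ r ≤ M := by
      have e1 : x ^ r = ‖𝕢 (N : ℝ) τ‖ ^ (m * r) * ‖g τ‖ ^ r := by
        rw [hx, norm_mul, norm_pow, mul_pow, ← pow_mul]
      have e2 : ‖𝕢 (N : ℝ) τ ^ m * (g ^ r) τ‖ = ‖𝕢 (N : ℝ) τ‖ ^ m * ‖g τ‖ ^ r := by
        rw [norm_mul, norm_pow, Pi.pow_apply, norm_pow]
      rw [e2] at h1
      have e3 : ‖𝕢 (N : ℝ) τ‖ ^ (m * r) ≤ ‖𝕢 (N : ℝ) τ‖ ^ m := by
        apply pow_le_pow_of_le_one (norm_nonneg _) hq
        exact Nat.le_mul_of_pos_right m hr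
      calc x ^ r = ‖𝕢 (N : ℝ) τ‖ ^ (m * r) * ‖g τ‖ ^ r := e1
        _ ≤ ‖𝕢 (N : ℝ) τ‖ ^ m * ‖g τ‖ ^ r :=
            mul_le_mul_of_nonneg_right e3 (pow_nonneg (norm_nonneg _) r)
        _ ≤ M := h1
    by_cases hx1 : x ≤ 1
    · exact hx1.trans (le_max_right _ _)
    · push Not at hx1
      have : x ≤ x ^ r := le_self_pow₀ hx1.le hr.ne'
      exact (this.trans hxr).trans (le_max_left _ _)

theorem KM_merComp_T_zpow_add (a b : ℤ) (x : Mer) :
    merComp (ModularGroup.T ^ (a + b)) x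
      = merComp (ModularGroup.T ^ b) (merComp (ModularGroup.T ^ a) x) := by
  rw [zpow_add, merComp_mul]
  rfl

theorem KM_merComp_T_zpow_mul {c : ℂ} {a : ℤ} {x : Mer}
    (h : merComp (ModularGroup.T ^ a) x = algebraMap ℂ Mer c * x) (j : ℕ) :
    merComp (ModularGroup.T ^ (a * j)) x = algebraMap ℂ Mer (c ^ j) * x := by
  induction j with
  | zero => simp [merComp_one]
  | succ j ih =>
    have e : a * ((j + 1 : ℕ) : ℤ) = a * j + a := by push_cast; ring
    rw [e, KM_merComp_T_zpow_add, ih, map_mul, merComp_const, h, pow_succ, map_mul]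
    ring

/-- an `N`-periodic holomorphic function is invariant under `T ^ (N * j)`. -/
theorem KM_holComp_T_of_per {N : ℕ} {b : Hol} (hper : ∀ τ : ℍ, (b : ℍ → ℂ) ((N : ℝ) +ᵥ τ) = (b : ℍ → ℂ) τ)
    (j : ℕ) : holComp (ModularGroup.T ^ (((N * j : ℕ) : ℤ))) b = b := by
  rw [hol_ext_iff]
  intro τ
  have h1 := congrFun (holComp_T_zpow ((N * j : ℕ) : ℤ) b) τ
  rw [h1, Fermat.Agent.S24.translate]
  have h2 := KM_per_mul hper j τ
  convert h2 using 3
  push_cast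
  rfl

/-- **PAR-core.** the multiplier at `i∞` of an `r`-th root. -/
theorem KM_par_core {N : ℕ} (hN : 0 < N) {r : ℕ} (hr : 0 < r) {Y Φ : Mer} (hY : Y ^ r = Φ)
    {m : ℤ} {c₁ : ℂ} (hΦ : CuspFrac N Φ m c₁) {k : ℤ} {c : ℂ}
    (hc : merComp (ModularGroup.T ^ k) Y = algebraMap ℂ Mer c * Y) :
    c = zetaPow (N * r) k ^ m := by
  have : NeZero N := ⟨hN.ne'⟩
  have : NeZero (N * r) := ⟨(Nat.mul_pos hN hr).ne'⟩
  have hΦ0 : Φ ≠ 0 := hΦ.ne_zero
  have hY0 : Y ≠ 0 := by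
    rintro rfl
    rw [zero_pow hr.ne'] at hY
    exact hΦ0 hY.symm
  have hΦ' := KM_cuspFrac_mul_level hN hr hΦ
  obtain ⟨a, b, hma, hmb, ha, hb, e, -, -⟩ := hΦ
  have hb' : algebraMap Hol Mer b ≠ 0 := algebraMap_hol_ne_zero hb
  -- `Y * b` is holomorphic
  have hpow : (Y * algebraMap Hol Mer b) ^ r = algebraMap Hol Mer (a * b ^ (r - 1)) := by
    rw [mul_pow, hY, map_mul, map_pow, ← e]
    have : r = (r - 1) + 1 := by omega
    conv_lhs => rw [this, pow_succ]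
    ring
  obtain ⟨A, hA⟩ := KM_exists_hol_of_pow hr _ _ hpow
  have hA0 : A ≠ 0 := by
    rintro rfl
    rw [map_zero] at hA
    exact mul_ne_zero hY0 hb' hA.symm
  have hAr : A ^ r = a * b ^ (r - 1) := by
    apply IsFractionRing.injective Hol Mer
    rw [map_pow, hA, hpow]
  -- periodicity of `Y` under `T ^ (N r)`
  have hbT : ∀ j : ℕ, holComp (ModularGroup.T ^ (((N * j : ℕ) : ℤ))) b = b :=
    KM_holComp_T_of_per hmb.per
  have haT : ∀ j : ℕ, holComp (ModularGroup.T ^ (((N * j : ℕ) : ℤ))) a = a :=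
    KM_holComp_T_of_per hma.per
  have hΦT : merComp (ModularGroup.T ^ ((N : ℤ))) Φ = Φ := by
    have h1 := haT 1
    have h2 := hbT 1
    simp only [mul_one] at h1 h2
    have h3 : Φ = algebraMap Hol Mer a / algebraMap Hol Mer b := by
      rw [eq_div_iff hb', e]
    rw [h3, map_div₀, merComp_algebraMap, merComp_algebraMap, h1, h2]
  have hYT : ∃ ζ : ℂ, ζ ^ r = 1 ∧
      merComp (ModularGroup.T ^ ((N : ℤ))) Y = algebraMap ℂ Mer ζ * Y := by
    have h1 : (merComp (ModularGroup.T ^ ((N : ℤ))) Y / Y) ^ r = 1 := by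
      rw [div_pow, ← map_pow, hY, hΦT]
      exact div_self hΦ0
    obtain ⟨z, hz⟩ := KM_exists_zeta_of_pow_eq_one hr _ h1
    exact ⟨KM_zeta r z, KM_zeta_pow hr z, by rw [← hz, div_mul_cancel₀ _ hY0]⟩
  obtain ⟨ζ, hζ, hYζ⟩ := hYT
  have hYNr : merComp (ModularGroup.T ^ (((N * r : ℕ) : ℤ))) Y = Y := by
    have := KM_merComp_T_zpow_mul hYζ r
    rw [hζ, map_one, one_mul] at this
    convert this using 3
    push_cast
    rfl
  have hANr : holComp (ModularGroup.T ^ (((N * r : ℕ) : ℤ))) A = A := by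
    apply IsFractionRing.injective Hol Mer
    rw [← merComp_algebraMap, hA, map_mul, hYNr, merComp_algebraMap, hbT r]
  have hAper : ∀ τ : ℍ, (A : ℍ → ℂ) (((N * r : ℕ) : ℝ) +ᵥ τ) = (A : ℍ → ℂ) τ := by
    intro τ
    have h1 := congrFun (holComp_T_zpow ((N * r : ℕ) : ℤ) A) τ
    rw [hANr, Fermat.Agent.S24.translate] at h1
    rw [h1]
    congr 2
  -- moderate growth of `A`
  have hmbNr := KM_meroCusp_mul hN hr hmb
  have hmaNr := KM_meroCusp_mul hN hr hma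
  have hApow : MeroCusp (N * r) ((A : ℍ → ℂ) ^ r) := by
    have h1 : ((A : ℍ → ℂ) ^ r) = (a : ℍ → ℂ) * (b : ℍ → ℂ) ^ (r - 1) := by
      have := congrArg (fun f : Hol => (f : ℍ → ℂ)) hAr
      simpa using this
    rw [h1]
    exact hmaNr.mul (hmbNr.pow _)
  have hmA : MeroCusp (N * r) (A : ℍ → ℂ) := KM_meroCusp_of_pow hr hAper A.2 hApow
  -- `Y` as a `CuspFrac` of level `N r`
  have hYfrac : CuspFrac (N * r) Y
      (cuspOrd (N * r) (A : ℍ → ℂ) - cuspOrd (N * r) (b : ℍ → ℂ))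
      (cuspLC (N * r) (A : ℍ → ℂ) / cuspLC (N * r) (b : ℍ → ℂ)) :=
    ⟨A, b, hmA, hmbNr, hA0, hb, hA.symm, rfl, rfl⟩
  set m' : ℤ := cuspOrd (N * r) (A : ℍ → ℂ) - cuspOrd (N * r) (b : ℍ → ℂ) with hm'
  set c' : ℂ := cuspLC (N * r) (A : ℍ → ℂ) / cuspLC (N * r) (b : ℍ → ℂ) with hc'
  have hc'0 : c' ≠ 0 := hYfrac.lc_ne_zero
  -- compare orders
  have h1 := KM_cuspFrac_pow hYfrac r
  rw [hY] at h1
  have h2 := (h1.unique hΦ').1
  have hmm : m' = m := by
    have hr' : (r : ℤ) ≠ 0 := by exact_mod_cast hr.ne'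
    exact mul_left_cancel₀ hr' h2
  -- translate
  have h3 := hYfrac.translate k
  rw [hc] at h3
  have hc0 : c ≠ 0 := by
    rintro rfl
    rw [map_zero, zero_mul] at hc
    exact hY0 ((map_eq_zero (merComp (ModularGroup.T ^ k))).mp hc)
  have h4 := (CuspFrac.const (N := N * r) hc0).mul hYfrac
  have h5 := (h4.unique h3).2
  rw [hmm] at h5
  exact mul_right_cancel₀ hc'0 h5

end Fermat.Agent.GalRep
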