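import Mathlib
import Fermat.Agent.GalRep.KMEll
import Fermat.Agent.GalRep.KMParCore
import Fermat.Agent.S21.Parabolic
import Fermat.Agent.S24.JFacts

/-!
# Pillar G, package KM: the Kummer character (CHAR)

* `KM_char_parabolic`: the multiplier of a root at a parabolic element of `Γ₀(N)` is trivial;
* `KM_exists_fixed`: an element of `SL(2,ℤ)` with `tr² < 4` has a fixed point in `ℍ`;
* `KM_exists_char`: for a Kummer generator `f` and a root `yⁿ = e f` there is an elliptic character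
  `χ : Γ₀(N) → ℤ/n` with `y ∘ γ = ζ_n^{χ γ} · y`;
* `KM_char_unique`, `KM_hasChar_mul`, `KM_hasChar_of_mem`: the character only depends on the class.
-/

set_option autoImplicit false
set_option maxHeartbeats 400000

open ModularCurve AlgebraicCurve CongruenceSubgroup UpperHalfPlane Matrix.SpecialLinearGroup
open Filter Topology
open scoped MatrixGroups

namespace Fermat.Agent.GalRep

open Fermat.Agent.S24

/-! ### the valuation at a cusp -/

/-- the order at the cusp `δ · i∞` (in the parameter `exp (2πiτ/N)`). -/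
noncomputable def KM_cuspVal (N : ℕ) {F : Type} [Field F] (e : F →+* Mer) (δ : SL(2, ℤ))
    (f : F) : ℤ :=
  open Classical in
  if h : ∃ m c, CuspFrac N (merComp δ (e f)) m c then h.choose else 0

theorem KM_cuspVal_eq {N : ℕ} [NeZero N] {F : Type} [Field F] {e : F →+* Mer} {δ : SL(2, ℤ)}
    {f : F} {m : ℤ} {c : ℂ} (h : CuspFrac N (merComp δ (e f)) m c) : KM_cuspVal N e δ f = m := by
  have hex : ∃ m c, CuspFrac N (merComp δ (e f)) m c := ⟨m, c, h⟩
  unfold KM_cuspVal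
  rw [dif_pos hex]
  obtain ⟨c', hc'⟩ := hex.choose_spec
  exact (hc'.unique h).1

theorem KM_cuspVal_spec {N : ℕ} [NeZero N] {K F : Type} [Field K] [Field F] [Algebra K F]
    {ι : K →+* ℂ} {e : F →+* Mer} (he : KM_Real N K F ι e) (δ : SL(2, ℤ)) {f : F} (hf : f ≠ 0) :
    ∃ c, CuspFrac N (merComp δ (e f)) (KM_cuspVal N e δ f) c := by
  obtain ⟨m, c, h⟩ := he.cusp δ f hf
  exact ⟨c, by rw [KM_cuspVal_eq h]; exact h⟩

theorem KM_cuspVal_isVal {N : ℕ} [NeZero N] {K F : Type} [Field K] [Field F] [Algebra K F]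
    {ι : K →+* ℂ} {e : F →+* Mer} (he : KM_Real N K F ι e) (δ : SL(2, ℤ)) :
    IsVal (K := K) (KM_cuspVal N e δ) where
  mul f g hf hg := by
    obtain ⟨c, h⟩ := KM_cuspVal_spec he δ hf
    obtain ⟨d, h'⟩ := KM_cuspVal_spec he δ hg
    have := h.mul h'
    rw [← map_mul, ← map_mul] at this
    exact KM_cuspVal_eq this
  add f g hf hg hfg := by
    obtain ⟨c, h⟩ := KM_cuspVal_spec he δ hf
    obtain ⟨d, h'⟩ := KM_cuspVal_spec he δ hg
    have hs : merComp δ (e f) + merComp δ (e g) ≠ 0 := by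
      rw [← map_add, ← map_add]
      exact (map_ne_zero (merComp δ)).mpr ((map_ne_zero e).mpr hfg)
    obtain ⟨k, c', hk, hle⟩ := h.add h' hs
    rw [← map_add, ← map_add] at hk
    rw [KM_cuspVal_eq hk]
    exact hle
  const c hc := by
    have h : CuspFrac N (merComp δ (e (algebraMap K F c))) 0 (ι c) := by
      rw [he.const, merComp_const]
      exact CuspFrac.const ((map_ne_zero ι).mpr hc)
    exact KM_cuspVal_eq h

/-! ### parabolic elements -/

/-- **CHAR-PAR**: the multiplier of a root at a parabolic element of `Γ₀(N)` is trivial. -/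
theorem KM_char_parabolic {N n : ℕ} [NeZero N] (hn : 0 < n) {K F : Type} [Field K] [Field F]
    [Algebra K F] {ι : K →+* ℂ} {e : F →+* Mer} (he : KM_Real N K F ι e) {f : F}
    (hf : KM_IsKum K F n f) {y : Mer} (hy : y ^ n = e f) (γ : SL(2, ℤ)) (hγ : γ ∈ Gamma0 N)
    (δ : SL(2, ℤ)) (k : ℤ) (hconj : ∀ w : ℍ, γ • (δ • w) = δ • (ModularGroup.T ^ k • w)) :
    merComp γ y = y := by
  have hN : 0 < N := Nat.pos_of_ne_zero (NeZero.ne N)
  obtain ⟨a, ha⟩ := KM_exists_mult hn he hf hy γ hγ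
  -- the conjugated root
  have hcongr : merComp (γ * δ) = merComp (δ * ModularGroup.T ^ k) :=
    KM_merComp_congr (fun w => by rw [mul_smul, mul_smul, hconj])
  have hT : ∀ x : Mer, merComp γ x = x →
      merComp (ModularGroup.T ^ k) (merComp δ x) = merComp δ x := by
    intro x hx
    have h1 : merComp (δ * ModularGroup.T ^ k) x = merComp (ModularGroup.T ^ k) (merComp δ x) := by
      rw [merComp_mul]; rfl
    have h2 : merComp (γ * δ) x = merComp δ (merComp γ x) := by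
      rw [merComp_mul]; rfl
    rw [← h1, ← hcongr, h2, hx]
  have hTy : merComp (ModularGroup.T ^ k) (merComp δ y)
      = algebraMap ℂ Mer (KM_zeta n a) * merComp δ y := by
    have h1 : merComp (δ * ModularGroup.T ^ k) y = merComp (ModularGroup.T ^ k) (merComp δ y) := by
      rw [merComp_mul]; rfl
    have h2 : merComp (γ * δ) y = merComp δ (merComp γ y) := by
      rw [merComp_mul]; rfl
    rw [← h1, ← hcongr, h2, ha, map_mul, merComp_const]
  -- the cusp valuation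
  have hW := KM_cuspVal_isVal he δ
  obtain ⟨M, j, π, hπ0, hπM, -, hMf⟩ := KM_isVal_kum hW hf
  obtain ⟨c₁, hΦ⟩ := KM_cuspVal_spec he δ hf.1
  obtain ⟨c₂, hPi⟩ := KM_cuspVal_spec he δ hπ0
  rw [hπM] at hPi
  rw [hMf] at hΦ
  have hdvd : (N : ℤ) ∣ k * M := hPi.dvd_of_invariant k (hT _ (he.inv γ hγ π))
  have hYpow : (merComp δ y) ^ n = merComp δ (e f) := by rw [← map_pow, hy]
  have hcore := KM_par_core hN hn hYpow hΦ hTy
  have hone : zetaPow (N * n) k ^ (M * ((n : ℤ) * j)) = 1 := by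
    rw [zetaPow_zpow_eq_one_iff (Nat.mul_pos hN hn)]
    obtain ⟨q, hq⟩ := hdvd
    refine ⟨q * j, ?_⟩
    push_cast
    calc k * (M * ((n : ℤ) * j)) = (k * M) * ((n : ℤ) * j) := by ring
      _ = (N : ℤ) * (n : ℤ) * (q * j) := by rw [hq]; ring
  rw [hone] at hcore
  rw [ha, hcore, map_one, one_mul]

/-! ### elliptic elements have fixed points -/

/-- An element of `SL(2,ℤ)` with `tr² < 4` has a fixed point in `ℍ`. -/
theorem KM_exists_fixed (γ : SL(2, ℤ))
    (htr : (γ : Matrix (Fin 2) (Fin 2) ℤ).trace ^ 2 < 4) : ∃ τ : ℍ, γ • τ = τ := by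
  have hdet : γ 0 0 * γ 1 1 - γ 0 1 * γ 1 0 = 1 := by
    have := γ.det_coe
    rwa [Matrix.det_fin_two] at this
  rw [Matrix.trace_fin_two] at htr
  set a : ℤ := γ 0 0 with ha
  set b : ℤ := γ 0 1 with hb
  set c : ℤ := γ 1 0 with hc
  set d : ℤ := γ 1 1 with hd
  have hc0 : c ≠ 0 := by
    intro h0
    rw [h0, mul_zero, sub_zero] at hdet
    have h1 : a = 1 ∧ d = 1 ∨ a = -1 ∧ d = -1 := Int.mul_eq_one_iff_eq_one_or_neg_one.mp hdet
    rcases h1 with ⟨h1, h2⟩ | ⟨h1, h2⟩ <;> rw [h1, h2] at htr <;> norm_num at htr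
  set D : ℝ := 4 - ((a : ℝ) + d) ^ 2 with hD
  have hDpos : 0 < D := by
    have : ((a + d) ^ 2 : ℤ) < 4 := htr
    have h2 : (((a + d) ^ 2 : ℤ) : ℝ) < 4 := by exact_mod_cast this
    push_cast at h2
    linarith
  have hcR : (c : ℝ) ≠ 0 := by exact_mod_cast hc0
  have habs : 0 < |(c : ℝ)| := abs_pos.mpr hcR
  set y : ℝ := Real.sqrt D / (2 * |(c : ℝ)|) with hy
  have hypos : 0 < y := div_pos (Real.sqrt_pos.mpr hDpos) (by positivity)
  set x : ℝ := ((a : ℝ) - d) / (2 * c) with hx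
  refine ⟨⟨⟨x, y⟩, hypos⟩, ?_⟩
  rw [S24_smul_eq_self_iff]
  have hy2 : y ^ 2 = D / (4 * (c : ℝ) ^ 2) := by
    rw [hy, div_pow, Real.sq_sqrt hDpos.le, mul_pow, sq_abs]
    norm_num
  have hτ : (((⟨⟨x, y⟩, hypos⟩ : ℍ)) : ℂ) = (x : ℂ) + (y : ℂ) * Complex.I := by
    apply Complex.ext <;> simp
  have hcC : (c : ℂ) ≠ 0 := by exact_mod_cast hc0
  have hX : 2 * (c : ℂ) * (x : ℂ) = (a : ℂ) - d := by
    have h1 : 2 * (c : ℝ) * x = (a : ℝ) - d := by
      rw [hx]; field_simp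
    exact_mod_cast h1
  have hY : 4 * (c : ℂ) ^ 2 * (y : ℂ) ^ 2 = 4 - ((a : ℂ) + d) ^ 2 := by
    have h1 : 4 * (c : ℝ) ^ 2 * y ^ 2 = 4 - ((a : ℝ) + d) ^ 2 := by
      rw [hy2, ← hD]; field_simp
    exact_mod_cast h1
  have hdetC : (a : ℂ) * d - b * c = 1 := by exact_mod_cast hdet
  have hI : Complex.I ^ 2 = -1 := Complex.I_sq
  have h4c : (4 * (c : ℂ)) ≠ 0 := mul_ne_zero (by norm_num) hcC
  apply mul_left_cancel₀ h4c
  rw [mul_zero, hτ]
  linear_combination (2 * (c : ℂ) * (x : ℂ) - ((a : ℂ) - d) + 4 * (c : ℂ) * (y : ℂ) * Complex.I) * hX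
    + 4 * (c : ℂ) ^ 2 * (y : ℂ) ^ 2 * hI - hY + 4 * hdetC

/-! ### the character -/

/-- **CHAR-triv**: the multiplier of a root at an element of `Γ₀(N)` with `tr² ≤ 4` is trivial. -/
theorem KM_char_ell {N n : ℕ} [NeZero N] (hn : 0 < n) {K F : Type} [Field K] [Field F]
    [Algebra K F] {ι : K →+* ℂ} {e : F →+* Mer} (he : KM_Real N K F ι e) {f : F}
    (hf : KM_IsKum K F n f) {y : Mer} (hy : y ^ n = e f) (γ : SL(2, ℤ)) (hγ : γ ∈ Gamma0 N)
    (htr : (γ : Matrix (Fin 2) (Fin 2) ℤ).trace ^ 2 ≤ 4) : merComp γ y = y := by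
  rcases htr.lt_or_eq with h | h
  · obtain ⟨τ, hτ⟩ := KM_exists_fixed γ h
    exact KM_char_elliptic hn he hf hy γ hγ τ hτ
  · obtain ⟨δ, k, hk⟩ := Fermat.Agent.S21.S21_p2_exists_conj_T γ h
    exact KM_char_parabolic hn he hf hy γ hγ δ k hk

theorem KM_char_unique {N n : ℕ} (hn : 0 < n) {y : Mer} (hy : y ≠ 0)
    {χ χ' : Additive (Gamma0 N) →+ ZMod n} (h : KM_HasChar N n y χ) (h' : KM_HasChar N n y χ') :
    χ = χ' := by
  refine AddMonoidHom.ext fun γ => ?_
  have h1 := h (Additive.toMul γ)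
  have h2 := h' (Additive.toMul γ)
  rw [h1] at h2
  have h3 := mul_right_cancel₀ hy h2
  have h4 := (algebraMap ℂ Mer).injective h3
  exact KM_zeta_injective hn h4

/-- **CHAR.** The Kummer character of a Kummer generator exists and is elliptic. -/
theorem KM_exists_char {N n : ℕ} [NeZero N] (hn : 0 < n) {K F : Type} [Field K] [Field F]
    [Algebra K F] {ι : K →+* ℂ} {e : F →+* Mer} (he : KM_Real N K F ι e) {f : F}
    (hf : KM_IsKum K F n f) {y : Mer} (hy : y ^ n = e f) :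
    ∃ χ : Additive (Gamma0 N) →+ ZMod n, KM_IsEll N n χ ∧ KM_HasChar N n y χ := by
  classical
  have hy0 : y ≠ 0 := KM_root_ne_zero e hn hf hy
  have hex : ∀ γ : Gamma0 N, ∃ a : ZMod n,
      merComp (γ : SL(2, ℤ)) y = algebraMap ℂ Mer (KM_zeta n a) * y :=
    fun γ => KM_exists_mult hn he hf hy γ γ.2
  choose a ha using hex
  have hadd : ∀ γ γ' : Gamma0 N, a (γ * γ') = a γ + a γ' := by
    intro γ γ'
    have h1 : merComp ((γ * γ' : Gamma0 N) : SL(2, ℤ)) y
        = merComp (γ' : SL(2, ℤ)) (merComp (γ : SL(2, ℤ)) y) := by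
      rw [Subgroup.coe_mul, merComp_mul]; rfl
    rw [ha, ha γ, map_mul, merComp_const, ha γ', ← mul_assoc, ← map_mul,
      ← KM_zeta_add hn] at h1
    have h3 := mul_right_cancel₀ hy0 h1
    have h4 := (algebraMap ℂ Mer).injective h3
    exact KM_zeta_injective hn h4
  let χ : Additive (Gamma0 N) →+ ZMod n :=
    AddMonoidHom.mk' (fun γ => a (Additive.toMul γ)) (fun γ γ' => hadd _ _)
  refine ⟨χ, ?_, fun γ => ha γ⟩
  intro γ htr
  have h1 := KM_char_ell hn he hf hy γ γ.2 htr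
  have h2 := ha γ
  rw [h1] at h2
  have h3 : algebraMap ℂ Mer 1 * y = algebraMap ℂ Mer (KM_zeta n (a γ)) * y := by
    rw [map_one, one_mul]; exact h2
  have h4 := (algebraMap ℂ Mer).injective (mul_right_cancel₀ hy0 h3)
  exact (KM_zeta_eq_one_iff hn _).mp h4.symm

/-- multiplicativity: the character of a product of roots is the sum of the characters. -/
theorem KM_hasChar_mul {N n : ℕ} (hn : 0 < n) {y y' : Mer}
    {χ χ' : Additive (Gamma0 N) →+ ZMod n} (h : KM_HasChar N n y χ) (h' : KM_HasChar N n y' χ') :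
    KM_HasChar N n (y * y') (χ + χ') := by
  intro γ
  rw [map_mul, h γ, h' γ, AddMonoidHom.add_apply, KM_zeta_add hn, map_mul]
  ring

/-- an invariant function has trivial character. -/
theorem KM_hasChar_zero {N n : ℕ} {y : Mer} (h : ∀ γ ∈ Gamma0 N, merComp γ y = y) :
    KM_HasChar N n y 0 := by
  intro γ
  rw [AddMonoidHom.zero_apply, KM_zeta_zero, map_one, one_mul]
  exact h γ γ.2

theorem KM_hasChar_zero_iff {N n : ℕ} {y : Mer} :
    KM_HasChar N n y 0 ↔ ∀ γ ∈ Gamma0 N, merComp γ y = y := by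
  constructor
  · intro h γ hγ
    have := h ⟨γ, hγ⟩
    rwa [AddMonoidHom.zero_apply, KM_zeta_zero, map_one, one_mul] at this
  · exact KM_hasChar_zero

end Fermat.Agent.GalRep
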