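import Mathlib
import Fermat.Agent.GalRep.Geom
import Fermat.Agent.GalRep.KMMult
import Fermat.Agent.GalRep.KMChar

/-!
# Pillar G, package HECKE, piece MER: the analytic multiplicative Hecke operators on `Mer`

* `GRHM_holComp α`, `GRHM_merComp α`: precomposition with `α ∈ GL₂(ℝ)`, `det α > 0`, on `Hol` and
  on `Mer` (the identity, as a junk value, if `det α ≤ 0`); composition law; agreement with S24's
  `holComp γ`, `merComp γ` on `SL₂(ℤ)`.
* `GRHM_T ℓ y = ∏_{i ∈ ℙ¹(𝔽_ℓ)} y ∘ heckeRep ℓ i`, `GRHM_U ℓ y = ∏_{i ∈ 𝔽_ℓ} y ∘ heckeMatrix ℓ i`,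
  `GRHM_t N ℓ` (`= GRHM_U ℓ` if `ℓ ∣ N`, `= GRHM_T ℓ` otherwise): monoid-with-zero homs of `Mer`.
* multiplier formulas `GRHM_T_comp`, `GRHM_U_comp`: if `y ∘ γ = ζ^{χ γ} y` on `Γ₀(N)` and
  `α_i γ = g'_i α_{σ i}`, then `(T y) ∘ γ = ζ^{Σ_i χ(g'_i)} · T y`.
* `GRHM_exists_char`: the character of `GRHM_t N ℓ y` is a cohomological Hecke transform of the
  character of `y` (`GR_TcohRel`).
-/

set_option autoImplicit false

open UpperHalfPlane hiding I
open scoped MatrixGroups Manifold ModularForm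
open CongruenceSubgroup Matrix.SpecialLinearGroup ModularCurve AlgebraicCurve
open P2MW.S_ModularForm_heckeT_slash_eq_self_of_mem_Gamma0.ModularForm.HeckeSlashInvariance
open ModularForm

noncomputable section

namespace Fermat.Agent.GalRep

open Fermat.Agent.S24 Fermat.Agent.S16

/-! ### Precomposition with `GL₂⁺(ℝ)` on `Hol` -/

/-- Precomposition with `α ∈ GL₂(ℝ)` of positive determinant, on `Hol`. -/
def GRHM_holCompPos (α : GL (Fin 2) ℝ) (h : 0 < α.det.val) : Hol →ₐ[ℂ] Hol where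
  toFun f := ⟨fun τ => (f : ℍ → ℂ) (α • τ), f.2.comp (UpperHalfPlane.mdifferentiable_smul h)⟩
  map_one' := rfl
  map_mul' _ _ := rfl
  map_zero' := rfl
  map_add' _ _ := rfl
  commutes' _ := rfl

/-- Precomposition with `α ∈ GL₂(ℝ)` on `Hol`: `(GRHM_holComp α f) τ = f (α • τ)` if
`det α > 0`; the identity otherwise. -/
def GRHM_holComp (α : GL (Fin 2) ℝ) : Hol →ₐ[ℂ] Hol :=
  open Classical in
  if h : 0 < α.det.val then GRHM_holCompPos α h else AlgHom.id ℂ Hol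

theorem GRHM_holComp_apply {α : GL (Fin 2) ℝ} (h : 0 < α.det.val) (f : Hol) (τ : ℍ) :
    (GRHM_holComp α f : ℍ → ℂ) τ = (f : ℍ → ℂ) (α • τ) := by
  rw [GRHM_holComp, dif_pos h]
  rfl

theorem GRHM_holComp_of_not_pos {α : GL (Fin 2) ℝ} (h : ¬ 0 < α.det.val) :
    GRHM_holComp α = AlgHom.id ℂ Hol := by
  rw [GRHM_holComp, dif_neg h]

theorem GRHM_holComp_injective (α : GL (Fin 2) ℝ) : Function.Injective (GRHM_holComp α) := by
  by_cases h : 0 < α.det.val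
  · intro f g hfg
    rw [hol_ext_iff] at hfg ⊢
    intro τ
    have := hfg (α⁻¹ • τ)
    rwa [GRHM_holComp_apply h, GRHM_holComp_apply h, smul_inv_smul] at this
  · rw [GRHM_holComp_of_not_pos h]
    exact fun _ _ h => h

theorem GRHM_det_mul_pos {α β : GL (Fin 2) ℝ} (hα : 0 < α.det.val) (hβ : 0 < β.det.val) :
    0 < (α * β).det.val := by
  rw [map_mul, Units.val_mul]
  exact mul_pos hα hβ

theorem GRHM_det_mapGL_pos (γ : SL(2, ℤ)) : 0 < (mapGL ℝ γ : GL (Fin 2) ℝ).det.val := by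
  simp

theorem GRHM_holComp_mul {α β : GL (Fin 2) ℝ} (hα : 0 < α.det.val) (hβ : 0 < β.det.val) :
    GRHM_holComp (α * β) = (GRHM_holComp β).comp (GRHM_holComp α) := by
  apply AlgHom.ext
  intro f
  rw [hol_ext_iff]
  intro τ
  rw [AlgHom.comp_apply, GRHM_holComp_apply (GRHM_det_mul_pos hα hβ), GRHM_holComp_apply hβ,
    GRHM_holComp_apply hα, mul_smul]

theorem GRHM_holComp_one : GRHM_holComp 1 = AlgHom.id ℂ Hol := by
  apply AlgHom.ext
  intro f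
  rw [hol_ext_iff]
  intro τ
  rw [GRHM_holComp_apply (by simp), one_smul]
  rfl

theorem GRHM_holComp_mapGL (γ : SL(2, ℤ)) : GRHM_holComp (mapGL ℝ γ) = holComp γ := by
  apply AlgHom.ext
  intro f
  rw [hol_ext_iff]
  intro τ
  rw [GRHM_holComp_apply (GRHM_det_mapGL_pos γ), holComp_apply]
  rfl

/-! ### Precomposition with `GL₂⁺(ℝ)` on `Mer` -/

/-- Precomposition with `α ∈ GL₂(ℝ)` (`det α > 0`) on meromorphic functions. -/
def GRHM_merComp (α : GL (Fin 2) ℝ) : Mer →+* Mer :=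
  IsFractionRing.map (A := Hol) (B := Hol) (K := Mer) (L := Mer)
    (j := (GRHM_holComp α).toRingHom) (GRHM_holComp_injective α)

@[simp]
theorem GRHM_merComp_algebraMap (α : GL (Fin 2) ℝ) (f : Hol) :
    GRHM_merComp α (algebraMap Hol Mer f) = algebraMap Hol Mer (GRHM_holComp α f) := by
  rw [GRHM_merComp, IsFractionRing.map, IsLocalization.map_eq]
  rfl

@[simp]
theorem GRHM_merComp_const (α : GL (Fin 2) ℝ) (c : ℂ) :
    GRHM_merComp α (algebraMap ℂ Mer c) = algebraMap ℂ Mer c := by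
  rw [IsScalarTower.algebraMap_apply ℂ Hol Mer, GRHM_merComp_algebraMap, AlgHom.commutes]

theorem GRHM_merComp_injective (α : GL (Fin 2) ℝ) : Function.Injective (GRHM_merComp α) :=
  (GRHM_merComp α).injective

/-- two ring homomorphisms of `Mer` which agree on `Hol` are equal. -/
theorem GRHM_ringHom_ext {φ ψ : Mer →+* Mer}
    (h : ∀ f : Hol, φ (algebraMap Hol Mer f) = ψ (algebraMap Hol Mer f)) : φ = ψ :=
  IsLocalization.ringHom_ext (nonZeroDivisors Hol) (RingHom.ext h)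

theorem GRHM_merComp_mul {α β : GL (Fin 2) ℝ} (hα : 0 < α.det.val) (hβ : 0 < β.det.val) :
    GRHM_merComp (α * β) = (GRHM_merComp β).comp (GRHM_merComp α) := by
  apply GRHM_ringHom_ext
  intro f
  rw [RingHom.comp_apply, GRHM_merComp_algebraMap, GRHM_merComp_algebraMap,
    GRHM_merComp_algebraMap, GRHM_holComp_mul hα hβ]
  rfl

theorem GRHM_merComp_mul_apply {α β : GL (Fin 2) ℝ} (hα : 0 < α.det.val) (hβ : 0 < β.det.val)
    (y : Mer) : GRHM_merComp (α * β) y = GRHM_merComp β (GRHM_merComp α y) := by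
  rw [GRHM_merComp_mul hα hβ]
  rfl

theorem GRHM_merComp_one : GRHM_merComp 1 = RingHom.id Mer := by
  apply GRHM_ringHom_ext
  intro f
  rw [GRHM_merComp_algebraMap, GRHM_holComp_one]
  rfl

theorem GRHM_merComp_mapGL (γ : SL(2, ℤ)) : GRHM_merComp (mapGL ℝ γ) = merComp γ := by
  apply GRHM_ringHom_ext
  intro f
  rw [GRHM_merComp_algebraMap, merComp_algebraMap, GRHM_holComp_mapGL]

/-! ### Positivity of the determinants of the Hecke representatives -/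

theorem GRHM_det_heckeMatrix_pos (p j : ℕ) : 0 < (heckeMatrix p j).det.val :=
  det_heckeMatrix_pos p j

theorem GRHM_det_heckeRep_pos (p : ℕ) (x : OnePoint (ZMod p)) : 0 < (heckeRep p x).det.val := by
  cases x using OnePoint.rec with
  | infty => exact det_heckeDiagMatrix_pos p
  | coe j => exact det_heckeMatrix_pos p j.val

/-! ### Roots of unity -/

theorem GRHM_zeta_sum {n : ℕ} (hn : 0 < n) {ι : Type*} (s : Finset ι) (a : ι → ZMod n) :
    KM_zeta n (∑ i ∈ s, a i) = ∏ i ∈ s, KM_zeta n (a i) := by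
  classical
  induction s using Finset.induction_on with
  | empty => simp [KM_zeta_zero]
  | insert i s hi ih =>
    rw [Finset.sum_insert hi, Finset.prod_insert hi, KM_zeta_add hn, ih]

/-! ### The multiplicative Hecke operators on `Mer` -/

/-- `T_ℓ^{an} y = ∏_{i ∈ ℙ¹(𝔽_ℓ)} y ∘ heckeRep ℓ i`. -/
def GRHM_T (ℓ : ℕ) [NeZero ℓ] : Mer →*₀ Mer where
  toFun y := ∏ i : OnePoint (ZMod ℓ), GRHM_merComp (heckeRep ℓ i) y
  map_zero' := Finset.prod_eq_zero (Finset.mem_univ (OnePoint.infty : OnePoint (ZMod ℓ))) (map_zero _)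
  map_one' := by simp
  map_mul' x y := by simp [Finset.prod_mul_distrib]

/-- `U_ℓ^{an} y = ∏_{i ∈ 𝔽_ℓ} y ∘ heckeMatrix ℓ i`. -/
def GRHM_U (ℓ : ℕ) [NeZero ℓ] : Mer →*₀ Mer where
  toFun y := ∏ i : ZMod ℓ, GRHM_merComp (heckeMatrix ℓ i.val) y
  map_zero' := Finset.prod_eq_zero (Finset.mem_univ (0 : ZMod ℓ)) (map_zero _)
  map_one' := by simp
  map_mul' x y := by simp [Finset.prod_mul_distrib]

theorem GRHM_T_apply (ℓ : ℕ) [NeZero ℓ] (y : Mer) :
    GRHM_T ℓ y = ∏ i : OnePoint (ZMod ℓ), GRHM_merComp (heckeRep ℓ i) y := rfl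

theorem GRHM_U_apply (ℓ : ℕ) [NeZero ℓ] (y : Mer) :
    GRHM_U ℓ y = ∏ i : ZMod ℓ, GRHM_merComp (heckeMatrix ℓ i.val) y := rfl

/-- `T y = (y ∘ (ℓ 0; 0 1)) · U y`. -/
theorem GRHM_T_eq_mul_U (ℓ : ℕ) [NeZero ℓ] (y : Mer) :
    GRHM_T ℓ y = GRHM_merComp (heckeDiagMatrix ℓ) y * GRHM_U ℓ y := by
  rw [GRHM_T_apply, GRHM_U_apply]
  exact Fintype.prod_option (fun x : OnePoint (ZMod ℓ) => GRHM_merComp (heckeRep ℓ x) y)

/-- the multiplicative Hecke operator at `ℓ` of level `N` on `Mer`: `U_ℓ` if `ℓ ∣ N`, `T_ℓ`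
otherwise. -/
def GRHM_t (N ℓ : ℕ) [NeZero ℓ] : Mer →*₀ Mer :=
  open Classical in if ℓ ∣ N then GRHM_U ℓ else GRHM_T ℓ

theorem GRHM_t_of_dvd {N ℓ : ℕ} [NeZero ℓ] (h : ℓ ∣ N) : GRHM_t N ℓ = GRHM_U ℓ := by
  rw [GRHM_t, if_pos h]

theorem GRHM_t_of_not_dvd {N ℓ : ℕ} [NeZero ℓ] (h : ¬ ℓ ∣ N) : GRHM_t N ℓ = GRHM_T ℓ := by
  rw [GRHM_t, if_neg h]

theorem GRHM_T_const (ℓ : ℕ) [NeZero ℓ] (c : ℂ) :
    GRHM_T ℓ (algebraMap ℂ Mer c) = algebraMap ℂ Mer (c ^ (ℓ + 1)) := by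
  rw [GRHM_T_apply]
  simp only [GRHM_merComp_const, Finset.prod_const, Finset.card_univ]
  rw [map_pow]
  congr 1
  have h1 : Fintype.card (OnePoint (ZMod ℓ)) = Fintype.card (Option (ZMod ℓ)) :=
    Fintype.card_congr (Equiv.refl _)
  rw [h1, Fintype.card_option, ZMod.card]

theorem GRHM_U_const (ℓ : ℕ) [NeZero ℓ] (c : ℂ) :
    GRHM_U ℓ (algebraMap ℂ Mer c) = algebraMap ℂ Mer (c ^ ℓ) := by
  rw [GRHM_U_apply]
  simp only [GRHM_merComp_const, Finset.prod_const, Finset.card_univ]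
  rw [map_pow, ZMod.card]

/-! ### The multiplier formulas -/

/-- core computation: a coset relation `α γ = g' α'` turns `(y ∘ α) ∘ γ` into
`ζ^{χ g'} · (y ∘ α')`. -/
theorem GRHM_merComp_coset {N n : ℕ} {y : Mer} {χ : Additive (Gamma0 N) →+ ZMod n}
    (h : KM_HasChar N n y χ) {α α' : GL (Fin 2) ℝ} (hα : 0 < α.det.val) (hα' : 0 < α'.det.val)
    (γ g' : Gamma0 N)
    (hmul : α * mapGL ℝ (γ : SL(2, ℤ)) = mapGL ℝ (g' : SL(2, ℤ)) * α') :
    merComp (γ : SL(2, ℤ)) (GRHM_merComp α y)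
      = algebraMap ℂ Mer (KM_zeta n (χ (Additive.ofMul g'))) * GRHM_merComp α' y := by
  rw [← GRHM_merComp_mapGL, ← GRHM_merComp_mul_apply hα (GRHM_det_mapGL_pos _), hmul,
    GRHM_merComp_mul_apply (GRHM_det_mapGL_pos _) hα', GRHM_merComp_mapGL, h g', map_mul,
    GRHM_merComp_const]

/-- **multiplier formula for `T_ℓ`.** -/
theorem GRHM_T_comp {N n ℓ : ℕ} [NeZero ℓ] (hn : 0 < n) {y : Mer}
    {χ : Additive (Gamma0 N) →+ ZMod n} (h : KM_HasChar N n y χ)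
    (γ : Gamma0 N) (σ : Equiv.Perm (OnePoint (ZMod ℓ))) (g' : OnePoint (ZMod ℓ) → Gamma0 N)
    (hmul : ∀ i, heckeRep ℓ i * mapGL ℝ (γ : SL(2, ℤ))
      = mapGL ℝ (g' i : SL(2, ℤ)) * heckeRep ℓ (σ i)) :
    merComp (γ : SL(2, ℤ)) (GRHM_T ℓ y)
      = algebraMap ℂ Mer (KM_zeta n (∑ i, χ (Additive.ofMul (g' i)))) * GRHM_T ℓ y := by
  rw [GRHM_T_apply, map_prod]
  have h1 : ∀ i : OnePoint (ZMod ℓ), merComp (γ : SL(2, ℤ)) (GRHM_merComp (heckeRep ℓ i) y)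
      = algebraMap ℂ Mer (KM_zeta n (χ (Additive.ofMul (g' i))))
        * GRHM_merComp (heckeRep ℓ (σ i)) y := fun i =>
    GRHM_merComp_coset h (GRHM_det_heckeRep_pos ℓ i) (GRHM_det_heckeRep_pos ℓ (σ i)) γ (g' i)
      (hmul i)
  rw [Finset.prod_congr rfl (fun i _ => h1 i), Finset.prod_mul_distrib, GRHM_zeta_sum hn,
    map_prod]
  congr 1
  exact Equiv.prod_comp σ (fun i => GRHM_merComp (heckeRep ℓ i) y)

/-- **multiplier formula for `U_ℓ`.** -/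
theorem GRHM_U_comp {N n ℓ : ℕ} [NeZero ℓ] (hn : 0 < n) {y : Mer}
    {χ : Additive (Gamma0 N) →+ ZMod n} (h : KM_HasChar N n y χ)
    (γ : Gamma0 N) (σ : Equiv.Perm (ZMod ℓ)) (g' : ZMod ℓ → Gamma0 N)
    (hmul : ∀ i, heckeMatrix ℓ i.val * mapGL ℝ (γ : SL(2, ℤ))
      = mapGL ℝ (g' i : SL(2, ℤ)) * heckeMatrix ℓ (σ i).val) :
    merComp (γ : SL(2, ℤ)) (GRHM_U ℓ y)
      = algebraMap ℂ Mer (KM_zeta n (∑ i, χ (Additive.ofMul (g' i)))) * GRHM_U ℓ y := by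
  rw [GRHM_U_apply, map_prod]
  have h1 : ∀ i : ZMod ℓ, merComp (γ : SL(2, ℤ)) (GRHM_merComp (heckeMatrix ℓ i.val) y)
      = algebraMap ℂ Mer (KM_zeta n (χ (Additive.ofMul (g' i))))
        * GRHM_merComp (heckeMatrix ℓ (σ i).val) y := fun i =>
    GRHM_merComp_coset h (GRHM_det_heckeMatrix_pos ℓ _) (GRHM_det_heckeMatrix_pos ℓ _) γ (g' i)
      (hmul i)
  rw [Finset.prod_congr rfl (fun i _ => h1 i), Finset.prod_mul_distrib, GRHM_zeta_sum hn,
    map_prod]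
  congr 1
  exact Equiv.prod_comp σ (fun i => GRHM_merComp (heckeMatrix ℓ i.val) y)

/-! ### Characters -/

/-- a nonzero `Y ∈ Mer` on which every `γ ∈ Γ₀(N)` acts by an `n`-th root of unity `ζ^{c γ}` has
the character `c`, which is additive. -/
theorem GRHM_exists_hom {N n : ℕ} (hn : 0 < n) {Y : Mer} (hY : Y ≠ 0) (c : Gamma0 N → ZMod n)
    (hc : ∀ γ : Gamma0 N, merComp (γ : SL(2, ℤ)) Y = algebraMap ℂ Mer (KM_zeta n (c γ)) * Y) :
    ∃ χ' : Additive (Gamma0 N) →+ ZMod n,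
      (∀ γ : Gamma0 N, χ' (Additive.ofMul γ) = c γ) ∧ KM_HasChar N n Y χ' := by
  have hadd : ∀ γ δ : Gamma0 N, c (γ * δ) = c γ + c δ := by
    intro γ δ
    apply KM_zeta_injective hn
    have h1 : merComp ((γ * δ : Gamma0 N) : SL(2, ℤ)) Y
        = algebraMap ℂ Mer (KM_zeta n (c γ + c δ)) * Y := by
      have hcomp : merComp ((γ * δ : Gamma0 N) : SL(2, ℤ)) Y
          = merComp (δ : SL(2, ℤ)) (merComp (γ : SL(2, ℤ)) Y) := by
        rw [← GRHM_merComp_mapGL, ← GRHM_merComp_mapGL, ← GRHM_merComp_mapGL,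
          ← GRHM_merComp_mul_apply (GRHM_det_mapGL_pos _) (GRHM_det_mapGL_pos _)]
        congr 2
        rw [Subgroup.coe_mul, map_mul]
      rw [hcomp, hc γ, map_mul, merComp_const, hc δ, KM_zeta_add hn, map_mul]
      ring
    have h2 := (hc (γ * δ)).symm.trans h1
    have h3 := mul_right_cancel₀ hY h2
    exact (algebraMap ℂ Mer).injective h3
  refine ⟨AddMonoidHom.mk' (fun a => c (Additive.toMul a)) (fun a b => ?_), fun γ => rfl,
    fun γ => hc γ⟩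
  exact hadd (Additive.toMul a) (Additive.toMul b)

/-- **MER, main statement**: if `y ≠ 0` has the character `χ` (exponent `n`, level `N`), then
`GRHM_t N ℓ y` has a character `χ'` which is a cohomological Hecke transform of `χ`. -/
theorem GRHM_exists_char (N n ℓ : ℕ) [Fact ℓ.Prime] (hn : 0 < n) {y : Mer} (hy : y ≠ 0)
    {χ : Additive (Gamma0 N) →+ ZMod n} (h : KM_HasChar N n y χ) :
    ∃ χ' : Additive (Gamma0 N) →+ ZMod n,
      GR_TcohRel N n ℓ χ χ' ∧ KM_HasChar N n (GRHM_t N ℓ y) χ' := by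
  have : NeZero ℓ := ⟨(Fact.out : ℓ.Prime).ne_zero⟩
  by_cases hℓ : ℓ ∣ N
  · -- the case `U_ℓ`
    rw [GRHM_t_of_dvd hℓ]
    have hY : GRHM_U ℓ y ≠ 0 := (map_ne_zero (GRHM_U ℓ)).mpr hy
    choose σ g' hdata using fun γ : Gamma0 N => S16_exists_heckeU_data (N := N) hℓ γ
    obtain ⟨χ', hχ', hchar⟩ := GRHM_exists_hom hn hY
      (fun γ => ∑ i, χ (Additive.ofMul (g' γ i)))
      (fun γ => GRHM_U_comp hn h γ (σ γ) (g' γ) (hdata γ))
    refine ⟨χ', ⟨fun hnot => absurd hℓ hnot, fun _ γ τ g₁ hmul => ?_⟩, hchar⟩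
    apply KM_zeta_injective hn
    have h1 := GRHM_U_comp hn h γ τ g₁ hmul
    have h2 := (hchar γ).symm.trans h1
    exact (algebraMap ℂ Mer).injective (mul_right_cancel₀ hY h2)
  · -- the case `T_ℓ`
    rw [GRHM_t_of_not_dvd hℓ]
    have hY : GRHM_T ℓ y ≠ 0 := (map_ne_zero (GRHM_T ℓ)).mpr hy
    choose σ g' hdata using fun γ : Gamma0 N => S16_exists_heckeT_data (N := N) hℓ γ
    obtain ⟨χ', hχ', hchar⟩ := GRHM_exists_hom hn hY
      (fun γ => ∑ i, χ (Additive.ofMul (g' γ i)))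
      (fun γ => GRHM_T_comp hn h γ (σ γ) (g' γ) (hdata γ))
    refine ⟨χ', ⟨fun _ γ τ g₁ hmul => ?_, fun hdvd => absurd hdvd hℓ⟩, hchar⟩
    apply KM_zeta_injective hn
    have h1 := GRHM_T_comp hn h γ τ g₁ hmul
    have h2 := (hchar γ).symm.trans h1
    exact (algebraMap ℂ Mer).injective (mul_right_cancel₀ hY h2)

/-! ### Function-level formulas for the consumers (CONV) -/

theorem GRHM_holComp_heckeMatrix_apply (ℓ j : ℕ) (f : Hol) (τ : ℍ) :
    (GRHM_holComp (heckeMatrix ℓ j) f : ℍ → ℂ) τ = (f : ℍ → ℂ) (heckeMatrix ℓ j • τ) :=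
  GRHM_holComp_apply (GRHM_det_heckeMatrix_pos ℓ j) f τ

theorem GRHM_holComp_heckeDiagMatrix_apply (ℓ : ℕ) (f : Hol) (τ : ℍ) :
    (GRHM_holComp (heckeDiagMatrix ℓ) f : ℍ → ℂ) τ = (f : ℍ → ℂ) (heckeDiagMatrix ℓ • τ) :=
  GRHM_holComp_apply (det_heckeDiagMatrix_pos ℓ) f τ

theorem GRHM_holComp_heckeRep_apply (ℓ : ℕ) (x : OnePoint (ZMod ℓ)) (f : Hol) (τ : ℍ) :
    (GRHM_holComp (heckeRep ℓ x) f : ℍ → ℂ) τ = (f : ℍ → ℂ) (heckeRep ℓ x • τ) :=
  GRHM_holComp_apply (GRHM_det_heckeRep_pos ℓ x) f τ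

/-- on `Hol`, `T` is the product of the translates. -/
theorem GRHM_T_algebraMap (ℓ : ℕ) [NeZero ℓ] (f : Hol) :
    GRHM_T ℓ (algebraMap Hol Mer f)
      = algebraMap Hol Mer (∏ i : OnePoint (ZMod ℓ), GRHM_holComp (heckeRep ℓ i) f) := by
  rw [GRHM_T_apply, map_prod]
  exact Finset.prod_congr rfl (fun i _ => GRHM_merComp_algebraMap _ f)

/-- on `Hol`, `U` is the product of the translates. -/
theorem GRHM_U_algebraMap (ℓ : ℕ) [NeZero ℓ] (f : Hol) :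
    GRHM_U ℓ (algebraMap Hol Mer f)
      = algebraMap Hol Mer (∏ i : ZMod ℓ, GRHM_holComp (heckeMatrix ℓ i.val) f) := by
  rw [GRHM_U_apply, map_prod]
  exact Finset.prod_congr rfl (fun i _ => GRHM_merComp_algebraMap _ f)

/-! ### The field `char` of `GR_HeckeES`, from the comparison `ev (t f) = t^{an} (ev f)` -/

/-- **CHAR**: if `t : F → F` is realised on `Mer` by the analytic operator `GRHM_t N ℓ`, then the
Kummer character of `t f` is a cohomological Hecke transform of the Kummer character of `f`.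
This is the field `char` of `GR_HeckeES N ℓ` (the hypothesis `KM_IsKum` is not needed, only
`f ≠ 0`). -/
theorem GRHM_char_of_conv (N : ℕ) [NeZero N] (ℓ : ℕ) [Fact ℓ.Prime]
    (t : ↥(modularFunctionFieldBar N) → ↥(modularFunctionFieldBar N))
    (hconv : ∀ f : ↥(modularFunctionFieldBar N), ev N (t f) = GRHM_t N ℓ (ev N f))
    (n : ℕ) (hn : 0 < n) (f : ↥(modularFunctionFieldBar N))
    (χ : Additive (Gamma0 N) →+ ZMod n) (hf : f ≠ 0) (h : GR_KChar N n f χ) :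
    ∃ χ' : Additive (Gamma0 N) →+ ZMod n, GR_TcohRel N n ℓ χ χ' ∧ GR_KChar N n (t f) χ' := by
  have : NeZero ℓ := ⟨(Fact.out : ℓ.Prime).ne_zero⟩
  obtain ⟨y, hy, hchar⟩ := h
  have hy0 : y ≠ 0 := by
    rintro rfl
    rw [zero_pow hn.ne'] at hy
    exact hf ((map_eq_zero (ev N)).mp hy.symm)
  obtain ⟨χ', hrel, hchar'⟩ := GRHM_exists_char N n ℓ hn hy0 hchar
  exact ⟨χ', hrel, GRHM_t N ℓ y, by rw [← map_pow, hy, hconv], hchar'⟩

end Fermat.Agent.GalRep
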