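import Mathlib
import Fermat.Agent.GalRep.HeckeBdd
import Fermat.Agent.GalRep.HeckeMer
import Fermat.Agent.GalRep.HeckeSer

/-!
# Pillar G, package HECKE, piece CONV (helper19), part 2: `q`-series ↔ functions

If `f, g ∈ F_N = modularFunctionFieldBar N` satisfy the `q`-expansion formula (H1)
`g(q^ℓ) = GRS_rhs N ℓ ζ f` (`ζ ∈ ℚ̄` a primitive `ℓ`-th root of unity), then on `ℍ`
`ev N g = GRHM_t N ℓ (ev N f)` (`= ∏_i (ev N f) ∘ α_i`, helper22's analytic operator).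

* `GRHC_conv` : the statement above;
* `GRHC_conv_t` : `hconv` of `GRHM_char_of_conv` for `t = GRS_t hst`;
* `GRHC_char` : the field `char` of `GR_HeckeES N ℓ` for `t = GRS_t hst`.
-/

set_option autoImplicit false

open UpperHalfPlane hiding I
open scoped MatrixGroups Manifold ModularForm
open CongruenceSubgroup Matrix.SpecialLinearGroup ModularCurve AlgebraicCurve
open P2MW.S_ModularForm_heckeT_slash_eq_self_of_mem_Gamma0.ModularForm.HeckeSlashInvariance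
open ModularForm

noncomputable section

namespace Fermat.Agent.GalRep

open Fermat.Agent.S24 Fermat.Agent.S16

/-! ### the right-hand side as a monoid homomorphism -/

/-- `GRS_rhs` as a homomorphism of monoids with zero. -/
def GRHC_rhsHom (N ℓ : ℕ) [NeZero ℓ] {R : Type*} [CommRing R] [Nontrivial R] (u : Rˣ) :
    LaurentSeries R →*₀ LaurentSeries R where
  toFun := GRS_rhs N ℓ u
  map_zero' := GRS_rhs_zero N ℓ u
  map_one' := GRS_rhs_one N ℓ u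
  map_mul' := GRS_rhs_mul N ℓ u

theorem GRHC_rhsHom_apply (N ℓ : ℕ) [NeZero ℓ] {R : Type*} [CommRing R] [Nontrivial R] (u : Rˣ)
    (f : LaurentSeries R) : GRHC_rhsHom N ℓ u f = GRS_rhs N ℓ u f := rfl

/-- independence of the primitive root. -/
theorem GRHC_rhs_indep (N ℓ : ℕ) [NeZero ℓ] {R : Type*} [CommRing R] [IsDomain R]
    (ζ ζ' : Rˣ) (hζ : IsPrimitiveRoot (ζ : R) ℓ) (hζ' : IsPrimitiveRoot (ζ' : R) ℓ)
    (f : LaurentSeries R) :
    GRS_rhs N ℓ ζ' f = GRS_rhs N ℓ ζ f := by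
  have hℓ : 0 < ℓ := Nat.pos_of_ne_zero (NeZero.ne ℓ)
  obtain ⟨a, -, ha⟩ := hζ.eq_pow_of_pow_eq_one hζ'.pow_eq_one
  have hcop : a.Coprime ℓ := by
    rw [← hζ.pow_iff_coprime hℓ, ha]
    exact hζ'
  have ha' : ζ ^ a = ζ' := Units.ext (by rw [Units.val_pow_eq_pow_val, ha])
  have h1 : ζ ^ ℓ = 1 := Units.ext (by rw [Units.val_pow_eq_pow_val, hζ.pow_eq_one, Units.val_one])
  rw [← ha', GRS_rhs_pow N ℓ ζ h1 a hcop]

/-! ### the operator on `BddSub` -/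

/-- `U_ℓ^{mult}` if `ℓ ∣ N`, `T_ℓ^{mult}` otherwise, on `BddSub`. -/
def GRHC_tB (N ℓ : ℕ) [NeZero ℓ] (u : BddSub) : BddSub :=
  open Classical in if ℓ ∣ N then GRHB_UB ℓ u else GRHB_TB ℓ u

theorem GRHC_qExpand_tB (N ℓ : ℕ) [NeZero ℓ] (u : BddSub) :
    qExpand ℂ ℓ (GRHB_th (GRHC_tB N ℓ u)) = GRS_rhs N ℓ (GRHB_zeta ℓ) (GRHB_th u) := by
  by_cases h : ℓ ∣ N
  · rw [GRHC_tB, if_pos h, GRS_rhs_of_dvd N ℓ h, GRHB_qExpand_UB]
  · rw [GRHC_tB, if_neg h, GRS_rhs_of_not_dvd N ℓ h, GRHB_qExpand_TB]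

theorem GRHC_tB_ne_zero (N ℓ : ℕ) [NeZero ℓ] {u : BddSub} (hu : u ≠ 0) : GRHC_tB N ℓ u ≠ 0 := by
  intro h0
  have h1 := GRHC_qExpand_tB N ℓ u
  rw [h0, map_zero, map_zero] at h1
  have h2 : GRHB_th u ≠ 0 := fun h => hu (GRHB_th_injective (by rw [h, map_zero]))
  exact (map_ne_zero (GRHC_rhsHom N ℓ (GRHB_zeta ℓ))).mpr h2 h1.symm

/-! ### comparison with helper22's operators on `Hol` -/

theorem GRHC_coe_prod {ι : Type*} (s : Finset ι) (f : ι → Hol) (τ : ℍ) :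
    ((∏ i ∈ s, f i : Hol) : ℍ → ℂ) τ = ∏ i ∈ s, (f i : ℍ → ℂ) τ := by
  classical
  induction s using Finset.induction_on with
  | empty => simp
  | insert a s ha ih =>
    rw [Finset.prod_insert ha, Finset.prod_insert ha, ← ih]
    rfl

theorem GRHC_prod_zmod {M : Type*} [CommMonoid M] (ℓ : ℕ) [NeZero ℓ] (F : ℕ → M) :
    ∏ i : ZMod ℓ, F i.val = ∏ j ∈ Finset.range ℓ, F j := by
  refine Finset.prod_nbij' (fun i : ZMod ℓ => i.val) (fun j : ℕ => (j : ZMod ℓ)) ?_ ?_ ?_ ?_ ?_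
  · intro i _
    exact Finset.mem_range.mpr (ZMod.val_lt i)
  · intro j _
    exact Finset.mem_univ _
  · intro i _
    exact ZMod.natCast_zmod_val i
  · intro j hj
    exact ZMod.val_natCast_of_lt (Finset.mem_range.mp hj)
  · intro i _
    rfl

theorem GRHC_bddToHol_UB (ℓ : ℕ) [NeZero ℓ] (u : BddSub) :
    bddToHol (GRHB_UB ℓ u) = ∏ i : ZMod ℓ, GRHM_holComp (heckeMatrix ℓ i.val) (bddToHol u) := by
  apply Subtype.ext
  funext τ
  rw [GRHC_coe_prod]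
  simp only [GRHM_holComp_heckeMatrix_apply]
  rw [GRHC_prod_zmod ℓ (fun j => (bddToHol u : ℍ → ℂ) (heckeMatrix ℓ j • τ))]
  show GRHB_U ℓ u τ = _
  rw [GRHB_U_apply]
  rfl

theorem GRHC_bddToHol_TB (ℓ : ℕ) [NeZero ℓ] (u : BddSub) :
    bddToHol (GRHB_TB ℓ u)
      = ∏ i : OnePoint (ZMod ℓ), GRHM_holComp (heckeRep ℓ i) (bddToHol u) := by
  refine Eq.trans ?_ (Fintype.prod_option
    (fun x : OnePoint (ZMod ℓ) => GRHM_holComp (heckeRep ℓ x) (bddToHol u))).symm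
  rw [GRHB_TB_eq, map_mul, GRHC_bddToHol_UB]
  congr 1
  apply Subtype.ext
  funext τ
  show _ = (GRHM_holComp (heckeDiagMatrix ℓ) (bddToHol u) : ℍ → ℂ) τ
  rw [GRHM_holComp_heckeDiagMatrix_apply]
  rfl

/-- on `BddSub`, helper22's analytic operator is `GRHC_tB`. -/
theorem GRHC_t_algebraMap (N ℓ : ℕ) [NeZero ℓ] (u : BddSub) :
    GRHM_t N ℓ (algebraMap Hol Mer (bddToHol u))
      = algebraMap Hol Mer (bddToHol (GRHC_tB N ℓ u)) := by
  by_cases h : ℓ ∣ N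
  · rw [GRHM_t_of_dvd h, GRHC_tB, if_pos h, GRHM_U_algebraMap, GRHC_bddToHol_UB]
  · rw [GRHM_t_of_not_dvd h, GRHC_tB, if_neg h, GRHM_T_algebraMap, GRHC_bddToHol_TB]

/-- on `BFrac`: `GRHM_t (bToMer (u / v)) = bToMer (t u / t v)`. -/
theorem GRHC_t_bToMer_div (N ℓ : ℕ) [NeZero ℓ] (u v : BddSub) :
    GRHM_t N ℓ (bToMer (algebraMap BddSub BFrac u / algebraMap BddSub BFrac v))
      = bToMer (algebraMap BddSub BFrac (GRHC_tB N ℓ u)
          / algebraMap BddSub BFrac (GRHC_tB N ℓ v)) := by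
  rw [map_div₀, map_div₀, map_div₀, bToMer_algebraMap, bToMer_algebraMap, bToMer_algebraMap,
    bToMer_algebraMap, GRHC_t_algebraMap, GRHC_t_algebraMap]

/-- the `q`-expansion of `t u / t v`. -/
theorem GRHC_qExpand_div (N ℓ : ℕ) [NeZero ℓ] (u v : BddSub) :
    qExpand ℂ ℓ (thetaHom (algebraMap BddSub BFrac (GRHC_tB N ℓ u)
        / algebraMap BddSub BFrac (GRHC_tB N ℓ v)))
      = GRS_rhs N ℓ (GRHB_zeta ℓ)
          (thetaHom (algebraMap BddSub BFrac u / algebraMap BddSub BFrac v)) := by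
  rw [map_div₀, map_div₀, map_div₀, GRHB_thetaHom_algebraMap, GRHB_thetaHom_algebraMap,
    GRHB_thetaHom_algebraMap, GRHB_thetaHom_algebraMap, GRHC_qExpand_tB, GRHC_qExpand_tB,
    ← GRHC_rhsHom_apply, ← GRHC_rhsHom_apply, ← GRHC_rhsHom_apply, map_div₀]

/-! ### CONV -/

/-- **CONV** on `BFrac`: if `θ(b')(q^ℓ) = GRS_rhs N ℓ ζ₀ (θ b)`, then `bToMer b' = t^{an} (bToMer b)`. -/
theorem GRHC_conv_BFrac (N ℓ : ℕ) [NeZero ℓ] (b b' : BFrac)
    (h : qExpand ℂ ℓ (thetaHom b') = GRS_rhs N ℓ (GRHB_zeta ℓ) (thetaHom b)) :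
    bToMer b' = GRHM_t N ℓ (bToMer b) := by
  obtain ⟨u, v, hv, rfl⟩ := IsFractionRing.div_surjective (A := BddSub) b
  rw [GRHC_t_bToMer_div]
  congr 1
  apply thetaHom_injective
  apply qExpand_injective ℓ
  rw [h, GRHC_qExpand_div]

/-- **CONV**: the `q`-expansion formula (H1) implies the analytic formula. -/
theorem GRHC_conv (N : ℕ) [NeZero N] (ℓ : ℕ) [NeZero ℓ] (ζ : (AlgebraicClosure ℚ)ˣ)
    (hζ : IsPrimitiveRoot (ζ : AlgebraicClosure ℚ) ℓ) (f g : ↥(modularFunctionFieldBar N))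
    (h : qExpand (AlgebraicClosure ℚ) ℓ (g : LaurentSeries (AlgebraicClosure ℚ))
      = GRS_rhs N ℓ ζ (f : LaurentSeries (AlgebraicClosure ℚ))) :
    ev N g = GRHM_t N ℓ (ev N f) := by
  rw [ev_eq, ev_eq]
  apply GRHC_conv_BFrac
  rw [thetaHom_evB, thetaHom_evB, ← ModularCurve.coeffMap_qExpand, h, GRS_coeffMap_rhs]
  apply GRHC_rhs_indep N ℓ
  · exact GRHB_zeta_primitive (NeZero.ne ℓ)
  · exact hζ.map_of_injective kEmb_injective

/-- `hconv` of `GRHM_char_of_conv` for the operator `GRS_t hst` of package SER. -/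
theorem GRHC_conv_t (N : ℕ) [NeZero N] (ℓ : ℕ) [NeZero ℓ] (ζ : (AlgebraicClosure ℚ)ˣ)
    (hζ : IsPrimitiveRoot (ζ : AlgebraicClosure ℚ) ℓ) (hst : GRS_Stab N ℓ ζ)
    (f : ↥(modularFunctionFieldBar N)) :
    ev N (GRS_t hst f) = GRHM_t N ℓ (ev N f) :=
  GRHC_conv N ℓ ζ hζ f (GRS_t hst f) (GRS_t_spec hst f)

/-- **the field `char` of `GR_HeckeES N ℓ`** for `t = GRS_t hst`. -/
theorem GRHC_char (N : ℕ) [NeZero N] (ℓ : ℕ) [Fact ℓ.Prime] (ζ : (AlgebraicClosure ℚ)ˣ)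
    (hζ : IsPrimitiveRoot (ζ : AlgebraicClosure ℚ) ℓ)
    (hst : @GRS_Stab N ℓ ⟨(Fact.out : ℓ.Prime).ne_zero⟩ ζ)
    (n : ℕ) (hn : 0 < n) (f : ↥(modularFunctionFieldBar N))
    (χ : Additive (Gamma0 N) →+ ZMod n) (hf : f ≠ 0) (h : GR_KChar N n f χ) :
    ∃ χ' : Additive (Gamma0 N) →+ ZMod n, GR_TcohRel N n ℓ χ χ' ∧
      GR_KChar N n (@GRS_t N ℓ ⟨(Fact.out : ℓ.Prime).ne_zero⟩ ζ hst f) χ' := by
  have : NeZero ℓ := ⟨(Fact.out : ℓ.Prime).ne_zero⟩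
  exact GRHM_char_of_conv N ℓ (fun f => GRS_t hst f) (GRHC_conv_t N ℓ ζ hζ hst) n hn f χ hf h

end Fermat.Agent.GalRep
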