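import Mathlib
import Fermat.Agent.S24.EvDegEq
import Fermat.Agent.S24.FInd

/-!
# Pillar G, package HECKE, piece DEG part 1 (helper2): the Fricke involution of `F_M`

`w_M : τ ↦ -1/(Mτ)` induces an involution `merW M` of `Mer` with
`merW M (j(dτ)) = j(d'τ)` for `d d' = M`; it stabilises the analytic realisation of
`F_M = modularFunctionFieldBar M`, whence a `ℚ̄`-algebra automorphism
`GRHF_theta M : F_M ≃ₐ[ℚ̄] F_M` with `θ (jBar M d) = jBar M d'` (`d d' = M`).
-/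

set_option autoImplicit false
set_option synthInstance.maxHeartbeats 400000

open UpperHalfPlane hiding I
open scoped MatrixGroups Manifold ModularForm
open CongruenceSubgroup ModularCurve

noncomputable section

namespace Fermat.Agent.GalRep

open Fermat.Agent.S24 Fermat.Agent.S28

/-- the Fricke map `τ ↦ -1/(Mτ)`. -/
def GRHF_w (M : ℕ) (τ : ℍ) : ℍ := ModularGroup.S • (ut M 0 1 • τ)

theorem GRHF_coe_S_smul (z : ℍ) : ((ModularGroup.S • z : ℍ) : ℂ) = (-(z : ℂ))⁻¹ := by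
  rw [UpperHalfPlane.modular_S_smul]

theorem GRHF_coe_w {M : ℕ} (hM : 0 < M) (τ : ℍ) :
    ((GRHF_w M τ : ℍ) : ℂ) = (-((M : ℂ) * (τ : ℂ)))⁻¹ := by
  rw [GRHF_w, GRHF_coe_S_smul, coe_ut_smul hM one_pos]
  simp

theorem GRHF_mdifferentiable_w (M : ℕ) : MDifferentiable 𝓘(ℂ) 𝓘(ℂ) (GRHF_w M) :=
  (mdifferentiable_SL_smul ModularGroup.S).comp (mdifferentiable_ut_smul M)

theorem GRHF_w_w {M : ℕ} (hM : 0 < M) (τ : ℍ) : GRHF_w M (GRHF_w M τ) = τ := by
  apply UpperHalfPlane.ext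
  rw [GRHF_coe_w hM, GRHF_coe_w hM]
  have hτ : (τ : ℂ) ≠ 0 := UpperHalfPlane.ne_zero τ
  have hM' : (M : ℂ) ≠ 0 := Nat.cast_ne_zero.mpr hM.ne'
  field_simp

/-- `d · w_M(τ) = S • (d' τ)` for `d d' = M`. -/
theorem GRHF_ut_smul_w {M d d' : ℕ} (hd : 0 < d) (hd' : 0 < d') (h : d * d' = M) (τ : ℍ) :
    ut d 0 1 • GRHF_w M τ = ModularGroup.S • (ut d' 0 1 • τ) := by
  have hM : 0 < M := h ▸ Nat.mul_pos hd hd'
  apply UpperHalfPlane.ext
  rw [coe_ut_smul hd one_pos, GRHF_coe_w hM, GRHF_coe_S_smul, coe_ut_smul hd' one_pos]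
  simp only [Nat.cast_zero, Nat.cast_one, add_zero, div_one]
  have hτ : (τ : ℂ) ≠ 0 := UpperHalfPlane.ne_zero τ
  have h1 : (d : ℂ) ≠ 0 := Nat.cast_ne_zero.mpr hd.ne'
  have h2 : (d' : ℂ) ≠ 0 := Nat.cast_ne_zero.mpr hd'.ne'
  have h3 : (M : ℂ) = (d : ℂ) * (d' : ℂ) := by rw [← h]; push_cast; ring
  rw [h3]
  field_simp

theorem GRHF_jFun_w {M d d' : ℕ} (hd : 0 < d) (hd' : 0 < d') (h : d * d' = M) (τ : ℍ) :
    jFun d (GRHF_w M τ) = jFun d' τ := by
  rw [jFun_eq_jfun', jFun_eq_jfun', GRHF_ut_smul_w hd hd' h, S24_jfun_smul]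

/-- precomposition with `w_M` on holomorphic functions. -/
def GRHF_holW (M : ℕ) : Hol →ₐ[ℂ] Hol where
  toFun f := ⟨fun τ => (f : ℍ → ℂ) (GRHF_w M τ), f.2.comp (GRHF_mdifferentiable_w M)⟩
  map_one' := rfl
  map_mul' _ _ := rfl
  map_zero' := rfl
  map_add' _ _ := rfl
  commutes' _ := rfl

@[simp]
theorem GRHF_holW_apply (M : ℕ) (f : Hol) (τ : ℍ) :
    (GRHF_holW M f : ℍ → ℂ) τ = (f : ℍ → ℂ) (GRHF_w M τ) := rfl

theorem GRHF_holW_holW {M : ℕ} (hM : 0 < M) (f : Hol) : GRHF_holW M (GRHF_holW M f) = f := by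
  rw [hol_ext_iff]
  intro τ
  rw [GRHF_holW_apply, GRHF_holW_apply, GRHF_w_w hM]

theorem GRHF_holW_injective {M : ℕ} (hM : 0 < M) : Function.Injective (GRHF_holW M) := by
  intro f g h
  rw [← GRHF_holW_holW hM f, ← GRHF_holW_holW hM g, h]

theorem GRHF_holW_jHol {M d d' : ℕ} (hd : 0 < d) (hd' : 0 < d') (h : d * d' = M) :
    GRHF_holW M (jHol d) = jHol d' := by
  rw [hol_ext_iff]
  intro τ
  rw [GRHF_holW_apply, jHol_apply, jHol_apply, GRHF_jFun_w hd hd' h]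

/-- the Fricke involution on meromorphic functions. -/
def GRHF_merW (M : ℕ) [NeZero M] : Mer →+* Mer :=
  IsFractionRing.map (A := Hol) (B := Hol) (K := Mer) (L := Mer)
    (j := (GRHF_holW M).toRingHom) (GRHF_holW_injective (Nat.pos_of_ne_zero (NeZero.ne M)))

theorem GRHF_merW_algebraMap (M : ℕ) [NeZero M] (f : Hol) :
    GRHF_merW M (algebraMap Hol Mer f) = algebraMap Hol Mer (GRHF_holW M f) := by
  rw [GRHF_merW, IsFractionRing.map, IsLocalization.map_eq]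
  rfl

theorem GRHF_merW_const (M : ℕ) [NeZero M] (c : ℂ) :
    GRHF_merW M (algebraMap ℂ Mer c) = algebraMap ℂ Mer c := by
  rw [IsScalarTower.algebraMap_apply ℂ Hol Mer, GRHF_merW_algebraMap, AlgHom.commutes]

theorem GRHF_merW_merW (M : ℕ) [NeZero M] (x : Mer) : GRHF_merW M (GRHF_merW M x) = x := by
  have h : (GRHF_merW M).comp (GRHF_merW M) = RingHom.id Mer := by
    apply merComp_hom_ext
    intro f
    rw [RingHom.comp_apply, GRHF_merW_algebraMap, GRHF_merW_algebraMap,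
      GRHF_holW_holW (Nat.pos_of_ne_zero (NeZero.ne M))]
    rfl
  exact congrArg (fun φ : Mer →+* Mer => φ x) h

variable (M : ℕ) [NeZero M]

theorem GRHF_merW_ev_const (a : AlgebraicClosure ℚ) :
    GRHF_merW M (ev M (algebraMap (AlgebraicClosure ℚ) ↥(modularFunctionFieldBar M) a)) =
      ev M (algebraMap (AlgebraicClosure ℚ) ↥(modularFunctionFieldBar M) a) := by
  rw [(isEv_ev M).const, GRHF_merW_const]

theorem GRHF_merW_ev_jBar (d d' : ℕ) [NeZero d] [NeZero d'] (h : d * d' = M) :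
    GRHF_merW M (ev M (jBar M d (Dvd.intro _ h))) = ev M (jBar M d' (Dvd.intro_left _ h)) := by
  rw [(isEv_ev M).gen, (isEv_ev M).gen, GRHF_merW_algebraMap,
    GRHF_holW_jHol (Nat.pos_of_ne_zero (NeZero.ne d)) (Nat.pos_of_ne_zero (NeZero.ne d')) h]

/-- the Fricke involution preserves the analytic realisation of `F_M`. -/
theorem GRHF_exists (f : ↥(modularFunctionFieldBar M)) :
    ∃ g : ↥(modularFunctionFieldBar M), ev M g = GRHF_merW M (ev M f) := by
  revert f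
  apply F_induction M
  · intro c
    exact ⟨_, (GRHF_merW_ev_const M c).symm⟩
  · intro d _ hd
    obtain ⟨d', hd'⟩ := hd
    have : NeZero d' := ⟨by
      rintro rfl
      rw [mul_zero] at hd'
      exact NeZero.ne M hd'⟩
    exact ⟨jBar M d' (Dvd.intro_left _ hd'.symm), (GRHF_merW_ev_jBar M d d' hd'.symm).symm⟩
  · rintro x y ⟨gx, hx⟩ ⟨gy, hy⟩
    exact ⟨gx + gy, by
      rw [RingHom.map_add (ev M), RingHom.map_add (ev M), RingHom.map_add (GRHF_merW M), hx, hy]⟩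
  · rintro x y ⟨gx, hx⟩ ⟨gy, hy⟩
    exact ⟨gx * gy, by
      rw [RingHom.map_mul (ev M), RingHom.map_mul (ev M), RingHom.map_mul (GRHF_merW M), hx, hy]⟩
  · rintro x ⟨gx, hx⟩
    exact ⟨gx⁻¹, by
      rw [_root_.map_inv₀ (ev M), _root_.map_inv₀ (ev M), _root_.map_inv₀ (GRHF_merW M), hx]⟩

theorem GRHF_ev_injective : Function.Injective (ev M) := (ev M).injective

/-- the Fricke involution of `F_M` as a function. -/
def GRHF_thetaFun (f : ↥(modularFunctionFieldBar M)) : ↥(modularFunctionFieldBar M) :=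
  Classical.choose (GRHF_exists M f)

theorem GRHF_ev_thetaFun (f : ↥(modularFunctionFieldBar M)) :
    ev M (GRHF_thetaFun M f) = GRHF_merW M (ev M f) :=
  Classical.choose_spec (GRHF_exists M f)

theorem GRHF_thetaFun_eq {f g : ↥(modularFunctionFieldBar M)}
    (h : ev M g = GRHF_merW M (ev M f)) : GRHF_thetaFun M f = g :=
  GRHF_ev_injective M (by rw [GRHF_ev_thetaFun, h])

theorem GRHF_thetaFun_thetaFun (f : ↥(modularFunctionFieldBar M)) :
    GRHF_thetaFun M (GRHF_thetaFun M f) = f :=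
  GRHF_thetaFun_eq M (by rw [GRHF_ev_thetaFun, GRHF_merW_merW])

/-- **the Fricke involution** of `F_M`, a `ℚ̄`-algebra automorphism. -/
def GRHF_theta : ↥(modularFunctionFieldBar M) ≃ₐ[AlgebraicClosure ℚ]
    ↥(modularFunctionFieldBar M) where
  toFun := GRHF_thetaFun M
  invFun := GRHF_thetaFun M
  left_inv := GRHF_thetaFun_thetaFun M
  right_inv := GRHF_thetaFun_thetaFun M
  map_mul' x y := GRHF_thetaFun_eq M (by
    rw [RingHom.map_mul (ev M), GRHF_ev_thetaFun, GRHF_ev_thetaFun, RingHom.map_mul (ev M),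
      RingHom.map_mul (GRHF_merW M)])
  map_add' x y := GRHF_thetaFun_eq M (by
    rw [RingHom.map_add (ev M), GRHF_ev_thetaFun, GRHF_ev_thetaFun, RingHom.map_add (ev M),
      RingHom.map_add (GRHF_merW M)])
  commutes' c := GRHF_thetaFun_eq M (GRHF_merW_ev_const M c).symm

theorem GRHF_ev_theta (f : ↥(modularFunctionFieldBar M)) :
    ev M (GRHF_theta M f) = GRHF_merW M (ev M f) := GRHF_ev_thetaFun M f

theorem GRHF_theta_theta (f : ↥(modularFunctionFieldBar M)) :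
    GRHF_theta M (GRHF_theta M f) = f := GRHF_thetaFun_thetaFun M f

/-- `θ (j(q^d)) = j(q^{d'})` for `d d' = M`. -/
theorem GRHF_theta_jBar (d d' : ℕ) [NeZero d] [NeZero d'] (h : d * d' = M) :
    GRHF_theta M (jBar M d (Dvd.intro _ h)) = jBar M d' (Dvd.intro_left _ h) :=
  GRHF_thetaFun_eq M (GRHF_merW_ev_jBar M d d' h).symm

end Fermat.Agent.GalRep
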