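import Mathlib
import Fermat.Agent.GalRep.HeckeFricke
import Fermat.Agent.S20.PsiRec
import Fermat.Prelude.Def_ModularCurve_HeckeOperator

/-!
# Pillar G, package HECKE, piece DEG (helper2): `[F_{Nℓ} : V F_N] = ℓ + 1` resp. `ℓ`

`α = heckeAlphaBar ℚ̄ N ℓ : F_N → F_{Nℓ}` (inclusion), `β = heckeBetaBar ℚ̄ N ℓ` (`V : f(q) ↦ f(q^ℓ)`).
The Fricke involutions satisfy `θ_{Nℓ} ∘ β = α ∘ θ_N`, hence
`[F_{Nℓ} : β F_N] = [F_{Nℓ} : α F_N] = ψ(Nℓ)/ψ(N)`.

Main results: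
* `GRHF_theta_beta`, `GRHF_theta_alpha`;
* `GRHF_finrank_alphaRange_mul : ψ(N) * [F_{Nℓ} : α F_N] = ψ(Nℓ)`;
* `GRHF_finrank_betaRange_eq : [F_{Nℓ} : β F_N] = [F_{Nℓ} : α F_N]`;
* `GRHF_finrank_betaRange (hℓ : ℓ.Prime) : [F_{Nℓ} : β F_N] = if ℓ ∣ N then ℓ else ℓ + 1`;
* `GRHF_finrank_beta`: the same for `F_{Nℓ}` as an `F_N`-algebra via `β` (`RingHom.toAlgebra`).
-/

set_option autoImplicit false
set_option synthInstance.maxHeartbeats 400000
set_option maxHeartbeats 1000000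

open ModularCurve IntermediateField

noncomputable section

namespace Fermat.Agent.GalRep

open Fermat.Agent.S24 Fermat.Agent.S20

theorem GRHF_coeffMap_qExpand {R S : Type*} [CommRing R] [CommRing S] (f : R →+* S) (n : ℕ)
    [NeZero n] (x : LaurentSeries R) : coeffMap f (qExpand R n x) = qExpand S n (coeffMap f x) := by
  ext k
  by_cases hk : (n : ℤ) ∣ k
  · obtain ⟨m, rfl⟩ := hk
    rw [coeffMap_coeff, qExpand_coeff_mul, qExpand_coeff_mul, coeffMap_coeff]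
  · rw [coeffMap_coeff, qExpand_coeff_of_not_dvd n _ hk, qExpand_coeff_of_not_dvd n _ hk,
      map_zero]

variable (N ℓ : ℕ) [NeZero N] [NeZero ℓ]

theorem GRHF_alpha_jBar (d : ℕ) [NeZero d] (hd : d ∣ N) :
    heckeAlphaBar (AlgebraicClosure ℚ) N ℓ (jBar N d hd) =
      jBar (N * ℓ) d (hd.trans (dvd_mul_right N ℓ)) :=
  Subtype.ext rfl

theorem GRHF_beta_jBar (d : ℕ) [NeZero d] (hd : d ∣ N) :
    heckeBetaBar (AlgebraicClosure ℚ) N ℓ (jBar N d hd) =
      jBar (N * ℓ) (ℓ * d) (by rw [mul_comm N ℓ]; exact mul_dvd_mul_left ℓ hd) := by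
  apply Subtype.ext
  show qExpand (AlgebraicClosure ℚ) ℓ (coeffEmb (AlgebraicClosure ℚ) (qExpand ℚ d jq)) =
    coeffEmb (AlgebraicClosure ℚ) (qExpand ℚ (ℓ * d) jq)
  rw [← qExpand_qExpand]
  simp only [coeffEmb, GRHF_coeffMap_qExpand]

/-- **Fricke intertwines the two degeneracy maps**: `θ_{Nℓ} ∘ β = α ∘ θ_N`. -/
theorem GRHF_theta_beta (f : ↥(modularFunctionFieldBar N)) :
    GRHF_theta (N * ℓ) (heckeBetaBar (AlgebraicClosure ℚ) N ℓ f) =
      heckeAlphaBar (AlgebraicClosure ℚ) N ℓ (GRHF_theta N f) := by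
  have h : ((GRHF_theta (N * ℓ) : ↥(modularFunctionFieldBar (N * ℓ)) →+*
        ↥(modularFunctionFieldBar (N * ℓ)))).comp
        (heckeBetaBar (AlgebraicClosure ℚ) N ℓ : ↥(modularFunctionFieldBar N) →+*
          ↥(modularFunctionFieldBar (N * ℓ))) =
      ((heckeAlphaBar (AlgebraicClosure ℚ) N ℓ : ↥(modularFunctionFieldBar N) →+*
          ↥(modularFunctionFieldBar (N * ℓ)))).comp
        (GRHF_theta N : ↥(modularFunctionFieldBar N) →+* ↥(modularFunctionFieldBar N)) := by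
    apply ringHom_ext_gen N
    · intro a
      simp only [RingHom.comp_apply, RingHom.coe_coe, AlgHom.commutes, AlgEquiv.commutes]
    · intro d _ hd
      obtain ⟨d', hd'⟩ := hd
      have hne : NeZero d' := ⟨by
        rintro rfl
        rw [mul_zero] at hd'
        exact NeZero.ne N hd'⟩
      simp only [RingHom.comp_apply, RingHom.coe_coe]
      rw [GRHF_beta_jBar, GRHF_theta_jBar N d d' hd'.symm, GRHF_alpha_jBar,
        GRHF_theta_jBar (N * ℓ) (ℓ * d) d' (by rw [hd']; ring)]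
  exact congrArg (fun φ : ↥(modularFunctionFieldBar N) →+* ↥(modularFunctionFieldBar (N * ℓ)) =>
    φ f) h

theorem GRHF_theta_alpha (f : ↥(modularFunctionFieldBar N)) :
    GRHF_theta (N * ℓ) (heckeAlphaBar (AlgebraicClosure ℚ) N ℓ f) =
      heckeBetaBar (AlgebraicClosure ℚ) N ℓ (GRHF_theta N f) := by
  have := GRHF_theta_beta N ℓ (GRHF_theta N f)
  rw [GRHF_theta_theta] at this
  rw [← this, GRHF_theta_theta]

/-- `θ_{Nℓ}` maps `β F_N` onto `α F_N`. -/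
theorem GRHF_map_betaRange :
    (heckeBetaBar (AlgebraicClosure ℚ) N ℓ).fieldRange.map
        (GRHF_theta (N * ℓ) : ↥(modularFunctionFieldBar (N * ℓ)) →ₐ[AlgebraicClosure ℚ]
          ↥(modularFunctionFieldBar (N * ℓ))) =
      (heckeAlphaBar (AlgebraicClosure ℚ) N ℓ).fieldRange := by
  ext x
  constructor
  · rintro ⟨y, ⟨f, rfl⟩, rfl⟩
    exact ⟨GRHF_theta N f, (GRHF_theta_beta N ℓ f).symm⟩
  · rintro ⟨f, rfl⟩
    refine ⟨heckeBetaBar (AlgebraicClosure ℚ) N ℓ (GRHF_theta N f), ⟨_, rfl⟩, ?_⟩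
    have h := GRHF_theta_beta N ℓ (GRHF_theta N f)
    rw [GRHF_theta_theta] at h
    exact h

theorem GRHF_map_top :
    (⊤ : IntermediateField (AlgebraicClosure ℚ) ↥(modularFunctionFieldBar (N * ℓ))).map
        (GRHF_theta (N * ℓ) : ↥(modularFunctionFieldBar (N * ℓ)) →ₐ[AlgebraicClosure ℚ]
          ↥(modularFunctionFieldBar (N * ℓ))) = ⊤ := by
  ext x
  constructor
  · intro _; trivial
  · intro _
    exact ⟨GRHF_theta (N * ℓ) x, trivial, GRHF_theta_theta (N * ℓ) x⟩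

/-- `[F_{Nℓ} : β F_N] = [F_{Nℓ} : α F_N]`. -/
theorem GRHF_finrank_betaRange_eq :
    Module.finrank ↥(heckeBetaBar (AlgebraicClosure ℚ) N ℓ).fieldRange
        ↥(modularFunctionFieldBar (N * ℓ)) =
      Module.finrank ↥(heckeAlphaBar (AlgebraicClosure ℚ) N ℓ).fieldRange
        ↥(modularFunctionFieldBar (N * ℓ)) := by
  rw [← relfinrank_top_right, ← relfinrank_top_right, ← GRHF_map_betaRange N ℓ]
  conv_rhs => rw [← GRHF_map_top N ℓ]
  rw [relfinrank_map_map]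

theorem GRHF_map_adjoin_jB :
    ((AlgebraicClosure ℚ)⟮jB N⟯).map (heckeAlphaBar (AlgebraicClosure ℚ) N ℓ) =
      (AlgebraicClosure ℚ)⟮jB (N * ℓ)⟯ := by
  rw [adjoin_map, Set.image_singleton]
  congr 2

/-- `ψ(N) · [F_{Nℓ} : α F_N] = ψ(Nℓ)`. -/
theorem GRHF_finrank_alphaRange_mul :
    dedekindPsi N * Module.finrank ↥(heckeAlphaBar (AlgebraicClosure ℚ) N ℓ).fieldRange
        ↥(modularFunctionFieldBar (N * ℓ)) = dedekindPsi (N * ℓ) := by
  have h1 : (AlgebraicClosure ℚ)⟮jB (N * ℓ)⟯ ≤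
      (heckeAlphaBar (AlgebraicClosure ℚ) N ℓ).fieldRange := by
    rw [← GRHF_map_adjoin_jB N ℓ, AlgHom.fieldRange_eq_map]
    exact IntermediateField.map_mono _ le_top
  have h2 := relfinrank_mul_relfinrank h1
    (le_top : (heckeAlphaBar (AlgebraicClosure ℚ) N ℓ).fieldRange ≤ ⊤)
  rw [relfinrank_top_right, relfinrank_top_right, finrank_eq_psi (N * ℓ)] at h2
  have h3 : relfinrank (AlgebraicClosure ℚ)⟮jB (N * ℓ)⟯
      (heckeAlphaBar (AlgebraicClosure ℚ) N ℓ).fieldRange = dedekindPsi N := by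
    rw [← GRHF_map_adjoin_jB N ℓ, AlgHom.fieldRange_eq_map, relfinrank_map_map,
      relfinrank_top_right, finrank_eq_psi N]
  rw [h3] at h2
  exact h2

theorem GRHF_dedekindPsi_pos : 0 < dedekindPsi N := by
  rw [← finrank_eq_psi N]
  have := finiteDimensional_jB N
  exact Module.finrank_pos

/-- **DEG**: `[F_{Nℓ} : V F_N] = ℓ + 1` if `ℓ ∤ N`, `= ℓ` if `ℓ ∣ N` (`ℓ` prime). -/
theorem GRHF_finrank_betaRange (hℓ : ℓ.Prime) :
    Module.finrank ↥(heckeBetaBar (AlgebraicClosure ℚ) N ℓ).fieldRange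
        ↥(modularFunctionFieldBar (N * ℓ)) = if ℓ ∣ N then ℓ else ℓ + 1 := by
  rw [GRHF_finrank_betaRange_eq]
  have h := GRHF_finrank_alphaRange_mul N ℓ
  have hpos := GRHF_dedekindPsi_pos N
  split_ifs with hdvd
  · have e : dedekindPsi (N * ℓ) = dedekindPsi N * ℓ := by
      rw [mul_comm N ℓ, S20_dedekindPsi_prime_mul_of_dvd hℓ (NeZero.ne N) hdvd, mul_comm]
    rw [e] at h
    exact Nat.eq_of_mul_eq_mul_left hpos h
  · have e : dedekindPsi (N * ℓ) = dedekindPsi N * (ℓ + 1) := by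
      rw [mul_comm N ℓ, S20_dedekindPsi_prime_mul_of_not_dvd hℓ (NeZero.ne N) hdvd, mul_comm]
    rw [e] at h
    exact Nat.eq_of_mul_eq_mul_left hpos h

/-- **DEG**, algebra form: the degree of `F_{Nℓ}` as an `F_N`-algebra via `β = V`. -/
theorem GRHF_finrank_beta (hℓ : ℓ.Prime) :
    @Module.finrank ↥(modularFunctionFieldBar N) ↥(modularFunctionFieldBar (N * ℓ)) _ _
        ((heckeBetaBar (AlgebraicClosure ℚ) N ℓ).toRingHom.toAlgebra.toModule) =
      if ℓ ∣ N then ℓ else ℓ + 1 := by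
  rw [← GRHF_finrank_betaRange N ℓ hℓ]
  let _ : Algebra ↥(modularFunctionFieldBar N) ↥(modularFunctionFieldBar (N * ℓ)) :=
    (heckeBetaBar (AlgebraicClosure ℚ) N ℓ).toRingHom.toAlgebra
  exact Algebra.finrank_eq_of_equiv_equiv
    (AlgEquiv.ofInjectiveField (heckeBetaBar (AlgebraicClosure ℚ) N ℓ)).toRingEquiv
    (RingEquiv.refl _) rfl

end Fermat.Agent.GalRep
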