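import Mathlib
import Fermat.Prelude.Def_ModularCurve_LaurentCoeff

/-!
# Pillar G, package HECKE, piece (3): descent of coefficients (helper16)

`K ⊂ L` fields, `F₀ ⊂ ℚ((q))`.  A series `x ∈ K((q))` whose image in `L((q))` lies in
`F_L = laurentBaseChange L F₀` lies in `F_K = laurentBaseChange K F₀`:
`F_L ∩ K((q)) = F_K`  (in particular `F_ℂ ∩ ℚ̄((q)) = F_ℚ̄`).

Proof: `ι x = a / b` with `a, b` in the `L`-span of `ι(F_K)`; apply a `K`-linear functional
`λ : L → K` coefficientwise (`HD_app λ`): `x · Λ b = Λ a` with `Λ a, Λ b ∈ F_K`, and `Λ b ≠ 0` for a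
suitable `λ`.
-/

set_option autoImplicit false
set_option linter.style.haveILetI false

open ModularCurve HahnSeries

namespace Fermat.Agent.GalRep

section app

variable {K L : Type*} [Field K] [Field L] [Algebra K L]

/-- coefficientwise application of a `K`-linear functional `L → K`. -/
noncomputable def HD_app (lam : L →ₗ[K] K) : LaurentSeries L →+ LaurentSeries K where
  toFun y :=
    { coeff := fun n => lam (y.coeff n)
      isPWO_support' := y.isPWO_support.mono (fun n hn => by
        simp only [Function.mem_support, ne_eq] at hn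
        exact fun h0 => hn (by rw [h0, map_zero])) }
  map_zero' := by
    ext n
    simp
  map_add' y z := by
    ext n
    simp

@[simp]
theorem HD_app_coeff (lam : L →ₗ[K] K) (y : LaurentSeries L) (n : ℤ) :
    (HD_app lam y).coeff n = lam (y.coeff n) := rfl

theorem HD_app_C_mul (lam : L →ₗ[K] K) (l : L) (y : LaurentSeries L) :
    HD_app lam (HahnSeries.C l * y) = HD_app (lam.comp (LinearMap.mulLeft K l)) y := by
  ext n
  rw [HahnSeries.C_mul_eq_smul]
  simp [HahnSeries.coeff_smul]

theorem HD_app_coeffMap (lam : L →ₗ[K] K) (w : LaurentSeries K) :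
    HD_app lam (coeffMap (algebraMap K L) w) = HahnSeries.C (lam 1) * w := by
  ext n
  rw [HahnSeries.C_mul_eq_smul, HD_app_coeff, coeffMap_coeff, HahnSeries.coeff_smul,
    Algebra.algebraMap_eq_smul_one, map_smul, smul_eq_mul, smul_eq_mul, mul_comm]

theorem HD_C_eq_algebraMap {R : Type*} [Field R] (c : R) :
    (HahnSeries.C c : LaurentSeries R) = algebraMap R (LaurentSeries R) c := by
  rw [algebraMap_laurentSeries_eq_single]
  rfl

/-- the key property of the elements of the `L`-span of `ι(E)`. -/
theorem HD_span_prop (E : IntermediateField K (LaurentSeries K)) (S : Set (LaurentSeries K))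
    (hS : S ⊆ E) {a : LaurentSeries L}
    (ha : a ∈ Algebra.adjoin L (⇑(coeffMap (algebraMap K L)) '' S)) :
    ∀ lam : L →ₗ[K] K, HD_app lam a ∈ E ∧
      ∀ x : LaurentSeries K, HD_app lam (coeffMap (algebraMap K L) x * a) = x * HD_app lam a := by
  have ha' : a ∈ Subalgebra.toSubmodule
      (Algebra.adjoin L (⇑(coeffMap (algebraMap K L)) '' S)) := ha
  rw [Algebra.adjoin_eq_span] at ha'
  clear ha
  induction ha' using Submodule.span_induction with
  | mem a ha =>
    -- `a = ι e`, `e ∈ E`
    have hcl : Submonoid.closure (⇑(coeffMap (algebraMap K L)) '' S) ≤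
        (E.toSubfield.toSubring.toSubmonoid).map
          ((coeffMap (algebraMap K L) : LaurentSeries K →+* LaurentSeries L) :
            LaurentSeries K →* LaurentSeries L) := by
      rw [Submonoid.closure_le]
      rintro _ ⟨s, hs, rfl⟩
      exact ⟨s, hS hs, rfl⟩
    obtain ⟨e, he, rfl⟩ := hcl ha
    have heE : e ∈ E := he
    intro lam
    constructor
    · show HD_app lam (coeffMap (algebraMap K L) e) ∈ E
      rw [HD_app_coeffMap, HD_C_eq_algebraMap]
      exact mul_mem (E.algebraMap_mem _) heE
    · intro x
      show HD_app lam (coeffMap (algebraMap K L) x * coeffMap (algebraMap K L) e) =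
        x * HD_app lam (coeffMap (algebraMap K L) e)
      rw [← map_mul, HD_app_coeffMap, HD_app_coeffMap]
      ring
  | zero =>
    intro lam
    refine ⟨by rw [map_zero]; exact zero_mem _, fun x => ?_⟩
    rw [mul_zero, map_zero, mul_zero]
  | add a b _ _ hPa hPb =>
    intro lam
    refine ⟨by rw [map_add]; exact add_mem (hPa lam).1 (hPb lam).1, fun x => ?_⟩
    rw [mul_add, map_add, map_add, mul_add, (hPa lam).2 x, (hPb lam).2 x]
  | smul l a _ hPa =>
    intro lam
    have h1 := hPa (lam.comp (LinearMap.mulLeft K l))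
    have hsm := Algebra.smul_def l a
    rw [← HD_C_eq_algebraMap] at hsm
    rw [hsm]
    refine ⟨by rw [HD_app_C_mul]; exact h1.1, fun x => ?_⟩
    rw [mul_left_comm, HD_app_C_mul, HD_app_C_mul, h1.2 x]

/-- **descent of coefficients**, abstract form. -/
theorem HD_descent (E : IntermediateField K (LaurentSeries K)) (S : Set (LaurentSeries K))
    (hS : S ⊆ E) (x : LaurentSeries K)
    (hx : coeffMap (algebraMap K L) x ∈
      IntermediateField.adjoin L (⇑(coeffMap (algebraMap K L)) '' S)) : x ∈ E := by
  obtain ⟨a, ha, b, hb, hab⟩ := IntermediateField.mem_adjoin_iff_div.mp hx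
  have hinj : Function.Injective (coeffMap (algebraMap K L)) := by
    intro y z hyz
    ext n
    have := congrArg (fun w : LaurentSeries L => w.coeff n) hyz
    simp only [coeffMap_coeff] at this
    exact (algebraMap K L).injective this
  by_cases hb0 : b = 0
  · rw [hb0, div_zero] at hab
    have : x = 0 := hinj (by rw [hab, map_zero])
    rw [this]
    exact zero_mem _
  have hmul : coeffMap (algebraMap K L) x * b = a := by
    rw [hab]
    field_simp
  -- a functional which does not kill `b`
  obtain ⟨n, hn⟩ : ∃ n, b.coeff n ≠ 0 := by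
    by_contra hall
    push Not at hall
    exact hb0 (HahnSeries.ext (funext hall))
  obtain ⟨lam, hlam⟩ := Module.Projective.exists_dual_ne_zero K hn
  have hΛb : HD_app lam b ≠ 0 := by
    intro h0
    apply hlam
    have := congrArg (fun w : LaurentSeries K => w.coeff n) h0
    simpa using this
  have hPa := HD_span_prop E S hS ha lam
  have hPb := HD_span_prop E S hS hb lam
  have e1 : x * HD_app lam b = HD_app lam a := by
    rw [← hPb.2 x, hmul]
  have e2 : x = HD_app lam a / HD_app lam b := by
    rw [eq_div_iff hΛb, e1]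
  rw [e2]
  exact div_mem hPa.1 hPb.1

end app

section main

/-- **descent of coefficients**: `F_L ∩ K((q)) = F_K`. -/
theorem HD_mem_laurentBaseChange {K L : Type*} [Field K] [Field L] [Algebra ℚ K] [Algebra ℚ L]
    (φ : K →+* L) (F₀ : IntermediateField ℚ (LaurentSeries ℚ)) (x : LaurentSeries K)
    (hx : coeffMap φ x ∈ laurentBaseChange L F₀) : x ∈ laurentBaseChange K F₀ := by
  letI : Algebra K L := φ.toAlgebra
  have hφ : algebraMap K L = φ := rfl
  have hcomp : (algebraMap K L).comp (algebraMap ℚ K) = algebraMap ℚ L :=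
    Subsingleton.elim _ _
  refine HD_descent (L := L) (laurentBaseChange K F₀)
    (⇑(coeffEmb K) '' (F₀ : Set (LaurentSeries ℚ))) ?_ x ?_
  · rintro _ ⟨f, hf, rfl⟩
    exact coeffEmb_mem_laurentBaseChange K hf
  · have himg : ⇑(coeffMap (algebraMap K L)) '' (⇑(coeffEmb K) '' (F₀ : Set (LaurentSeries ℚ))) =
        ⇑(coeffEmb L) '' (F₀ : Set (LaurentSeries ℚ)) := by
      rw [Set.image_image]
      refine Set.image_congr fun f _ => ?_
      show coeffMap (algebraMap K L) (coeffMap (algebraMap ℚ K) f) = coeffMap (algebraMap ℚ L) f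
      rw [coeffMap_coeffMap, hcomp]
    rw [himg, hφ]
    exact hx

/-- the converse: the coefficient map sends `F_K` into `F_L`. -/
theorem HD_coeffMap_mem {K L : Type*} [Field K] [Field L] [Algebra ℚ K] [Algebra ℚ L]
    (φ : K →+* L) (F₀ : IntermediateField ℚ (LaurentSeries ℚ)) {x : LaurentSeries K}
    (hx : x ∈ laurentBaseChange K F₀) : coeffMap φ x ∈ laurentBaseChange L F₀ := by
  have hcomp : φ.comp (algebraMap ℚ K) = algebraMap ℚ L := Subsingleton.elim _ _
  rw [mem_laurentBaseChange_iff] at hx
  induction hx using Subfield.closure_induction with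
  | mem y hy =>
    rcases hy with ⟨a, rfl⟩ | ⟨z, hz, rfl⟩
    · rw [algebraMap_laurentSeries_eq_single, coeffMap_single,
        ← algebraMap_laurentSeries_eq_single]
      exact (laurentBaseChange L F₀).algebraMap_mem _
    · have : coeffMap φ (coeffEmb K z) = coeffEmb L z := by
        show coeffMap φ (coeffMap (algebraMap ℚ K) z) = coeffMap (algebraMap ℚ L) z
        rw [coeffMap_coeffMap, hcomp]
      rw [this]
      exact coeffEmb_mem_laurentBaseChange L hz
  | one => rw [map_one]; exact one_mem _
  | add y z _ _ hy hz => rw [map_add]; exact add_mem hy hz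
  | neg y _ hy => rw [map_neg]; exact neg_mem hy
  | inv y _ hy => rw [map_inv₀]; exact inv_mem hy
  | mul y z _ _ hy hz => rw [map_mul]; exact mul_mem hy hz

end main

end Fermat.Agent.GalRep
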