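import Mathlib
import Fermat.Prelude.Def_ModularCurve_LaurentCoeff
import Fermat.Prelude.Def_ModularCurve_ArithmeticGalois
import Fermat.Agent.S24.EvDefs

/-!
# Pillar G, package HECKE, piece H3-ALG (helper2): `F_ℂ ∩ ℚ̄((q)) = F_ℚ̄`

Descent of membership in a field generated by Laurent series with coefficients in a subfield:
for a field homomorphism `f : L →+* L'`, a set `S ⊆ L((q))` and `x ∈ L((q))`,

  `coeffMap f x ∈ L'(coeffMap f '' S)  ⇒  x ∈ L(S)`                       (`GRHD_mem_adjoin`).

Proof: `coeffMap f x · s = r` with `r, s` in the `L'`-span of the monoid generated by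
`coeffMap f '' S`, `s ≠ 0`.  Apply coefficientwise an `L`-linear functional `λ : L' → L` which does
not kill some coefficient of `s`: this gives `x · Λ s = Λ r` with `Λ s ≠ 0`, and `Λ r, Λ s` lie in
the `L`-span of the monoid generated by `S`.

Consequences: `GRHD_mem_laurentBaseChange` (any `F₀ ⊆ ℚ((q))`), `GRHD_mem_bar`
(`x ∈ ℚ̄((q))`, `coeffMap kEmb x ∈ F_ℂ ⇒ x ∈ F_ℚ̄`), `GRHD_exists_bar`.
-/

set_option autoImplicit false

open ModularCurve

namespace Fermat.Agent.GalRep

section General

variable {L L' : Type*} [Field L] [Field L']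

/-- coefficientwise application of an additive map. -/
noncomputable def GRHD_coeffAdd (lam : L' →+ L) : LaurentSeries L' →+ LaurentSeries L where
  toFun x := x.map lam
  map_zero' := by
    ext k
    simp
  map_add' x y := by
    ext k
    simp

@[simp]
theorem GRHD_coeffAdd_coeff (lam : L' →+ L) (x : LaurentSeries L') (k : ℤ) :
    (GRHD_coeffAdd lam x).coeff k = lam (x.coeff k) := rfl

theorem GRHD_coeffAdd_C_mul (f : L →+* L') (lam : L' →+ L)
    (hlam : ∀ (a : L) (c : L'), lam (f a * c) = a * lam c) (c : L') (y : LaurentSeries L) :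
    GRHD_coeffAdd lam (HahnSeries.C c * coeffMap f y) = HahnSeries.C (lam c) * y := by
  rw [HahnSeries.C_mul_eq_smul, HahnSeries.C_mul_eq_smul]
  ext k
  rw [GRHD_coeffAdd_coeff, HahnSeries.coeff_smul, HahnSeries.coeff_smul, coeffMap_coeff,
    smul_eq_mul, smul_eq_mul, mul_comm c, hlam, mul_comm]

theorem GRHD_coeffMap_injective (f : L →+* L') : Function.Injective (coeffMap f) := by
  intro x y h
  ext k
  have := congrArg (fun z : LaurentSeries L' => z.coeff k) h
  simp only [coeffMap_coeff] at this
  exact f.injective this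

/-- `Λ` maps the `L'`-span of `coeffMap f '' M` into the `L`-span of `M`, and is
`L((q))`-linear there. -/
theorem GRHD_coeffAdd_span (f : L →+* L') (lam : L' →+ L)
    (hlam : ∀ (a : L) (c : L'), lam (f a * c) = a * lam c) (M : Set (LaurentSeries L))
    (x : LaurentSeries L) {y : LaurentSeries L'}
    (hy : y ∈ @Submodule.span L' (LaurentSeries L') _ _ Algebra.toModule (coeffMap f '' M)) :
    GRHD_coeffAdd lam y ∈ @Submodule.span L (LaurentSeries L) _ _ Algebra.toModule M ∧
      GRHD_coeffAdd lam (coeffMap f x * y) = x * GRHD_coeffAdd lam y := by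
  induction hy using Submodule.closure_induction with
  | zero => exact ⟨by rw [map_zero]; exact Submodule.zero_mem _, by simp⟩
  | add y z _ _ hy hz =>
      refine ⟨by rw [map_add]; exact Submodule.add_mem _ hy.1 hz.1, ?_⟩
      rw [mul_add, map_add, map_add, hy.2, hz.2, mul_add]
  | smul_mem c y hy =>
      obtain ⟨m, hm, rfl⟩ := hy
      have e1 := Algebra.smul_def c (coeffMap f m)
      have e2 : algebraMap L' (LaurentSeries L') c = HahnSeries.C c :=
        algebraMap_laurentSeries_eq_single L' c
      rw [e2] at e1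
      rw [e1]
      refine ⟨?_, ?_⟩
      · have e3 : (HahnSeries.C (lam c) : LaurentSeries L) =
            algebraMap L (LaurentSeries L) (lam c) :=
          (algebraMap_laurentSeries_eq_single L (lam c)).symm
        rw [GRHD_coeffAdd_C_mul f lam hlam, e3, ← Algebra.smul_def]
        exact @Submodule.smul_mem L (LaurentSeries L) _ _ Algebra.toModule
          (@Submodule.span L (LaurentSeries L) _ _ Algebra.toModule M) m (lam c)
          (@Submodule.subset_span L (LaurentSeries L) _ _ Algebra.toModule M m hm)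
      · have h1 : coeffMap f x * (HahnSeries.C c * coeffMap f m) =
            HahnSeries.C c * coeffMap f (x * m) := by
          rw [map_mul, mul_left_comm]
        rw [h1, GRHD_coeffAdd_C_mul f lam hlam, GRHD_coeffAdd_C_mul f lam hlam, mul_left_comm]

/-- the monoid generated by `coeffMap f '' S` is the image of the monoid generated by `S`. -/
theorem GRHD_closure_image (f : L →+* L') (S : Set (LaurentSeries L)) :
    ((Submonoid.closure (coeffMap f '' S) : Submonoid (LaurentSeries L')) :
        Set (LaurentSeries L')) =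
      coeffMap f '' ((Submonoid.closure S : Submonoid (LaurentSeries L)) :
        Set (LaurentSeries L)) := by
  have h := MonoidHom.map_mclosure (coeffMap f : LaurentSeries L →+* LaurentSeries L').toMonoidHom S
  have h2 : (Submonoid.closure (coeffMap f '' S) : Submonoid (LaurentSeries L')) =
      Submonoid.map (coeffMap f : LaurentSeries L →+* LaurentSeries L').toMonoidHom
        (Submonoid.closure S) := h.symm
  rw [h2]
  rfl

/-- **H3-ALG, general form**: descent of membership in a generated field along an extension of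
the coefficient field. -/
theorem GRHD_mem_adjoin (f : L →+* L') (S : Set (LaurentSeries L)) (x : LaurentSeries L)
    (hx : coeffMap f x ∈ IntermediateField.adjoin L' (coeffMap f '' S)) :
    x ∈ IntermediateField.adjoin L S := by
  classical
  obtain ⟨r, hr, s, hs, hxrs⟩ := IntermediateField.mem_adjoin_iff_div.mp hx
  by_cases hs0 : s = 0
  · rw [hs0, div_zero] at hxrs
    have : x = 0 := GRHD_coeffMap_injective f (by rw [hxrs, map_zero])
    rw [this]
    exact zero_mem _
  -- a coefficient of `s` that does not vanish, and a functional that sees it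
  obtain ⟨k, hk⟩ : ∃ k : ℤ, s.coeff k ≠ 0 := by
    by_contra hcon
    have hcon' : ∀ k : ℤ, s.coeff k = 0 := fun k => by
      by_contra hk
      exact hcon ⟨k, hk⟩
    exact hs0 (HahnSeries.ext (funext fun k => by rw [hcon' k]; rfl))
  let _ : Algebra L L' := f.toAlgebra
  obtain ⟨φ, hφ⟩ : ∃ φ : Module.Dual L L', φ (s.coeff k) ≠ 0 := by
    by_contra hcon
    have hcon' : ∀ φ : Module.Dual L L', φ (s.coeff k) = 0 := fun φ => by
      by_contra hφ
      exact hcon ⟨φ, hφ⟩
    exact hk ((Module.forall_dual_apply_eq_zero_iff L (s.coeff k)).mp hcon')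
  set lam : L' →+ L := φ.toAddMonoidHom with hlamdef
  have hlam : ∀ (a : L) (c : L'), lam (f a * c) = a * lam c := by
    intro a c
    have h1 : f a * c = a • c := by rw [Algebra.smul_def]; rfl
    rw [h1]
    exact φ.map_smul a c
  -- spans
  have hr' : r ∈ @Submodule.span L' (LaurentSeries L') _ _ Algebra.toModule (coeffMap f ''
      ((Submonoid.closure S : Submonoid (LaurentSeries L)) : Set (LaurentSeries L))) := by
    rw [← GRHD_closure_image]
    exact (SetLike.ext_iff.mp (Algebra.adjoin_eq_span L' (coeffMap f '' S)) r).mp hr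
  have hs' : s ∈ @Submodule.span L' (LaurentSeries L') _ _ Algebra.toModule (coeffMap f ''
      ((Submonoid.closure S : Submonoid (LaurentSeries L)) : Set (LaurentSeries L))) := by
    rw [← GRHD_closure_image]
    exact (SetLike.ext_iff.mp (Algebra.adjoin_eq_span L' (coeffMap f '' S)) s).mp hs
  have hR := GRHD_coeffAdd_span f lam hlam _ x hr'
  have hS := GRHD_coeffAdd_span f lam hlam _ x hs'
  have hR1 : GRHD_coeffAdd lam r ∈ Algebra.adjoin L S :=
    (SetLike.ext_iff.mp (Algebra.adjoin_eq_span L S) _).mpr hR.1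
  have hS1 : GRHD_coeffAdd lam s ∈ Algebra.adjoin L S :=
    (SetLike.ext_iff.mp (Algebra.adjoin_eq_span L S) _).mpr hS.1
  have hne : GRHD_coeffAdd lam s ≠ 0 := by
    intro h0
    apply hφ
    have := congrArg (fun z : LaurentSeries L => z.coeff k) h0
    simp only [GRHD_coeffAdd_coeff, HahnSeries.coeff_zero] at this
    exact this
  have hmul : coeffMap f x * s = r := by
    rw [hxrs, div_mul_cancel₀ _ hs0]
  have hkey : x * GRHD_coeffAdd lam s = GRHD_coeffAdd lam r := by
    rw [← hS.2, hmul]
  have hxeq : x = GRHD_coeffAdd lam r / GRHD_coeffAdd lam s := by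
    rw [eq_div_iff hne, hkey]
  rw [hxeq]
  exact div_mem (IntermediateField.algebra_adjoin_le_adjoin L S hR1)
    (IntermediateField.algebra_adjoin_le_adjoin L S hS1)

/-- the converse (trivial) direction. -/
theorem GRHD_coeffMap_mem_adjoin (f : L →+* L') (S : Set (LaurentSeries L)) (x : LaurentSeries L)
    (hx : x ∈ IntermediateField.adjoin L S) :
    coeffMap f x ∈ IntermediateField.adjoin L' (coeffMap f '' S) := by
  have hx' : x ∈ Subfield.closure (Set.range (algebraMap L (LaurentSeries L)) ∪ S) := hx
  clear hx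
  induction hx' using Subfield.closure_induction with
  | mem y hy =>
      rcases hy with ⟨a, rfl⟩ | hy
      · rw [algebraMap_laurentSeries_eq_single, coeffMap_single,
          ← algebraMap_laurentSeries_eq_single]
        exact IntermediateField.algebraMap_mem _ _
      · exact IntermediateField.subset_adjoin _ _ ⟨y, hy, rfl⟩
  | one => rw [map_one]; exact one_mem _
  | add y z _ _ hy hz => rw [map_add]; exact add_mem hy hz
  | neg y _ hy => rw [map_neg]; exact neg_mem hy
  | inv y _ hy => rw [map_inv₀]; exact inv_mem hy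
  | mul y z _ _ hy hz => rw [map_mul]; exact mul_mem hy hz

theorem GRHD_mem_adjoin_iff (f : L →+* L') (S : Set (LaurentSeries L)) (x : LaurentSeries L) :
    coeffMap f x ∈ IntermediateField.adjoin L' (coeffMap f '' S) ↔
      x ∈ IntermediateField.adjoin L S :=
  ⟨GRHD_mem_adjoin f S x, GRHD_coeffMap_mem_adjoin f S x⟩

end General

section BaseChange

variable {L L' : Type*} [Field L] [Field L'] [Algebra ℚ L] [Algebra ℚ L']

theorem GRHD_coeffMap_coeffEmb (f : L →+* L') (y : LaurentSeries ℚ) :
    coeffMap f (coeffEmb L y) = coeffEmb L' y := by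
  rw [coeffEmb, coeffEmb, coeffMap_coeffMap]
  exact coeffMap_congr (RingHom.ext fun c => by
    rw [RingHom.comp_apply, eq_ratCast, eq_ratCast, map_ratCast]) y

theorem GRHD_image_coeffEmb (f : L →+* L') (F₀ : IntermediateField ℚ (LaurentSeries ℚ)) :
    coeffMap f '' (⇑(coeffEmb L) '' (F₀ : Set (LaurentSeries ℚ))) =
      ⇑(coeffEmb L') '' (F₀ : Set (LaurentSeries ℚ)) := by
  rw [Set.image_image]
  exact Set.image_congr fun y _ => GRHD_coeffMap_coeffEmb f y

/-- **H3-ALG** for `laurentBaseChange`: `F_{L'} ∩ L((q)) = F_L`. -/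
theorem GRHD_mem_laurentBaseChange (f : L →+* L') (F₀ : IntermediateField ℚ (LaurentSeries ℚ))
    (x : LaurentSeries L) (hx : coeffMap f x ∈ laurentBaseChange L' F₀) :
    x ∈ laurentBaseChange L F₀ := by
  apply GRHD_mem_adjoin f
  rw [GRHD_image_coeffEmb]
  exact hx

theorem GRHD_mem_laurentBaseChange_iff (f : L →+* L')
    (F₀ : IntermediateField ℚ (LaurentSeries ℚ)) (x : LaurentSeries L) :
    coeffMap f x ∈ laurentBaseChange L' F₀ ↔ x ∈ laurentBaseChange L F₀ := by
  refine ⟨GRHD_mem_laurentBaseChange f F₀ x, fun hx => ?_⟩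
  have := GRHD_coeffMap_mem_adjoin f _ x hx
  rw [GRHD_image_coeffEmb] at this
  exact this

end BaseChange

section Bar

open Fermat.Agent.S24

/-- **H3-ALG**: a Laurent series with coefficients in `ℚ̄` whose image in `ℂ((q))` lies in `F_ℂ`
lies in `F_ℚ̄`. -/
theorem GRHD_mem_bar (N : ℕ) [NeZero N] (x : LaurentSeries (AlgebraicClosure ℚ))
    (hx : coeffMap kEmb x ∈ laurentBaseChange ℂ (modularFunctionFieldFull N)) :
    x ∈ modularFunctionFieldBar N :=
  GRHD_mem_laurentBaseChange kEmb (modularFunctionFieldFull N) x hx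

theorem GRHD_mem_bar_iff (N : ℕ) [NeZero N] (x : LaurentSeries (AlgebraicClosure ℚ)) :
    coeffMap kEmb x ∈ laurentBaseChange ℂ (modularFunctionFieldFull N) ↔
      x ∈ modularFunctionFieldBar N :=
  GRHD_mem_laurentBaseChange_iff kEmb (modularFunctionFieldFull N) x

/-- form with an element of `F_ℂ`: if `g ∈ F_ℂ` has the `q`-expansion `coeffMap kEmb x`, then
`x ∈ F_ℚ̄`. -/
theorem GRHD_exists_bar (N : ℕ) [NeZero N] (x : LaurentSeries (AlgebraicClosure ℚ))
    (g : ↥(laurentBaseChange ℂ (modularFunctionFieldFull N)))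
    (hg : (g : LaurentSeries ℂ) = coeffMap kEmb x) :
    ∃ h : ↥(modularFunctionFieldBar N), (h : LaurentSeries (AlgebraicClosure ℚ)) = x :=
  ⟨⟨x, GRHD_mem_bar N x (hg ▸ g.2)⟩, rfl⟩

end Bar

end Fermat.Agent.GalRep
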