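import Mathlib
import Fermat.Agent.GalRep.Geom
import Fermat.Agent.GalRep.TwrIso
import Fermat.Agent.GalRep.TwrFinal

/-!
# Pillar G, package HECKE, piece U1 (helper7): the cohomological Hecke transform of an elliptic
character exists, is unique and is elliptic

For `χ : Γ₀(N) → ℤ/n` elliptic (`KM_IsEll`), `n ≠ 0`, and a prime `ℓ`:
* `GRT_tcohRel_TX` : `GR_TcohRel N n ℓ χ (GRT_TX N n (GR_hT N ℓ) χ)` (existence);
* `GRT_tcohRel_eq` (in `TwrFinal`) : uniqueness;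
* `GRT_isEll_of_tcohRel` : `KM_IsEll N n χ → GR_TcohRel N n ℓ χ χ' → KM_IsEll N n χ'`;
* `GRT_exists_tcohRel` : `∃ χ', GR_TcohRel N n ℓ χ χ' ∧ KM_IsEll N n χ'`.
-/

set_option autoImplicit false

open ModularCurve AlgebraicCurve CongruenceSubgroup UpperHalfPlane Matrix.SpecialLinearGroup
open ModularCurve.Period
open scoped MatrixGroups TensorProduct
open P2MW.S_ModularForm_heckeT_slash_eq_self_of_mem_Gamma0.ModularForm.HeckeSlashInvariance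
open ModularForm

namespace Fermat.Agent.GalRep

open Fermat.Agent.S24 Fermat.Agent.S16

variable {N : ℕ} [NeZero N]

/-- existence of the cohomological Hecke transform of an elliptic character. -/
theorem GRT_tcohRel_TX {n : ℕ} [NeZero n] (ℓ : ℕ) [hℓ : Fact ℓ.Prime] (χ : ↥(GRT_X N n)) :
    GR_TcohRel N n ℓ (χ : Additive (Gamma0 N) →+ ZMod n)
      ((GRT_TX N n (GR_hT N ℓ) χ : ↥(GRT_X N n)) : Additive (Gamma0 N) →+ ZMod n) := by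
  have hT : GR_hT N ℓ = GRD_heckeL N (ModularCurve.heckeGen ⟨ℓ, hℓ.out⟩) := by
    unfold GR_hT
    rw [dif_pos hℓ.out]
  rw [hT]
  have : Fact ((⟨ℓ, hℓ.out⟩ : Nat.Primes) : ℕ).Prime := hℓ
  refine ⟨fun hℓN γ σ g' hmul => ?_, fun hℓN γ σ g' hmul => ?_⟩
  · exact GRT_TX_heckeT N n ⟨ℓ, hℓ.out⟩ hℓN χ γ σ g' hmul
  · exact GRT_TX_heckeU N n ⟨ℓ, hℓ.out⟩ hℓN χ γ σ g' hmul

/-- the cohomological Hecke transform of an elliptic character is elliptic. -/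
theorem GRT_isEll_of_tcohRel {n : ℕ} [NeZero n] (ℓ : ℕ) [Fact ℓ.Prime]
    {χ χ' : Additive (Gamma0 N) →+ ZMod n} (hχ : KM_IsEll N n χ)
    (h : GR_TcohRel N n ℓ χ χ') : KM_IsEll N n χ' := by
  have h1 := GRT_tcohRel_eq ℓ (⟨χ, hχ⟩ : ↥(GRT_X N n)) χ' h
  rw [h1]
  exact (GRT_TX N n (GR_hT N ℓ) ⟨χ, hχ⟩).2

/-- existence, in the form used by `GR_HeckeES.char`. -/
theorem GRT_exists_tcohRel {n : ℕ} [NeZero n] (ℓ : ℕ) [Fact ℓ.Prime]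
    {χ : Additive (Gamma0 N) →+ ZMod n} (hχ : KM_IsEll N n χ) :
    ∃ χ' : Additive (Gamma0 N) →+ ZMod n, GR_TcohRel N n ℓ χ χ' ∧ KM_IsEll N n χ' :=
  ⟨_, GRT_tcohRel_TX ℓ (⟨χ, hχ⟩ : ↥(GRT_X N n)), (GRT_TX N n (GR_hT N ℓ) ⟨χ, hχ⟩).2⟩

/-- uniqueness of the cohomological Hecke transform (of an elliptic character). -/
theorem GRT_tcohRel_unique {n : ℕ} [NeZero n] (ℓ : ℕ) [Fact ℓ.Prime]
    {χ χ' χ'' : Additive (Gamma0 N) →+ ZMod n} (hχ : KM_IsEll N n χ)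
    (h : GR_TcohRel N n ℓ χ χ') (h' : GR_TcohRel N n ℓ χ χ'') : χ' = χ'' :=
  (GRT_tcohRel_eq ℓ (⟨χ, hχ⟩ : ↥(GRT_X N n)) χ' h).trans
    (GRT_tcohRel_eq ℓ (⟨χ, hχ⟩ : ↥(GRT_X N n)) χ'' h').symm

end Fermat.Agent.GalRep
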