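import Mathlib
import Fermat.Agent.GalRep.KMDefs
import Fermat.Agent.S24.PlaceVal
import Fermat.Agent.S24.PlaceOfVal
import Fermat.Agent.S24.GlobalA
import Fermat.Agent.S18.RiNormOrd

/-!
# Pillar G, package HECKE, piece NK (helper7): norms and restrictions of Kummer generators

`K ⊂ A ⊂ B` fields, `Place K F` = discrete valuation rings of `F` containing `K`,
`KM_IsKum K F n f` : `f ≠ 0` and `n ∣ ord_v f` for every place `v` of `F / K`.

* `GRNK_res` (RES): a `K`-embedding `φ : A → B` maps Kummer generators to Kummer generators;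
* `GRNK_norm` (NK): for `B / A` finite separable, the norm of a Kummer generator of `B` is a
  Kummer generator of `A`;
* `GRNK_norm_of_algHom`: the same for the algebra structure given by a `K`-embedding `φ : A → B`.

Proof of NK: for a place `v` of `A` let `R = 𝒪_v`, `S` its integral closure in `B` (a Dedekind
domain, finite over `R`); then `ord_v (N a) = ∑_P s_P · ord_P a` for `a ∈ S`, where
`relNorm P = 𝔪_v ^ s_P`.
-/

set_option autoImplicit false

open Ideal Module AlgebraicCurve IsDedekindDomain

namespace Fermat.Agent.GalRep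

open Fermat.Agent.S24 Fermat.Agent.S18

/-! ### RES -/

section res

variable {K A B : Type} [Field K] [Field A] [Field B] [Algebra K A] [Algebra K B]

/-- the pull-back of `ord_w` along a `K`-embedding is an abstract valuation. -/
theorem GRNK_isVal_comp (φ : A →ₐ[K] B) (w : Place K B) :
    IsVal (K := K) (fun f : A => w.ord (φ f)) where
  mul f g hf hg := by
    show w.ord (φ (f * g)) = w.ord (φ f) + w.ord (φ g)
    rw [map_mul]
    exact (S24_isVal_ord w).mul _ _ ((map_ne_zero φ).mpr hf) ((map_ne_zero φ).mpr hg)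
  add f g hf hg hfg := by
    show min (w.ord (φ f)) (w.ord (φ g)) ≤ w.ord (φ (f + g))
    rw [map_add]
    refine (S24_isVal_ord w).add _ _ ((map_ne_zero φ).mpr hf) ((map_ne_zero φ).mpr hg) ?_
    rw [← map_add]
    exact (map_ne_zero φ).mpr hfg
  const c hc := by
    show w.ord (φ (algebraMap K A c)) = 0
    rw [AlgHom.commutes]
    exact (S24_isVal_ord w).const c hc

/-- **RES**: a `K`-embedding maps Kummer generators to Kummer generators. -/
theorem GRNK_res (φ : A →ₐ[K] B) (n : ℕ) {f : A} (hf : KM_IsKum K A n f) :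
    KM_IsKum K B n (φ f) := by
  refine ⟨(map_ne_zero φ).mpr hf.1, fun w => ?_⟩
  have hw := GRNK_isVal_comp φ w
  by_cases hex : ∃ x : A, x ≠ 0 ∧ 0 < w.ord (φ x)
  · obtain ⟨x, hx0, hx⟩ := hex
    obtain ⟨m, -, -, hm⟩ := hw.exists_mul_ord x hx0 hx
    have h1 : w.ord (φ f) = m * (hw.place x hx0 hx).ord f := hm f hf.1
    rw [h1]
    exact Dvd.dvd.mul_left (hf.2 _) m
  · have h0 : ∀ x : A, x ≠ 0 → w.ord (φ x) = 0 := by
      intro x hx
      have h1 : ¬ 0 < w.ord (φ x) := fun h => hex ⟨x, hx, h⟩
      have h2 : ¬ 0 < w.ord (φ x⁻¹) := fun h => hex ⟨x⁻¹, inv_ne_zero hx, h⟩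
      rw [map_inv₀, Place.ord_inv] at h2
      omega
    rw [h0 f hf.1]
    exact dvd_zero _

end res

/-! ### the Dedekind form of the norm–ord formula, arbitrary inertia degrees -/

section Dedekind

variable {R S : Type*} [CommRing R] [IsDedekindDomain R] [CommRing S] [IsDedekindDomain S]
  [Algebra R S] [Module.Finite R S] [Module.IsTorsionFree R S]

/-- **norm–ord formula, Dedekind form**: the multiplicity of the maximal ideal `q` in the relative
norm of `I` is the weighted sum of the multiplicities in `I` of the primes over `q`, with the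
weights `s P` given by `relNorm P = q ^ s P`. -/
theorem GRNK_emultiplicity_relNorm (q : Ideal R) [q.IsMaximal] (hq : q ≠ ⊥)
    (T : Finset (Ideal S)) (hT : ∀ P, P ∈ T ↔ P.IsPrime ∧ P.LiesOver q)
    (s : Ideal S → ℕ) (hs : ∀ P ∈ T, relNorm R P = q ^ s P)
    (I : Ideal S) (hI : I ≠ ⊥) :
    emultiplicity q (relNorm R I) = ∑ P ∈ T, (s P : ℕ∞) * emultiplicity P I := by
  classical
  have hqisprime : q.IsPrime := IsMaximal.isPrime inferInstance
  have hqprime : Prime q := Ideal.prime_of_isPrime hq hqisprime
  have hTprime : ∀ P ∈ T, Prime P := by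
    intro P hP
    obtain ⟨h1, h2⟩ := (hT P).1 hP
    exact Ideal.prime_of_isPrime (Ideal.ne_bot_of_liesOver_of_ne_bot hq P) h1
  revert hI
  induction I using UniqueFactorizationMonoid.induction_on_prime with
  | h₁ => intro h; exact absurd rfl h
  | h₂ I hI =>
    intro _
    rw [Ideal.isUnit_iff] at hI
    subst hI
    rw [relNorm_top]
    have h1 : emultiplicity q (⊤ : Ideal R) = 0 := by
      rw [emultiplicity_eq_zero]
      intro hdvd
      have := Ideal.le_of_dvd hdvd
      exact hqisprime.ne_top (top_le_iff.1 this)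
    rw [h1]
    symm
    apply Finset.sum_eq_zero
    intro P hP
    have h2 : emultiplicity P (⊤ : Ideal S) = 0 := by
      rw [emultiplicity_eq_zero]
      intro hdvd
      have := Ideal.le_of_dvd hdvd
      exact (isPrime_of_prime (hTprime P hP)).ne_top (top_le_iff.1 this)
    rw [h2, mul_zero]
  | h₃ I P hI0 hP ih =>
    intro _
    have hPisprime : P.IsPrime := isPrime_of_prime hP
    rw [map_mul, emultiplicity_mul hqprime, ih hI0]
    have h2 : ∀ P' ∈ T, (s P' : ℕ∞) * emultiplicity P' (P * I)
        = (s P' : ℕ∞) * emultiplicity P' P + (s P' : ℕ∞) * emultiplicity P' I := by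
      intro P' hP'
      rw [emultiplicity_mul (hTprime P' hP'), mul_add]
    rw [Finset.sum_congr rfl h2, Finset.sum_add_distrib]
    congr 1
    have h3 : ∀ P' ∈ T, (s P' : ℕ∞) * emultiplicity P' P = if P' = P then (s P : ℕ∞) else 0 := by
      intro P' hP'
      rw [RIN_emultiplicity_prime P P' hP (hTprime P' hP')]
      split_ifs with h
      · rw [h, mul_one]
      · rw [mul_zero]
    rw [Finset.sum_congr rfl h3, Finset.sum_ite_eq' T P]
    split_ifs with hPT
    · rw [hs P hPT]
      exact emultiplicity_pow_self_of_prime hqprime (s P)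
    · rw [emultiplicity_eq_zero]
      intro hdvd
      apply hPT
      rw [hT]
      refine ⟨hPisprime, ?_⟩
      have hunder : (P.under R).IsPrime := inferInstance
      have hunder0 : P.under R ≠ ⊥ := under_ne_bot R hP.ne_zero
      have hlies : P.LiesOver (P.under R) := ⟨rfl⟩
      obtain ⟨s', hs'⟩ := exists_relNorm_eq_pow_of_isPrime P (P.under R)
      rw [hs'] at hdvd
      have h4 : P.under R ≤ q := hqisprime.le_of_pow_le (Ideal.le_of_dvd hdvd)
      have hmax : (P.under R).IsMaximal := hunder.isMaximal hunder0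
      have h5 : P.under R = q := hmax.eq_of_le hqisprime.ne_top h4
      exact ⟨h5.symm⟩

/-- the same with `multiplicity`, for principal ideals. -/
theorem GRNK_multiplicity_intNorm (q : Ideal R) [q.IsMaximal] (hq : q ≠ ⊥)
    (T : Finset (Ideal S)) (hT : ∀ P, P ∈ T ↔ P.IsPrime ∧ P.LiesOver q)
    (s : Ideal S → ℕ) (hs : ∀ P ∈ T, relNorm R P = q ^ s P)
    (a : S) (ha : a ≠ 0) :
    multiplicity q (Ideal.span {Algebra.intNorm R S a})
      = ∑ P ∈ T, s P * multiplicity P (Ideal.span {a}) := by
  classical
  have hqisprime : q.IsPrime := IsMaximal.isPrime inferInstance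
  have hqprime : Prime q := Ideal.prime_of_isPrime hq hqisprime
  have hI : Ideal.span {a} ≠ (⊥ : Ideal S) := by
    rw [Ne, Ideal.span_singleton_eq_bot]
    exact ha
  have hTprime : ∀ P ∈ T, Prime P := by
    intro P hP
    obtain ⟨h1, h2⟩ := (hT P).1 hP
    exact Ideal.prime_of_isPrime (Ideal.ne_bot_of_liesOver_of_ne_bot hq P) h1
  have h := GRNK_emultiplicity_relNorm q hq T hT s hs (Ideal.span {a}) hI
  rw [relNorm_singleton] at h
  have hN : Ideal.span {Algebra.intNorm R S a} ≠ (⊥ : Ideal R) := by
    rw [← relNorm_singleton, Ne, relNorm_eq_bot_iff]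
    exact hI
  have hfq : FiniteMultiplicity q (Ideal.span {Algebra.intNorm R S a}) :=
    FiniteMultiplicity.of_prime_left hqprime hN
  have hfP : ∀ P ∈ T, FiniteMultiplicity P (Ideal.span {a}) := fun P hP =>
    FiniteMultiplicity.of_prime_left (hTprime P hP) hI
  rw [hfq.emultiplicity_eq_multiplicity] at h
  have h' : ∑ P ∈ T, (s P : ℕ∞) * emultiplicity P (Ideal.span {a})
      = ((∑ P ∈ T, s P * multiplicity P (Ideal.span {a}) : ℕ) : ℕ∞) := by
    rw [Nat.cast_sum]
    refine Finset.sum_congr rfl fun P hP => ?_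
    rw [(hfP P hP).emultiplicity_eq_multiplicity, Nat.cast_mul]
  rw [h'] at h
  exact_mod_cast h

end Dedekind

/-! ### NK in an AKLB setup -/

section AKLB

variable {K A B : Type} [Field K] [Field A] [Field B] [Algebra K A] [Algebra K B] [Algebra A B]
  [IsScalarTower K A B] [FiniteDimensional A B]
variable {R : Type} (S : Type) [CommRing R] [IsDedekindDomain R] [CommRing S] [IsDedekindDomain S]
  [Algebra R A] [IsFractionRing R A] [Algebra K R] [IsScalarTower K R A]
  [Algebra R S] [Algebra S B] [Algebra R B] [IsScalarTower R S B] [IsScalarTower R A B]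
  [IsIntegralClosure S R B] [IsFractionRing S B] [Module.Finite R S] [Module.IsTorsionFree R S]
  [Algebra K S] [IsScalarTower K S B]

omit [Algebra K B] [IsScalarTower K A B] [IsFractionRing S B] [Algebra K S]
  [IsScalarTower K S B] in
/-- the order of the norm of an integral element. -/
theorem GRNK_ord_norm_int (q : HeightOneSpectrum R)
    (T : Finset (Ideal S)) (hT : ∀ P, P ∈ T ↔ P.IsPrime ∧ P.LiesOver q.asIdeal)
    (s : Ideal S → ℕ) (hs : ∀ P ∈ T, relNorm R P = q.asIdeal ^ s P) (x : S) (hx : x ≠ 0) :
    (Place.ofHeightOneSpectrum (K := K) (F := A) q).ord (Algebra.norm A (algebraMap S B x))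
      = ∑ P ∈ T, (s P : ℤ) * (multiplicity P (Ideal.span {x}) : ℤ) := by
  have := q.isMaximal
  rw [← Algebra.algebraMap_intNorm (A := R) (K := A) (L := B) (B := S) x,
    RIN_ord_eq_multiplicity (K := K) (F := A) q _ (Algebra.intNorm_ne_zero.mpr hx),
    GRNK_multiplicity_intNorm q.asIdeal q.ne_bot T hT s hs x hx]
  push_cast
  rfl

omit [IsScalarTower K A B] in
include S in
/-- **NK**, AKLB form. -/
theorem GRNK_dvd_ord_norm (q : HeightOneSpectrum R) (n : ℕ) {g : B} (hg : KM_IsKum K B n g) :
    (n : ℤ) ∣ (Place.ofHeightOneSpectrum (K := K) (F := A) q).ord (Algebra.norm A g) := by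
  classical
  have := q.isMaximal
  have hfin : (q.asIdeal.primesOver S).Finite := IsDedekindDomain.primesOver_finite q.asIdeal S
  set T : Finset (Ideal S) := hfin.toFinset with hTdef
  have hT : ∀ P, P ∈ T ↔ P.IsPrime ∧ P.LiesOver q.asIdeal := fun P => by
    rw [hTdef, Set.Finite.mem_toFinset]
    exact Iff.rfl
  have hex : ∀ P : Ideal S, ∃ s : ℕ, P ∈ T → relNorm R P = q.asIdeal ^ s := by
    intro P
    by_cases hP : P ∈ T
    · obtain ⟨h1, h2⟩ := (hT P).1 hP
      obtain ⟨s, hs⟩ := exists_relNorm_eq_pow_of_isPrime P q.asIdeal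
      exact ⟨s, fun _ => hs⟩
    · exact ⟨0, fun h => absurd h hP⟩
  choose s hs using hex
  obtain ⟨a, b, hb, hab⟩ := IsFractionRing.div_surjective (A := S) g
  have hb0 : b ≠ 0 := nonZeroDivisors.ne_zero hb
  have hbB : algebraMap S B b ≠ 0 := by
    rw [Ne, FaithfulSMul.algebraMap_eq_zero_iff]
    exact hb0
  have ha0 : a ≠ 0 := by
    rintro rfl
    rw [map_zero, zero_div] at hab
    exact hg.1 hab.symm
  have haB : algebraMap S B a ≠ 0 := by
    rw [Ne, FaithfulSMul.algebraMap_eq_zero_iff]
    exact ha0
  have hga : g * algebraMap S B b = algebraMap S B a := by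
    rw [← hab, div_mul_cancel₀ _ hbB]
  -- the norm
  have hN : Algebra.norm A g * Algebra.norm A (algebraMap S B b)
      = Algebra.norm A (algebraMap S B a) := by
    rw [← map_mul, hga]
  have hNg : Algebra.norm A g ≠ 0 := Algebra.norm_ne_zero_iff.mpr hg.1
  have hNb : Algebra.norm A (algebraMap S B b) ≠ 0 := Algebra.norm_ne_zero_iff.mpr hbB
  have hord := (Place.ofHeightOneSpectrum (K := K) (F := A) q).ord_mul hNg hNb
  rw [hN, GRNK_ord_norm_int S q T hT s hs a ha0, GRNK_ord_norm_int S q T hT s hs b hb0] at hord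
  have hval : (Place.ofHeightOneSpectrum (K := K) (F := A) q).ord (Algebra.norm A g)
      = ∑ P ∈ T, (s P : ℤ) * ((multiplicity P (Ideal.span {a}) : ℤ)
          - (multiplicity P (Ideal.span {b}) : ℤ)) := by
    simp only [mul_sub, Finset.sum_sub_distrib]
    omega
  rw [hval]
  refine Finset.dvd_sum fun P hP => ?_
  obtain ⟨h1, h2⟩ := (hT P).1 hP
  have hP0 : P ≠ ⊥ := Ideal.ne_bot_of_liesOver_of_ne_bot q.ne_bot P
  set w : HeightOneSpectrum S := ⟨P, h1, hP0⟩ with hw
  have e1 := RIN_ord_eq_multiplicity (K := K) (F := B) w a ha0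
  have e2 := RIN_ord_eq_multiplicity (K := K) (F := B) w b hb0
  have e3 := (Place.ofHeightOneSpectrum (K := K) (F := B) w).ord_mul hg.1 hbB
  rw [hga] at e3
  have e4 : ((multiplicity P (Ideal.span {a}) : ℤ) - (multiplicity P (Ideal.span {b}) : ℤ))
      = (Place.ofHeightOneSpectrum (K := K) (F := B) w).ord g := by
    have e1' : (Place.ofHeightOneSpectrum (K := K) (F := B) w).ord (algebraMap S B a)
        = (multiplicity P (Ideal.span {a}) : ℤ) := e1
    have e2' : (Place.ofHeightOneSpectrum (K := K) (F := B) w).ord (algebraMap S B b)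
        = (multiplicity P (Ideal.span {b}) : ℤ) := e2
    omega
  rw [e4]
  exact Dvd.dvd.mul_left (hg.2 _) _

end AKLB

/-! ### NK -/

section norm

variable {K A B : Type} [Field K] [Field A] [Field B] [Algebra K A] [Algebra K B] [Algebra A B]
  [IsScalarTower K A B] [FiniteDimensional A B] [Algebra.IsSeparable A B]

/-- **NK**: the norm of a Kummer generator is a Kummer generator. -/
theorem GRNK_norm (n : ℕ) {g : B} (hg : KM_IsKum K B n g) :
    KM_IsKum K A n (Algebra.norm A g) := by
  classical
  refine ⟨Algebra.norm_ne_zero_iff.mpr hg.1, fun v => ?_⟩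
  letI : Algebra ↥v.toValuationSubring B :=
    ((algebraMap A B).comp (algebraMap ↥v.toValuationSubring A)).toAlgebra
  have i1 : IsScalarTower ↥v.toValuationSubring A B := IsScalarTower.of_algebraMap_eq fun _ => rfl
  have hinj : Function.Injective (algebraMap ↥v.toValuationSubring B) := by
    rw [IsScalarTower.algebraMap_eq ↥v.toValuationSubring A B]
    exact (algebraMap A B).injective.comp (IsFractionRing.injective ↥v.toValuationSubring A)
  have i0 : Module.IsTorsionFree ↥v.toValuationSubring B :=
    isTorsionFree_iff_algebraMap_injective.mpr hinj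
  have i3 : IsDedekindDomain ↥(integralClosure ↥v.toValuationSubring B) :=
    integralClosure.isDedekindDomain ↥v.toValuationSubring A B
  have i4 : IsFractionRing ↥(integralClosure ↥v.toValuationSubring B) B :=
    integralClosure.isFractionRing_of_finite_extension A B
  have i5 : Module.Finite ↥v.toValuationSubring ↥(integralClosure ↥v.toValuationSubring B) :=
    IsIntegralClosure.finite ↥v.toValuationSubring A B _
  letI : Algebra K ↥(integralClosure ↥v.toValuationSubring B) :=
    ((algebraMap ↥v.toValuationSubring ↥(integralClosure ↥v.toValuationSubring B)).comp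
      (algebraMap K ↥v.toValuationSubring)).toAlgebra
  have i6 : IsScalarTower K ↥(integralClosure ↥v.toValuationSubring B) B :=
    IsScalarTower.of_algebraMap_eq fun a => IsScalarTower.algebraMap_apply K A B a
  have h := GRNK_dvd_ord_norm (K := K) (A := A) (B := B)
    ↥(integralClosure ↥v.toValuationSubring B) v.heightOneSpectrum n hg
  rw [BG_ord_ofHeightOneSpectrum] at h
  exact h

end norm

section algHom

variable {K A B : Type} [Field K] [Field A] [Field B] [Algebra K A] [Algebra K B]

/-- **NK** for the algebra structure defined by a `K`-embedding `φ : A → B` (for instance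
`f(q) ↦ f(q^ℓ)`), in characteristic zero. -/
theorem GRNK_norm_of_algHom [CharZero A] (φ : A →ₐ[K] B)
    (hfin : @FiniteDimensional A B _ _ (@Algebra.toModule A B _ _ φ.toRingHom.toAlgebra))
    (n : ℕ) {g : B} (hg : KM_IsKum K B n g) :
    KM_IsKum K A n (@Algebra.norm A B _ _ φ.toRingHom.toAlgebra g) := by
  letI : Algebra A B := φ.toRingHom.toAlgebra
  have i1 : IsScalarTower K A B := IsScalarTower.of_algebraMap_eq fun a => (φ.commutes a).symm
  have i2 : FiniteDimensional A B := hfin
  exact GRNK_norm n hg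

end algHom

end Fermat.Agent.GalRep
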