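import Mathlib
import Fermat.Agent.GalRep.HeckeDeg

/-!
# Pillar G, package HECKE, piece PHI-∞ (helper2): the embedding `φ_∞ : F_{Nℓ} → F_{Nℓ²}`

For a prime `ℓ ∤ N` choose `γ = (1, y; N, ℓ w) ∈ Γ₀(N)` (`ℓ w − N y = 1`).  Precomposition with
`τ ↦ γ • (ℓ² τ)` maps the analytic realisation of `F_{Nℓ}` into that of `F_{Nℓ²}`:
`j(dτ) ↦ j(dℓ²τ)` and `j(dℓτ) ↦ j(dℓτ)` for `d ∣ N`.  This gives

  `GRHP_phiInf : F_{Nℓ} →ₐ[ℚ̄] F_{Nℓ·ℓ}`  with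
  `φ_∞ (α f) = β' (β f)` (`= V² f` as a series) and `φ_∞ (β f) = α' (β f)` (`= V f` as a series)

for `f ∈ F_N`, where `α, β : F_N → F_{Nℓ}` and `α', β' : F_{Nℓ} → F_{Nℓ·ℓ}` are the Prelude maps
`heckeAlphaBar`, `heckeBetaBar`.  So `φ_∞` is a `V`-algebra embedding of `F_{Nℓ}` into `ℚ̄((q))`,
different from the twists `f(q) ↦ f(ζ^i q)`.
-/

set_option autoImplicit false
set_option synthInstance.maxHeartbeats 400000
set_option maxHeartbeats 1000000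

open UpperHalfPlane hiding I
open scoped MatrixGroups Manifold ModularForm
open CongruenceSubgroup ModularCurve

noncomputable section

namespace Fermat.Agent.GalRep

open Fermat.Agent.S24 Fermat.Agent.S28

/-! ### precomposition with a surjective holomorphic self-map of `ℍ` -/

/-- precomposition with a holomorphic map `g : ℍ → ℍ`. -/
def GRHP_holPre (g : ℍ → ℍ) (hg : MDifferentiable 𝓘(ℂ) 𝓘(ℂ) g) : Hol →ₐ[ℂ] Hol where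
  toFun f := ⟨fun τ => (f : ℍ → ℂ) (g τ), f.2.comp hg⟩
  map_one' := rfl
  map_mul' _ _ := rfl
  map_zero' := rfl
  map_add' _ _ := rfl
  commutes' _ := rfl

@[simp]
theorem GRHP_holPre_apply (g : ℍ → ℍ) (hg : MDifferentiable 𝓘(ℂ) 𝓘(ℂ) g) (f : Hol) (τ : ℍ) :
    (GRHP_holPre g hg f : ℍ → ℂ) τ = (f : ℍ → ℂ) (g τ) := rfl

theorem GRHP_holPre_injective (g : ℍ → ℍ) (hg : MDifferentiable 𝓘(ℂ) 𝓘(ℂ) g)
    (hs : Function.Surjective g) : Function.Injective (GRHP_holPre g hg) := by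
  intro f₁ f₂ h
  rw [hol_ext_iff] at h ⊢
  intro z
  obtain ⟨τ, rfl⟩ := hs z
  exact h τ

/-- precomposition with a surjective holomorphic map on meromorphic functions. -/
def GRHP_merPre (g : ℍ → ℍ) (hg : MDifferentiable 𝓘(ℂ) 𝓘(ℂ) g)
    (hs : Function.Surjective g) : Mer →+* Mer :=
  IsFractionRing.map (A := Hol) (B := Hol) (K := Mer) (L := Mer)
    (j := (GRHP_holPre g hg).toRingHom) (GRHP_holPre_injective g hg hs)

theorem GRHP_merPre_algebraMap (g : ℍ → ℍ) (hg : MDifferentiable 𝓘(ℂ) 𝓘(ℂ) g)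
    (hs : Function.Surjective g) (f : Hol) :
    GRHP_merPre g hg hs (algebraMap Hol Mer f) = algebraMap Hol Mer (GRHP_holPre g hg f) := by
  rw [GRHP_merPre, IsFractionRing.map, IsLocalization.map_eq]
  rfl

theorem GRHP_merPre_const (g : ℍ → ℍ) (hg : MDifferentiable 𝓘(ℂ) 𝓘(ℂ) g)
    (hs : Function.Surjective g) (c : ℂ) :
    GRHP_merPre g hg hs (algebraMap ℂ Mer c) = algebraMap ℂ Mer c := by
  rw [IsScalarTower.algebraMap_apply ℂ Hol Mer, GRHP_merPre_algebraMap, AlgHom.commutes]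

/-! ### scaling -/

theorem GRHP_ut_smul_ut {a b : ℕ} (ha : 0 < a) (hb : 0 < b) (τ : ℍ) :
    ut a 0 1 • (ut b 0 1 • τ) = ut (a * b) 0 1 • τ := by
  apply UpperHalfPlane.ext
  rw [coe_ut_smul ha one_pos, coe_ut_smul hb one_pos, coe_ut_smul (Nat.mul_pos ha hb) one_pos]
  push_cast
  ring

theorem GRHP_ut_smul_inv {m : ℕ} (hm : 0 < m) (z : ℍ) :
    ut m 0 1 • (ut 1 0 m • z) = z := by
  apply UpperHalfPlane.ext
  rw [coe_ut_smul hm one_pos, coe_ut_smul one_pos hm]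
  have : (m : ℂ) ≠ 0 := Nat.cast_ne_zero.mpr hm.ne'
  simp only [Nat.cast_zero, Nat.cast_one, add_zero, div_one, one_mul]
  field_simp

theorem GRHP_ut_surjective {m : ℕ} (hm : 0 < m) :
    Function.Surjective (fun τ : ℍ => ut m 0 1 • τ) :=
  fun z => ⟨ut 1 0 m • z, GRHP_ut_smul_inv hm z⟩

theorem GRHP_jFun_ut {d m : ℕ} (hd : 0 < d) (hm : 0 < m) (τ : ℍ) :
    jFun d (ut m 0 1 • τ) = jFun (d * m) τ := by
  rw [jFun_eq_jfun', jFun_eq_jfun', GRHP_ut_smul_ut hd hm]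

/-! ### the matrix `γ` and the map `τ ↦ γ • (ℓ² τ)` -/

/-- the matrix `(1, y; N, ℓ w)` of determinant `ℓ w − N y = 1`. -/
def GRHP_gamma (N ℓ : ℕ) (y w : ℤ) (h : (ℓ : ℤ) * w - N * y = 1) : SL(2, ℤ) :=
  ⟨!![1, y; (N : ℤ), (ℓ : ℤ) * w], by rw [Matrix.det_fin_two_of]; linear_combination h⟩

theorem GRHP_gamma_mem (N ℓ : ℕ) (y w : ℤ) (h : (ℓ : ℤ) * w - N * y = 1) :
    GRHP_gamma N ℓ y w h ∈ Gamma0 N := by
  rw [Gamma0_mem]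
  show (((N : ℤ) : ℤ) : ZMod N) = 0
  simp

/-- the map `τ ↦ γ • (ℓ² τ)`. -/
def GRHP_g (N ℓ : ℕ) (y w : ℤ) (h : (ℓ : ℤ) * w - N * y = 1) (τ : ℍ) : ℍ :=
  GRHP_gamma N ℓ y w h • (ut (ℓ * ℓ) 0 1 • τ)

theorem GRHP_g_mdifferentiable (N ℓ : ℕ) (y w : ℤ) (h : (ℓ : ℤ) * w - N * y = 1) :
    MDifferentiable 𝓘(ℂ) 𝓘(ℂ) (GRHP_g N ℓ y w h) :=
  (mdifferentiable_SL_smul _).comp (mdifferentiable_ut_smul _)

theorem GRHP_g_surjective (N ℓ : ℕ) (hℓ : 0 < ℓ) (y w : ℤ) (h : (ℓ : ℤ) * w - N * y = 1) :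
    Function.Surjective (GRHP_g N ℓ y w h) := by
  intro z
  obtain ⟨τ, hτ⟩ := GRHP_ut_surjective (Nat.mul_pos hℓ hℓ) ((GRHP_gamma N ℓ y w h)⁻¹ • z)
  refine ⟨τ, ?_⟩
  show GRHP_gamma N ℓ y w h • (ut (ℓ * ℓ) 0 1 • τ) = z
  have hτ' : ut (ℓ * ℓ) 0 1 • τ = (GRHP_gamma N ℓ y w h)⁻¹ • z := hτ
  rw [hτ', smul_smul, mul_inv_cancel, one_smul]

/-- for `d ∣ N`: `j(d · g τ) = j(dℓ² τ)`. -/
theorem GRHP_jFun_g_old {N ℓ : ℕ} [NeZero N] (hℓ : 0 < ℓ) (y w : ℤ)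
    (h : (ℓ : ℤ) * w - N * y = 1) {d : ℕ} (hd0 : 0 < d) (hd : d ∣ N) (τ : ℍ) :
    jFun d (GRHP_g N ℓ y w h τ) = jFun (d * (ℓ * ℓ)) τ := by
  rw [GRHP_g, jFun_smul_of_mem_Gamma0 N hd0 hd (GRHP_gamma_mem N ℓ y w h),
    GRHP_jFun_ut hd0 (Nat.mul_pos hℓ hℓ)]

/-- for `d ∣ N`: `dℓ · g τ = γ' • (dℓ τ)` with `γ' = (ℓ, d y; N/d, w)`. -/
theorem GRHP_exists_SL {N ℓ : ℕ} (hℓ : 0 < ℓ) (y w : ℤ)
    (h : (ℓ : ℤ) * w - N * y = 1) {d : ℕ} (hd0 : 0 < d) (hd : d ∣ N) (τ : ℍ) :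
    ∃ δ' : SL(2, ℤ), ut (d * ℓ) 0 1 • GRHP_g N ℓ y w h τ = δ' • (ut (d * ℓ) 0 1 • τ) := by
  obtain ⟨c, hc⟩ := hd
  have hdet' : (!![(ℓ : ℤ), (d : ℤ) * y; (c : ℤ), w] : Matrix (Fin 2) (Fin 2) ℤ).det = 1 := by
    rw [Matrix.det_fin_two_of]
    rw [hc] at h
    push_cast at h
    linear_combination h
  obtain ⟨δ', e00, e01, e10, e11⟩ : ∃ δ' : SL(2, ℤ), δ' 0 0 = (ℓ : ℤ) ∧ δ' 0 1 = (d : ℤ) * y ∧
      δ' 1 0 = (c : ℤ) ∧ δ' 1 1 = w :=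
    ⟨⟨!![(ℓ : ℤ), (d : ℤ) * y; (c : ℤ), w], hdet'⟩, rfl, rfl, rfl, rfl⟩
  refine ⟨δ', ?_⟩
  have hdℓ : 0 < d * ℓ := Nat.mul_pos hd0 hℓ
  have hℓℓ : 0 < ℓ * ℓ := Nat.mul_pos hℓ hℓ
  have g00 : (GRHP_gamma N ℓ y w h) 0 0 = 1 := rfl
  have g01 : (GRHP_gamma N ℓ y w h) 0 1 = y := rfl
  have g10 : (GRHP_gamma N ℓ y w h) 1 0 = (N : ℤ) := rfl
  have g11 : (GRHP_gamma N ℓ y w h) 1 1 = (ℓ : ℤ) * w := rfl
  have hden1 := denom_ne_zero (GRHP_gamma N ℓ y w h) (ut (ℓ * ℓ) 0 1 • τ)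
  rw [ModularGroup.denom_apply, g10, g11, coe_ut_smul hℓℓ one_pos] at hden1
  have hden2 := denom_ne_zero δ' (ut (d * ℓ) 0 1 • τ)
  rw [ModularGroup.denom_apply, e10, e11, coe_ut_smul hdℓ one_pos] at hden2
  apply UpperHalfPlane.ext
  rw [coe_ut_smul hdℓ one_pos, GRHP_g, coe_specialLinearGroup_apply (GRHP_gamma N ℓ y w h),
    coe_specialLinearGroup_apply δ', coe_ut_smul hℓℓ one_pos, coe_ut_smul hdℓ one_pos,
    e00, e01, e10, e11, g00, g01, g10, g11]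
  simp only [algebraMap_int_eq, eq_intCast] at hden1 hden2 ⊢
  push_cast at hden1 hden2 ⊢
  simp only [add_zero, div_one, one_mul] at hden1 hden2 ⊢
  have hℓC : (ℓ : ℂ) ≠ 0 := Nat.cast_ne_zero.mpr hℓ.ne'
  have hN : (N : ℂ) = (d : ℂ) * (c : ℂ) := by rw [hc]; push_cast; ring
  rw [hN] at hden1 ⊢
  rw [mul_div_assoc', div_eq_div_iff hden1 hden2]
  ring

/-- for `d ∣ N`: `j(dℓ · g τ) = j(dℓ τ)`. -/
theorem GRHP_jFun_g_new {N ℓ : ℕ} (hℓ : 0 < ℓ) (y w : ℤ)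
    (h : (ℓ : ℤ) * w - N * y = 1) {d : ℕ} (hd0 : 0 < d) (hd : d ∣ N) (τ : ℍ) :
    jFun (d * ℓ) (GRHP_g N ℓ y w h τ) = jFun (d * ℓ) τ := by
  obtain ⟨δ', hδ'⟩ := GRHP_exists_SL hℓ y w h hd0 hd τ
  rw [jFun_eq_jfun', jFun_eq_jfun', hδ', S24_jfun_smul]

/-! ### the embedding `φ_∞` -/

theorem GRHP_jBar_congr {M d d' : ℕ} [NeZero M] [NeZero d] [NeZero d'] (h : d = d') (hd : d ∣ M)
    (hd' : d' ∣ M) : jBar M d hd = jBar M d' hd' := by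
  subst h
  rfl

section PhiInf

variable (N ℓ : ℕ) [NeZero N] [NeZero ℓ] (y w : ℤ) (h : (ℓ : ℤ) * w - N * y = 1)

/-- the analytic operator `f ↦ f(γ • ℓ² τ)`. -/
def GRHP_A : Mer →+* Mer :=
  GRHP_merPre (GRHP_g N ℓ y w h) (GRHP_g_mdifferentiable N ℓ y w h)
    (GRHP_g_surjective N ℓ (Nat.pos_of_ne_zero (NeZero.ne ℓ)) y w h)

omit [NeZero N] in
theorem GRHP_A_algebraMap (f : Hol) :
    GRHP_A N ℓ y w h (algebraMap Hol Mer f) =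
      algebraMap Hol Mer (GRHP_holPre (GRHP_g N ℓ y w h) (GRHP_g_mdifferentiable N ℓ y w h) f) :=
  GRHP_merPre_algebraMap _ _ _ f

theorem GRHP_A_ev_const (a : AlgebraicClosure ℚ) :
    GRHP_A N ℓ y w h
        (ev (N * ℓ) (algebraMap (AlgebraicClosure ℚ) ↥(modularFunctionFieldBar (N * ℓ)) a)) =
      ev (N * ℓ * ℓ)
        (algebraMap (AlgebraicClosure ℚ) ↥(modularFunctionFieldBar (N * ℓ * ℓ)) a) := by
  rw [(isEv_ev (N * ℓ)).const, (isEv_ev (N * ℓ * ℓ)).const]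
  exact GRHP_merPre_const _ _ _ _

theorem GRHP_A_ev_old (d : ℕ) [NeZero d] (hd : d ∣ N) :
    GRHP_A N ℓ y w h (ev (N * ℓ) (jBar (N * ℓ) d (hd.trans (dvd_mul_right N ℓ)))) =
      ev (N * ℓ * ℓ) (jBar (N * ℓ * ℓ) (d * (ℓ * ℓ))
        (by rw [mul_assoc]; exact mul_dvd_mul hd dvd_rfl)) := by
  rw [(isEv_ev (N * ℓ)).gen, (isEv_ev (N * ℓ * ℓ)).gen, GRHP_A_algebraMap]
  refine congrArg (algebraMap Hol Mer) ?_
  rw [hol_ext_iff]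
  intro τ
  rw [GRHP_holPre_apply, jHol_apply, jHol_apply]
  exact GRHP_jFun_g_old (Nat.pos_of_ne_zero (NeZero.ne ℓ)) y w h
    (Nat.pos_of_ne_zero (NeZero.ne d)) hd τ

theorem GRHP_A_ev_new (d : ℕ) [NeZero d] (hd : d ∣ N) :
    GRHP_A N ℓ y w h (ev (N * ℓ) (jBar (N * ℓ) (d * ℓ) (mul_dvd_mul hd dvd_rfl))) =
      ev (N * ℓ * ℓ) (jBar (N * ℓ * ℓ) (d * ℓ)
        ((mul_dvd_mul hd dvd_rfl).trans (dvd_mul_right (N * ℓ) ℓ))) := by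
  rw [(isEv_ev (N * ℓ)).gen, (isEv_ev (N * ℓ * ℓ)).gen, GRHP_A_algebraMap]
  refine congrArg (algebraMap Hol Mer) ?_
  rw [hol_ext_iff]
  intro τ
  rw [GRHP_holPre_apply, jHol_apply, jHol_apply]
  exact GRHP_jFun_g_new (Nat.pos_of_ne_zero (NeZero.ne ℓ)) y w h
    (Nat.pos_of_ne_zero (NeZero.ne d)) hd τ

/-- `A` maps the analytic realisation of `F_{Nℓ}` into that of `F_{Nℓ·ℓ}`. -/
theorem GRHP_exists (hℓ : ℓ.Prime) (f : ↥(modularFunctionFieldBar (N * ℓ))) :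
    ∃ g : ↥(modularFunctionFieldBar (N * ℓ * ℓ)),
      ev (N * ℓ * ℓ) g = GRHP_A N ℓ y w h (ev (N * ℓ) f) := by
  revert f
  apply F_induction (N * ℓ)
  · intro c
    exact ⟨_, (GRHP_A_ev_const N ℓ y w h c).symm⟩
  · intro d' _ hd'
    by_cases hdvd : ℓ ∣ d'
    · obtain ⟨d, rfl⟩ := hdvd
      have hdN : d ∣ N := by
        rw [mul_comm N ℓ] at hd'
        exact Nat.dvd_of_mul_dvd_mul_left hℓ.pos hd'
      have hne : NeZero d := ⟨by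
        rintro rfl
        exact NeZero.ne (ℓ * 0) (mul_zero ℓ)⟩
      exact ⟨jBar (N * ℓ * ℓ) (d * ℓ)
          ((mul_dvd_mul hdN dvd_rfl).trans (dvd_mul_right (N * ℓ) ℓ)), by
        rw [← GRHP_A_ev_new N ℓ y w h d hdN,
          GRHP_jBar_congr (mul_comm ℓ d) hd' (mul_dvd_mul hdN dvd_rfl)]⟩
    · have hcop : Nat.Coprime d' ℓ := ((Nat.Prime.coprime_iff_not_dvd hℓ).mpr hdvd).symm
      have hdN : d' ∣ N := hcop.dvd_of_dvd_mul_right hd'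
      exact ⟨_, (GRHP_A_ev_old N ℓ y w h d' hdN).symm⟩
  · rintro x y' ⟨gx, hx⟩ ⟨gy, hy⟩
    exact ⟨gx + gy, by
      rw [RingHom.map_add (ev (N * ℓ * ℓ)), RingHom.map_add (ev (N * ℓ)),
        RingHom.map_add (GRHP_A N ℓ y w h), hx, hy]⟩
  · rintro x y' ⟨gx, hx⟩ ⟨gy, hy⟩
    exact ⟨gx * gy, by
      rw [RingHom.map_mul (ev (N * ℓ * ℓ)), RingHom.map_mul (ev (N * ℓ)),
        RingHom.map_mul (GRHP_A N ℓ y w h), hx, hy]⟩
  · rintro x ⟨gx, hx⟩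
    exact ⟨gx⁻¹, by
      rw [_root_.map_inv₀ (ev (N * ℓ * ℓ)), _root_.map_inv₀ (ev (N * ℓ)),
        _root_.map_inv₀ (GRHP_A N ℓ y w h), hx]⟩

/-- `φ_∞` as a function. -/
def GRHP_phiFun (hℓ : ℓ.Prime) (f : ↥(modularFunctionFieldBar (N * ℓ))) :
    ↥(modularFunctionFieldBar (N * ℓ * ℓ)) :=
  Classical.choose (GRHP_exists N ℓ y w h hℓ f)

theorem GRHP_ev_phiFun (hℓ : ℓ.Prime) (f : ↥(modularFunctionFieldBar (N * ℓ))) :
    ev (N * ℓ * ℓ) (GRHP_phiFun N ℓ y w h hℓ f) = GRHP_A N ℓ y w h (ev (N * ℓ) f) :=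
  Classical.choose_spec (GRHP_exists N ℓ y w h hℓ f)

theorem GRHP_phiFun_eq (hℓ : ℓ.Prime) {f : ↥(modularFunctionFieldBar (N * ℓ))}
    {g : ↥(modularFunctionFieldBar (N * ℓ * ℓ))}
    (hg : ev (N * ℓ * ℓ) g = GRHP_A N ℓ y w h (ev (N * ℓ) f)) :
    GRHP_phiFun N ℓ y w h hℓ f = g :=
  (ev (N * ℓ * ℓ)).injective (by rw [GRHP_ev_phiFun, hg])

/-- **`φ_∞ : F_{Nℓ} → F_{Nℓ·ℓ}`**, `f ↦ f(γ • ℓ² τ)`. -/
def GRHP_phiInf (hℓ : ℓ.Prime) :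
    ↥(modularFunctionFieldBar (N * ℓ)) →ₐ[AlgebraicClosure ℚ]
      ↥(modularFunctionFieldBar (N * ℓ * ℓ)) where
  toFun := GRHP_phiFun N ℓ y w h hℓ
  map_one' := GRHP_phiFun_eq N ℓ y w h hℓ (by
    rw [RingHom.map_one (ev (N * ℓ * ℓ)), RingHom.map_one (ev (N * ℓ)),
      RingHom.map_one (GRHP_A N ℓ y w h)])
  map_mul' x y' := GRHP_phiFun_eq N ℓ y w h hℓ (by
    rw [RingHom.map_mul (ev (N * ℓ * ℓ)), GRHP_ev_phiFun, GRHP_ev_phiFun,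
      RingHom.map_mul (ev (N * ℓ)), RingHom.map_mul (GRHP_A N ℓ y w h)])
  map_zero' := GRHP_phiFun_eq N ℓ y w h hℓ (by
    rw [RingHom.map_zero (ev (N * ℓ * ℓ)), RingHom.map_zero (ev (N * ℓ)),
      RingHom.map_zero (GRHP_A N ℓ y w h)])
  map_add' x y' := GRHP_phiFun_eq N ℓ y w h hℓ (by
    rw [RingHom.map_add (ev (N * ℓ * ℓ)), GRHP_ev_phiFun, GRHP_ev_phiFun,
      RingHom.map_add (ev (N * ℓ)), RingHom.map_add (GRHP_A N ℓ y w h)])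
  commutes' c := GRHP_phiFun_eq N ℓ y w h hℓ (GRHP_A_ev_const N ℓ y w h c).symm

theorem GRHP_ev_phiInf (hℓ : ℓ.Prime) (f : ↥(modularFunctionFieldBar (N * ℓ))) :
    ev (N * ℓ * ℓ) (GRHP_phiInf N ℓ y w h hℓ f) = GRHP_A N ℓ y w h (ev (N * ℓ) f) :=
  GRHP_ev_phiFun N ℓ y w h hℓ f

theorem GRHP_phiInf_jBar_old (hℓ : ℓ.Prime) (d : ℕ) [NeZero d] (hd : d ∣ N) :
    GRHP_phiInf N ℓ y w h hℓ (jBar (N * ℓ) d (hd.trans (dvd_mul_right N ℓ))) =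
      jBar (N * ℓ * ℓ) (d * (ℓ * ℓ)) (by rw [mul_assoc]; exact mul_dvd_mul hd dvd_rfl) :=
  GRHP_phiFun_eq N ℓ y w h hℓ (GRHP_A_ev_old N ℓ y w h d hd).symm

theorem GRHP_phiInf_jBar_new (hℓ : ℓ.Prime) (d : ℕ) [NeZero d] (hd : d ∣ N) :
    GRHP_phiInf N ℓ y w h hℓ (jBar (N * ℓ) (d * ℓ) (mul_dvd_mul hd dvd_rfl)) =
      jBar (N * ℓ * ℓ) (d * ℓ) ((mul_dvd_mul hd dvd_rfl).trans (dvd_mul_right (N * ℓ) ℓ)) :=
  GRHP_phiFun_eq N ℓ y w h hℓ (GRHP_A_ev_new N ℓ y w h d hd).symm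

/-- `φ_∞ ∘ α = β' ∘ β` (`= V²` on series). -/
theorem GRHP_phiInf_alpha (hℓ : ℓ.Prime) (f : ↥(modularFunctionFieldBar N)) :
    GRHP_phiInf N ℓ y w h hℓ (heckeAlphaBar (AlgebraicClosure ℚ) N ℓ f) =
      heckeBetaBar (AlgebraicClosure ℚ) (N * ℓ) ℓ (heckeBetaBar (AlgebraicClosure ℚ) N ℓ f) := by
  have key : ((GRHP_phiInf N ℓ y w h hℓ : ↥(modularFunctionFieldBar (N * ℓ)) →+*
        ↥(modularFunctionFieldBar (N * ℓ * ℓ)))).comp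
        (heckeAlphaBar (AlgebraicClosure ℚ) N ℓ : ↥(modularFunctionFieldBar N) →+*
          ↥(modularFunctionFieldBar (N * ℓ))) =
      ((heckeBetaBar (AlgebraicClosure ℚ) (N * ℓ) ℓ : ↥(modularFunctionFieldBar (N * ℓ)) →+*
          ↥(modularFunctionFieldBar (N * ℓ * ℓ)))).comp
        (heckeBetaBar (AlgebraicClosure ℚ) N ℓ : ↥(modularFunctionFieldBar N) →+*
          ↥(modularFunctionFieldBar (N * ℓ))) := by
    apply ringHom_ext_gen N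
    · intro a
      simp only [RingHom.comp_apply, RingHom.coe_coe, AlgHom.commutes]
    · intro d _ hd
      simp only [RingHom.comp_apply, RingHom.coe_coe]
      rw [GRHF_alpha_jBar, GRHP_phiInf_jBar_old N ℓ y w h hℓ d hd, GRHF_beta_jBar, GRHF_beta_jBar]
      exact GRHP_jBar_congr (by ring) _ _
  exact congrArg (fun φ : ↥(modularFunctionFieldBar N) →+*
    ↥(modularFunctionFieldBar (N * ℓ * ℓ)) => φ f) key

/-- `φ_∞ ∘ β = α' ∘ β` (`= V` on series): `φ_∞` is a `V`-algebra embedding. -/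
theorem GRHP_phiInf_beta (hℓ : ℓ.Prime) (f : ↥(modularFunctionFieldBar N)) :
    GRHP_phiInf N ℓ y w h hℓ (heckeBetaBar (AlgebraicClosure ℚ) N ℓ f) =
      heckeAlphaBar (AlgebraicClosure ℚ) (N * ℓ) ℓ (heckeBetaBar (AlgebraicClosure ℚ) N ℓ f) := by
  have key : ((GRHP_phiInf N ℓ y w h hℓ : ↥(modularFunctionFieldBar (N * ℓ)) →+*
        ↥(modularFunctionFieldBar (N * ℓ * ℓ)))).comp
        (heckeBetaBar (AlgebraicClosure ℚ) N ℓ : ↥(modularFunctionFieldBar N) →+*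
          ↥(modularFunctionFieldBar (N * ℓ))) =
      ((heckeAlphaBar (AlgebraicClosure ℚ) (N * ℓ) ℓ : ↥(modularFunctionFieldBar (N * ℓ)) →+*
          ↥(modularFunctionFieldBar (N * ℓ * ℓ)))).comp
        (heckeBetaBar (AlgebraicClosure ℚ) N ℓ : ↥(modularFunctionFieldBar N) →+*
          ↥(modularFunctionFieldBar (N * ℓ))) := by
    apply ringHom_ext_gen N
    · intro a
      simp only [RingHom.comp_apply, RingHom.coe_coe, AlgHom.commutes]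
    · intro d _ hd
      simp only [RingHom.comp_apply, RingHom.coe_coe]
      rw [GRHF_beta_jBar, GRHP_jBar_congr (mul_comm ℓ d) _ (mul_dvd_mul hd dvd_rfl),
        GRHP_phiInf_jBar_new N ℓ y w h hℓ d hd, GRHF_alpha_jBar]
  exact congrArg (fun φ : ↥(modularFunctionFieldBar N) →+*
    ↥(modularFunctionFieldBar (N * ℓ * ℓ)) => φ f) key

/-- series form: `φ_∞ (α f) = f(q^{ℓ²})`. -/
theorem GRHP_coe_phiInf_alpha (hℓ : ℓ.Prime) (f : ↥(modularFunctionFieldBar N)) :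
    ((GRHP_phiInf N ℓ y w h hℓ (heckeAlphaBar (AlgebraicClosure ℚ) N ℓ f) :
        ↥(modularFunctionFieldBar (N * ℓ * ℓ))) : LaurentSeries (AlgebraicClosure ℚ)) =
      qExpand (AlgebraicClosure ℚ) ℓ (qExpand (AlgebraicClosure ℚ) ℓ
        (f : LaurentSeries (AlgebraicClosure ℚ))) := by
  rw [GRHP_phiInf_alpha]
  rfl

/-- series form: `φ_∞ (β f) = f(q^ℓ)`. -/
theorem GRHP_coe_phiInf_beta (hℓ : ℓ.Prime) (f : ↥(modularFunctionFieldBar N)) :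
    ((GRHP_phiInf N ℓ y w h hℓ (heckeBetaBar (AlgebraicClosure ℚ) N ℓ f) :
        ↥(modularFunctionFieldBar (N * ℓ * ℓ))) : LaurentSeries (AlgebraicClosure ℚ)) =
      qExpand (AlgebraicClosure ℚ) ℓ (f : LaurentSeries (AlgebraicClosure ℚ)) := by
  rw [GRHP_phiInf_beta]
  rfl

end PhiInf

/-- Bézout: for `ℓ ∤ N`, `ℓ` prime, there are `y, w` with `ℓ w − N y = 1`. -/
theorem GRHP_exists_yw {N ℓ : ℕ} (hℓ : ℓ.Prime) (hℓN : ¬ ℓ ∣ N) :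
    ∃ y w : ℤ, (ℓ : ℤ) * w - N * y = 1 := by
  have hcop : IsCoprime (ℓ : ℤ) (N : ℤ) :=
    Nat.isCoprime_iff_coprime.mpr ((Nat.Prime.coprime_iff_not_dvd hℓ).mpr hℓN)
  obtain ⟨a, b, hab⟩ := hcop
  exact ⟨-b, a, by linear_combination hab⟩

/-- **`φ_∞` exists** (`ℓ ∤ N` prime): a `ℚ̄`-algebra embedding `F_{Nℓ} → F_{Nℓ·ℓ}` which is `V²` on
`α F_N` and the identity on `β F_N = V F_N` (as Laurent series). -/
theorem GRHP_exists_phiInf (N ℓ : ℕ) [NeZero N] [NeZero ℓ] (hℓ : ℓ.Prime) (hℓN : ¬ ℓ ∣ N) :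
    ∃ φ : ↥(modularFunctionFieldBar (N * ℓ)) →ₐ[AlgebraicClosure ℚ]
        ↥(modularFunctionFieldBar (N * ℓ * ℓ)),
      (∀ f : ↥(modularFunctionFieldBar N),
        ((φ (heckeAlphaBar (AlgebraicClosure ℚ) N ℓ f) :
          ↥(modularFunctionFieldBar (N * ℓ * ℓ))) : LaurentSeries (AlgebraicClosure ℚ)) =
        qExpand (AlgebraicClosure ℚ) ℓ (qExpand (AlgebraicClosure ℚ) ℓ
          (f : LaurentSeries (AlgebraicClosure ℚ)))) ∧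
      (∀ f : ↥(modularFunctionFieldBar N),
        ((φ (heckeBetaBar (AlgebraicClosure ℚ) N ℓ f) :
          ↥(modularFunctionFieldBar (N * ℓ * ℓ))) : LaurentSeries (AlgebraicClosure ℚ)) =
        qExpand (AlgebraicClosure ℚ) ℓ (f : LaurentSeries (AlgebraicClosure ℚ))) := by
  obtain ⟨y, w, h⟩ := GRHP_exists_yw hℓ hℓN
  exact ⟨GRHP_phiInf N ℓ y w h hℓ, GRHP_coe_phiInf_alpha N ℓ y w h hℓ,
    GRHP_coe_phiInf_beta N ℓ y w h hℓ⟩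

end Fermat.Agent.GalRep
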