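import Mathlib
import Fermat.Agent.GalRep.HeckePhiInf
import Fermat.Agent.GalRep.HeckeSer
import Fermat.Agent.S24.NormEmb
import Fermat.Prelude.Thm_ModularCurve_coeff_jqModC_neg_one

/-!
# Pillar G, package HECKE, piece STAB (helper2): the norm formula

`α, β : F_N → F_{Nℓ}` the Prelude maps (`heckeAlphaBar`, `heckeBetaBar`), `B := β(F_N) ⊂ F_{Nℓ}`
(`= V F_N`), `ζ` a primitive `ℓ`-th root of unity, `ℓ` prime.  The `B`-embeddings of `F_{Nℓ}` into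
`E = ℚ̄((q))` are the `ℓ` twists `f(q) ↦ f(ζ^i q)` and, for `ℓ ∤ N`, `φ_∞`; their number is
`[F_{Nℓ} : B]` (`GRHF_finrank_betaRange`).  Hence

  `GRHS_norm : ↑(Algebra.norm B (α f)) = GRS_rhs N ℓ ζ ↑f`   (in `E`)

and `GRHS_stab : GRS_Stab N ℓ ζ`, with `GRHS_t_eq : β (GRS_t hst f) = Algebra.norm B (α f)`.
-/

set_option autoImplicit false
set_option synthInstance.maxHeartbeats 400000
set_option maxHeartbeats 1000000
set_option linter.unusedSectionVars false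

open ModularCurve IntermediateField

noncomputable section

namespace Fermat.Agent.GalRep

open Fermat.Agent.S24

/-! ### twists fix `V`-series -/

theorem GRHS_tw_qExpand {R : Type*} [CommRing R] (ℓ : ℕ) [NeZero ℓ] (u : Rˣ) (hu : u ^ ℓ = 1)
    (f : LaurentSeries R) : ES_tw u (qExpand R ℓ f) = qExpand R ℓ f := by
  ext n
  rw [ES_tw_coeff]
  by_cases hn : (ℓ : ℤ) ∣ n
  · obtain ⟨m, rfl⟩ := hn
    have : (u ^ ((ℓ : ℤ) * m) : Rˣ) = 1 := by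
      rw [zpow_mul, zpow_natCast, hu, one_zpow]
    rw [this, Units.val_one, one_mul]
  · rw [qExpand_coeff_of_not_dvd ℓ f hn, mul_zero]

variable (N ℓ : ℕ) [NeZero N] [NeZero ℓ]

/-- `B = β(F_N) = V F_N ⊂ F_{Nℓ}`. -/
abbrev GRHS_B : IntermediateField (AlgebraicClosure ℚ) ↥(modularFunctionFieldBar (N * ℓ)) :=
  (heckeBetaBar (AlgebraicClosure ℚ) N ℓ).fieldRange

theorem GRHS_coe_B (b : ↥(GRHS_B N ℓ)) : ∃ f : ↥(modularFunctionFieldBar N),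
    ((b : ↥(modularFunctionFieldBar (N * ℓ))) : LaurentSeries (AlgebraicClosure ℚ)) =
      qExpand (AlgebraicClosure ℚ) ℓ (f : LaurentSeries (AlgebraicClosure ℚ)) := by
  obtain ⟨f, hf⟩ := b.2
  exact ⟨f, by rw [← hf]; rfl⟩

/-- the twist embedding `f(q) ↦ f(u q)` of `F_{Nℓ}` over `B` (`u^ℓ = 1`). -/
def GRHS_sigmaTw (u : (AlgebraicClosure ℚ)ˣ) (hu : u ^ ℓ = 1) :
    ↥(modularFunctionFieldBar (N * ℓ)) →ₐ[↥(GRHS_B N ℓ)] LaurentSeries (AlgebraicClosure ℚ) :=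
  { (ES_tw u).comp (algebraMap ↥(modularFunctionFieldBar (N * ℓ))
      (LaurentSeries (AlgebraicClosure ℚ))) with
    commutes' := fun b => by
      obtain ⟨f, hf⟩ := GRHS_coe_B N ℓ b
      show ES_tw u ((b : ↥(modularFunctionFieldBar (N * ℓ))) :
        LaurentSeries (AlgebraicClosure ℚ)) = _
      rw [hf, GRHS_tw_qExpand ℓ u hu]
      exact hf.symm }

theorem GRHS_sigmaTw_apply (u : (AlgebraicClosure ℚ)ˣ) (hu : u ^ ℓ = 1)
    (x : ↥(modularFunctionFieldBar (N * ℓ))) :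
    GRHS_sigmaTw N ℓ u hu x = ES_tw u (x : LaurentSeries (AlgebraicClosure ℚ)) := rfl

/-- `φ_∞` as an embedding of `F_{Nℓ}` over `B`. -/
def GRHS_sigmaInf (y w : ℤ) (h : (ℓ : ℤ) * w - N * y = 1) (hℓ : ℓ.Prime) :
    ↥(modularFunctionFieldBar (N * ℓ)) →ₐ[↥(GRHS_B N ℓ)] LaurentSeries (AlgebraicClosure ℚ) :=
  { (algebraMap ↥(modularFunctionFieldBar (N * ℓ * ℓ))
      (LaurentSeries (AlgebraicClosure ℚ))).comp
      (GRHP_phiInf N ℓ y w h hℓ : ↥(modularFunctionFieldBar (N * ℓ)) →+*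
        ↥(modularFunctionFieldBar (N * ℓ * ℓ))) with
    commutes' := fun b => by
      obtain ⟨f, hf⟩ := b.2
      show ((GRHP_phiInf N ℓ y w h hℓ (b : ↥(modularFunctionFieldBar (N * ℓ))) :
        ↥(modularFunctionFieldBar (N * ℓ * ℓ))) : LaurentSeries (AlgebraicClosure ℚ)) =
          ((b : ↥(modularFunctionFieldBar (N * ℓ))) : LaurentSeries (AlgebraicClosure ℚ))
      have hf' : (b : ↥(modularFunctionFieldBar (N * ℓ))) =
          heckeBetaBar (AlgebraicClosure ℚ) N ℓ f := hf.symm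
      rw [hf', GRHP_coe_phiInf_beta]
      rfl }

theorem GRHS_sigmaInf_apply (y w : ℤ) (h : (ℓ : ℤ) * w - N * y = 1) (hℓ : ℓ.Prime)
    (x : ↥(modularFunctionFieldBar (N * ℓ))) :
    GRHS_sigmaInf N ℓ y w h hℓ x =
      ((GRHP_phiInf N ℓ y w h hℓ x : ↥(modularFunctionFieldBar (N * ℓ * ℓ))) :
        LaurentSeries (AlgebraicClosure ℚ)) := rfl

/-! ### the test element `j` -/

theorem GRHS_coe_alpha_jB :
    ((heckeAlphaBar (AlgebraicClosure ℚ) N ℓ (jB N) : ↥(modularFunctionFieldBar (N * ℓ))) :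
      LaurentSeries (AlgebraicClosure ℚ)) = jqModC (AlgebraicClosure ℚ) := by
  show coeffEmb (AlgebraicClosure ℚ) (qExpand ℚ 1 jq) = _
  rw [qExpand_one_apply, ← jqModC_rat, coeffEmb, coeffMap_jqModC]

theorem GRHS_sigmaTw_j_coeff (u : (AlgebraicClosure ℚ)ˣ) (hu : u ^ ℓ = 1) :
    (GRHS_sigmaTw N ℓ u hu (heckeAlphaBar (AlgebraicClosure ℚ) N ℓ (jB N))).coeff (-1) =
      ((u⁻¹ : (AlgebraicClosure ℚ)ˣ) : AlgebraicClosure ℚ) := by
  rw [GRHS_sigmaTw_apply, GRHS_coe_alpha_jB, ES_tw_coeff, coeff_jqModC_neg_one, mul_one,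
    zpow_neg_one]

theorem GRHS_sigmaInf_j_coeff (y w : ℤ) (h : (ℓ : ℤ) * w - N * y = 1) (hℓ : ℓ.Prime) :
    (GRHS_sigmaInf N ℓ y w h hℓ (heckeAlphaBar (AlgebraicClosure ℚ) N ℓ (jB N))).coeff (-1) =
      0 := by
  rw [GRHS_sigmaInf_apply, GRHP_coe_phiInf_alpha]
  apply qExpand_coeff_of_not_dvd
  intro hdvd
  have h1 : (ℓ : ℤ) ∣ 1 := (Int.dvd_neg).mp hdvd
  have h2 : ℓ ∣ 1 := Int.natCast_dvd_natCast.mp (by simpa using h1)
  exact hℓ.one_lt.ne' (Nat.dvd_one.mp h2)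

/-! ### finiteness and separability of `F_{Nℓ} / B` -/

theorem GRHS_finiteDimensional (hℓ : ℓ.Prime) :
    FiniteDimensional ↥(GRHS_B N ℓ) ↥(modularFunctionFieldBar (N * ℓ)) := by
  apply Module.finite_of_finrank_pos
  rw [GRHF_finrank_betaRange N ℓ hℓ]
  split_ifs
  · exact hℓ.pos
  · exact Nat.succ_pos ℓ

/-! ### the norm formula -/

section Norm

variable {N ℓ}
variable (ζ : (AlgebraicClosure ℚ)ˣ) (hζ : IsPrimitiveRoot (ζ : AlgebraicClosure ℚ) ℓ)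

include hζ

theorem GRHS_zeta_pow : ζ ^ ℓ = 1 := by
  apply Units.ext
  rw [Units.val_pow_eq_pow_val, hζ.pow_eq_one, Units.val_one]

theorem GRHS_zeta_pow_pow (i : ℕ) : (ζ ^ i) ^ ℓ = 1 := by
  rw [← pow_mul, mul_comm, pow_mul, GRHS_zeta_pow ζ hζ, one_pow]

theorem GRHS_zeta_inj {i i' : ℕ} (hi : i < ℓ) (hi' : i' < ℓ) (h : ζ ^ i = ζ ^ i') : i = i' := by
  have := congrArg (fun v : (AlgebraicClosure ℚ)ˣ => (v : AlgebraicClosure ℚ)) h
  simp only [Units.val_pow_eq_pow_val] at this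
  exact hζ.pow_inj hi hi' this

/-- the family of embeddings for `ℓ ∣ N`: the twists. -/
def GRHS_famU (i : Fin ℓ) :
    ↥(modularFunctionFieldBar (N * ℓ)) →ₐ[↥(GRHS_B N ℓ)] LaurentSeries (AlgebraicClosure ℚ) :=
  GRHS_sigmaTw N ℓ (ζ ^ (i : ℕ)) (GRHS_zeta_pow_pow ζ hζ i)

theorem GRHS_famU_injective : Function.Injective (GRHS_famU (N := N) ζ hζ) := by
  intro i i' h
  have h1 := congrArg (fun σ : ↥(modularFunctionFieldBar (N * ℓ)) →ₐ[↥(GRHS_B N ℓ)]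
    LaurentSeries (AlgebraicClosure ℚ) =>
      (σ (heckeAlphaBar (AlgebraicClosure ℚ) N ℓ (jB N))).coeff (-1)) h
  simp only [GRHS_famU, GRHS_sigmaTw_j_coeff] at h1
  have h2 : (ζ ^ (i : ℕ))⁻¹ = (ζ ^ (i' : ℕ))⁻¹ := Units.ext h1
  exact Fin.ext (GRHS_zeta_inj ζ hζ i.2 i'.2 (inv_injective h2))

/-- the family of embeddings for `ℓ ∤ N`: `φ_∞` and the twists. -/
def GRHS_famT (y w : ℤ) (h : (ℓ : ℤ) * w - N * y = 1) (hℓ : ℓ.Prime) :
    Option (Fin ℓ) → (↥(modularFunctionFieldBar (N * ℓ)) →ₐ[↥(GRHS_B N ℓ)]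
      LaurentSeries (AlgebraicClosure ℚ))
  | none => GRHS_sigmaInf N ℓ y w h hℓ
  | some i => GRHS_famU ζ hζ i

theorem GRHS_famT_injective (y w : ℤ) (h : (ℓ : ℤ) * w - N * y = 1) (hℓ : ℓ.Prime) :
    Function.Injective (GRHS_famT (N := N) ζ hζ y w h hℓ) := by
  have key : ∀ i : Fin ℓ, GRHS_sigmaInf N ℓ y w h hℓ ≠ GRHS_famU ζ hζ i := by
    intro i hcon
    have h1 := congrArg (fun σ : ↥(modularFunctionFieldBar (N * ℓ)) →ₐ[↥(GRHS_B N ℓ)]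
      LaurentSeries (AlgebraicClosure ℚ) =>
        (σ (heckeAlphaBar (AlgebraicClosure ℚ) N ℓ (jB N))).coeff (-1)) hcon
    simp only [GRHS_famU, GRHS_sigmaTw_j_coeff, GRHS_sigmaInf_j_coeff] at h1
    exact Units.ne_zero _ h1.symm
  intro a b hab
  rcases a with _ | i <;> rcases b with _ | i'
  · rfl
  · exact absurd hab (key i')
  · exact absurd hab.symm (key i)
  · exact congrArg some (GRHS_famU_injective ζ hζ hab)

/-- **norm formula**, `ℓ ∣ N`. -/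
theorem GRHS_norm_U (hℓ : ℓ.Prime) (hdvd : ℓ ∣ N) (x : ↥(modularFunctionFieldBar (N * ℓ))) :
    (((Algebra.norm ↥(GRHS_B N ℓ) x : ↥(GRHS_B N ℓ)) : ↥(modularFunctionFieldBar (N * ℓ))) :
        LaurentSeries (AlgebraicClosure ℚ)) =
      ∏ i ∈ Finset.range ℓ, ES_tw (ζ ^ i) (x : LaurentSeries (AlgebraicClosure ℚ)) := by
  have := GRHS_finiteDimensional N ℓ hℓ
  have hcard : Module.finrank ↥(GRHS_B N ℓ) ↥(modularFunctionFieldBar (N * ℓ)) ≤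
      Fintype.card (Fin ℓ) := by
    rw [GRHF_finrank_betaRange N ℓ hℓ, if_pos hdvd, Fintype.card_fin]
  have := S24_norm_eq_prod_of_injective (GRHS_famU (N := N) ζ hζ)
    (GRHS_famU_injective ζ hζ) hcard x
  rw [Finset.prod_range]
  exact this

/-- **norm formula**, `ℓ ∤ N`. -/
theorem GRHS_norm_T (y w : ℤ) (h : (ℓ : ℤ) * w - N * y = 1) (hℓ : ℓ.Prime) (hndvd : ¬ ℓ ∣ N)
    (x : ↥(modularFunctionFieldBar (N * ℓ))) :
    (((Algebra.norm ↥(GRHS_B N ℓ) x : ↥(GRHS_B N ℓ)) : ↥(modularFunctionFieldBar (N * ℓ))) :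
        LaurentSeries (AlgebraicClosure ℚ)) =
      ((GRHP_phiInf N ℓ y w h hℓ x : ↥(modularFunctionFieldBar (N * ℓ * ℓ))) :
        LaurentSeries (AlgebraicClosure ℚ)) *
      ∏ i ∈ Finset.range ℓ, ES_tw (ζ ^ i) (x : LaurentSeries (AlgebraicClosure ℚ)) := by
  have := GRHS_finiteDimensional N ℓ hℓ
  have hcard : Module.finrank ↥(GRHS_B N ℓ) ↥(modularFunctionFieldBar (N * ℓ)) ≤
      Fintype.card (Option (Fin ℓ)) := by
    rw [GRHF_finrank_betaRange N ℓ hℓ, if_neg hndvd, Fintype.card_option, Fintype.card_fin]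
  have := S24_norm_eq_prod_of_injective (GRHS_famT (N := N) ζ hζ y w h hℓ)
    (GRHS_famT_injective ζ hζ y w h hℓ) hcard x
  rw [Fintype.prod_option] at this
  rw [Finset.prod_range]
  exact this

/-- **norm formula**: `↑(Norm_{F_{Nℓ}/V F_N} (α f)) = GRS_rhs N ℓ ζ ↑f`. -/
theorem GRHS_norm (hℓ : ℓ.Prime) (f : ↥(modularFunctionFieldBar N)) :
    (((Algebra.norm ↥(GRHS_B N ℓ) (heckeAlphaBar (AlgebraicClosure ℚ) N ℓ f) : ↥(GRHS_B N ℓ)) :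
        ↥(modularFunctionFieldBar (N * ℓ))) : LaurentSeries (AlgebraicClosure ℚ)) =
      GRS_rhs N ℓ ζ (f : LaurentSeries (AlgebraicClosure ℚ)) := by
  by_cases hdvd : ℓ ∣ N
  · rw [GRS_rhs_of_dvd N ℓ hdvd, GRHS_norm_U ζ hζ hℓ hdvd]
    rfl
  · obtain ⟨y, w, h⟩ := GRHP_exists_yw hℓ hdvd
    rw [GRS_rhs_of_not_dvd N ℓ hdvd, GRHS_norm_T ζ hζ y w h hℓ hdvd, GRHP_coe_phiInf_alpha]
    rfl

/-- **STAB**. -/
theorem GRHS_stab (hℓ : ℓ.Prime) : GRS_Stab N ℓ ζ := by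
  intro f
  obtain ⟨g, hg⟩ := (Algebra.norm ↥(GRHS_B N ℓ) (heckeAlphaBar (AlgebraicClosure ℚ) N ℓ f)).2
  refine ⟨g, ?_⟩
  rw [← GRHS_norm ζ hζ hℓ f, ← hg]
  rfl

/-- `β (t f) = Norm_{F_{Nℓ}/V F_N} (α f)`. -/
theorem GRHS_beta_t (hℓ : ℓ.Prime) (hst : GRS_Stab N ℓ ζ) (f : ↥(modularFunctionFieldBar N)) :
    heckeBetaBar (AlgebraicClosure ℚ) N ℓ (GRS_t hst f) =
      ((Algebra.norm ↥(GRHS_B N ℓ) (heckeAlphaBar (AlgebraicClosure ℚ) N ℓ f) : ↥(GRHS_B N ℓ)) :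
        ↥(modularFunctionFieldBar (N * ℓ))) := by
  apply Subtype.ext
  rw [GRHS_norm ζ hζ hℓ f, ← GRS_t_spec hst f]
  rfl

end Norm

end Fermat.Agent.GalRep
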