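import Mathlib
import Fermat.Agent.GalRep.HeckeStab
import Fermat.Agent.GalRep.HeckeNK

/-!
# Pillar G, package HECKE, field `kum` (helper2)

`t f = Norm_{F_{Nℓ} / F_N via β} (α f)` (`GRHK_t_eq_norm`), hence by helper7's NK + RES
(`GRNK_norm_of_algHom`, `GRNK_res`): `t` preserves Kummer generators (`GRHK_kum`).
-/

set_option autoImplicit false
set_option synthInstance.maxHeartbeats 400000
set_option maxHeartbeats 1000000
set_option linter.unusedSectionVars false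

open ModularCurve IntermediateField

noncomputable section

namespace Fermat.Agent.GalRep

open Fermat.Agent.S24

variable {N ℓ : ℕ} [NeZero N] [NeZero ℓ]

/-- the norm for the algebra structure `β` agrees with the norm over `B = β(F_N)`. -/
theorem GRHK_beta_norm (x : ↥(modularFunctionFieldBar (N * ℓ))) :
    heckeBetaBar (AlgebraicClosure ℚ) N ℓ
        (@Algebra.norm ↥(modularFunctionFieldBar N) ↥(modularFunctionFieldBar (N * ℓ)) _ _
          (heckeBetaBar (AlgebraicClosure ℚ) N ℓ).toRingHom.toAlgebra x) =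
      ((Algebra.norm ↥(GRHS_B N ℓ) x : ↥(GRHS_B N ℓ)) : ↥(modularFunctionFieldBar (N * ℓ))) := by
  let _ : Algebra ↥(modularFunctionFieldBar N) ↥(modularFunctionFieldBar (N * ℓ)) :=
    (heckeBetaBar (AlgebraicClosure ℚ) N ℓ).toRingHom.toAlgebra
  have hbij : Function.Bijective
      (RingHom.codRestrict (heckeBetaBar (AlgebraicClosure ℚ) N ℓ).toRingHom (GRHS_B N ℓ)
        (fun f => ⟨f, rfl⟩)) := by
    constructor
    · intro f g hfg
      exact (heckeBetaBar (AlgebraicClosure ℚ) N ℓ).toRingHom.injective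
        (congrArg Subtype.val hfg)
    · rintro ⟨y, f, rfl⟩
      exact ⟨f, rfl⟩
  have h := Algebra.norm_eq_of_ringEquiv (RingEquiv.ofBijective _ hbij)
    (C := ↥(modularFunctionFieldBar (N * ℓ))) rfl x
  exact congrArg Subtype.val h

/-- **`t f = Norm_β (α f)`**. -/
theorem GRHK_t_eq_norm (ζ : (AlgebraicClosure ℚ)ˣ)
    (hζ : IsPrimitiveRoot (ζ : AlgebraicClosure ℚ) ℓ) (hℓ : ℓ.Prime) (hst : GRS_Stab N ℓ ζ)
    (f : ↥(modularFunctionFieldBar N)) :
    GRS_t hst f =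
      @Algebra.norm ↥(modularFunctionFieldBar N) ↥(modularFunctionFieldBar (N * ℓ)) _ _
        (heckeBetaBar (AlgebraicClosure ℚ) N ℓ).toRingHom.toAlgebra
        (heckeAlphaBar (AlgebraicClosure ℚ) N ℓ f) := by
  apply (heckeBetaBar (AlgebraicClosure ℚ) N ℓ).toRingHom.injective
  show heckeBetaBar (AlgebraicClosure ℚ) N ℓ _ = heckeBetaBar (AlgebraicClosure ℚ) N ℓ _
  rw [GRHS_beta_t ζ hζ hℓ hst f, GRHK_beta_norm]

theorem GRHK_finiteDimensional (hℓ : ℓ.Prime) :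
    @FiniteDimensional ↥(modularFunctionFieldBar N) ↥(modularFunctionFieldBar (N * ℓ)) _ _
      (@Algebra.toModule _ _ _ _ (heckeBetaBar (AlgebraicClosure ℚ) N ℓ).toRingHom.toAlgebra) := by
  let _ : Algebra ↥(modularFunctionFieldBar N) ↥(modularFunctionFieldBar (N * ℓ)) :=
    (heckeBetaBar (AlgebraicClosure ℚ) N ℓ).toRingHom.toAlgebra
  apply Module.finite_of_finrank_pos
  rw [GRHF_finrank_beta N ℓ hℓ]
  split_ifs
  · exact hℓ.pos
  · exact Nat.succ_pos ℓ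

/-- **field `kum`**: `t` preserves Kummer generators. -/
theorem GRHK_kum (ζ : (AlgebraicClosure ℚ)ˣ)
    (hζ : IsPrimitiveRoot (ζ : AlgebraicClosure ℚ) ℓ) (hℓ : ℓ.Prime) (hst : GRS_Stab N ℓ ζ)
    (n : ℕ) (f : ↥(modularFunctionFieldBar N))
    (hf : KM_IsKum (AlgebraicClosure ℚ) ↥(modularFunctionFieldBar N) n f) :
    KM_IsKum (AlgebraicClosure ℚ) ↥(modularFunctionFieldBar N) n (GRS_t hst f) := by
  rw [GRHK_t_eq_norm ζ hζ hℓ hst f]
  exact GRNK_norm_of_algHom (heckeBetaBar (AlgebraicClosure ℚ) N ℓ)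
    (GRHK_finiteDimensional hℓ) n
    (GRNK_res (heckeAlphaBar (AlgebraicClosure ℚ) N ℓ) n hf)

/-- the unconditional operator `t` (for a chosen primitive root of unity). -/
theorem GRHK_exists_t (hℓ : ℓ.Prime) :
    ∃ (ζ : (AlgebraicClosure ℚ)ˣ) (_ : IsPrimitiveRoot (ζ : AlgebraicClosure ℚ) ℓ)
      (hst : GRS_Stab N ℓ ζ),
      ∀ (n : ℕ) (f : ↥(modularFunctionFieldBar N)),
        KM_IsKum (AlgebraicClosure ℚ) ↥(modularFunctionFieldBar N) n f →
        KM_IsKum (AlgebraicClosure ℚ) ↥(modularFunctionFieldBar N) n (GRS_t hst f) := by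
  have hℓ0 : (ℓ : AlgebraicClosure ℚ) ≠ 0 := by
    exact_mod_cast NeZero.ne ℓ
  have : NeZero (ℓ : AlgebraicClosure ℚ) := ⟨hℓ0⟩
  obtain ⟨z, hz⟩ := HasEnoughRootsOfUnity.exists_primitiveRoot (AlgebraicClosure ℚ) ℓ
  obtain ⟨ζ, hζ⟩ : ∃ ζ : (AlgebraicClosure ℚ)ˣ, IsPrimitiveRoot (ζ : AlgebraicClosure ℚ) ℓ :=
    ⟨Units.mk0 z (hz.ne_zero (NeZero.ne ℓ)), hz⟩
  exact ⟨ζ, hζ, GRHS_stab ζ hζ hℓ, GRHK_kum ζ hζ hℓ (GRHS_stab ζ hζ hℓ)⟩

end Fermat.Agent.GalRep
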