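import Fermat.Agent.GalRep.HeckeSer
import Fermat.Agent.GalRep.ESWire

/-!
# Pillar G, package HECKE, piece SER (helper16), part 2: wiring of `GR_HeckeES`

From STAB (`GRS_Stab N ℓ ζ`, `ζ` a primitive `ℓ`-th root of unity) the operator `GRS_t` of
`GalRep/HeckeSer.lean` satisfies the fields `gal`, `const` of `GR_HeckeES N ℓ` unconditionally and
the field `es` by package ES (S18 + RI), given the field `kum`.

* `GRS_t_es`    : the field `es` for `GRS_t`;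
* `GRS_heckeES` : `GR_HeckeES N ℓ` from STAB + `kum` + `char` (+ S18 + RI).
-/

set_option autoImplicit false
set_option synthInstance.maxHeartbeats 400000
set_option maxHeartbeats 1000000
set_option linter.unusedSectionVars false
set_option linter.style.haveILetI false

open HahnSeries IntermediateField AlgebraicCurve ModularCurve

namespace Fermat.Agent.GalRep

variable {N ℓ : ℕ} [NeZero N] [Fact ℓ.Prime] [NeZero ℓ] {ζ : (AlgebraicClosure ℚ)ˣ}

/-- the field **es** of `GR_HeckeES N ℓ` for the operator `GRS_t` built from STAB. -/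
theorem GRS_t_es (h18 : GR_S18Stmt) (hRI : GR_RIStmt) (hst : GRS_Stab N ℓ ζ)
    (hζ : IsPrimitiveRoot (ζ : AlgebraicClosure ℚ) ℓ)
    (hkum : ∀ (n : ℕ) (f : ↥(modularFunctionFieldBar N)),
      KM_IsKum (AlgebraicClosure ℚ) ↥(modularFunctionFieldBar N) n f →
      KM_IsKum (AlgebraicClosure ℚ) ↥(modularFunctionFieldBar N) n (GRS_t hst f)) :
    ¬ ℓ ∣ N → ∀ (n : ℕ), 0 < n → ¬ ℓ ∣ n → ∀ (f : ↥(modularFunctionFieldBar N)),
    KM_IsKum (AlgebraicClosure ℚ) ↥(modularFunctionFieldBar N) n f →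
    ∀ σ : GQ, GR_IsFrob ℓ σ →
      GR_IsTriv N n (GRS_t hst f * (GR_gal N σ f * (GR_gal N σ⁻¹ f) ^ ℓ)⁻¹) :=
  fun hℓN => ES_es h18 hRI N ℓ ζ
    (Units.ext (by rw [Units.val_pow_eq_pow_val]; exact hζ.pow_eq_one))
    (GRS_t hst) (fun f _ => GRS_t_spec_of_not_dvd hst hℓN f) hkum hℓN

/-- **HECKE + ES** from STAB + `kum` + `char` (+ S18 + RI). -/
noncomputable def GRS_heckeES (h18 : GR_S18Stmt) (hRI : GR_RIStmt) (hst : GRS_Stab N ℓ ζ)
    (hζ : IsPrimitiveRoot (ζ : AlgebraicClosure ℚ) ℓ)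
    (hkum : ∀ (n : ℕ) (f : ↥(modularFunctionFieldBar N)),
      KM_IsKum (AlgebraicClosure ℚ) ↥(modularFunctionFieldBar N) n f →
      KM_IsKum (AlgebraicClosure ℚ) ↥(modularFunctionFieldBar N) n (GRS_t hst f))
    (hchar : ∀ (n : ℕ), 0 < n → ∀ (f : ↥(modularFunctionFieldBar N))
      (χ : Additive (CongruenceSubgroup.Gamma0 N) →+ ZMod n),
      KM_IsKum (AlgebraicClosure ℚ) ↥(modularFunctionFieldBar N) n f → GR_KChar N n f χ →
      ∃ χ' : Additive (CongruenceSubgroup.Gamma0 N) →+ ZMod n,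
        GR_TcohRel N n ℓ χ χ' ∧ GR_KChar N n (GRS_t hst f) χ') :
    GR_HeckeES N ℓ where
  t := GRS_t hst
  gal := fun σ f => GRS_t_gal hst hζ σ f
  const := GRS_t_const' hst
  kum := hkum
  char := hchar
  es := GRS_t_es h18 hRI hst hζ hkum

@[simp]
theorem GRS_heckeES_t (h18 : GR_S18Stmt) (hRI : GR_RIStmt) (hst : GRS_Stab N ℓ ζ)
    (hζ : IsPrimitiveRoot (ζ : AlgebraicClosure ℚ) ℓ)
    (hkum : ∀ (n : ℕ) (f : ↥(modularFunctionFieldBar N)),
      KM_IsKum (AlgebraicClosure ℚ) ↥(modularFunctionFieldBar N) n f →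
      KM_IsKum (AlgebraicClosure ℚ) ↥(modularFunctionFieldBar N) n (GRS_t hst f))
    (hchar : ∀ (n : ℕ), 0 < n → ∀ (f : ↥(modularFunctionFieldBar N))
      (χ : Additive (CongruenceSubgroup.Gamma0 N) →+ ZMod n),
      KM_IsKum (AlgebraicClosure ℚ) ↥(modularFunctionFieldBar N) n f → GR_KChar N n f χ →
      ∃ χ' : Additive (CongruenceSubgroup.Gamma0 N) →+ ZMod n,
        GR_TcohRel N n ℓ χ χ' ∧ GR_KChar N n (GRS_t hst f) χ') :
    (GRS_heckeES h18 hRI hst hζ hkum hchar).t = GRS_t hst := rfl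

/-- a primitive `ℓ`-th root of unity in `ℚ̄`, as a unit. -/
theorem GRS_exists_zeta (ℓ : ℕ) [NeZero ℓ] :
    ∃ ζ : (AlgebraicClosure ℚ)ˣ, IsPrimitiveRoot (ζ : AlgebraicClosure ℚ) ℓ := by
  have hℓ : (ℓ : AlgebraicClosure ℚ) ≠ 0 := by
    exact_mod_cast NeZero.ne ℓ
  haveI : NeZero (ℓ : AlgebraicClosure ℚ) := ⟨hℓ⟩
  obtain ⟨z, hz⟩ := HasEnoughRootsOfUnity.exists_primitiveRoot (AlgebraicClosure ℚ) ℓ
  exact ⟨Units.mk0 z (hz.ne_zero (NeZero.ne ℓ)), hz⟩

end Fermat.Agent.GalRep
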