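import Fermat.Agent.GalRep.Geom
import Fermat.Agent.S18.NormFinal
import Fermat.Agent.S18.OntoX0
import Fermat.Agent.S18.RiMain

/-!
# TRACK 3 ⇒ TRACK 4 wiring (helper20)

The two TRACK 3 inputs of `GR_S30_final`, `ES_unram`, `ES_es`, … in exactly the shape of
`GalRep/Geom.lean`:

* `GRT3_s18 : GR_S18Stmt`  (the statement of S18, proved as in `Fermat/Agent/S18.lean` but WITHOUT
  importing `Fermat.Statements.S18`);
* `GRT3_ri : GR_RIStmt`    (`RI_main'`).
-/

set_option autoImplicit false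

open ModularCurve

namespace Fermat.Agent.GalRep

open Fermat.Agent.S18

/-- (S18) in the TRACK 4 form. -/
theorem GRT3_s18 : GR_S18Stmt := by
  intro N _ ℓ _ hℓN A hA h m hm z hmz hz
  have hℓ : ℓ.Prime := Fact.out
  refine NMX_S18_of_onto N A hℓ hℓN hA h (fun w hw => ?_) m hm z hmz hz
  refine ONX_onto N A h.choose_spec.2 hA hℓN w (fun Q hQ => hw Q ?_)
  rwa [SP_jbarN_eq N A h.choose_spec.2] at hQ

/-- (RI) in the TRACK 4 form. -/
theorem GRT3_ri : GR_RIStmt :=
  fun N _ ℓ hℓ hℓN A hA => RI_main' N ℓ hℓ hℓN A hA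

end Fermat.Agent.GalRep
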