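import Mathlib
import Fermat.Agent.GalRep.HeckeSerT
import Fermat.Agent.GalRep.HeckeStab
import Fermat.Agent.GalRep.HeckeKum
import Fermat.Agent.GalRep.HeckeConv
import Fermat.Agent.GalRep.T3Wire

/-!
# Pillar G, package HECKE: the final assembly (helper2)

`GRHX_heckeES N ℓ : Nonempty (GR_HeckeES N ℓ)`, unconditional: the operator is
`t = GRS_t (GRHS_stab …)` (`t f = Norm_β (α f)`), with

* `gal`, `const` : package SER (helper16, `GRS_heckeES`);
* `kum`          : `GRHK_kum` (helper2, via helper7's NK + RES);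
* `char`         : `GRHC_char` (helper19 CONV + helper22 MER);
* `es`           : package ES (helper16) from S18 + RI (`GRT3_s18`, `GRT3_ri`, helper20).
-/

set_option autoImplicit false
set_option synthInstance.maxHeartbeats 400000
set_option maxHeartbeats 1000000

open ModularCurve

namespace Fermat.Agent.GalRep

/-- **HECKE**: the structure `GR_HeckeES N ℓ` is inhabited, for every level `N` and prime `ℓ`. -/
theorem GRHX_heckeES (N : ℕ) [NeZero N] (ℓ : ℕ) [Fact ℓ.Prime] : Nonempty (GR_HeckeES N ℓ) := by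
  have hℓ : ℓ.Prime := Fact.out
  have : NeZero ℓ := ⟨hℓ.ne_zero⟩
  obtain ⟨ζ, hζ⟩ := GRS_exists_zeta ℓ
  have hst : GRS_Stab N ℓ ζ := GRHS_stab ζ hζ hℓ
  exact ⟨GRS_heckeES GRT3_s18 GRT3_ri hst hζ
    (fun n f hf => GRHK_kum ζ hζ hℓ hst n f hf)
    (fun n hn f χ hf h => GRHC_char N ℓ ζ hζ hst n hn f χ hf.1 h)⟩

/-- HECKE in the shape of the hypothesis `hHecke` of `GR_S30_final`. -/
theorem GRHX_hecke_all :
    ∀ (N : ℕ) [NeZero N] (ℓ : ℕ) [Fact ℓ.Prime], Nonempty (GR_HeckeES N ℓ) :=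
  fun N _ ℓ _ => GRHX_heckeES N ℓ

end Fermat.Agent.GalRep
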