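import Mathlib
import Fermat.Agent.Lib.DescCore
import Fermat.Agent.Lib.DescAut
import Fermat.Agent.GalRep.KCDeg
import Fermat.Agent.GalRep.KCEv

/-!
# Pillar G, package G5 = DESC: the descent datum of `F_ℚ̄ ⊆ F_ℂ` (helper28)

`KD_exists_datum N`: for `K = ℂ ⊇ k = ℚ̄` (via `kEmb`), `F = F_ℂ = KM_FC N`,
`E = ` the image of `F_ℚ̄ = modularFunctionFieldBar N` under the base change `KC_ofBar N`,
`G = Aut(ℂ/ℚ̄)` acting on `q`-expansion coefficients (Prelude `arithmeticGalois`), there is a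
descent datum `DSC_Datum ℚ̄ ℂ F_ℂ E G` in the sense of `Lib/DescCore.lean`.

* `fix`: the coefficients of elements of `E` lie in `kEmb ℚ̄`;
* `orbit`: `c ∉ kEmb ℚ̄` is transcendental over `ℚ̄`, so D1 (`DSC_exists_aut_shift`) gives the
  infinitely many conjugates `c + a`, `a ∈ ℕ`;
* `gen`: `F_ℂ` is generated by `ℂ` and the `j(q^d)`, which lie in `E` (`KC_induction`);
* `x = j`; `finE`: transport of S24's `finiteDimensional_jB` along `F_ℚ̄ ≃ E`.
-/

set_option autoImplicit false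
set_option linter.style.haveILetI false
set_option linter.unusedSectionVars false

open AlgebraicCurve IntermediateField ModularCurve

namespace Fermat.Agent.GalRep

open Fermat.Agent.S24 Fermat.Agent.Lib

noncomputable section

/-- `ℂ` as a `ℚ̄`-algebra via `kEmb`. -/
abbrev KD_algQC : Algebra (AlgebraicClosure ℚ) ℂ := kEmb.toAlgebra

/-- `F_ℂ` as a `ℚ̄`-algebra. -/
abbrev KD_algQF (N : ℕ) [NeZero N] : Algebra (AlgebraicClosure ℚ) (KM_FC N) :=
  ((algebraMap ℂ (KM_FC N)).comp kEmb).toAlgebra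

/-! ### a general transport lemma -/

/-- finiteness over `k(a)` is transported by `k`-isomorphisms. -/
theorem KD_finiteDimensional_of_algEquiv {k A B : Type*} [Field k] [Field A] [Field B]
    [Algebra k A] [Algebra k B] (e : A ≃ₐ[k] B) (a : A) (h : FiniteDimensional k⟮a⟯ A) :
    FiniteDimensional k⟮e a⟯ B := by
  have hmap : (k⟮a⟯).map (e : A →ₐ[k] B) = k⟮e a⟯ := by
    rw [IntermediateField.adjoin_map, Set.image_singleton]
    rfl
  let i : k⟮a⟯ ≃+* k⟮e a⟯ :=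
    ((IntermediateField.equivMap k⟮a⟯ (e : A →ₐ[k] B)).trans
      (IntermediateField.equivOfEq hmap)).toRingEquiv
  refine Module.Finite.of_equiv_equiv i e.toRingEquiv ?_
  ext z
  rfl

/-! ### the base change `F_ℚ̄ → F_ℂ` as a `ℚ̄`-algebra homomorphism -/

section datum

variable (N : ℕ) [NeZero N]

/-- the base change `F_ℚ̄ → F_ℂ` along `kEmb`, as a ring homomorphism. -/
def KD_ofBarHom : ↥(modularFunctionFieldBar N) →+* KM_FC N where
  toFun := KC_ofBar N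
  map_one' := Subtype.ext (map_one (coeffMap kEmb))
  map_mul' _ _ := Subtype.ext (map_mul (coeffMap kEmb) _ _)
  map_zero' := Subtype.ext (map_zero (coeffMap kEmb))
  map_add' _ _ := Subtype.ext (map_add (coeffMap kEmb) _ _)

@[simp] theorem KD_ofBarHom_apply (f : ↥(modularFunctionFieldBar N)) :
    KD_ofBarHom N f = KC_ofBar N f := rfl

theorem KD_ofBar_algebraMap (c : AlgebraicClosure ℚ) :
    KC_ofBar N (algebraMap (AlgebraicClosure ℚ) ↥(modularFunctionFieldBar N) c)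
      = algebraMap ℂ (KM_FC N) (kEmb c) := by
  apply Subtype.ext
  show coeffMap kEmb (algebraMap (AlgebraicClosure ℚ) (LaurentSeries (AlgebraicClosure ℚ)) c)
    = algebraMap ℂ (LaurentSeries ℂ) (kEmb c)
  rw [algebraMap_laurentSeries_eq_single, coeffMap_single, ← algebraMap_laurentSeries_eq_single]

theorem KD_ofBar_jBar (d : ℕ) [NeZero d] (hd : d ∣ N) :
    KC_ofBar N (jBar N d hd) = KC_jBar N d hd :=
  Subtype.ext (KC_coeffMap_kEmb_coeffEmb _)

theorem KD_ofBar_jB : KC_ofBar N (jB N) = KC_jB N := KD_ofBar_jBar N 1 (one_dvd N)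

attribute [local instance] KD_algQC KD_algQF

theorem KD_isScalarTower : IsScalarTower (AlgebraicClosure ℚ) ℂ (KM_FC N) :=
  IsScalarTower.of_algebraMap_eq fun _ => rfl

theorem KD_isScalarTowerQ : IsScalarTower ℚ (AlgebraicClosure ℚ) ℂ :=
  IsScalarTower.of_algebraMap_eq fun x => (complexEmbedding.commutes x).symm

/-- the base change `F_ℚ̄ → F_ℂ` as a `ℚ̄`-algebra homomorphism. -/
def KD_ofBarAlgHom : ↥(modularFunctionFieldBar N) →ₐ[AlgebraicClosure ℚ] KM_FC N :=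
  { KD_ofBarHom N with
    commutes' := fun c => KD_ofBar_algebraMap N c }

@[simp] theorem KD_ofBarAlgHom_apply (f : ↥(modularFunctionFieldBar N)) :
    KD_ofBarAlgHom N f = KC_ofBar N f := rfl

/-- `E`: the image of `F_ℚ̄` in `F_ℂ`. -/
def KD_E : IntermediateField (AlgebraicClosure ℚ) (KM_FC N) := (KD_ofBarAlgHom N).fieldRange

theorem KD_mem_E {z : KM_FC N} :
    z ∈ KD_E N ↔ ∃ f : ↥(modularFunctionFieldBar N), KC_ofBar N f = z :=
  Iff.rfl

/-- `G = Aut(ℂ/ℚ̄)`. -/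
abbrev KD_G : Type := ℂ ≃ₐ[AlgebraicClosure ℚ] ℂ

/-- the action of `G` on `F_ℂ` through the coefficients. -/
def KD_act : KD_G →* SemilinearAut ℂ (KM_FC N) :=
  haveI := KD_isScalarTowerQ
  (arithmeticGalois (modularFunctionFieldFull N)).comp (AlgEquiv.restrictScalarsHom ℚ)

theorem KD_coe_act_smul (g : KD_G) (z : KM_FC N) :
    ((KD_act N g • z : KM_FC N) : LaurentSeries ℂ)
      = coeffMap ((g : ℂ ≃+* ℂ) : ℂ →+* ℂ) (z : LaurentSeries ℂ) :=
  rfl

theorem KD_baseAut_act (g : KD_G) (c : ℂ) :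
    SemilinearAut.baseAut (KD_act N g) c = g c :=
  rfl

theorem KD_fix (g : KD_G) (a : KM_FC N) (ha : a ∈ KD_E N) : KD_act N g • a = a := by
  obtain ⟨f, rfl⟩ := (KD_mem_E N).1 ha
  apply Subtype.ext
  rw [KD_coe_act_smul]
  show coeffMap _ (coeffMap kEmb (f : LaurentSeries (AlgebraicClosure ℚ))) = coeffMap kEmb _
  rw [coeffMap_coeffMap]
  exact coeffMap_congr (RingHom.ext fun c => g.commutes c) _

/-- an element of `ℂ` outside `kEmb ℚ̄` is transcendental over `ℚ̄`. -/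
theorem KD_transcendental {c : ℂ} (hc : c ∉ Set.range (algebraMap (AlgebraicClosure ℚ) ℂ)) :
    Transcendental (AlgebraicClosure ℚ) c := by
  intro halg
  apply hc
  have hint : IsIntegral (AlgebraicClosure ℚ) c := halg.isIntegral
  have hdeg : (minpoly (AlgebraicClosure ℚ) c).degree = 1 :=
    IsAlgClosed.degree_eq_one_of_irreducible _ (minpoly.irreducible hint)
  exact minpoly.mem_range_of_degree_eq_one _ c hdeg

theorem KD_orbit (c : ℂ) (hc : c ∉ Set.range (algebraMap (AlgebraicClosure ℚ) ℂ)) :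
    (Set.range fun g : KD_G => SemilinearAut.baseAut (KD_act N g) c).Infinite := by
  have htr := KD_transcendental hc
  have hσ : ∀ a : ℕ, ∃ σ : KD_G, σ c = c + (a : ℂ) := by
    intro a
    obtain ⟨σ, hσ⟩ := DSC_exists_aut_shift (k := AlgebraicClosure ℚ) c htr (a : AlgebraicClosure ℚ)
    refine ⟨σ, ?_⟩
    rw [hσ, map_natCast]
  refine Set.infinite_of_injective_forall_mem (f := fun a : ℕ => c + (a : ℂ)) ?_ ?_
  · intro a b hab
    have : (a : ℂ) = (b : ℂ) := add_left_cancel hab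
    exact_mod_cast this
  · intro a
    obtain ⟨σ, hσ⟩ := hσ a
    exact ⟨σ, hσ⟩

/-- the `ℂ`-span of `E` is the subalgebra generated by `E`. -/
theorem KD_span_eq :
    Submodule.span ℂ ((KD_E N : Set (KM_FC N)))
      = Subalgebra.toSubmodule (Algebra.adjoin ℂ ((KD_E N : Set (KM_FC N)))) := by
  rw [Algebra.adjoin_eq_span]
  congr 1
  exact (congrArg (fun S : Submonoid (KM_FC N) => (S : Set (KM_FC N)))
    (Submonoid.closure_eq (KD_E N).toSubalgebra.toSubmonoid)).symm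

theorem KD_mem_span_iff {z : KM_FC N} :
    z ∈ Submodule.span ℂ ((KD_E N : Set (KM_FC N)))
      ↔ z ∈ Algebra.adjoin ℂ ((KD_E N : Set (KM_FC N))) := by
  rw [KD_span_eq]
  exact Iff.rfl

theorem KD_gen (z : KM_FC N) :
    ∃ A B : KM_FC N, A ∈ Submodule.span ℂ ((KD_E N : Set (KM_FC N))) ∧
      B ∈ Submodule.span ℂ ((KD_E N : Set (KM_FC N))) ∧ B ≠ 0 ∧ z * B = A := by
  simp only [KD_mem_span_iff]
  set R := Algebra.adjoin ℂ ((KD_E N : Set (KM_FC N))) with hR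
  refine KC_induction N
    (fun z => ∃ A B : KM_FC N, A ∈ R ∧ B ∈ R ∧ B ≠ 0 ∧ z * B = A) ?_ ?_ ?_ ?_ ?_ z
  · intro c
    exact ⟨algebraMap ℂ (KM_FC N) c, 1, R.algebraMap_mem c, R.one_mem, one_ne_zero, mul_one _⟩
  · intro d _ hd
    refine ⟨KC_jBar N d hd, 1, Algebra.subset_adjoin ?_, R.one_mem, one_ne_zero, mul_one _⟩
    exact (KD_mem_E N).2 ⟨jBar N d hd, KD_ofBar_jBar N d hd⟩
  · rintro x y ⟨A₁, B₁, hA₁, hB₁, h1, e1⟩ ⟨A₂, B₂, hA₂, hB₂, h2, e2⟩
    refine ⟨A₁ * B₂ + A₂ * B₁, B₁ * B₂, R.add_mem (R.mul_mem hA₁ hB₂) (R.mul_mem hA₂ hB₁),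
      R.mul_mem hB₁ hB₂, mul_ne_zero h1 h2, ?_⟩
    rw [← e1, ← e2]
    ring
  · rintro x y ⟨A₁, B₁, hA₁, hB₁, h1, e1⟩ ⟨A₂, B₂, hA₂, hB₂, h2, e2⟩
    refine ⟨A₁ * A₂, B₁ * B₂, R.mul_mem hA₁ hA₂, R.mul_mem hB₁ hB₂, mul_ne_zero h1 h2, ?_⟩
    rw [← e1, ← e2]
    ring
  · rintro x ⟨A, B, hA, hB, h, e⟩
    by_cases hx : x = 0
    · subst hx
      exact ⟨0, 1, R.zero_mem, R.one_mem, one_ne_zero, by simp⟩
    · have hA0 : A ≠ 0 := by
        rw [← e]
        exact mul_ne_zero hx h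
      refine ⟨B, A, hB, hA, hA0, ?_⟩
      rw [← e]
      field_simp

/-- the generator `x = j`. -/
def KD_x : KD_E N := ⟨KC_jB N, (KD_mem_E N).2 ⟨jB N, KD_ofBar_jB N⟩⟩

/-- `F_ℚ̄ ≃ E`. -/
def KD_equivE : ↥(modularFunctionFieldBar N) ≃ₐ[AlgebraicClosure ℚ] KD_E N :=
  AlgEquiv.ofInjectiveField (KD_ofBarAlgHom N)

theorem KD_equivE_jB : KD_equivE N (jB N) = KD_x N :=
  Subtype.ext (KD_ofBar_jB N)

theorem KD_finE : FiniteDimensional (AlgebraicClosure ℚ)⟮KD_x N⟯ (KD_E N) := by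
  rw [← KD_equivE_jB]
  exact KD_finiteDimensional_of_algEquiv (KD_equivE N) (jB N) (finiteDimensional_jB N)

/-- the descent datum of `F_ℚ̄ ⊆ F_ℂ`. -/
def KD_datum :
    haveI := KD_isScalarTower N
    DSC_Datum (AlgebraicClosure ℚ) ℂ (KM_FC N) (KD_E N) KD_G :=
  haveI := KD_isScalarTower N
  { act := KD_act N
    fix := KD_fix N
    orbit := KD_orbit N
    gen := KD_gen N
    x := KD_x N
    x_tr := KC_transcendental_jB N
    fin := KC_finiteDimensional_jB N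
    finE := KD_finE N }

end datum

/-- **Instantiation**: the descent datum of `F_ℚ̄ ⊆ F_ℂ`, `G = Aut(ℂ/ℚ̄)`. -/
theorem KD_exists_datum (N : ℕ) [NeZero N] :
    letI := KD_algQC
    letI := KD_algQF N
    ∃ (_ : IsScalarTower (AlgebraicClosure ℚ) ℂ (KM_FC N))
      (E : IntermediateField (AlgebraicClosure ℚ) (KM_FC N)) (G : Type) (_ : Group G)
      (_ : DSC_Datum (AlgebraicClosure ℚ) ℂ (KM_FC N) E G),
      (∀ f : ↥(modularFunctionFieldBar N), KC_ofBar N f ∈ E) ∧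
      ∀ z ∈ E, ∃ f : ↥(modularFunctionFieldBar N), KC_ofBar N f = z :=
  ⟨KD_isScalarTower N, KD_E N, KD_G, inferInstance, KD_datum N,
    fun f => (KD_mem_E N).2 ⟨f, rfl⟩, fun _ hz => (KD_mem_E N).1 hz⟩

end

end Fermat.Agent.GalRep
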