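import Mathlib
import Fermat.Agent.GalRep.KDDatum
import Fermat.Agent.Lib.DescExt

/-!
# HECKE-U2 (helper28): Kummer generators over `ℚ̄` and over `ℂ`

`KD_isKum_iff N n f`: `f ∈ F_ℚ̄` is a Kummer generator of exponent `n` (i.e. `f ≠ 0` and
`n ∣ div f`) if and only if its base change `KC_ofBar N f ∈ F_ℂ` is.

Proof: `DSC_dvd_ord_iff` for the descent datum `KD_datum N` (places of `F_ℂ` restrict to places
of `E = ` image of `F_ℚ̄`, places of `E` extend, with the same orders), and transport of places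
along the isomorphism `F_ℚ̄ ≃ E` (`KD_dvd_ord_of_algEquiv`).
-/

set_option autoImplicit false
set_option linter.style.haveILetI false
set_option linter.unusedSectionVars false

open AlgebraicCurve IntermediateField ModularCurve

namespace Fermat.Agent.GalRep

open Fermat.Agent.S24 Fermat.Agent.Lib

/-- divisibility of divisors is transported by isomorphisms of function fields. -/
theorem KD_dvd_ord_of_algEquiv {k A B : Type*} [Field k] [Field A] [Field B] [Algebra k A]
    [Algebra k B] (e : A ≃ₐ[k] B) (n : ℤ) (a : A) (h : ∀ v : Place k A, n ∣ v.ord a)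
    (v : Place k B) : n ∣ v.ord (e a) := by
  by_cases ha : a = 0
  · rw [ha, map_zero, v.ord_zero]
    exact dvd_zero n
  have hne : ∀ {x : A}, x ≠ 0 → e x ≠ 0 := fun {x} hx => (map_ne_zero_iff e e.injective).2 hx
  have hw : IsVal (K := k) (fun x : A => v.ord (e x)) :=
    { mul := fun f g hf hg => by
        show v.ord (e (f * g)) = _
        rw [map_mul]
        exact v.ord_mul (hne hf) (hne hg)
      add := fun f g hf hg hfg => by
        show min (v.ord (e f)) (v.ord (e g)) ≤ v.ord (e (f + g))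
        rw [map_add]
        exact (S24_isVal_ord v).add _ _ (hne hf) (hne hg) (by rw [← map_add]; exact hne hfg)
      const := fun c _ => by
        show v.ord (e (algebraMap k A c)) = 0
        rw [e.commutes]
        exact BL_ord_algebraMap v c }
  obtain ⟨t, ht0, ht⟩ := DSC_exists_ord_one v
  have ht0' : e.symm t ≠ 0 := (map_ne_zero_iff e.symm e.symm.injective).2 ht0
  have hx : 0 < (fun x : A => v.ord (e x)) (e.symm t) := by
    show 0 < v.ord (e (e.symm t))
    rw [e.apply_symm_apply, ht]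
    exact one_pos
  obtain ⟨m, -, -, hord⟩ := hw.exists_mul_ord (e.symm t) ht0' hx
  have h1 : v.ord (e a) = m * (hw.place (e.symm t) ht0' hx).ord a := hord a ha
  rw [h1]
  exact Dvd.dvd.mul_left (h _) m

theorem KD_dvd_ord_iff_of_algEquiv {k A B : Type*} [Field k] [Field A] [Field B] [Algebra k A]
    [Algebra k B] (e : A ≃ₐ[k] B) (n : ℤ) (a : A) :
    (∀ v : Place k A, n ∣ v.ord a) ↔ ∀ v : Place k B, n ∣ v.ord (e a) := by
  refine ⟨KD_dvd_ord_of_algEquiv e n a, fun h v => ?_⟩
  have := KD_dvd_ord_of_algEquiv e.symm n (e a) h v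
  rwa [e.symm_apply_apply] at this

section

variable (N : ℕ) [NeZero N]

attribute [local instance] KD_algQC KD_algQF

theorem KD_ofBar_ne_zero {f : ↥(modularFunctionFieldBar N)} (hf : f ≠ 0) : KC_ofBar N f ≠ 0 :=
  (map_ne_zero_iff (KD_ofBarHom N) (KD_ofBarHom N).injective).2 hf

theorem KD_ofBar_eq_zero_iff {f : ↥(modularFunctionFieldBar N)} : KC_ofBar N f = 0 ↔ f = 0 :=
  map_eq_zero_iff (KD_ofBarHom N) (KD_ofBarHom N).injective

/-- divisibility of the divisor of `f ∈ F_ℚ̄` by `n` is the same over `ℚ̄` and over `ℂ`. -/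
theorem KD_dvd_ord_iff (n : ℤ) (f : ↥(modularFunctionFieldBar N)) :
    (∀ v : Place (AlgebraicClosure ℚ) ↥(modularFunctionFieldBar N), n ∣ v.ord f) ↔
      ∀ w : Place ℂ (KM_FC N), n ∣ w.ord (KC_ofBar N f) := by
  haveI := KD_isScalarTower N
  rw [KD_dvd_ord_iff_of_algEquiv (KD_equivE N) n f, DSC_dvd_ord_iff (KD_datum N) n (KD_equivE N f)]
  exact Iff.rfl

end

/-- **HECKE-U2.** `f ∈ F_ℚ̄` is a Kummer generator of exponent `n` iff its base change to `F_ℂ`
is. -/
theorem KD_isKum_iff (N n : ℕ) [NeZero N] (f : ↥(modularFunctionFieldBar N)) :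
    KM_IsKum (AlgebraicClosure ℚ) ↥(modularFunctionFieldBar N) n f ↔
      KM_IsKum ℂ (KM_FC N) n (KC_ofBar N f) := by
  unfold KM_IsKum
  rw [KD_dvd_ord_iff N (n : ℤ) f, Ne, Ne, KD_ofBar_eq_zero_iff]

end Fermat.Agent.GalRep
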