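import Mathlib

/-!
# Pillar G, package EIS (helper28), part 1: Eisenstein sums with bounded coefficients

For a coefficient function `a : (Fin 2 → ℤ) → ℂ` with `‖a v‖ ≤ 1` and a weight `k ≥ 3`,
`KME_sum a k z = ∑' v, a v * (v₀ z + v₁)^(-k)`:

* `KME_summable`, `KME_tendstoLocallyUniformly`, `KME_mdifferentiable` (holomorphic on `ℍ`);
* `KME_sum_smul` : `KME_sum a k (γ • z) = (denom γ z)^k * KME_sum (a ∘ (· ᵥ* γ⁻¹)) k z`;
* `KME_norm_le`, `KME_isBoundedAtImInfty` : bounded at `i∞` (for every bounded `a`);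
* `KME_tendsto_atImInfty` : `KME_sum a k (i y) → a (0,1) + (-1)^k a (0,-1)` as `y → ∞`.

The proofs follow Mathlib's treatment of `eisensteinSeries` (which is the case `a` = indicator
of a congruence class), with the same majorant.
-/

set_option autoImplicit false

noncomputable section

open UpperHalfPlane Filter Function Complex Manifold CongruenceSubgroup EisensteinSeries Matrix
open scoped MatrixGroups Topology

namespace Fermat.Agent.GalRep

/-- the Eisenstein-type sum with coefficients `a`. -/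
def KME_sum (a : (Fin 2 → ℤ) → ℂ) (k : ℤ) (z : ℍ) : ℂ :=
  ∑' v : Fin 2 → ℤ, a v * eisSummand k v z

section Basic

variable {a : (Fin 2 → ℤ) → ℂ} (ha : ∀ v, ‖a v‖ ≤ 1) {k : ℤ} (hk : 3 ≤ k)

include ha in
theorem KME_norm_term_le (v : Fin 2 → ℤ) (z : ℍ) :
    ‖a v * eisSummand k v z‖ ≤ ‖eisSummand k v z‖ := by
  rw [norm_mul]
  exact mul_le_of_le_one_left (norm_nonneg _) (ha v)

include ha hk in
theorem KME_summable_norm (z : ℍ) : Summable (fun v : Fin 2 → ℤ => ‖a v * eisSummand k v z‖) :=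
  (summable_norm_eisSummand hk z).of_nonneg_of_le (fun _ => norm_nonneg _)
    (fun v => KME_norm_term_le ha v z)

include ha hk in
theorem KME_summable (z : ℍ) : Summable (fun v : Fin 2 → ℤ => a v * eisSummand k v z) :=
  (KME_summable_norm ha hk z).of_norm

include ha hk in
theorem KME_norm_le (z : ℍ) : ‖KME_sum a k z‖ ≤ ∑' v : Fin 2 → ℤ, ‖eisSummand k v z‖ := by
  refine (norm_tsum_le_tsum_norm (KME_summable_norm ha hk z)).trans ?_
  exact (KME_summable_norm ha hk z).tsum_le_tsum (fun v => KME_norm_term_le ha v z)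
    (summable_norm_eisSummand hk z)

include ha hk in
theorem KME_tendstoLocallyUniformly :
    TendstoLocallyUniformly (fun (s : Finset (Fin 2 → ℤ)) ↦ (∑ x ∈ s, a x * eisSummand k x ·))
      (KME_sum a k ·) Filter.atTop := by
  have hk' : (2 : ℝ) < k := by norm_cast
  have p_sum : Summable fun x : Fin 2 → ℤ ↦ ‖x‖ ^ (-k) :=
    mod_cast (summable_one_div_norm_rpow hk')
  simp only [tendstoLocallyUniformly_iff_forall_isCompact, KME_sum]
  intro K hK
  obtain ⟨A, B, hB, HABK⟩ := subset_verticalStrip_of_isCompact hK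
  refine (tendstoUniformlyOn_tsum (hu := p_sum.mul_left <| r ⟨⟨A, B⟩, hB⟩ ^ (-k : ℝ))
    (fun p z hz ↦ ?_)).mono HABK
  refine (KME_norm_term_le ha p z).trans ?_
  simpa only [eisSummand, one_div, ← _root_.zpow_neg, norm_zpow, ← Real.rpow_intCast,
    Int.cast_neg] using summand_bound_of_mem_verticalStrip (by positivity) p hB hz

include ha hk in
theorem KME_tendstoLocallyUniformlyOn :
    TendstoLocallyUniformlyOn (fun (s : Finset (Fin 2 → ℤ)) ↦
      ↑ₕ(fun (z : ℍ) ↦ ∑ x ∈ s, a x * eisSummand k x z)) (↑ₕ(KME_sum a k))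
          Filter.atTop {z : ℂ | 0 < z.im} := by
  rw [← upperHalfPlaneSet, ← UpperHalfPlane.range_coe, ← Set.image_univ]
  apply TendstoLocallyUniformlyOn.comp (s := ⊤) _ _ _ (OpenPartialHomeomorph.continuousOn_symm _)
  · simp only [Set.top_eq_univ, tendstoLocallyUniformlyOn_univ]
    exact KME_tendstoLocallyUniformly ha hk
  · simp only [Topology.IsOpenEmbedding.toOpenPartialHomeomorph_target, Set.top_eq_univ,
      Set.mapsTo_range_iff, Set.mem_univ, forall_const]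

theorem KME_term_differentiableOn (a : (Fin 2 → ℤ) → ℂ) (k : ℤ) (v : Fin 2 → ℤ) :
    DifferentiableOn ℂ (↑ₕ(fun z : ℍ => a v * eisSummand k v z)) {z : ℂ | 0 < z.im} := by
  have h := (eisSummand_extension_differentiableOn k v).const_mul (a v)
  exact h

include ha hk in
/-- the Eisenstein-type sums are holomorphic on `ℍ`. -/
theorem KME_mdifferentiable : MDifferentiable 𝓘(ℂ) 𝓘(ℂ) (KME_sum a k) := by
  intro τ
  suffices DifferentiableAt ℂ (↑ₕ(KME_sum a k)) τ.1 by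
    convert!
      MDifferentiableAt.comp τ (DifferentiableAt.mdifferentiableAt this) τ.mdifferentiable_coe
    exact funext fun z ↦ (comp_ofComplex (KME_sum a k) z).symm
  refine DifferentiableOn.differentiableAt ?_ (isOpen_upperHalfPlaneSet.mem_nhds τ.2)
  exact (KME_tendstoLocallyUniformlyOn ha hk).differentiableOn
    (Eventually.of_forall fun s ↦ by
      have : (↑ₕ(fun (z : ℍ) ↦ ∑ x ∈ s, a x * eisSummand k x z)) =
          fun w => ∑ x ∈ s, (↑ₕ(fun z : ℍ => a x * eisSummand k x z)) w := by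
        funext w
        simp [Function.comp]
      rw [this]
      exact DifferentiableOn.fun_sum fun x _ ↦ KME_term_differentiableOn a k x)
    isOpen_upperHalfPlaneSet

end Basic

section Slash

/-- right multiplication by `γ ∈ SL(2, ℤ)` on row vectors. -/
def KME_vecEquiv (γ : SL(2, ℤ)) : (Fin 2 → ℤ) ≃ (Fin 2 → ℤ) where
  toFun v := v ᵥ* γ
  invFun v := v ᵥ* ↑(γ⁻¹)
  left_inv v := by
    simp_rw [vecMul_vecMul, ← Matrix.SpecialLinearGroup.coe_mul, mul_inv_cancel,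
      Matrix.SpecialLinearGroup.coe_one, vecMul_one]
  right_inv v := by
    simp_rw [vecMul_vecMul, ← Matrix.SpecialLinearGroup.coe_mul, inv_mul_cancel,
      Matrix.SpecialLinearGroup.coe_one, vecMul_one]

@[simp] theorem KME_vecEquiv_apply (γ : SL(2, ℤ)) (v : Fin 2 → ℤ) :
    KME_vecEquiv γ v = v ᵥ* γ := rfl

@[simp] theorem KME_vecEquiv_symm_apply (γ : SL(2, ℤ)) (v : Fin 2 → ℤ) :
    (KME_vecEquiv γ).symm v = v ᵥ* ↑(γ⁻¹) := rfl

/-- **the transformation law**: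
`E_a(γ z) = (c z + d)^k · E_{a ∘ (· γ⁻¹)}(z)`, for every `γ ∈ SL(2, ℤ)` (no hypothesis on `a`). -/
theorem KME_sum_smul (a : (Fin 2 → ℤ) → ℂ) (k : ℤ) (γ : SL(2, ℤ)) (z : ℍ) :
    KME_sum a k (γ • z) =
      (denom γ z) ^ k * KME_sum (fun w => a (w ᵥ* ↑(γ⁻¹))) k z := by
  unfold KME_sum
  rw [← tsum_mul_left]
  rw [← (KME_vecEquiv γ).tsum_eq (fun w => denom γ z ^ k * (a (w ᵥ* ↑(γ⁻¹)) * eisSummand k w z))]
  refine tsum_congr fun v => ?_
  have h1 : (KME_vecEquiv γ v) ᵥ* ↑(γ⁻¹) = v := (KME_vecEquiv γ).left_inv v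
  rw [h1, KME_vecEquiv_apply, eisSummand_SL2_apply]
  ring

/-- the majorant is invariant under the integral translations. -/
theorem KME_majorant_T (k : ℤ) (n : ℤ) (z : ℍ) :
    ∑' v : Fin 2 → ℤ, ‖eisSummand k v (ModularGroup.T ^ n • z)‖ =
      ∑' v : Fin 2 → ℤ, ‖eisSummand k v z‖ := by
  rw [← (KME_vecEquiv (ModularGroup.T ^ n)).tsum_eq (fun w => ‖eisSummand k w z‖)]
  refine tsum_congr fun v => ?_
  rw [KME_vecEquiv_apply, eisSummand_SL2_apply]
  have hd : denom ((ModularGroup.T ^ n : SL(2, ℤ))) z = 1 := by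
    rw [ModularGroup.denom_apply, ModularGroup.coe_T_zpow]
    simp
  rw [hd, _root_.one_zpow, one_mul]

end Slash

section Bounded

variable {a : (Fin 2 → ℤ) → ℂ} (ha : ∀ v, ‖a v‖ ≤ 1) {k : ℤ} (hk : 3 ≤ k)

include hk in
/-- the majorant is bounded on `Im z ≥ 2`. -/
theorem KME_majorant_le (z : ℍ) (hz : 2 ≤ z.im) :
    ∑' v : Fin 2 → ℤ, ‖eisSummand k v z‖ ≤
      ∑' x : Fin 2 → ℤ, r ⟨⟨1, 2⟩, Nat.ofNat_pos⟩ ^ (-k) * ‖x‖ ^ (-k) := by
  obtain ⟨n, hn⟩ := ModularGroup_T_zpow_mem_verticalStrip z (one_pos : 0 < 1)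
  rw [← KME_majorant_T k ((1 : ℕ) * n) z]
  have hk' : (2 : ℝ) < k := by norm_cast
  apply (summable_norm_eisSummand hk _).tsum_le_tsum _
  · exact_mod_cast (summable_one_div_norm_rpow hk').mul_left <| r ⟨⟨1, 2⟩, Nat.ofNat_pos⟩ ^ (-k)
  · intro x
    simp_rw [eisSummand, norm_zpow]
    exact_mod_cast
      summand_bound_of_mem_verticalStrip (lt_trans two_pos hk').le x two_pos
      (verticalStrip_anti_right 1 hz (by exact_mod_cast hn))

include ha hk in
/-- **bounded at `i∞`**, for every bounded coefficient function. -/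
theorem KME_isBoundedAtImInfty : IsBoundedAtImInfty (KME_sum a k) := by
  rw [UpperHalfPlane.isBoundedAtImInfty_iff]
  refine ⟨∑' x : Fin 2 → ℤ, r ⟨⟨1, 2⟩, Nat.ofNat_pos⟩ ^ (-k) * ‖x‖ ^ (-k), 2, ?_⟩
  intro z hz
  exact (KME_norm_le ha hk z).trans (KME_majorant_le hk z hz)

end Bounded

section Limit

/-- the point `i (n + 1)` of the upper half plane. -/
def KME_pt (n : ℕ) : ℍ := ⟨Complex.I * (((n : ℝ) + 1 : ℝ) : ℂ), by
  simp only [Complex.mul_im, Complex.I_re, Complex.ofReal_im, mul_zero, Complex.I_im,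
    Complex.ofReal_re, one_mul, zero_add]
  positivity⟩

theorem KME_pt_coe (n : ℕ) : ((KME_pt n : ℍ) : ℂ) = Complex.I * (((n : ℝ) + 1 : ℝ) : ℂ) := rfl

theorem KME_pt_re (n : ℕ) : (KME_pt n).re = 0 := by
  show (Complex.I * (((n : ℝ) + 1 : ℝ) : ℂ)).re = 0
  simp

theorem KME_pt_im (n : ℕ) : (KME_pt n).im = (n : ℝ) + 1 := by
  show (Complex.I * (((n : ℝ) + 1 : ℝ) : ℂ)).im = (n : ℝ) + 1
  simp

theorem KME_r_pt (n : ℕ) : r (KME_pt n) = 1 := by
  have h1 : r1 (KME_pt n) = 1 := by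
    rw [r1, KME_pt_re, KME_pt_im]
    have : ((n : ℝ) + 1) ^ 2 ≠ 0 := by positivity
    field_simp
    ring
  rw [r, h1, Real.sqrt_one, KME_pt_im]
  apply min_eq_right
  have : (0 : ℝ) ≤ n := Nat.cast_nonneg n
  linarith

theorem KME_norm_lin_ge (v : Fin 2 → ℤ) (hv : v 0 ≠ 0) (n : ℕ) :
    (n : ℝ) + 1 ≤ ‖(v 0 : ℂ) * ((KME_pt n : ℍ) : ℂ) + (v 1 : ℂ)‖ := by
  have him : ((v 0 : ℂ) * ((KME_pt n : ℍ) : ℂ) + (v 1 : ℂ)).im = (v 0 : ℝ) * ((n : ℝ) + 1) := by
    rw [KME_pt_coe]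
    simp
  have h1 := Complex.abs_im_le_norm ((v 0 : ℂ) * ((KME_pt n : ℍ) : ℂ) + (v 1 : ℂ))
  rw [him, abs_mul] at h1
  have h2 : (1 : ℝ) ≤ |(v 0 : ℝ)| := by
    have : (1 : ℤ) ≤ |v 0| := Int.one_le_abs hv
    exact_mod_cast this
  have h3 : (0 : ℝ) ≤ (n : ℝ) + 1 := by positivity
  rw [abs_of_nonneg h3] at h1
  calc (n : ℝ) + 1 = 1 * ((n : ℝ) + 1) := (one_mul _).symm
    _ ≤ |(v 0 : ℝ)| * ((n : ℝ) + 1) := mul_le_mul_of_nonneg_right h2 h3
    _ ≤ _ := h1

theorem KME_tendsto_term {k : ℤ} (hk : 0 < k) (v : Fin 2 → ℤ) :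
    Tendsto (fun n : ℕ => eisSummand k v (KME_pt n)) atTop
      (𝓝 (if v 0 = 0 then ((v 1 : ℤ) : ℂ) ^ (-k) else 0)) := by
  by_cases hv : v 0 = 0
  · rw [if_pos hv]
    have : (fun n : ℕ => eisSummand k v (KME_pt n)) = fun _ => ((v 1 : ℤ) : ℂ) ^ (-k) := by
      funext n
      simp [eisSummand, hv]
    rw [this]
    exact tendsto_const_nhds
  · rw [if_neg hv]
    rw [tendsto_zero_iff_norm_tendsto_zero]
    have hb : ∀ n : ℕ, ‖eisSummand k v (KME_pt n)‖ ≤ ((n : ℝ) + 1) ^ (-k) := by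
      intro n
      rw [eisSummand, norm_zpow]
      have hpos : (0 : ℝ) < (n : ℝ) + 1 := by positivity
      rw [_root_.zpow_neg, _root_.zpow_neg]
      have h1 := KME_norm_lin_ge v hv n
      have h2 : ((n : ℝ) + 1) ^ k ≤ ‖(v 0 : ℂ) * ((KME_pt n : ℍ) : ℂ) + (v 1 : ℂ)‖ ^ k :=
        zpow_le_zpow_left₀ hk.le hpos.le h1
      exact inv_anti₀ (zpow_pos hpos k) h2
    refine squeeze_zero (fun n => norm_nonneg _) hb ?_
    have h1 : Tendsto (fun x : ℝ => x ^ (-k)) atTop (𝓝 0) :=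
      tendsto_zpow_atTop_zero (by omega)
    have h2 : Tendsto (fun n : ℕ => (n : ℝ) + 1) atTop atTop :=
      tendsto_atTop_add_const_right _ _ tendsto_natCast_atTop_atTop
    exact h1.comp h2

variable {a : (Fin 2 → ℤ) → ℂ} (ha : ∀ v, ‖a v‖ ≤ 1) {k : ℤ} (hk : 3 ≤ k)

include ha hk in
/-- the limit of `E_a` along `i ℕ`: only the terms with `c = 0` survive. -/
theorem KME_tendsto :
    Tendsto (fun n : ℕ => KME_sum a k (KME_pt n)) atTop
      (𝓝 (∑' v : Fin 2 → ℤ, if v 0 = 0 then a v * ((v 1 : ℤ) : ℂ) ^ (-k) else 0)) := by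
  have hk' : (2 : ℝ) < k := by norm_cast
  have p_sum : Summable fun x : Fin 2 → ℤ ↦ ‖x‖ ^ (-k) :=
    mod_cast (summable_one_div_norm_rpow hk')
  unfold KME_sum
  refine tendsto_tsum_of_dominated_convergence p_sum (fun v => ?_)
    (Eventually.of_forall fun n v => ?_)
  · have h := (KME_tendsto_term (k := k) (by omega) v).const_mul (a v)
    convert h using 2
    split_ifs <;> simp
  · refine (KME_norm_term_le ha v (KME_pt n)).trans ?_
    have h := summand_bound (KME_pt n) (k := (k : ℝ)) (by positivity) v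
    rw [KME_r_pt, Real.one_rpow, one_mul] at h
    rw [eisSummand, norm_zpow]
    have e1 : ‖(v 0 : ℂ) * ((KME_pt n : ℍ) : ℂ) + (v 1 : ℂ)‖ ^ (-k) =
        ‖(v 0 : ℂ) * ((KME_pt n : ℍ) : ℂ) + (v 1 : ℂ)‖ ^ (-(k : ℝ)) := by
      rw [← Real.rpow_intCast]
      push_cast
      rfl
    have e2 : ‖v‖ ^ (-k) = ‖v‖ ^ (-(k : ℝ)) := by
      rw [← Real.rpow_intCast]
      push_cast
      rfl
    rw [e1, e2]
    exact h

include ha hk in
/-- if the terms with `c = 0` do not cancel, `E_a` is not identically zero. -/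
theorem KME_exists_ne_zero
    (hL : (∑' v : Fin 2 → ℤ, if v 0 = 0 then a v * ((v 1 : ℤ) : ℂ) ^ (-k) else 0) ≠ 0) :
    ∃ z : ℍ, KME_sum a k z ≠ 0 := by
  by_contra hcon
  simp only [not_exists, not_not] at hcon
  have h1 := KME_tendsto ha hk
  have h2 : (fun n : ℕ => KME_sum a k (KME_pt n)) = fun _ => 0 := funext fun n => hcon _
  rw [h2] at h1
  exact hL (tendsto_nhds_unique h1 tendsto_const_nhds)

end Limit

end Fermat.Agent.GalRep
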