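import Mathlib
import Fermat.Agent.GalRep.KMEisSum
import Fermat.Agent.GalRep.KMDefs
import Fermat.Agent.GalRep.KMMult

/-!
# Pillar G, package EIS (helper28), part 2: the coefficients of the Eisenstein series with
character

`χ : Γ₀(N) → ℤ/n` an elliptic character (`KM_IsEll`: `χ` kills the elements of trace `0, ±1, ±2`).

* `KME_IsRow N v` : `v` is the bottom row of an element of `Γ₀(N)`;
* `KME_coef N n χ v = ζ_n^{-χ(γ)}` if `v` is the bottom row of `γ ∈ Γ₀(N)`, `0` otherwise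
  (well defined: `KME_coef_row`);
* `KME_coef_vecMul` : `coef (w γ⁻¹) = ζ_n^{χ(γ)} · coef w` for `γ ∈ Γ₀(N)`;
* `KME_coef_conj_T` : `coef ((w g⁻¹)(g T^N g⁻¹)⁻¹) = coef (w g⁻¹)` (periodicity at the cusp `g∞`).
-/

set_option autoImplicit false

noncomputable section

open UpperHalfPlane Filter Function Complex CongruenceSubgroup EisensteinSeries Matrix
open scoped MatrixGroups Topology

namespace Fermat.Agent.GalRep

open Fermat.Agent.S24

section Rows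

/-- `v` is the bottom row of an element of `Γ₀(N)`. -/
def KME_IsRow (N : ℕ) (v : Fin 2 → ℤ) : Prop := ∃ γ : Gamma0 N, (γ : SL(2, ℤ)).1 1 = v

theorem KME_row_mul (A B : SL(2, ℤ)) : (A * B).1 1 = (A.1 1) ᵥ* B.1 := by
  rw [Matrix.SpecialLinearGroup.coe_mul]
  exact Matrix.mul_apply_eq_vecMul A.1 B.1 1

theorem KME_vecMul_inv_cancel (γ : SL(2, ℤ)) (v : Fin 2 → ℤ) :
    (v ᵥ* (γ⁻¹ : SL(2, ℤ)).1) ᵥ* γ.1 = v := (KME_vecEquiv γ).right_inv v

theorem KME_vecMul_cancel_inv (γ : SL(2, ℤ)) (v : Fin 2 → ℤ) :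
    (v ᵥ* γ.1) ᵥ* (γ⁻¹ : SL(2, ℤ)).1 = v := (KME_vecEquiv γ).left_inv v

theorem KME_isRow_vecMul {N : ℕ} (γ : Gamma0 N) {w : Fin 2 → ℤ} (hw : KME_IsRow N w) :
    KME_IsRow N (w ᵥ* (γ : SL(2, ℤ)).1) := by
  obtain ⟨γw, rfl⟩ := hw
  exact ⟨γw * γ, by rw [Subgroup.coe_mul, KME_row_mul]⟩

theorem KME_isRow_vecMul_inv_iff {N : ℕ} (γ : Gamma0 N) (w : Fin 2 → ℤ) :
    KME_IsRow N (w ᵥ* ((γ : SL(2, ℤ))⁻¹ : SL(2, ℤ)).1) ↔ KME_IsRow N w := by
  constructor
  · intro h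
    have := KME_isRow_vecMul γ h
    rwa [KME_vecMul_inv_cancel] at this
  · intro h
    have := KME_isRow_vecMul γ⁻¹ h
    rwa [Subgroup.coe_inv] at this

/-- two elements of `SL(2, ℤ)` with the same bottom row differ by a matrix of trace `2`. -/
theorem KME_trace_of_row_eq (A B : SL(2, ℤ)) (h : A.1 1 = B.1 1) :
    ((B * A⁻¹ : SL(2, ℤ)).1).trace = 2 := by
  have h0 : A.1 1 0 = B.1 1 0 := congrFun h 0
  have h1 : A.1 1 1 = B.1 1 1 := congrFun h 1
  have hA : A.1 0 0 * A.1 1 1 - A.1 0 1 * A.1 1 0 = 1 := by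
    have := A.2
    rwa [Matrix.det_fin_two] at this
  have hB : B.1 0 0 * B.1 1 1 - B.1 0 1 * B.1 1 0 = 1 := by
    have := B.2
    rwa [Matrix.det_fin_two] at this
  rw [Matrix.SpecialLinearGroup.coe_mul, Matrix.SpecialLinearGroup.coe_inv,
    Matrix.adjugate_fin_two, Matrix.trace_fin_two]
  simp only [Matrix.mul_apply, Fin.sum_univ_two, Matrix.of_apply, Matrix.cons_val',
    Matrix.cons_val_zero, Matrix.cons_val_one, Matrix.cons_val_fin_one]
  rw [h0, h1] at *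
  linear_combination hB + hA

end Rows

section Coef

variable {N n : ℕ} (hn : 0 < n) (χ : Additive (Gamma0 N) →+ ZMod n) (hχ : KM_IsEll N n χ)

open Classical in
/-- the coefficient `ζ_n^{-χ(γ)}` attached to the bottom row of `γ ∈ Γ₀(N)`. -/
def KME_coef (N n : ℕ) (χ : Additive (Gamma0 N) →+ ZMod n) (v : Fin 2 → ℤ) : ℂ :=
  if h : KME_IsRow N v then KM_zeta n (-(χ (Additive.ofMul h.choose))) else 0

theorem KME_coef_of_not_row {v : Fin 2 → ℤ} (h : ¬ KME_IsRow N v) : KME_coef N n χ v = 0 := by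
  rw [KME_coef, dif_neg h]

include hχ in
/-- `χ` only depends on the bottom row. -/
theorem KME_chi_eq_of_row_eq (γ γ' : Gamma0 N)
    (h : (γ : SL(2, ℤ)).1 1 = (γ' : SL(2, ℤ)).1 1) :
    χ (Additive.ofMul γ) = χ (Additive.ofMul γ') := by
  have h1 : χ (Additive.ofMul (γ' * γ⁻¹)) = 0 := by
    apply hχ
    have := KME_trace_of_row_eq (γ : SL(2, ℤ)) (γ' : SL(2, ℤ)) h
    rw [Subgroup.coe_mul, Subgroup.coe_inv, this]
    norm_num
  have h2 : γ' = (γ' * γ⁻¹) * γ := by group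
  have h3 : χ (Additive.ofMul γ') =
      χ (Additive.ofMul (γ' * γ⁻¹)) + χ (Additive.ofMul γ) := by
    conv_lhs => rw [h2]
    rw [ofMul_mul, map_add]
  rw [h3, h1, zero_add]

include hχ in
theorem KME_coef_row (γ : Gamma0 N) :
    KME_coef N n χ ((γ : SL(2, ℤ)).1 1) = KM_zeta n (-(χ (Additive.ofMul γ))) := by
  have h : KME_IsRow N ((γ : SL(2, ℤ)).1 1) := ⟨γ, rfl⟩
  rw [KME_coef, dif_pos h]
  rw [KME_chi_eq_of_row_eq χ hχ _ _ h.choose_spec]

theorem KME_norm_zeta (a : ZMod n) : ‖KM_zeta n a‖ = 1 := by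
  rw [KM_zeta]
  have : (2 * Real.pi * Complex.I * (a.val : ℂ) / (n : ℂ)) =
      ((2 * Real.pi * (a.val : ℝ) / (n : ℝ) : ℝ) : ℂ) * Complex.I := by
    push_cast
    ring
  rw [this, Complex.norm_exp_ofReal_mul_I]

theorem KME_coef_norm_le (v : Fin 2 → ℤ) : ‖KME_coef N n χ v‖ ≤ 1 := by
  rw [KME_coef]
  split_ifs
  · rw [KME_norm_zeta]
  · simp

include hn hχ in
/-- **the transformation law of the coefficients.** -/
theorem KME_coef_vecMul (γ : Gamma0 N) (w : Fin 2 → ℤ) :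
    KME_coef N n χ (w ᵥ* ((γ : SL(2, ℤ))⁻¹ : SL(2, ℤ)).1) =
      KM_zeta n (χ (Additive.ofMul γ)) * KME_coef N n χ w := by
  by_cases hw : KME_IsRow N w
  · obtain ⟨γw, rfl⟩ := hw
    have h1 : ((γw : SL(2, ℤ)).1 1) ᵥ* ((γ : SL(2, ℤ))⁻¹ : SL(2, ℤ)).1 =
        (((γw * γ⁻¹ : Gamma0 N) : SL(2, ℤ))).1 1 := by
      rw [Subgroup.coe_mul, Subgroup.coe_inv, KME_row_mul]
    rw [h1, KME_coef_row χ hχ, KME_coef_row χ hχ, ← KM_zeta_add hn]
    congr 1
    rw [ofMul_mul, map_add, ofMul_inv, map_neg]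
    ring
  · rw [KME_coef_of_not_row χ hw, mul_zero]
    exact KME_coef_of_not_row χ (fun h => hw ((KME_isRow_vecMul_inv_iff γ w).mp h))

end Coef

section Parabolic

/-- `g T^N g⁻¹ ∈ Γ₀(N)`. -/
theorem KME_conj_T_mem (N : ℕ) (g : SL(2, ℤ)) :
    g * ModularGroup.T ^ (N : ℤ) * g⁻¹ ∈ Gamma0 N := by
  rw [Gamma0_mem]
  have hg : g.1 0 0 * g.1 1 1 - g.1 0 1 * g.1 1 0 = 1 := by
    have := g.2
    rwa [Matrix.det_fin_two] at this
  have h : (g * ModularGroup.T ^ (N : ℤ) * g⁻¹ : SL(2, ℤ)).1 1 0 = -((N : ℤ) * (g.1 1 0) ^ 2) := by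
    rw [Matrix.SpecialLinearGroup.coe_mul, Matrix.SpecialLinearGroup.coe_mul,
      Matrix.SpecialLinearGroup.coe_inv, Matrix.adjugate_fin_two, ModularGroup.coe_T_zpow]
    simp only [Matrix.mul_apply, Fin.sum_univ_two, Matrix.of_apply, Matrix.cons_val',
      Matrix.cons_val_zero, Matrix.cons_val_one, Matrix.cons_val_fin_one]
    ring
  show (((g * ModularGroup.T ^ (N : ℤ) * g⁻¹ : SL(2, ℤ)).1 1 0 : ℤ) : ZMod N) = 0
  rw [h]
  push_cast
  simp

theorem KME_conj_T_trace (N : ℕ) (g : SL(2, ℤ)) :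
    ((g * ModularGroup.T ^ (N : ℤ) * g⁻¹ : SL(2, ℤ)).1).trace = 2 := by
  have hg : g.1 0 0 * g.1 1 1 - g.1 0 1 * g.1 1 0 = 1 := by
    have := g.2
    rwa [Matrix.det_fin_two] at this
  rw [Matrix.SpecialLinearGroup.coe_mul, Matrix.SpecialLinearGroup.coe_mul,
    Matrix.SpecialLinearGroup.coe_inv, Matrix.adjugate_fin_two, ModularGroup.coe_T_zpow,
    Matrix.trace_fin_two]
  simp only [Matrix.mul_apply, Fin.sum_univ_two, Matrix.of_apply, Matrix.cons_val',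
    Matrix.cons_val_zero, Matrix.cons_val_one, Matrix.cons_val_fin_one]
  linear_combination 2 * hg

variable {N n : ℕ} (hn : 0 < n) (χ : Additive (Gamma0 N) →+ ZMod n) (hχ : KM_IsEll N n χ)

include hn hχ in
/-- **periodicity at the cusp `g∞`**: the coefficients `w ↦ coef (w g⁻¹)` are invariant under
`w ↦ w T^{-N}`. -/
theorem KME_coef_conj_T (g : SL(2, ℤ)) (w : Fin 2 → ℤ) :
    KME_coef N n χ ((w ᵥ* ((ModularGroup.T ^ (N : ℤ))⁻¹ : SL(2, ℤ)).1) ᵥ* (g⁻¹ : SL(2, ℤ)).1) =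
      KME_coef N n χ (w ᵥ* (g⁻¹ : SL(2, ℤ)).1) := by
  set δ : Gamma0 N := ⟨g * ModularGroup.T ^ (N : ℤ) * g⁻¹, KME_conj_T_mem N g⟩ with hδ
  have hgrp : ((ModularGroup.T ^ (N : ℤ))⁻¹ : SL(2, ℤ)) * g⁻¹ =
      g⁻¹ * ((δ : SL(2, ℤ))⁻¹ : SL(2, ℤ)) := by
    rw [hδ]
    show _ = g⁻¹ * (g * ModularGroup.T ^ (N : ℤ) * g⁻¹)⁻¹
    group
  have hmat : ((ModularGroup.T ^ (N : ℤ))⁻¹ : SL(2, ℤ)).1 * (g⁻¹ : SL(2, ℤ)).1 =
      (g⁻¹ : SL(2, ℤ)).1 * ((δ : SL(2, ℤ))⁻¹ : SL(2, ℤ)).1 := by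
    rw [← Matrix.SpecialLinearGroup.coe_mul, ← Matrix.SpecialLinearGroup.coe_mul, hgrp]
  rw [vecMul_vecMul, hmat, ← vecMul_vecMul, KME_coef_vecMul hn χ hχ δ]
  have hχδ : χ (Additive.ofMul δ) = 0 := by
    apply hχ
    rw [show ((δ : SL(2, ℤ)) : Matrix (Fin 2) (Fin 2) ℤ) =
      (g * ModularGroup.T ^ (N : ℤ) * g⁻¹ : SL(2, ℤ)).1 from rfl, KME_conj_T_trace]
    norm_num
  rw [hχδ, KM_zeta_zero, one_mul]

end Parabolic

section Limit

variable {N n : ℕ} (hn : 0 < n) (χ : Additive (Gamma0 N) →+ ZMod n) (hχ : KM_IsEll N n χ)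

theorem KME_row_zero_left {v : Fin 2 → ℤ} (hv : KME_IsRow N v) (h0 : v 0 = 0) :
    v 1 = 1 ∨ v 1 = -1 := by
  obtain ⟨γ, rfl⟩ := hv
  have hg : (γ : SL(2, ℤ)).1 0 0 * (γ : SL(2, ℤ)).1 1 1 -
      (γ : SL(2, ℤ)).1 0 1 * (γ : SL(2, ℤ)).1 1 0 = 1 := by
    have := (γ : SL(2, ℤ)).2
    rwa [Matrix.det_fin_two] at this
  rw [h0, mul_zero, sub_zero] at hg
  rcases Int.eq_one_or_neg_one_of_mul_eq_one' hg with h | h
  · exact Or.inl h.2
  · exact Or.inr h.2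

theorem KME_neg_one_mem (N : ℕ) : (-1 : SL(2, ℤ)) ∈ Gamma0 N := by
  rw [Gamma0_mem]
  simp

include hχ in
theorem KME_coef_e1 : KME_coef N n χ ![0, 1] = 1 := by
  have h : ((1 : Gamma0 N) : SL(2, ℤ)).1 1 = ![0, 1] := by
    ext i
    fin_cases i <;> simp
  rw [← h, KME_coef_row χ hχ]
  have : χ (Additive.ofMul (1 : Gamma0 N)) = 0 := by
    rw [ofMul_one, map_zero]
  rw [this, neg_zero, KM_zeta_zero]

include hχ in
theorem KME_coef_neg_e1 : KME_coef N n χ ![0, -1] = 1 := by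
  have h : (((⟨-1, KME_neg_one_mem N⟩ : Gamma0 N) : SL(2, ℤ))).1 1 = ![0, -1] := by
    ext i
    fin_cases i <;> simp
  rw [← h, KME_coef_row χ hχ]
  have : χ (Additive.ofMul (⟨-1, KME_neg_one_mem N⟩ : Gamma0 N)) = 0 := by
    apply hχ
    have : (((⟨-1, KME_neg_one_mem N⟩ : Gamma0 N) : SL(2, ℤ)) : Matrix (Fin 2) (Fin 2) ℤ).trace
        = -2 := by
      rw [Matrix.trace_fin_two]
      simp
    rw [this]
    norm_num
  rw [this, neg_zero, KM_zeta_zero]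

include hχ in
/-- the constant term of the Eisenstein series with character is `2` (even weight). -/
theorem KME_limit {k : ℤ} (hk : Even k) :
    (∑' v : Fin 2 → ℤ, if v 0 = 0 then KME_coef N n χ v * ((v 1 : ℤ) : ℂ) ^ (-k) else 0) = 2 := by
  classical
  have hne : (![0, 1] : Fin 2 → ℤ) ≠ ![0, -1] := by
    intro h
    have := congrFun h 1
    simp at this
  rw [tsum_eq_sum (s := {![0, 1], ![0, -1]})]
  · rw [Finset.sum_pair hne]
    simp only [Matrix.cons_val_zero, if_true, Matrix.cons_val_one, Matrix.cons_val_fin_one]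
    rw [KME_coef_e1 χ hχ, KME_coef_neg_e1 χ hχ]
    have h1 : (((1 : ℤ) : ℂ)) ^ (-k) = 1 := by simp
    have h2 : (((-1 : ℤ) : ℂ)) ^ (-k) = 1 := by
      rw [Int.cast_neg, Int.cast_one, hk.neg.neg_one_zpow]
    rw [h1, h2]
    norm_num
  · intro v hv
    by_cases h0 : v 0 = 0
    · rw [if_pos h0]
      have hrow : ¬ KME_IsRow N v := by
        intro hr
        apply hv
        rcases KME_row_zero_left hr h0 with h1 | h1
        · have : v = ![0, 1] := by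
            ext i
            fin_cases i
            · simpa using h0
            · simpa using h1
          rw [this]
          simp
        · have : v = ![0, -1] := by
            ext i
            fin_cases i
            · simpa using h0
            · simpa using h1
          rw [this]
          simp
      rw [KME_coef_of_not_row χ hrow, zero_mul]
    · rw [if_neg h0]

end Limit

end Fermat.Agent.GalRep
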