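import Mathlib
import Fermat.Agent.GalRep.KMEisChar
import Fermat.Agent.S24.CuspMer

/-!
# Pillar G, package EIS (helper28), part 3: the Eisenstein series with character

For an elliptic character `χ : Γ₀(N) → ℤ/n` (`KM_IsEll`), weight `k = 4`:

`E_χ(z) = Σ_{(c,d) bottom row of γ ∈ Γ₀(N)} ζ_n^{-χ(γ)} (c z + d)^{-4}`,   `y = E_χ / E_0`.

* `KME_hol χ g : Hol` : the function `E_χ |₄ g` (`g ∈ SL(2, ℤ)`), i.e. the sum with coefficients
  `w ↦ coef (w g⁻¹)`;
* `KME_hol_smul` : `E_χ(g z) = (c z + d)⁴ · (E_χ|g)(z)`;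
* `KME_hol_gamma0` : `E_χ|γ = ζ_n^{χ(γ)} E_χ` for `γ ∈ Γ₀(N)`;
* `KME_hol_ne_zero`, `KME_meroCusp` : `E_χ|g ≠ 0`, holomorphic, `N`-periodic, bounded at `i∞`;
* **`KM_exists_eis`** : there is `y ∈ Mer`, `y ≠ 0`, with character `χ`, such that `yⁿ` is
  meromorphic at all cusps.
-/

set_option autoImplicit false

noncomputable section

open UpperHalfPlane Filter Function Complex CongruenceSubgroup EisensteinSeries Matrix
open scoped MatrixGroups Topology Manifold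

namespace Fermat.Agent.GalRep

open Fermat.Agent.S24

section Hol

variable {N n : ℕ} (hn : 0 < n) (χ : Additive (Gamma0 N) →+ ZMod n) (hχ : KM_IsEll N n χ)

/-- the coefficients of `E_χ | g`. -/
def KME_coefG (N n : ℕ) (χ : Additive (Gamma0 N) →+ ZMod n) (g : SL(2, ℤ)) (w : Fin 2 → ℤ) : ℂ :=
  KME_coef N n χ (w ᵥ* (g⁻¹ : SL(2, ℤ)).1)

theorem KME_coefG_norm_le (g : SL(2, ℤ)) (w : Fin 2 → ℤ) : ‖KME_coefG N n χ g w‖ ≤ 1 :=
  KME_coef_norm_le χ _

theorem KME_coefG_one (w : Fin 2 → ℤ) : KME_coefG N n χ 1 w = KME_coef N n χ w := by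
  rw [KME_coefG, inv_one, Matrix.SpecialLinearGroup.coe_one, vecMul_one]

/-- `E_χ | g` as a holomorphic function on `ℍ`. -/
def KME_hol (N n : ℕ) (χ : Additive (Gamma0 N) →+ ZMod n) (g : SL(2, ℤ)) : Hol :=
  ⟨KME_sum (KME_coefG N n χ g) 4,
    KME_mdifferentiable (KME_coefG_norm_le χ g) (by norm_num)⟩

theorem KME_hol_apply (g : SL(2, ℤ)) (z : ℍ) :
    (KME_hol N n χ g : ℍ → ℂ) z = KME_sum (KME_coefG N n χ g) 4 z := rfl

/-- `E_χ(g z) = (c z + d)⁴ (E_χ|g)(z)`. -/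
theorem KME_hol_smul (g : SL(2, ℤ)) (z : ℍ) :
    (KME_hol N n χ 1 : ℍ → ℂ) (g • z) = (denom g z) ^ (4 : ℤ) * (KME_hol N n χ g : ℍ → ℂ) z := by
  rw [KME_hol_apply, KME_hol_apply, KME_sum_smul]
  congr 2
  funext w
  rw [KME_coefG_one, KME_coefG]

include hn hχ in
/-- `E_χ|γ = ζ^{χ(γ)} E_χ` for `γ ∈ Γ₀(N)`. -/
theorem KME_hol_gamma0 (γ : Gamma0 N) (z : ℍ) :
    (KME_hol N n χ (γ : SL(2, ℤ)) : ℍ → ℂ) z =
      KM_zeta n (χ (Additive.ofMul γ)) * (KME_hol N n χ 1 : ℍ → ℂ) z := by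
  rw [KME_hol_apply, KME_hol_apply]
  unfold KME_sum
  rw [← tsum_mul_left]
  refine tsum_congr fun w => ?_
  rw [KME_coefG, KME_coef_vecMul hn χ hχ γ w, KME_coefG_one]
  ring

include hχ in
theorem KME_hol_one_ne_zero : KME_hol N n χ 1 ≠ 0 := by
  intro h
  have hL := KME_limit χ hχ (k := 4) (by decide)
  have hex := KME_exists_ne_zero (a := KME_coefG N n χ 1) (KME_coefG_norm_le χ 1)
    (k := 4) (by norm_num) (by
      have : (fun v : Fin 2 → ℤ => if v 0 = 0 then KME_coefG N n χ 1 v * ((v 1 : ℤ) : ℂ) ^ (-(4 : ℤ))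
          else 0) = fun v => if v 0 = 0 then KME_coef N n χ v * ((v 1 : ℤ) : ℂ) ^ (-(4 : ℤ))
          else 0 := by
        funext v
        rw [KME_coefG_one]
      rw [this, hL]
      norm_num)
  obtain ⟨z, hz⟩ := hex
  apply hz
  have := congrArg (fun f : Hol => (f : ℍ → ℂ) z) h
  exact this

include hχ in
theorem KME_hol_ne_zero (g : SL(2, ℤ)) : KME_hol N n χ g ≠ 0 := by
  intro h
  apply KME_hol_one_ne_zero χ hχ
  apply Subtype.ext
  funext w
  have h1 := KME_hol_smul χ g (g⁻¹ • w)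
  rw [smul_inv_smul] at h1
  rw [h1, h]
  simp

include hn hχ in
/-- `E_χ | g` is holomorphic, `N`-periodic and bounded at `i∞`. -/
theorem KME_meroCusp [NeZero N] (g : SL(2, ℤ)) : MeroCusp N (KME_hol N n χ g : ℍ → ℂ) where
  per := by
    intro τ
    have h1 : ((N : ℝ) +ᵥ τ) = (ModularGroup.T ^ (N : ℤ) : SL(2, ℤ)) • τ := by
      rw [modular_T_zpow_smul]
      simp
    rw [h1, KME_hol_apply, KME_hol_apply, KME_sum_smul]
    have hd : denom ((ModularGroup.T ^ (N : ℤ) : SL(2, ℤ))) τ = 1 := by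
      rw [ModularGroup.denom_apply, ModularGroup.coe_T_zpow]
      simp
    rw [hd, _root_.one_zpow, one_mul]
    congr 1
    funext w
    exact KME_coef_conj_T hn χ hχ g w
  hol := (KME_hol N n χ g).2
  bdd := ⟨0, by
    have h := KME_isBoundedAtImInfty (KME_coefG_norm_le χ g) (k := 4) (by norm_num)
    have e : (fun τ : ℍ => Function.Periodic.qParam (N : ℝ) τ ^ 0 * (KME_hol N n χ g : ℍ → ℂ) τ) =
        KME_sum (KME_coefG N n χ g) 4 := by
      funext τ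
      rw [pow_zero, one_mul]
      rfl
    rw [e]
    exact h⟩

end Hol

section Main

theorem KME_cuspFrac_pow {N : ℕ} [NeZero N] {φ : Mer} {m : ℤ} {c : ℂ} (h : CuspFrac N φ m c)
    (n : ℕ) : CuspFrac N (φ ^ n) (n * m) (c ^ n) := by
  induction n with
  | zero =>
    have h1 := CuspFrac.const (N := N) (one_ne_zero : (1 : ℂ) ≠ 0)
    simpa using h1
  | succ n ih =>
    have h1 := ih.mul h
    have e1 : ((n : ℤ) * m + m) = ((n + 1 : ℕ) : ℤ) * m := by push_cast; ring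
    rw [e1] at h1
    rw [pow_succ, pow_succ]
    exact h1

variable (N n : ℕ) [NeZero N] (hn : 0 < n) (χ : Additive (Gamma0 N) →+ ZMod n)
  (hχ : KM_IsEll N n χ)

omit [NeZero N] in
theorem KME_isEll_zero : KM_IsEll N n (0 : Additive (Gamma0 N) →+ ZMod n) := fun _ _ => rfl

/-- the quotient `y = E_χ / E_0`. -/
def KME_y : Mer :=
  algebraMap Hol Mer (KME_hol N n χ 1) / algebraMap Hol Mer (KME_hol N n 0 1)

include hχ in
theorem KME_y_ne_zero : KME_y N n χ ≠ 0 :=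
  div_ne_zero (algebraMap_hol_ne_zero (KME_hol_one_ne_zero χ hχ))
    (algebraMap_hol_ne_zero (KME_hol_one_ne_zero 0 (KME_isEll_zero N n)))

/-- `y ∘ g = (E_χ|g) / (E_0|g)`. -/
theorem KME_merComp_y (g : SL(2, ℤ)) :
    merComp g (KME_y N n χ) =
      algebraMap Hol Mer (KME_hol N n χ g) / algebraMap Hol Mer (KME_hol N n 0 g) := by
  have h0 : algebraMap Hol Mer (holComp g (KME_hol N n 0 1)) ≠ 0 :=
    algebraMap_hol_ne_zero (holComp_ne_zero g (KME_hol_one_ne_zero 0 (KME_isEll_zero N n)))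
  have h0g : algebraMap Hol Mer (KME_hol N n 0 g) ≠ 0 :=
    algebraMap_hol_ne_zero (KME_hol_ne_zero 0 (KME_isEll_zero N n) g)
  rw [KME_y, map_div₀, merComp_algebraMap, merComp_algebraMap, div_eq_div_iff h0 h0g,
    ← map_mul, ← map_mul]
  congr 1
  apply Subtype.ext
  funext z
  show (KME_hol N n χ 1 : ℍ → ℂ) (g • z) * (KME_hol N n 0 g : ℍ → ℂ) z =
    (KME_hol N n χ g : ℍ → ℂ) z * (KME_hol N n 0 1 : ℍ → ℂ) (g • z)
  rw [KME_hol_smul, KME_hol_smul]
  ring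

include hn hχ in
theorem KME_hasChar : KM_HasChar N n (KME_y N n χ) χ := by
  intro γ
  rw [KME_merComp_y]
  have h1 : KME_hol N n χ (γ : SL(2, ℤ)) =
      algebraMap ℂ Hol (KM_zeta n (χ (Additive.ofMul γ))) * KME_hol N n χ 1 := by
    apply Subtype.ext
    funext z
    exact KME_hol_gamma0 hn χ hχ γ z
  have h2 : KME_hol N n 0 (γ : SL(2, ℤ)) = KME_hol N n 0 1 := by
    apply Subtype.ext
    funext z
    have := KME_hol_gamma0 hn (0 : Additive (Gamma0 N) →+ ZMod n) (KME_isEll_zero N n) γ z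
    rw [this, AddMonoidHom.zero_apply, KM_zeta_zero, one_mul]
  rw [h1, h2, map_mul, ← IsScalarTower.algebraMap_apply ℂ Hol Mer, KME_y, mul_div_assoc]

include hn hχ in
theorem KME_cusp (g : SL(2, ℤ)) :
    ∃ (m : ℤ) (c : ℂ), CuspFrac N (merComp g (KME_y N n χ ^ n)) m c := by
  have h1 := CuspFrac.of_hol (KME_meroCusp hn χ hχ g) (KME_hol_ne_zero χ hχ g)
  have h2 := CuspFrac.of_hol (KME_meroCusp hn (0 : Additive (Gamma0 N) →+ ZMod n)
    (KME_isEll_zero N n) g) (KME_hol_ne_zero 0 (KME_isEll_zero N n) g)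
  have h3 := h1.mul h2.inv
  rw [← div_eq_mul_inv, ← KME_merComp_y] at h3
  have h4 := KME_cuspFrac_pow h3 n
  rw [← map_pow] at h4
  exact ⟨_, _, h4⟩

/-- **EIS.**  Eisenstein series with character: for every elliptic `χ` there is a nonzero
`y ∈ Mer` with character `χ` whose `n`-th power is meromorphic at all cusps. -/
theorem KM_exists_eis (N n : ℕ) [NeZero N] (hn : 0 < n)
    (χ : Additive (Gamma0 N) →+ ZMod n) (hχ : KM_IsEll N n χ) :
    ∃ y : Mer, y ≠ 0 ∧ KM_HasChar N n y χ ∧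
      ∀ γ : SL(2, ℤ), ∃ (m : ℤ) (c : ℂ), CuspFrac N (merComp γ (y ^ n)) m c :=
  ⟨KME_y N n χ, KME_y_ne_zero N n χ hχ, KME_hasChar N n hn χ hχ, KME_cusp N n hn χ hχ⟩

end Main

end Fermat.Agent.GalRep
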