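import Mathlib

/-!
# Pillar G, package ROOT (G1a), part 1: holomorphic `n`-th roots on discs

Mathlib only.

* `RT_LocPow n G z` : locally at `z`, `G w = (w - z) ^ (n * k) * g w` with `g` analytic, `g z ≠ 0`
  (i.e. `G ≢ 0` near `z` and `n ∣ ord_z G`).
* `RT_root_ball_of_ne_zero` : a nowhere vanishing holomorphic function on a disc has a holomorphic
  `n`-th root (primitive of the logarithmic derivative).
* `RT_root_ball` : if `RT_LocPow n G z` holds at every point of a closed disc, then `G` has a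
  holomorphic `n`-th root on the open disc (the finitely many zeros are divided out one by one).
* `RT_root_unique` : uniqueness of the root with a prescribed nonzero value at one point.
-/

set_option autoImplicit false

open Complex Metric Set Filter Topology

namespace Fermat.Agent.GalRep

/-- every complex number has an `n`-th root. -/
theorem RT_exists_pow_eq (n : ℕ) (hn : n ≠ 0) (a : ℂ) : ∃ w : ℂ, w ^ n = a :=
  ⟨a ^ (1 / (n : ℂ)), by
    rw [one_div, Complex.cpow_nat_inv_pow a hn]⟩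

/-- **A1**: a nowhere vanishing holomorphic function on a disc has a holomorphic `n`-th root. -/
theorem RT_root_ball_of_ne_zero (n : ℕ) (hn : n ≠ 0) (c : ℂ) (r : ℝ) (g : ℂ → ℂ)
    (hg : DifferentiableOn ℂ g (ball c r)) (hg0 : ∀ z ∈ ball c r, g z ≠ 0) :
    ∃ h : ℂ → ℂ, DifferentiableOn ℂ h (ball c r) ∧ ∀ z ∈ ball c r, h z ^ n = g z := by
  by_cases hr : 0 < r
  swap
  · refine ⟨fun _ => 0, differentiableOn_const _, fun z hz => ?_⟩
    rw [ball_eq_empty.mpr (not_lt.mp hr)] at hz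
    exact absurd hz (Set.notMem_empty z)
  have hopen : IsOpen (ball c r) := isOpen_ball
  have hc : c ∈ ball c r := mem_ball_self hr
  -- the logarithmic derivative and its primitive
  have hdg : DifferentiableOn ℂ (deriv g) (ball c r) := hg.deriv hopen
  have hq : DifferentiableOn ℂ (fun z => deriv g z / g z) (ball c r) := hdg.div hg hg0
  obtain ⟨V, hV⟩ := hq.isExactOn_ball
  -- `g * exp (-V)` is constant
  have hder : ∀ z ∈ ball c r, HasDerivAt (fun z => g z * Complex.exp (-V z)) 0 z := by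
    intro z hz
    have h1 : HasDerivAt g (deriv g z) z :=
      (hg.differentiableAt (hopen.mem_nhds hz)).hasDerivAt
    have h2 : HasDerivAt (fun z => Complex.exp (-V z))
        (Complex.exp (-V z) * (-(deriv g z / g z))) z := (hV z hz).neg.cexp
    have h3 := h1.mul h2
    have h0 := hg0 z hz
    have e : deriv g z * Complex.exp (-V z) +
        g z * (Complex.exp (-V z) * (-(deriv g z / g z))) = 0 := by
      field_simp
      ring
    rw [e] at h3
    exact h3
  have hconst : ∀ z ∈ ball c r, g z * Complex.exp (-V z) = g c * Complex.exp (-V c) := by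
    intro z hz
    have hd : DifferentiableOn ℂ (fun z => g z * Complex.exp (-V z)) (ball c r) :=
      fun w hw => (hder w hw).differentiableAt.differentiableWithinAt
    refine (convex_ball c r).is_const_of_fderivWithin_eq_zero (𝕜 := ℂ) hd ?_ hz hc
    intro w hw
    rw [fderivWithin_of_isOpen hopen hw]
    exact (hder w hw).hasFDerivAt.fderiv.trans (by ext; simp)
  obtain ⟨w, hw⟩ := RT_exists_pow_eq n hn (g c * Complex.exp (-V c))
  refine ⟨fun z => w * Complex.exp (V z / n), ?_, ?_⟩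
  · intro z hz
    have h1 : DifferentiableAt ℂ V z := (hV z hz).differentiableAt
    exact (DifferentiableAt.const_mul ((h1.div_const _).cexp) _).differentiableWithinAt
  · intro z hz
    have hn' : (n : ℂ) ≠ 0 := Nat.cast_ne_zero.mpr hn
    rw [mul_pow, hw, ← Complex.exp_nat_mul, mul_div_cancel₀ _ hn', ← hconst z hz, mul_assoc,
      ← Complex.exp_add, neg_add_cancel, Complex.exp_zero, mul_one]

/-- `G` is, locally at `z`, an `n`-th power of `w - z` times an analytic unit. -/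
def RT_LocPow (n : ℕ) (G : ℂ → ℂ) (z : ℂ) : Prop :=
  ∃ (k : ℕ) (g : ℂ → ℂ), AnalyticAt ℂ g z ∧ g z ≠ 0 ∧
    ∀ᶠ w in 𝓝 z, G w = (w - z) ^ (n * k) * g w

theorem RT_LocPow.analyticAt {n : ℕ} {G : ℂ → ℂ} {z : ℂ} (h : RT_LocPow n G z) :
    AnalyticAt ℂ G z := by
  obtain ⟨k, g, hg, -, hG⟩ := h
  have h1 : AnalyticAt ℂ (fun w => (w - z) ^ (n * k) * g w) z := by fun_prop
  exact h1.congr (hG.mono fun w hw => hw.symm)

/-- near a point where `G` is locally a power times a unit, `G` has no other zeros. -/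
theorem RT_LocPow.eventually_ne {n : ℕ} {G : ℂ → ℂ} {z : ℂ} (h : RT_LocPow n G z) :
    ∀ᶠ w in 𝓝 z, w ≠ z → G w ≠ 0 := by
  obtain ⟨k, g, hg, hg0, hG⟩ := h
  filter_upwards [hG, hg.continuousAt.eventually_ne hg0] with w hw hw0 hwz
  rw [hw]
  exact mul_ne_zero (pow_ne_zero _ (sub_ne_zero.mpr hwz)) hw0

/-- the zeros of `G` in a compact set are contained in a finite set. -/
theorem RT_finite_zeros (n : ℕ) (K : Set ℂ) (hK : IsCompact K) (G : ℂ → ℂ)
    (hloc : ∀ z ∈ K, RT_LocPow n G z) : ∃ Z : Finset ℂ, ∀ z ∈ K, G z = 0 → z ∈ Z := by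
  obtain ⟨t, -, ht⟩ := hK.elim_nhds_subcover (fun x => {w | w ≠ x → G w ≠ 0})
    (fun x hx => (hloc x hx).eventually_ne)
  refine ⟨t, fun z hz hGz => ?_⟩
  obtain ⟨x, hx, hzx⟩ := Set.mem_iUnion₂.mp (ht hz)
  by_contra hzt
  exact hzx (fun h => hzt (h ▸ hx)) hGz

/-- **A2**, induction on a finite set containing the zeros. -/
theorem RT_root_ball_of_finset (n : ℕ) (hn : n ≠ 0) (c : ℂ) (r : ℝ) :
    ∀ (Z : Finset ℂ) (G : ℂ → ℂ), (∀ z ∈ ball c r, RT_LocPow n G z) →
      (∀ z ∈ ball c r, G z = 0 → z ∈ Z) →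
      ∃ h : ℂ → ℂ, DifferentiableOn ℂ h (ball c r) ∧ ∀ z ∈ ball c r, h z ^ n = G z := by
  classical
  intro Z
  induction Z using Finset.induction_on with
  | empty =>
    intro G hloc hZ
    refine RT_root_ball_of_ne_zero n hn c r G ?_ (fun z hz hGz => ?_)
    · exact fun z hz => (hloc z hz).analyticAt.differentiableAt.differentiableWithinAt
    · exact absurd (hZ z hz hGz) (Finset.notMem_empty z)
  | insert u Z' hu ih =>
    intro G hloc hZ
    by_cases hcase : u ∈ ball c r ∧ G u = 0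
    swap
    · refine ih G hloc (fun z hz hGz => ?_)
      rcases Finset.mem_insert.mp (hZ z hz hGz) with h | h
      · exact absurd ⟨h ▸ hz, h ▸ hGz⟩ hcase
      · exact h
    obtain ⟨hub, hGu⟩ := hcase
    obtain ⟨k, g, hg, hg0, hG⟩ := hloc u hub
    have hnk : n * k ≠ 0 := by
      intro h0
      have h1 := hG.self_of_nhds
      rw [h0, pow_zero, one_mul] at h1
      exact hg0 (h1 ▸ hGu)
    set G₁ : ℂ → ℂ := fun w => if w = u then g u else G w / (w - u) ^ (n * k) with hG₁
    have hG₁u : G₁ u = g u := by simp [hG₁]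
    have hG₁ne : ∀ w, w ≠ u → G₁ w = G w / (w - u) ^ (n * k) := fun w hw => by simp [hG₁, hw]
    have hloc₁ : ∀ z ∈ ball c r, RT_LocPow n G₁ z := by
      intro z hz
      by_cases hzu : z = u
      · subst hzu
        refine ⟨0, g, hg, hg0, ?_⟩
        filter_upwards [hG] with w hw
        by_cases hwz : w = z
        · subst hwz
          simp [hG₁u]
        · rw [hG₁ne w hwz, hw, mul_zero, pow_zero, one_mul,
            mul_div_cancel_left₀ _ (pow_ne_zero _ (sub_ne_zero.mpr hwz))]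
      · obtain ⟨kz, gz, hgz, hgz0, hGz⟩ := hloc z hz
        refine ⟨kz, fun w => gz w / (w - u) ^ (n * k), ?_, ?_, ?_⟩
        · exact hgz.div (by fun_prop) (pow_ne_zero _ (sub_ne_zero.mpr hzu))
        · exact div_ne_zero hgz0 (pow_ne_zero _ (sub_ne_zero.mpr hzu))
        · filter_upwards [hGz, isOpen_ne.mem_nhds hzu] with w hw hwu
          rw [hG₁ne w hwu, hw, mul_div_assoc]
    have hZ₁ : ∀ z ∈ ball c r, G₁ z = 0 → z ∈ Z' := by
      intro z hz hGz
      have hzu : z ≠ u := by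
        rintro rfl
        exact hg0 (hG₁u ▸ hGz)
      rw [hG₁ne z hzu, div_eq_zero_iff] at hGz
      rcases hGz with h | h
      · exact (Finset.mem_insert.mp (hZ z hz h)).resolve_left hzu
      · exact absurd h (pow_ne_zero _ (sub_ne_zero.mpr hzu))
    obtain ⟨h₁, hh₁, hh₁n⟩ := ih G₁ hloc₁ hZ₁
    refine ⟨fun w => (w - u) ^ k * h₁ w, ?_, ?_⟩
    · exact DifferentiableOn.mul (by fun_prop) hh₁
    · intro z hz
      show ((z - u) ^ k * h₁ z) ^ n = G z
      rw [mul_pow, ← pow_mul, hh₁n z hz, mul_comm k n]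
      by_cases hzu : z = u
      · subst hzu
        rw [sub_self, zero_pow hnk, zero_mul, hGu]
      · rw [hG₁ne z hzu, mul_div_cancel₀ _ (pow_ne_zero _ (sub_ne_zero.mpr hzu))]


/-- **A2**: root on an open disc whose closure lies in the domain. -/
theorem RT_root_ball (n : ℕ) (hn : n ≠ 0) (c : ℂ) (r : ℝ) (G : ℂ → ℂ)
    (hloc : ∀ z ∈ closedBall c r, RT_LocPow n G z) :
    ∃ h : ℂ → ℂ, DifferentiableOn ℂ h (ball c r) ∧ ∀ z ∈ ball c r, h z ^ n = G z := by
  obtain ⟨Z, hZ⟩ := RT_finite_zeros n (closedBall c r) (isCompact_closedBall c r) G hloc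
  exact RT_root_ball_of_finset n hn c r Z G (fun z hz => hloc z (ball_subset_closedBall hz))
    (fun z hz => hZ z (ball_subset_closedBall hz))

/-- `1` is isolated among the `n`-th roots of unity. -/
theorem RT_root_of_unity_isolated (n : ℕ) (hn : n ≠ 0) :
    ∀ᶠ ζ : ℂ in 𝓝 1, ζ ^ n = 1 → ζ = 1 := by
  have hfin : {ζ : ℂ | ζ ^ n = 1 ∧ ζ ≠ 1}.Finite := by
    refine Set.Finite.subset (Polynomial.finite_setOfPred_isRoot
      (p := (Polynomial.X ^ n - 1 : Polynomial ℂ)) (Polynomial.X_pow_sub_C_ne_zero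
        (Nat.pos_of_ne_zero hn) 1)) ?_
    intro ζ hζ
    simp only [Set.mem_ofPred_eq, Polynomial.IsRoot, Polynomial.eval_sub, Polynomial.eval_pow,
      Polynomial.eval_X, Polynomial.eval_one]
    rw [hζ.1, sub_self]
  have h1 : ({ζ : ℂ | ζ ^ n = 1 ∧ ζ ≠ 1})ᶜ ∈ 𝓝 (1 : ℂ) :=
    hfin.isClosed.compl_mem_nhds (fun h => h.2 rfl)
  filter_upwards [h1] with ζ hζ hζn
  by_contra hne
  exact hζ ⟨hζn, hne⟩

/-- **A3**: two holomorphic `n`-th roots of the same function on a connected open set which agree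
at a point where they do not vanish are equal. -/
theorem RT_root_unique (n : ℕ) (hn : n ≠ 0) (V : Set ℂ) (hV : IsOpen V) (hVc : IsPreconnected V)
    (h₁ h₂ : ℂ → ℂ) (hh₁ : DifferentiableOn ℂ h₁ V) (hh₂ : DifferentiableOn ℂ h₂ V)
    (hpow : ∀ z ∈ V, h₁ z ^ n = h₂ z ^ n) (z₀ : ℂ) (hz₀ : z₀ ∈ V) (heq : h₁ z₀ = h₂ z₀)
    (hne : h₂ z₀ ≠ 0) : EqOn h₁ h₂ V := by
  have ha₁ : AnalyticOnNhd ℂ h₁ V := hh₁.analyticOnNhd hV
  have ha₂ : AnalyticOnNhd ℂ h₂ V := hh₂.analyticOnNhd hV
  refine ha₁.eqOn_of_preconnected_of_eventuallyEq ha₂ hVc hz₀ ?_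
  have hc₁ : ContinuousAt h₁ z₀ := (ha₁ z₀ hz₀).continuousAt
  have hc₂ : ContinuousAt h₂ z₀ := (ha₂ z₀ hz₀).continuousAt
  have hq : ContinuousAt (fun z => h₁ z / h₂ z) z₀ := hc₁.div hc₂ hne
  have hq1 : h₁ z₀ / h₂ z₀ = 1 := by
    rw [heq, div_self hne]
  have ht : Tendsto (fun z => h₁ z / h₂ z) (𝓝 z₀) (𝓝 1) := by
    have := hq.tendsto
    rwa [hq1] at this
  have h3 := ht.eventually (RT_root_of_unity_isolated n hn)
  filter_upwards [h3, hc₂.eventually_ne hne, hV.mem_nhds hz₀] with z hz hz2 hzV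
  have h4 : (h₁ z / h₂ z) ^ n = 1 := by
    rw [div_pow, hpow z hzV, div_self (pow_ne_zero _ hz2)]
  have h5 := hz h4
  rwa [div_eq_one_iff_eq hz2] at h5

end Fermat.Agent.GalRep
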