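import Mathlib
import Fermat.Agent.GalRep.RootBall

/-!
# Pillar G, package ROOT (G1a), part 2: gluing the roots on discs

* `RT_root_halfplane` : a function on the upper half plane `{z | 0 < im z}` which is locally an
  `n`-th power times a unit (`RT_LocPow`) has a holomorphic `n`-th root there.
  (Discs `B(Ri, R - δ)` exhaust the half plane; the roots on the discs are normalised at a base
  point and agree on intersections by the identity theorem.)
-/

set_option autoImplicit false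

open Complex Metric Set Filter Topology

namespace Fermat.Agent.GalRep

/-- the closed disc with centre `R i` and radius `R - δ` lies in the upper half plane. -/
theorem RT_closedBall_subset (R δ : ℝ) (hδ : 0 < δ) :
    closedBall ((R : ℂ) * I) (R - δ) ⊆ {z : ℂ | 0 < z.im} := by
  intro w hw
  rw [mem_closedBall, dist_eq_norm] at hw
  have h1 : |(w - (R : ℂ) * I).im| ≤ ‖w - (R : ℂ) * I‖ := Complex.abs_im_le_norm _
  have h2 : (w - (R : ℂ) * I).im = w.im - R := by simp
  rw [h2] at h1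
  have h3 := (abs_le.mp (h1.trans hw)).1
  show 0 < w.im
  linarith

/-- a point of the upper half plane lies in the open disc with centre `R i` and radius `R - δ`
as soon as `δ ≤ im z / 2` and `R` is large. -/
theorem RT_mem_ball (z : ℂ) (R δ : ℝ) (hδ : 0 < δ) (hz : 2 * δ ≤ z.im)
    (hR : ‖z‖ ^ 2 < 2 * R * δ) : z ∈ ball ((R : ℂ) * I) (R - δ) := by
  have hR0 : 0 < R := by
    have : 0 ≤ ‖z‖ ^ 2 := by positivity
    by_contra h
    push Not at h
    nlinarith
  have hRδ : 0 < R - δ := by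
    have h1 : ‖z‖ ^ 2 = z.re * z.re + z.im * z.im := by
      rw [Complex.sq_norm, Complex.normSq_apply]
    nlinarith [mul_self_nonneg z.re, mul_self_nonneg (z.im - 2 * δ)]
  rw [mem_ball, dist_eq_norm]
  refine lt_of_pow_lt_pow_left₀ 2 hRδ.le ?_
  rw [Complex.sq_norm, Complex.normSq_apply]
  have h1 : ‖z‖ ^ 2 = z.re * z.re + z.im * z.im := by
    rw [Complex.sq_norm, Complex.normSq_apply]
  have h2 : (z - (R : ℂ) * I).re = z.re := by simp
  have h3 : (z - (R : ℂ) * I).im = z.im - R := by simp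
  rw [h2, h3]
  nlinarith

/-- **A4**: a function on the upper half plane which is locally an `n`-th power times a unit has
a holomorphic `n`-th root on the upper half plane. -/
theorem RT_root_halfplane (n : ℕ) (hn : n ≠ 0) (G : ℂ → ℂ)
    (hloc : ∀ z : ℂ, 0 < z.im → RT_LocPow n G z) :
    ∃ H : ℂ → ℂ, DifferentiableOn ℂ H {z : ℂ | 0 < z.im} ∧ ∀ z : ℂ, 0 < z.im → H z ^ n = G z := by
  classical
  have hUopen : IsOpen {z : ℂ | 0 < z.im} := isOpen_lt continuous_const Complex.continuous_im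
  -- base point
  obtain ⟨z₀, hz₀U, hGz₀⟩ : ∃ z₀ : ℂ, 0 < z₀.im ∧ G z₀ ≠ 0 := by
    have hI : (0 : ℝ) < (I : ℂ).im := by simp
    have h1 : ∀ᶠ w in 𝓝[≠] (I : ℂ), w ≠ I → G w ≠ 0 :=
      eventually_nhdsWithin_of_eventually_nhds (hloc I hI).eventually_ne
    have h2 : ∀ᶠ w in 𝓝[≠] (I : ℂ), 0 < w.im :=
      eventually_nhdsWithin_of_eventually_nhds (hUopen.mem_nhds hI)
    have h3 : ∀ᶠ w in 𝓝[≠] (I : ℂ), w ≠ I := eventually_mem_nhdsWithin
    obtain ⟨w, hw1, hw2, hw3⟩ := (h1.and (h2.and h3)).exists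
    exact ⟨w, hw2, hw1 hw3⟩
  obtain ⟨w₀, hw₀⟩ := RT_exists_pow_eq n hn (G z₀)
  have hw₀0 : w₀ ≠ 0 := by
    rintro rfl
    rw [zero_pow hn] at hw₀
    exact hGz₀ hw₀.symm
  -- admissible data
  let Adm : ℂ → ℝ → (ℂ → ℂ) → Prop := fun c r h =>
    closedBall c r ⊆ {z : ℂ | 0 < z.im} ∧ z₀ ∈ ball c r ∧ DifferentiableOn ℂ h (ball c r) ∧
      (∀ z ∈ ball c r, h z ^ n = G z) ∧ h z₀ = w₀
  have hex : ∀ z : ℂ, 0 < z.im → ∃ c r h, Adm c r h ∧ z ∈ ball c r := by
    intro z hz
    set δ : ℝ := min z.im z₀.im / 2 with hδ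
    have hδ0 : 0 < δ := by
      have : 0 < min z.im z₀.im := lt_min hz hz₀U
      positivity
    have hδz : 2 * δ ≤ z.im := by
      have := min_le_left z.im z₀.im
      linarith
    have hδz₀ : 2 * δ ≤ z₀.im := by
      have := min_le_right z.im z₀.im
      linarith
    set R : ℝ := (‖z‖ ^ 2 + ‖z₀‖ ^ 2) / δ + 1 with hR
    have hRz : ‖z‖ ^ 2 + ‖z₀‖ ^ 2 < R * δ := by
      rw [hR, add_mul, div_mul_cancel₀ _ hδ0.ne']
      linarith
    have hz2 : 0 ≤ ‖z‖ ^ 2 := by positivity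
    have hz₀2 : 0 ≤ ‖z₀‖ ^ 2 := by positivity
    have hsub := RT_closedBall_subset R δ hδ0
    have hzb : z ∈ ball ((R : ℂ) * I) (R - δ) := RT_mem_ball z R δ hδ0 hδz (by linarith)
    have hz₀b : z₀ ∈ ball ((R : ℂ) * I) (R - δ) := RT_mem_ball z₀ R δ hδ0 hδz₀ (by linarith)
    obtain ⟨h', hh', hh'n⟩ := RT_root_ball n hn ((R : ℂ) * I) (R - δ) G
      (fun w hw => hloc w (hsub hw))
    have hh'z₀ : h' z₀ ≠ 0 := by
      intro h0
      have := hh'n z₀ hz₀b
      rw [h0, zero_pow hn] at this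
      exact hGz₀ this.symm
    refine ⟨(R : ℂ) * I, R - δ, fun w => (w₀ / h' z₀) * h' w, ⟨hsub, hz₀b, ?_, ?_, ?_⟩, hzb⟩
    · exact hh'.const_mul _
    · intro w hw
      show ((w₀ / h' z₀) * h' w) ^ n = G w
      rw [mul_pow, div_pow, hw₀, hh'n z₀ hz₀b, div_self hGz₀, one_mul, hh'n w hw]
    · show (w₀ / h' z₀) * h' z₀ = w₀
      rw [div_mul_cancel₀ _ hh'z₀]
  have huniq : ∀ c r h c' r' h', Adm c r h → Adm c' r' h' →
      EqOn h h' (ball c r ∩ ball c' r') := by
    intro c r h c' r' h' hA hA'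
    obtain ⟨-, hz₀b, hd, hp, hv⟩ := hA
    obtain ⟨-, hz₀b', hd', hp', hv'⟩ := hA'
    refine RT_root_unique n hn _ (isOpen_ball.inter isOpen_ball)
      ((convex_ball c r).inter (convex_ball c' r')).isPreconnected h h'
      (hd.mono inter_subset_left) (hd'.mono inter_subset_right) ?_ z₀ ⟨hz₀b, hz₀b'⟩ ?_ ?_
    · intro z hz
      rw [hp z hz.1, hp' z hz.2]
    · rw [hv, hv']
    · rw [hv']
      exact hw₀0
  -- the glued function
  choose c r h hAdm hmem using hex
  let H : ℂ → ℂ := fun z => if hz : 0 < z.im then h z hz z else 0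
  have hH : ∀ c' r' h', Adm c' r' h' → EqOn H h' (ball c' r') := by
    intro c' r' h' hA z hz
    have hzU : 0 < z.im := hA.1 (ball_subset_closedBall hz)
    show (if hz : 0 < z.im then h z hz z else 0) = h' z
    rw [dif_pos hzU]
    exact huniq _ _ _ _ _ _ (hAdm z hzU) hA ⟨hmem z hzU, hz⟩
  refine ⟨H, ?_, ?_⟩
  · intro z hz
    have hA := hAdm z hz
    have h1 : DifferentiableAt ℂ (h z hz) z :=
      hA.2.2.1.differentiableAt (isOpen_ball.mem_nhds (hmem z hz))
    have h2 : H =ᶠ[𝓝 z] h z hz :=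
      Filter.eventuallyEq_of_mem (isOpen_ball.mem_nhds (hmem z hz)) (hH _ _ _ hA)
    exact (h2.differentiableAt_iff.mpr h1).differentiableWithinAt
  · intro z hz
    have hA := hAdm z hz
    rw [hH _ _ _ hA (hmem z hz)]
    exact hA.2.2.2.1 z (hmem z hz)

end Fermat.Agent.GalRep
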