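import Mathlib
import Fermat.Agent.S24.MerField
import Fermat.Agent.GalRep.RootGlue

/-!
# Pillar G, package ROOT (G1a): `n`-th roots in the field `Mer` of meromorphic functions on `ℍ`

* `RT_exists_root_hol` : a nonzero holomorphic function on `ℍ` all of whose zero orders are
  divisible by `n` is the `n`-th power of a holomorphic function.
* `RT_exists_root` : a nonzero element of `Mer = Frac(Hol)` all of whose orders `S24_ordM τ x`
  are divisible by `n` is an `n`-th power in `Mer`.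
-/

set_option autoImplicit false

open Complex Metric Set Filter Topology UpperHalfPlane
open scoped Manifold

namespace Fermat.Agent.GalRep

open Fermat.Agent.S24

/-- a nonzero holomorphic function on `ℍ` whose order at `τ` is divisible by `n` is locally an
`n`-th power times a unit. -/
theorem RT_locPow_of_hol (n : ℕ) (G : Hol) (hG : G ≠ 0) (τ : ℍ)
    (h : (n : ℤ) ∣ S24_ordH τ G) :
    RT_LocPow n (fun z : ℂ => (G : ℍ → ℂ) (ofComplex z)) (τ : ℂ) := by
  have han := S24_analyticAt_of_mdiff (S24_Hol_mdiff G) τ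
  have hspec := S24_ordH_spec hG τ
  rw [S24_ordAt_def, han.meromorphicOrderAt_eq] at hspec
  have hnn := S24_ordH_nonneg τ G
  obtain ⟨m, hm⟩ := Int.eq_ofNat_of_zero_le hnn
  rw [hm] at hspec h
  obtain ⟨k, hk⟩ : ∃ k : ℕ, m = n * k := by
    obtain ⟨k', hk'⟩ := Int.natCast_dvd_natCast.mp h
    exact ⟨k', hk'⟩
  have hord : analyticOrderAt (fun z : ℂ => (G : ℍ → ℂ) (ofComplex z)) (τ : ℂ) = (m : ℕ∞) := by
    cases hcase : analyticOrderAt (fun z : ℂ => (G : ℍ → ℂ) (ofComplex z)) (τ : ℂ) with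
    | top =>
      rw [hcase] at hspec
      simp at hspec
    | coe a =>
      rw [hcase] at hspec
      simp only [ENat.map_natCast] at hspec
      have : (a : ℤ) = (m : ℤ) := by exact_mod_cast hspec
      have : a = m := by exact_mod_cast this
      rw [this]
  obtain ⟨g, hg, hg0, hgG⟩ := han.analyticOrderAt_eq_natCast.mp hord
  refine ⟨k, g, hg, hg0, ?_⟩
  filter_upwards [hgG] with w hw
  rw [hw, hk, smul_eq_mul]

/-- **ROOT for holomorphic functions**. -/
theorem RT_exists_root_hol (n : ℕ) (hn : 0 < n) (G : Hol) (hG : G ≠ 0)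
    (h : ∀ τ : ℍ, (n : ℤ) ∣ S24_ordH τ G) : ∃ H : Hol, H ^ n = G := by
  obtain ⟨H, hH, hHn⟩ := RT_root_halfplane n hn.ne' (fun z : ℂ => (G : ℍ → ℂ) (ofComplex z))
    (fun z hz => by
      have := RT_locPow_of_hol n G hG ⟨z, hz⟩ (h ⟨z, hz⟩)
      exact this)
  have hmd : MDifferentiable 𝓘(ℂ) 𝓘(ℂ) (fun τ : ℍ => H (τ : ℂ)) := by
    rw [UpperHalfPlane.mdifferentiable_iff]
    refine hH.congr (fun z hz => ?_)
    show H ((ofComplex z : ℍ) : ℂ) = H z
    rw [ofComplex_apply_of_im_pos hz]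
  refine ⟨⟨fun τ : ℍ => H (τ : ℂ), hmd⟩, ?_⟩
  apply Subtype.ext
  funext τ
  show H (τ : ℂ) ^ n = (G : ℍ → ℂ) τ
  rw [hHn (τ : ℂ) τ.im_pos, ofComplex_apply]

/-- **ROOT** (package G1a of pillar G).  A meromorphic function on `ℍ` all of whose orders are
divisible by `n` is an `n`-th power in `Mer`. -/
theorem RT_exists_root (n : ℕ) (hn : 0 < n) (x : Mer) (hx : x ≠ 0)
    (h : ∀ τ : ℍ, (n : ℤ) ∣ S24_ordM τ x) : ∃ y : Mer, y ^ n = x := by
  obtain ⟨a, b, hb, rfl⟩ := S24_exists_eq_div x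
  have ha : a ≠ 0 := by
    rintro rfl
    simp at hx
  have hG : a * b ^ (n - 1) ≠ 0 := mul_ne_zero ha (pow_ne_zero _ hb)
  have hord : ∀ τ : ℍ, (n : ℤ) ∣ S24_ordH τ (a * b ^ (n - 1)) := by
    intro τ
    have h1 := h τ
    rw [S24_ordM_div_hol τ ha hb] at h1
    have h2 : S24_ordH τ (a * b ^ (n - 1)) = S24_ordH τ a + (n - 1 : ℕ) * S24_ordH τ b := by
      rw [S24_ordH_mul ha (pow_ne_zero _ hb)]
      congr 1
      induction (n - 1) with
      | zero => simp [S24_ordH_one]
      | succ k ih =>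
        rw [pow_succ, S24_ordH_mul (pow_ne_zero _ hb) hb, ih]
        push_cast
        ring
    rw [h2]
    have h3 : S24_ordH τ a + ((n - 1 : ℕ) : ℤ) * S24_ordH τ b =
        (S24_ordH τ a - S24_ordH τ b) + (n : ℤ) * S24_ordH τ b := by
      have : ((n - 1 : ℕ) : ℤ) = (n : ℤ) - 1 := by
        rw [Nat.cast_sub hn]
        simp
      rw [this]
      ring
    rw [h3]
    exact dvd_add h1 (dvd_mul_right _ _)
  obtain ⟨H, hH⟩ := RT_exists_root_hol n hn (a * b ^ (n - 1)) hG hord
  refine ⟨algebraMap Hol Mer H / algebraMap Hol Mer b, ?_⟩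
  have hb' : algebraMap Hol Mer b ≠ 0 := S24_algebraMap_ne_zero hb
  rw [div_pow, ← map_pow, hH, map_mul, map_pow]
  have hn1 : algebraMap Hol Mer b ^ n = algebraMap Hol Mer b ^ (n - 1) * algebraMap Hol Mer b := by
    rw [← pow_succ]
    congr 1
    omega
  rw [hn1]
  field_simp

end Fermat.Agent.GalRep
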