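import Mathlib
import Fermat.Agent.GalRep.KMParCore
import Fermat.Agent.GalRep.KMChar
import Fermat.Agent.GalRep.KMEisChar
import Fermat.Agent.GalRep.Bridge
import Fermat.Agent.GalRep.Root

/-!
# Pillar G, package INJ: injectivity of the Kummer map over `ℂ`

* `KM_cuspFrac_root`   : an `N`-periodic `r`-th root of a `CuspFrac N` is a `CuspFrac N`;
* `KM_cuspFrac_root_conj` : all conjugates of an invariant root of an invariant function with
  `CuspFrac` conjugates are `CuspFrac`;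
* `KM_kummer_injC`     : a `Γ₀(N)`-invariant `n`-th root of `KC_ev N f` is `KC_ev N u`, `f = uⁿ`;
* `KM_kappaC`, `KM_kappaC_inj` : the class map `κ` over `ℂ` and its injectivity, in the shape of
  the hypothesis `hκ` of `DSC_main_kappa` (package DESC).
-/

set_option autoImplicit false

open scoped Real Topology Manifold MatrixGroups
open UpperHalfPlane hiding I
open Complex Filter Function CongruenceSubgroup ModularCurve AlgebraicCurve

namespace Fermat.Agent.GalRep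

open Fermat.Agent.S24

/-- an `N`-periodic `r`-th root of a function which is meromorphic at `i∞` (level `N`) is
meromorphic at `i∞` (level `N`). -/
theorem KM_cuspFrac_root {N : ℕ} (hN : 0 < N) {r : ℕ} (hr : 0 < r) {Y Φ : Mer} (hY : Y ^ r = Φ)
    {m : ℤ} {c₁ : ℂ} (hΦ : CuspFrac N Φ m c₁)
    (hT : merComp (ModularGroup.T ^ ((N : ℤ))) Y = Y) :
    ∃ (m' : ℤ) (c' : ℂ), CuspFrac N Y m' c' := by
  have : NeZero N := ⟨hN.ne'⟩
  have hΦ0 : Φ ≠ 0 := hΦ.ne_zero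
  have hY0 : Y ≠ 0 := by
    rintro rfl
    rw [zero_pow hr.ne'] at hY
    exact hΦ0 hY.symm
  obtain ⟨a, b, hma, hmb, ha, hb, e, -, -⟩ := hΦ
  have hb' : algebraMap Hol Mer b ≠ 0 := algebraMap_hol_ne_zero hb
  have hpow : (Y * algebraMap Hol Mer b) ^ r = algebraMap Hol Mer (a * b ^ (r - 1)) := by
    rw [mul_pow, hY, map_mul, map_pow, ← e]
    have : r = (r - 1) + 1 := by omega
    conv_lhs => rw [this, pow_succ]
    ring
  obtain ⟨A, hA⟩ := KM_exists_hol_of_pow hr _ _ hpow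
  have hA0 : A ≠ 0 := by
    rintro rfl
    rw [map_zero] at hA
    exact mul_ne_zero hY0 hb' hA.symm
  have hAr : A ^ r = a * b ^ (r - 1) := by
    apply IsFractionRing.injective Hol Mer
    rw [map_pow, hA, hpow]
  have hbT : holComp (ModularGroup.T ^ ((N : ℤ))) b = b := by
    have := KM_holComp_T_of_per hmb.per 1
    simpa using this
  have hAT : holComp (ModularGroup.T ^ ((N : ℤ))) A = A := by
    apply IsFractionRing.injective Hol Mer
    rw [← merComp_algebraMap, hA, map_mul, hT, merComp_algebraMap, hbT]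
  have hAper : ∀ τ : ℍ, (A : ℍ → ℂ) ((N : ℝ) +ᵥ τ) = (A : ℍ → ℂ) τ := by
    intro τ
    have h1 := congrFun (holComp_T_zpow (N : ℤ) A) τ
    rw [hAT, Fermat.Agent.S24.translate] at h1
    rw [h1]
    congr 2
  have hApow : MeroCusp N ((A : ℍ → ℂ) ^ r) := by
    have h1 : ((A : ℍ → ℂ) ^ r) = (a : ℍ → ℂ) * (b : ℍ → ℂ) ^ (r - 1) := by
      have := congrArg (fun f : Hol => (f : ℍ → ℂ)) hAr
      simpa using this
    rw [h1]
    exact hma.mul (hmb.pow _)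
  have hmA : MeroCusp N (A : ℍ → ℂ) := KM_meroCusp_of_pow hr hAper A.2 hApow
  exact ⟨_, _, A, b, hmA, hmb, hA0, hb, hA.symm, rfl, rfl⟩

/-- every conjugate of a `Γ₀(N)`-invariant function is `T^N`-invariant. -/
theorem KM_conj_T_inv {N : ℕ} {y : Mer} (hinv : ∀ γ ∈ Gamma0 N, merComp γ y = y)
    (γ : SL(2, ℤ)) :
    merComp (ModularGroup.T ^ ((N : ℤ))) (merComp γ y) = merComp γ y := by
  have h1 : γ * ModularGroup.T ^ ((N : ℤ)) = (γ * ModularGroup.T ^ ((N : ℤ)) * γ⁻¹) * γ := by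
    group
  have h2 : merComp (ModularGroup.T ^ ((N : ℤ))) (merComp γ y)
      = merComp (γ * ModularGroup.T ^ ((N : ℤ))) y := by
    rw [merComp_mul]; rfl
  rw [h2, h1, merComp_mul, RingHom.comp_apply, hinv _ (KME_conj_T_mem N γ)]

/-- the conjugates of a `Γ₀(N)`-invariant `n`-th root are meromorphic at `i∞`. -/
theorem KM_cuspFrac_root_conj {N : ℕ} (hN : 0 < N) {n : ℕ} (hn : 0 < n) {y : Mer}
    (hinv : ∀ γ ∈ Gamma0 N, merComp γ y = y)
    (hc : ∀ γ : SL(2, ℤ), ∃ (m : ℤ) (c : ℂ), CuspFrac N (merComp γ (y ^ n)) m c)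
    (γ : SL(2, ℤ)) : ∃ (m : ℤ) (c : ℂ), CuspFrac N (merComp γ y) m c := by
  obtain ⟨m, c, h⟩ := hc γ
  exact KM_cuspFrac_root hN hn (map_pow (merComp γ) y n).symm h (KM_conj_T_inv hinv γ)

/-- **INJ over `ℂ`** (analytic core): a `Γ₀(N)`-invariant `n`-th root of `KC_ev N f` comes from
`F_ℂ`. -/
theorem KM_kummer_injC (N : ℕ) [NeZero N] {n : ℕ} (hn : 0 < n) {f : KM_FC N} (hf : f ≠ 0)
    {y : Mer} (hy : y ^ n = KC_ev N f) (hinv : ∀ γ ∈ Gamma0 N, merComp γ y = y) :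
    ∃ u : KM_FC N, KC_ev N u = y ∧ f = u ^ n := by
  have hN : 0 < N := Nat.pos_of_ne_zero (NeZero.ne N)
  have hc : ∀ γ : SL(2, ℤ), ∃ (m : ℤ) (c : ℂ), CuspFrac N (merComp γ (y ^ n)) m c := by
    intro γ
    rw [hy]
    exact (KC_real N).cusp γ f hf
  obtain ⟨u, hu⟩ := KMB_bridge N y hinv (KM_cuspFrac_root_conj hN hn hinv hc)
  refine ⟨u, hu, ?_⟩
  apply (KC_ev N).injective
  rw [map_pow, hu, hy]

/-! ### the class map over `ℂ` -/

/-- a root and a character of a Kummer generator over `ℂ`. -/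
theorem KM_exists_root_charC (N : ℕ) [NeZero N] {n : ℕ} (hn : 0 < n) {f : KM_FC N}
    (hf : KM_IsKum ℂ (KM_FC N) n f) :
    ∃ (χ : Additive (Gamma0 N) →+ ZMod n) (y : Mer), KM_IsEll N n χ ∧ y ^ n = KC_ev N f ∧
      KM_HasChar N n y χ := by
  have he := KC_real N
  have hx : KC_ev N f ≠ 0 := KM_real_ne_zero (KC_ev N) hf
  obtain ⟨y, hy⟩ := RT_exists_root n hn (KC_ev N f) hx (fun τ => KM_dvd_ordM he hf τ)
  obtain ⟨χ, hχ, hc⟩ := KM_exists_char hn he hf hy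
  exact ⟨χ, y, hχ, hy, hc⟩

open Classical in
/-- **the class map `κ` over `ℂ`**: the Kummer character of a Kummer generator (junk `0`
elsewhere). -/
noncomputable def KM_kappaC (N : ℕ) [NeZero N] (n : ℕ) (f : KM_FC N) :
    Additive (Gamma0 N) →+ ZMod n :=
  if h : 0 < n ∧ KM_IsKum ℂ (KM_FC N) n f then (KM_exists_root_charC N h.1 h.2).choose else 0

theorem KM_kappaC_spec (N : ℕ) [NeZero N] {n : ℕ} (hn : 0 < n) {f : KM_FC N}
    (hf : KM_IsKum ℂ (KM_FC N) n f) :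
    ∃ y : Mer, KM_IsEll N n (KM_kappaC N n f) ∧ y ^ n = KC_ev N f ∧
      KM_HasChar N n y (KM_kappaC N n f) := by
  have h : 0 < n ∧ KM_IsKum ℂ (KM_FC N) n f := ⟨hn, hf⟩
  rw [KM_kappaC, dif_pos h]
  exact (KM_exists_root_charC N h.1 h.2).choose_spec

/-- the character of a quotient. -/
theorem KM_hasChar_div {N n : ℕ} {y y' : Mer}
    {χ : Additive (Gamma0 N) →+ ZMod n} (h : KM_HasChar N n y χ) (h' : KM_HasChar N n y' χ)
    (hy : y ≠ 0) : ∀ γ ∈ Gamma0 N, merComp γ (y' / y) = y' / y := by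
  intro γ hγ
  have h1 := h ⟨γ, hγ⟩
  have h2 := h' ⟨γ, hγ⟩
  simp only at h1 h2
  rw [map_div₀, h1, h2]
  have hz : algebraMap ℂ Mer (KM_zeta n (χ (Additive.ofMul ⟨γ, hγ⟩))) ≠ 0 :=
    (map_ne_zero _).mpr (KM_zeta_ne_zero _ _)
  field_simp

/-- **INJ over `ℂ`**, in the shape of the hypothesis `hκ` of `DSC_main_kappa`. -/
theorem KM_kappaC_inj (N : ℕ) [NeZero N] {n : ℕ} (hn : 0 < n) (f₁ f₂ : KM_FC N)
    (h₁ : f₁ ≠ 0) (hk₁ : ∀ w : Place ℂ (KM_FC N), (n : ℤ) ∣ w.ord f₁)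
    (h₂ : f₂ ≠ 0) (hk₂ : ∀ w : Place ℂ (KM_FC N), (n : ℤ) ∣ w.ord f₂)
    (h : KM_kappaC N n f₁ = KM_kappaC N n f₂) :
    ∃ (c : ℂ) (u : KM_FC N), c ≠ 0 ∧ u ≠ 0 ∧ f₂ = algebraMap ℂ (KM_FC N) c * u ^ n * f₁ := by
  obtain ⟨y₁, -, hy₁, hc₁⟩ := KM_kappaC_spec N hn (f := f₁) ⟨h₁, hk₁⟩
  obtain ⟨y₂, -, hy₂, hc₂⟩ := KM_kappaC_spec N hn (f := f₂) ⟨h₂, hk₂⟩
  rw [← h] at hc₂
  have hy₁0 : y₁ ≠ 0 := KM_root_ne_zero (KC_ev N) hn (f := f₁) ⟨h₁, hk₁⟩ hy₁
  have hinv := KM_hasChar_div hc₁ hc₂ hy₁0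
  have hq : f₂ / f₁ ≠ 0 := div_ne_zero h₂ h₁
  have hpow : (y₂ / y₁) ^ n = KC_ev N (f₂ / f₁) := by
    rw [div_pow, hy₁, hy₂, map_div₀]
  obtain ⟨u, -, hu⟩ := KM_kummer_injC N hn hq hpow hinv
  refine ⟨1, u, one_ne_zero, ?_, ?_⟩
  · rintro rfl
    rw [zero_pow hn.ne'] at hu
    exact hq hu
  · rw [map_one, one_mul, ← hu, div_mul_cancel₀ _ h₁]

end Fermat.Agent.GalRep
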