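import Mathlib
import Fermat.Agent.GalRep.Geom
import Fermat.Agent.GalRep.KMChar
import Fermat.Agent.GalRep.Root

/-!
# Pillar G, package KAPPA: the unconditional fields of `GR_KappaStmt`

`gal`, `ex`, `uniq`, `mul`, `triv` (for `0 < n`), `red` (for `0 < m`) of `GR_KappaStmt N`,
from ROOT (`RT_exists_root`), ORD (`KM_dvd_ordM`) and CHAR (`KM_exists_char`).
-/

set_option autoImplicit false

open ModularCurve AlgebraicCurve CongruenceSubgroup UpperHalfPlane Matrix.SpecialLinearGroup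
open scoped MatrixGroups

namespace Fermat.Agent.GalRep

open Fermat.Agent.S24 Fermat.Agent.S20

/-! ### `gal` -/

/-- a semilinear automorphism preserves Kummer generators. -/
theorem KMK_isKum_smul {K F : Type} [Field K] [Field F] [Algebra K F] (g : SemilinearAut K F)
    {n : ℕ} {f : F} (hf : KM_IsKum K F n f) : KM_IsKum K F n (g • f) := by
  refine ⟨?_, fun v => ?_⟩
  · intro h
    apply hf.1
    have := congrArg (g⁻¹ • ·) h
    simpa using this
  · have h1 := SemilinearAut.ord_smul g (g⁻¹ • v) f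
    rw [smul_inv_smul] at h1
    rw [h1]
    exact hf.2 _

/-- **KAPPA.gal** -/
theorem KMK_gal (N : ℕ) [NeZero N] (n : ℕ) (σ : GQ) (f : ↥(modularFunctionFieldBar N))
    (hf : KM_IsKum (AlgebraicClosure ℚ) ↥(modularFunctionFieldBar N) n f) :
    KM_IsKum (AlgebraicClosure ℚ) ↥(modularFunctionFieldBar N) n (GR_gal N σ f) :=
  KMK_isKum_smul (arithmeticGalois (modularFunctionFieldFull N) σ) hf

/-! ### `ex` -/

/-- **KAPPA.ex** -/
theorem KMK_ex (N : ℕ) [NeZero N] (n : ℕ) (hn : 0 < n) (f : ↥(modularFunctionFieldBar N))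
    (hf : KM_IsKum (AlgebraicClosure ℚ) ↥(modularFunctionFieldBar N) n f) :
    ∃ χ : Additive (Gamma0 N) →+ ZMod n, KM_IsEll N n χ ∧ GR_KChar N n f χ := by
  have he := KM_real_bar N
  have hx : ev N f ≠ 0 := KM_real_ne_zero (ev N) hf
  obtain ⟨y, hy⟩ := RT_exists_root n hn (ev N f) hx (fun τ => KM_dvd_ordM he hf τ)
  obtain ⟨χ, hχ, hc⟩ := KM_exists_char hn he hf hy
  exact ⟨χ, hχ, y, hy, hc⟩

/-! ### `uniq` -/

/-- a constant multiple has the same character. -/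
theorem KMK_hasChar_const_mul {N n : ℕ} {y : Mer} {χ : Additive (Gamma0 N) →+ ZMod n}
    (h : KM_HasChar N n y χ) (c : ℂ) : KM_HasChar N n (algebraMap ℂ Mer c * y) χ := by
  intro γ
  rw [map_mul, merComp_const, h γ]
  ring

/-- **KAPPA.uniq** -/
theorem KMK_uniq (N : ℕ) [NeZero N] (n : ℕ) (hn : 0 < n) (f : ↥(modularFunctionFieldBar N))
    (χ χ' : Additive (Gamma0 N) →+ ZMod n) (hf : f ≠ 0)
    (h : GR_KChar N n f χ) (h' : GR_KChar N n f χ') : χ = χ' := by
  obtain ⟨y, hy, hc⟩ := h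
  obtain ⟨y', hy', hc'⟩ := h'
  have hx : ev N f ≠ 0 := (map_ne_zero (ev N)).mpr hf
  have hy0 : y ≠ 0 := by
    rintro rfl
    rw [zero_pow hn.ne'] at hy
    exact hx hy.symm
  have hu : (y' / y) ^ n = 1 := by
    rw [div_pow, hy, hy']
    exact div_self hx
  obtain ⟨a, ha⟩ := KM_exists_zeta_of_pow_eq_one hn _ hu
  have hy'eq : y' = algebraMap ℂ Mer (KM_zeta n a) * y := by
    rw [← ha]
    field_simp
  have hy'0 : y' ≠ 0 := by
    rintro rfl
    rw [zero_pow hn.ne'] at hy'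
    exact hx hy'.symm
  have h2 : KM_HasChar N n y' χ := by
    rw [hy'eq]
    exact KMK_hasChar_const_mul hc _
  exact KM_char_unique hn hy'0 h2 hc'

/-! ### `mul` -/

theorem KMK_zeta_of_zero (a : ZMod 0) : KM_zeta 0 a = 1 := by
  simp [KM_zeta]

/-- **KAPPA.mul** (all `n`). -/
theorem KMK_mul (N : ℕ) [NeZero N] (n : ℕ) (f f' : ↥(modularFunctionFieldBar N))
    (χ χ' : Additive (Gamma0 N) →+ ZMod n)
    (h : GR_KChar N n f χ) (h' : GR_KChar N n f' χ') : GR_KChar N n (f * f') (χ + χ') := by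
  obtain ⟨y, hy, hc⟩ := h
  obtain ⟨y', hy', hc'⟩ := h'
  refine ⟨y * y', by rw [mul_pow, hy, hy', map_mul], ?_⟩
  rcases Nat.eq_zero_or_pos n with rfl | hn
  · intro γ
    rw [map_mul, hc γ, hc' γ, KMK_zeta_of_zero, KMK_zeta_of_zero, KMK_zeta_of_zero]
    simp
  · exact KM_hasChar_mul hn hc hc'

/-! ### `triv` -/

/-- **KAPPA.triv** (needs `0 < n`: for `n = 0` the statement is false). -/
theorem KMK_triv (N : ℕ) [NeZero N] (n : ℕ) (hn : 0 < n) (f : ↥(modularFunctionFieldBar N))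
    (h : GR_IsTriv N n f) : GR_KChar N n f 0 := by
  obtain ⟨c, g, -, -, rfl⟩ := h
  obtain ⟨c', hc'⟩ := IsAlgClosed.exists_pow_nat_eq (kEmb c) hn
  refine ⟨algebraMap ℂ Mer c' * ev N g, ?_, ?_⟩
  · rw [mul_pow, ← map_pow, hc', map_mul, map_pow, (isEv_ev N).const]
  · apply KMK_hasChar_const_mul
    exact KM_hasChar_zero (fun γ hγ => (KM_real_bar N).inv γ hγ g)

/-! ### `red` -/

theorem KMK_zeta_pow_red {n m : ℕ} (hn : 0 < n) (hm : 0 < m) (a : ZMod (n * m)) :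
    KM_zeta (n * m) a ^ m
      = KM_zeta n ((ZMod.castHom (Dvd.intro m rfl) (ZMod n)) a) := by
  have hnm : 0 < n * m := Nat.mul_pos hn hm
  have : NeZero (n * m) := ⟨hnm.ne'⟩
  obtain ⟨k, rfl⟩ : ∃ k : ℕ, a = (k : ZMod (n * m)) :=
    ⟨a.val, (ZMod.natCast_zmod_val a).symm⟩
  rw [map_natCast, KM_zeta_natCast hnm, KM_zeta_natCast hn, ← pow_mul, Nat.mul_comm k m, pow_mul]
  congr 1
  rw [← Complex.exp_nat_mul]
  congr 1
  have hn0 : (n : ℂ) ≠ 0 := by exact_mod_cast hn.ne'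
  have hm0 : (m : ℂ) ≠ 0 := by exact_mod_cast hm.ne'
  push_cast
  field_simp

/-- **KAPPA.red** (needs `0 < m`: for `m = 0 < n` the statement is false). -/
theorem KMK_red (N : ℕ) [NeZero N] (n m : ℕ) (hm : 0 < m) (f : ↥(modularFunctionFieldBar N))
    (χ : Additive (Gamma0 N) →+ ZMod (n * m))
    (h : GR_KChar N (n * m) f χ) : GR_KChar N n f (GR_redChar N n m χ) := by
  obtain ⟨y, hy, hc⟩ := h
  refine ⟨y ^ m, by rw [← pow_mul, mul_comm, hy], ?_⟩
  intro γ
  rw [map_pow, hc γ, mul_pow, ← map_pow]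
  congr 2
  rcases Nat.eq_zero_or_pos n with rfl | hn
  · simp [KM_zeta]
  · exact KMK_zeta_pow_red hn hm _

end Fermat.Agent.GalRep
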