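import Mathlib
import Fermat.Agent.S24.Wiring
import Fermat.Agent.S24.CyclicCusp

/-!
# Pillar G, package G2ASM (part 1): the refined abstract place count

`KK_place_refined_of` / `KK_place_refined`: in the situation of `S24_placeCount`, every place `v`
over `x = 0` is the place of some `w γ`, say `w γ = m · v.ord`, and the ramification index
`v.ord x` is the size of the orbit of `γ`.
-/

set_option autoImplicit false

open IntermediateField AlgebraicCurve

namespace Fermat.Agent.GalRep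

open Fermat.Agent.S24

variable {K F : Type*} [Field K] [Field F] [Algebra K F]

/-- **Refined place count**, with the inputs from the global theory as hypotheses. -/
theorem KK_place_refined_of (x : F) (hx0 : x ≠ 0) [FiniteDimensional K⟮x⟯ F]
    (happrox : ∀ (v₀ : Place K F) (s : Finset (Place K F)), 0 < v₀.ord x →
      (∀ v ∈ s, 0 < v.ord x) → v₀ ∉ s →
      ∃ b : F, b ≠ 0 ∧ IsIntegral (Algebra.adjoin K {x}) b ∧ 0 < v₀.ord b ∧ ∀ v ∈ s, v.ord b = 0)
    (hnormpos : ∀ (v : Place K F), 0 < v.ord x → ∀ b : F,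
      IsIntegral (Algebra.adjoin K {x}) b → 0 < v.ord b →
      ∃ p : Polynomial K, algebraMap K⟮x⟯ F (Algebra.norm K⟮x⟯ b) = x * Polynomial.aeval x p)
    (hsum : ∃ s : Finset (Place K F), (∀ v, v ∈ s ↔ 0 < v.ord x) ∧
      ∑ v ∈ s, v.ord x = Module.finrank K⟮x⟯ F)
    {G X : Type} [Group G] [MulAction G X] [Finite X]
    (w : X → F → ℤ) (hw : ∀ γ, IsVal (K := K) (w γ)) (hwx : ∀ γ, 0 < w γ x)
    (horb : ∀ (g : G) γ, w (g • γ) = w γ)
    (hdiv : ∀ γ f, f ≠ 0 → w γ x ∣ (Nat.card (MulAction.orbit G γ) : ℤ) * w γ f)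
    (hcard : Nat.card X = Module.finrank K⟮x⟯ F)
    (hnorm : ∀ f : F, f ≠ 0 → ∀ γ₀,
      ∑ᶠ γ, w γ f = w γ₀ (algebraMap K⟮x⟯ F (Algebra.norm K⟮x⟯ f)))
    (v : Place K F) (hv : 0 < v.ord x) :
    ∃ (γ : X) (m : ℤ), 0 < m ∧ (∀ f : F, f ≠ 0 → w γ f = m * v.ord f) ∧
      v.ord x = (Nat.card (MulAction.orbit G γ) : ℤ) := by
  classical
  have : Fintype X := Fintype.ofFinite X
  -- the places attached to the valuations
  set pl : X → Place K F := fun γ => (hw γ).place x hx0 (hwx γ) with hpl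
  have hm : ∀ γ, ∃ m : ℤ, 0 < m ∧ (∃ π : F, π ≠ 0 ∧ w γ π = m) ∧
      ∀ f : F, f ≠ 0 → w γ f = m * (pl γ).ord f := fun γ =>
    (hw γ).exists_mul_ord x hx0 (hwx γ)
  have hplx : ∀ γ, 0 < (pl γ).ord x := by
    intro γ
    obtain ⟨m, hm0, -, hmf⟩ := hm γ
    have h := hwx γ
    rw [hmf x hx0] at h
    exact (mul_pos_iff_of_pos_left hm0).mp h
  obtain ⟨s, hs, hssum⟩ := hsum
  -- nonemptiness of X
  have hXpos : 0 < Nat.card X := by
    rw [hcard]; exact Module.finrank_pos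
  have hXne : Nonempty X := (Nat.card_pos_iff.mp hXpos).1
  -- Step 2: every place over `x = 0` is attached to some `γ`
  have hsurj : ∀ v : Place K F, 0 < v.ord x → ∃ γ, pl γ = v := by
    intro v hv
    by_contra hcon
    push Not at hcon
    have hnotin : v ∉ Finset.univ.image pl := by
      intro h
      obtain ⟨γ, -, hγ⟩ := Finset.mem_image.mp h
      exact hcon γ hγ
    obtain ⟨b, hb0, hbint, hbv, hbs⟩ := happrox v (Finset.univ.image pl) hv
      (fun u hu => by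
        obtain ⟨γ, -, rfl⟩ := Finset.mem_image.mp hu
        exact hplx γ) hnotin
    have hwb : ∀ γ, w γ b = 0 := by
      intro γ
      obtain ⟨m, -, -, hmf⟩ := hm γ
      rw [hmf b hb0, hbs (pl γ) (Finset.mem_image_of_mem pl (Finset.mem_univ γ)), mul_zero]
    obtain ⟨p, hp⟩ := hnormpos v hv b hbint hbv
    obtain ⟨γ₀⟩ := hXne
    have hN := hnorm b hb0 γ₀
    rw [finsum_eq_zero_of_forall_eq_zero hwb, hp] at hN
    have hnm0 : algebraMap K⟮x⟯ F (Algebra.norm K⟮x⟯ b) ≠ 0 := by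
      rw [Ne, map_eq_zero_iff _ (algebraMap K⟮x⟯ F).injective, Algebra.norm_eq_zero_iff]
      exact hb0
    rw [hp] at hnm0
    have hp0 : Polynomial.aeval x p ≠ 0 := right_ne_zero_of_mul hnm0
    rw [(hw γ₀).mul x _ hx0 hp0] at hN
    have hpmem : Polynomial.aeval x p ∈ (hw γ₀).valuationSubring :=
      S24_aeval_mem_valuationSubring _ (pl γ₀).algebraMap_mem'
        (((hw γ₀).mem_valuationSubring_of_ne hx0).mpr (hwx γ₀).le) p
    have hpnn : 0 ≤ w γ₀ (Polynomial.aeval x p) :=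
      ((hw γ₀).mem_valuationSubring_of_ne hp0).mp hpmem
    have := hwx γ₀
    omega
  -- Step 3: counting
  let P := {v : Place K F // 0 < v.ord x}
  have hPfin : Finite P := by
    have : Finite {v : Place K F // v ∈ s} := Finite.of_fintype _
    exact Finite.of_equiv {v : Place K F // v ∈ s}
      (Equiv.subtypeEquivRight (fun v => hs v))
  let φ : X → P := fun γ => ⟨pl γ, hplx γ⟩
  let e : P → ℕ := fun v => (v.1.ord x).toNat
  have hφ : Function.Surjective φ := by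
    rintro ⟨v, hv⟩
    obtain ⟨γ, hγ⟩ := hsurj v hv
    exact ⟨γ, Subtype.ext hγ⟩
  have hinv : ∀ (g : G) (γ : X), φ (g • γ) = φ γ := by
    intro g γ
    apply Subtype.ext
    exact S24_place_congr (hw (g • γ)) (hw γ) (horb g γ) x hx0 (hwx _) (hwx _)
  have hle : ∀ γ : X, e (φ γ) ≤ Nat.card (MulAction.orbit G γ) := by
    intro γ
    obtain ⟨m, hm0, ⟨π, hπ0, hπ⟩, hmf⟩ := hm γ
    have h1 := hdiv γ π hπ0
    rw [hmf x hx0, hπ, mul_comm _ m] at h1
    have h2 : (pl γ).ord x ∣ (Nat.card (MulAction.orbit G γ) : ℤ) :=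
      Int.dvd_of_mul_dvd_mul_left hm0.ne' h1
    have hOpos : 0 < Nat.card (MulAction.orbit G γ) := by
      have : Nonempty (MulAction.orbit G γ) := ⟨⟨γ, MulAction.mem_orbit_self γ⟩⟩
      exact Nat.card_pos
    have h3 : (pl γ).ord x ≤ (Nat.card (MulAction.orbit G γ) : ℤ) :=
      Int.le_of_dvd (by exact_mod_cast hOpos) h2
    show ((pl γ).ord x).toNat ≤ _
    omega
  have hsumle : Nat.card X ≤ ∑ᶠ v, e v := by
    have h1 : ∑ᶠ v : P, e v = ∑ v ∈ s, (v.ord x).toNat := by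
      have hset : {v : Place K F | 0 < v.ord x} = ↑s := by
        ext v; simp [hs v]
      calc ∑ᶠ v : P, e v
          = ∑ᶠ v : ({v : Place K F | 0 < v.ord x} : Set (Place K F)), (v.1.ord x).toNat := rfl
        _ = ∑ᶠ v ∈ ({v : Place K F | 0 < v.ord x} : Set (Place K F)), (v.ord x).toNat :=
            finsum_set_coe_eq_finsum_mem (f := fun v : Place K F => (v.ord x).toNat)
              {v : Place K F | 0 < v.ord x}
        _ = ∑ v ∈ s, (v.ord x).toNat := by rw [hset, finsum_mem_coe_finset]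
    rw [h1]
    have h2 : ((∑ v ∈ s, (v.ord x).toNat : ℕ) : ℤ) = ∑ v ∈ s, v.ord x := by
      push_cast
      refine Finset.sum_congr rfl (fun v hv => ?_)
      have := (hs v).mp hv
      omega
    have h3 : ((∑ v ∈ s, (v.ord x).toNat : ℕ) : ℤ) = (Nat.card X : ℤ) := by
      rw [h2, hssum, hcard]
    have h4 : (∑ v ∈ s, (v.ord x).toNat) = Nat.card X := by exact_mod_cast h3
    omega
  have heq := (S24_counting (G := G) e φ hφ hinv hle hsumle).2
  obtain ⟨γ, hγ⟩ := hsurj v hv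
  obtain ⟨m, hm0, -, hmf⟩ := hm γ
  refine ⟨γ, m, hm0, fun f hf => by rw [hmf f hf, hγ], ?_⟩
  have h1 : ((pl γ).ord x).toNat = Nat.card (MulAction.orbit G γ) := heq γ
  have h2 := hplx γ
  rw [hγ] at h1 h2
  omega

section

variable [IsAlgClosed K] [CharZero K]

/-- **Refined place count** over `x = 0`: no global hypotheses left. -/
theorem KK_place_refined {x : F} (hx : Transcendental K x) [FiniteDimensional K⟮x⟯ F]
    {G X : Type} [Group G] [MulAction G X] [Finite X]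
    (w : X → F → ℤ) (hw : ∀ γ, IsVal (K := K) (w γ)) (hwx : ∀ γ, 0 < w γ x)
    (horb : ∀ (g : G) γ, w (g • γ) = w γ)
    (hdiv : ∀ γ f, f ≠ 0 → w γ x ∣ (Nat.card (MulAction.orbit G γ) : ℤ) * w γ f)
    (hcard : Nat.card X = Module.finrank K⟮x⟯ F)
    (hnorm : ∀ f : F, f ≠ 0 → ∀ γ₀,
      ∑ᶠ γ, w γ f = w γ₀ (algebraMap K⟮x⟯ F (Algebra.norm K⟮x⟯ f)))
    (v : Place K F) (hv : 0 < v.ord x) :
    ∃ (γ : X) (m : ℤ), 0 < m ∧ (∀ f : F, f ≠ 0 → w γ f = m * v.ord f) ∧
      v.ord x = (Nat.card (MulAction.orbit G γ) : ℤ) :=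
  KK_place_refined_of x (fun h => hx (h ▸ isAlgebraic_zero)) (BG_approx hx) (BG_norm hx)
    (BG_zeros_main hx) w hw hwx horb hdiv hcard hnorm v hv

/-- the refined place count over `j = c`, hypotheses in terms of `K(j)`. -/
theorem KK_place_refined_sub {j : F} (hj : Transcendental K j) [FiniteDimensional K⟮j⟯ F] (c : K)
    {G X : Type} [Group G] [MulAction G X] [Finite X]
    (w : X → F → ℤ) (hw : ∀ γ, IsVal (K := K) (w γ))
    (hwx : ∀ γ, 0 < w γ (j - algebraMap K F c))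
    (horb : ∀ (g : G) γ, w (g • γ) = w γ)
    (hdiv : ∀ γ f, f ≠ 0 →
      w γ (j - algebraMap K F c) ∣ (Nat.card (MulAction.orbit G γ) : ℤ) * w γ f)
    (hcard : Nat.card X = Module.finrank K⟮j⟯ F)
    (hnorm : ∀ f : F, f ≠ 0 → ∀ γ₀,
      ∑ᶠ γ, w γ f = w γ₀ (algebraMap K⟮j⟯ F (Algebra.norm K⟮j⟯ f)))
    (v : Place K F) (hv : 0 < v.ord (j - algebraMap K F c)) :
    ∃ (γ : X) (m : ℤ), 0 < m ∧ (∀ f : F, f ≠ 0 → w γ f = m * v.ord f) ∧
      v.ord (j - algebraMap K F c) = (Nat.card (MulAction.orbit G γ) : ℤ) := by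
  have := W_finite_sub j c
  exact KK_place_refined (W_transcendental_sub hj c) w hw hwx horb hdiv
    (hcard.trans (W_finrank_sub j c).symm)
    (fun f hf γ₀ => by rw [W_norm_sub j c f]; exact hnorm f hf γ₀) v hv

/-- the refined place count over `j = ∞`, hypotheses in terms of `K(j)`. -/
theorem KK_place_refined_inv {j : F} (hj : Transcendental K j) [FiniteDimensional K⟮j⟯ F]
    {G X : Type} [Group G] [MulAction G X] [Finite X]
    (w : X → F → ℤ) (hw : ∀ γ, IsVal (K := K) (w γ))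
    (hwx : ∀ γ, 0 < w γ j⁻¹)
    (horb : ∀ (g : G) γ, w (g • γ) = w γ)
    (hdiv : ∀ γ f, f ≠ 0 → w γ j⁻¹ ∣ (Nat.card (MulAction.orbit G γ) : ℤ) * w γ f)
    (hcard : Nat.card X = Module.finrank K⟮j⟯ F)
    (hnorm : ∀ f : F, f ≠ 0 → ∀ γ₀,
      ∑ᶠ γ, w γ f = w γ₀ (algebraMap K⟮j⟯ F (Algebra.norm K⟮j⟯ f)))
    (v : Place K F) (hv : v.ord j < 0) :
    ∃ (γ : X) (m : ℤ), 0 < m ∧ (∀ f : F, f ≠ 0 → w γ f = m * v.ord f) ∧
      v.ord j⁻¹ = (Nat.card (MulAction.orbit G γ) : ℤ) := by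
  have := W_finite_inv (K := K) j
  exact KK_place_refined (BG_transcendental_inv hj) w hw hwx horb hdiv
    (hcard.trans (W_finrank_inv j).symm)
    (fun f hf γ₀ => by rw [W_norm_inv j f]; exact hnorm f hf γ₀) v
    (by rw [v.ord_inv]; omega)

end

end Fermat.Agent.GalRep
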