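import Mathlib
import Fermat.Agent.GalRep.KMKumCount
import Fermat.Agent.GalRep.KCDict
import Fermat.Agent.GalRep.KMParCore
import Fermat.Agent.GalRep.Bridge
import Fermat.Agent.S24.FinCount

/-!
# Pillar G, package G2ASM: a function with an elliptic character is a Kummer generator

`KK_isKum_of_pow`: if `y ∈ Mer`, `y ≠ 0`, transforms under `Γ₀(N)` by an elliptic character `χ`
(`KM_HasChar`, `KM_IsEll`) and `y ^ n = KC_ev N f`, then `n ∣ div f`, i.e. `KM_IsKum ℂ F_ℂ n f`.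

`KK_isKum_of_char` (= skeleton `KM_isKum_of_char` for the realisation `KC_ev N`): with the bridge
`KMB_bridge`, the existence of `f`.

The proof goes place by place through the refined place count `KK_place_refined`:
* at a place over `j = c`: the ramification index is the size of the `⟨R⟩`-orbit of the coset,
  `R` the elliptic generator at the base point; at a fixed coset, the conjugate of `R` lies in
  `Γ₀(N)`, is elliptic, so `χ` kills it and the multiplier lemma gives `e ∣ ord`;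
* at a cusp: the ramification index is the width `h`, and `T ^ h` is conjugate into `Γ₀(N)`;
  `KM_par_core` gives the divisibility.
-/

set_option autoImplicit false
set_option maxHeartbeats 400000

open UpperHalfPlane hiding I
open scoped MatrixGroups Manifold ModularForm
open CongruenceSubgroup ModularCurve IntermediateField AlgebraicCurve
open Fermat.Agent.S20 Fermat.Agent.S24

noncomputable section

namespace Fermat.Agent.GalRep

/-- the trace of the inverse in `SL(2, ℤ)`. -/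
theorem KK_trace_inv (R : SL(2, ℤ)) :
    ((R⁻¹ : SL(2, ℤ)) : Matrix (Fin 2) (Fin 2) ℤ).trace =
      (R : Matrix (Fin 2) (Fin 2) ℤ).trace := by
  rw [Matrix.SpecialLinearGroup.coe_inv, Matrix.adjugate_fin_two, Matrix.trace_fin_two,
    Matrix.trace_fin_two]
  simp [add_comm]

/-- the trace of a conjugate. -/
theorem KK_trace_conj (g R : SL(2, ℤ)) :
    ((g⁻¹ * R * g : SL(2, ℤ)) : Matrix (Fin 2) (Fin 2) ℤ).trace =
      (R : Matrix (Fin 2) (Fin 2) ℤ).trace := by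
  rw [Matrix.SpecialLinearGroup.coe_mul, Matrix.SpecialLinearGroup.coe_mul, Matrix.trace_mul_comm,
    ← Matrix.mul_assoc, ← Matrix.SpecialLinearGroup.coe_mul, mul_inv_cancel,
    Matrix.SpecialLinearGroup.coe_one, Matrix.one_mul]

variable {N : ℕ} [NeZero N] {n : ℕ}

omit [NeZero N] in
/-- **Key invariance.**  If `y` has the elliptic character `χ` and `R` (of small trace) fixes the
coset `γ`, then the conjugate `y ∘ g⁻¹` (`g` the representative of `γ`) is `R`-invariant. -/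
theorem KK_merComp_fix {χ : Additive (Gamma0 N) →+ ZMod n} (hχ : KM_IsEll N n χ) {y : Mer}
    (hyχ : KM_HasChar N n y χ) (R : SL(2, ℤ))
    (htr : (R : Matrix (Fin 2) (Fin 2) ℤ).trace ^ 2 ≤ 4) (γ : S20_Q N) (hγ : R • γ = γ) :
    merComp R (merComp (Quotient.out γ)⁻¹ y) = merComp (Quotient.out γ)⁻¹ y := by
  set g := Quotient.out γ with hg
  have hmk : (QuotientGroup.mk g : S20_Q N) = γ := Quotient.out_eq γ
  have h1 : (QuotientGroup.mk (R * g) : S20_Q N) = QuotientGroup.mk g := by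
    have : R • (QuotientGroup.mk g : S20_Q N) = QuotientGroup.mk (R * g) := rfl
    rw [← this, hmk, hγ]
  have hmem : (R * g)⁻¹ * g ∈ Gamma0 N := QuotientGroup.eq.mp h1
  set γ' : SL(2, ℤ) := g⁻¹ * R⁻¹ * g with hγ'
  have e1 : (R * g)⁻¹ * g = γ' := by rw [hγ', mul_inv_rev]
  rw [e1] at hmem
  have htr' : ((γ' : SL(2, ℤ)) : Matrix (Fin 2) (Fin 2) ℤ).trace ^ 2 ≤ 4 := by
    rw [hγ', KK_trace_conj, KK_trace_inv]
    exact htr
  have hχ0 : χ (Additive.ofMul (⟨γ', hmem⟩ : Gamma0 N)) = 0 := hχ ⟨γ', hmem⟩ htr'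
  have hy' : merComp γ' y = y := by
    have := hyχ ⟨γ', hmem⟩
    rw [hχ0, KM_zeta_zero, map_one, one_mul] at this
    exact this
  -- `y ∘ g⁻¹ ∘ R⁻¹ = y ∘ γ' ∘ g⁻¹ = y ∘ g⁻¹`
  have h2 : merComp R⁻¹ (merComp g⁻¹ y) = merComp g⁻¹ y := by
    rw [← merComp_mul_apply]
    have e2 : g⁻¹ * R⁻¹ = γ' * g⁻¹ := by
      rw [hγ', mul_assoc, mul_inv_cancel, mul_one]
    rw [e2, merComp_mul_apply, hy']
  calc merComp R (merComp g⁻¹ y) = merComp R (merComp R⁻¹ (merComp g⁻¹ y)) := by rw [h2]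
    _ = merComp g⁻¹ y := merComp_inv_apply R _

/-- the order of a power in `Mer`. -/
theorem KK_ordM_pow (τ : ℍ) {Y : Mer} (hY : Y ≠ 0) (n : ℕ) :
    S24_ordM τ (Y ^ n) = (n : ℤ) * S24_ordM τ Y := by
  have hv : IsVal (K := ℂ) (fun x : Mer => S24_ordM τ x) :=
    S24_isVal_ordM (RingHom.id ℂ) (RingHom.id Mer) (fun c => rfl) τ
  exact hv.pow hY n

variable (hn : 0 < n) {χ : Additive (Gamma0 N) →+ ZMod n} (hχ : KM_IsEll N n χ)
  {y : Mer} (hy : y ≠ 0) (hyχ : KM_HasChar N n y χ) {f : KM_FC N} (hf : KC_ev N f = y ^ n)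

include hy hf in
theorem KK_ne_zero : f ≠ 0 := by
  rintro rfl
  rw [map_zero] at hf
  exact pow_ne_zero n hy hf.symm

omit [NeZero N] in
theorem KK_conj_ne_zero (hy : y ≠ 0) (g : SL(2, ℤ)) : merComp g y ≠ 0 :=
  (map_ne_zero (merComp g)).mpr hy

include hf in
theorem KK_conj_pow (γ : S20_Q N) :
    (merComp (Quotient.out γ)⁻¹ y) ^ n = KC_sig N (KC_ev N) γ f := by
  show _ = merComp (Quotient.out γ)⁻¹ (KC_ev N f)
  rw [hf, map_pow]

include hχ hy hyχ hf in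
/-- **Finite places.**  `n ∣ ord_v f` at the places over `j = c`. -/
theorem KK_dvd_over (c : ℂ) (τ₀ : ℍ) (R : SL(2, ℤ)) (e₀ : ℕ) (he₀ : e₀ = 1 ∨ e₀.Prime)
    (hRe : ∀ γ : S20_Q N, R ^ e₀ • γ = γ) (hfix : R • τ₀ = τ₀)
    (hord : S24_ordM τ₀ (algebraMap Hol Mer (jHol 1) - algebraMap ℂ Mer c) = e₀)
    (hdvd : ∀ x : Mer, x ≠ 0 → merComp R x = x → (e₀ : ℤ) ∣ S24_ordM τ₀ x)
    (htr : (R : Matrix (Fin 2) (Fin 2) ℤ).trace ^ 2 ≤ 4)
    (v : Place ℂ (KM_FC N)) (hv : 0 < v.ord (KC_jB N - algebraMap ℂ (KM_FC N) c)) :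
    (n : ℤ) ∣ v.ord f := by
  classical
  have he := KC_isEv_ev N
  have hinv := KC_hinv N (KC_ev N) he
  have hfd := KC_finiteDimensional_jB N
  have hj := KC_transcendental_jB N
  have hf0 : f ≠ 0 := KK_ne_zero hy hf
  have hne : ∀ γ (f : KM_FC N), f ≠ 0 → KC_sig N (KC_ev N) γ f ≠ 0 :=
    fun γ f hf => (map_ne_zero (KC_sig N (KC_ev N) γ)).mpr hf
  set w : S20_Q N → KM_FC N → ℤ :=
    fun γ f => S24_ordM τ₀ (KC_sig N (KC_ev N) γ f) with hw
  have hval : ∀ γ, IsVal (K := ℂ) (w γ) :=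
    fun γ => S24_isVal_ordM (RingHom.id ℂ) (KC_sig N (KC_ev N) γ) (KC_sig_const he γ) τ₀
  have hRinv : R⁻¹ • τ₀ = τ₀ := by
    conv_lhs => rw [← hfix]
    rw [inv_smul_smul]
  have hwx : ∀ γ, w γ (KC_jB N - algebraMap ℂ (KM_FC N) c) = e₀ := by
    intro γ
    show S24_ordM τ₀ (KC_sig N (KC_ev N) γ _) = _
    rw [map_sub, KC_sig_jB he, KC_sig_const he, hord]
  have hR : ∀ γ, w (R • γ) = w γ := by
    intro γ
    funext f
    show S24_ordM τ₀ (KC_sig N (KC_ev N) (R • γ) f) = S24_ordM τ₀ (KC_sig N (KC_ev N) γ f)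
    rw [KC_sig_smul hinv, S24_ordM_merComp, hRinv]
  have hfx : ∀ γ, R • γ = γ → ∀ f, f ≠ 0 → (e₀ : ℤ) ∣ w γ f := by
    intro γ hγ f hf
    apply hdvd _ (hne γ f hf)
    have h1 : merComp R⁻¹ (KC_sig N (KC_ev N) γ f) = KC_sig N (KC_ev N) γ f := by
      rw [← KC_sig_smul hinv, hγ]
    calc merComp R (KC_sig N (KC_ev N) γ f)
        = merComp R (merComp R⁻¹ (KC_sig N (KC_ev N) γ f)) := by rw [h1]
      _ = KC_sig N (KC_ev N) γ f := merComp_inv_apply R _
  obtain ⟨h1, h2, h3⟩ := S24_cyclic_inputs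
    (KC_jB N - algebraMap ℂ (KM_FC N) c) R e₀ he₀ hRe w hwx hR hfx
  have hnorm : ∀ f : KM_FC N, f ≠ 0 → ∀ γ₀, ∑ᶠ γ, w γ f =
      w γ₀ (algebraMap ℂ⟮KC_jB N⟯ (KM_FC N) (Algebra.norm ℂ⟮KC_jB N⟯ f)) := by
    intro f hf γ₀
    show ∑ᶠ γ, S24_ordM τ₀ (KC_sig N (KC_ev N) γ f) = S24_ordM τ₀ (KC_sig N (KC_ev N) γ₀ _)
    rw [KC_sig_norm_ev N (KC_ev N) he f γ₀, S24_ordM_finprod _ (fun γ => hne γ f hf)]
  obtain ⟨γ, m, hm0, hmf, hcard⟩ := KK_place_refined_sub (G := Subgroup.zpowers R) hj c w hval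
    h1 h2 h3 (KC_finrank_eq_card_cos N).symm hnorm v hv
  -- the conjugate of `y`
  set Y : Mer := merComp (Quotient.out γ)⁻¹ y with hY
  have hY0 : Y ≠ 0 := KK_conj_ne_zero hy _
  have hYn : Y ^ n = KC_sig N (KC_ev N) γ f := KK_conj_pow hf γ
  have hordY : (n : ℤ) * S24_ordM τ₀ Y = m * v.ord f := by
    rw [← KK_ordM_pow τ₀ hY0 n, hYn]
    exact hmf f hf0
  have hx0 : KC_jB N - algebraMap ℂ (KM_FC N) c ≠ 0 := by
    intro h
    rw [h, v.ord_zero] at hv
    exact lt_irrefl _ hv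
  have he₀m : (e₀ : ℤ) = m * (Nat.card (MulAction.orbit (Subgroup.zpowers R) γ) : ℤ) := by
    rw [← hcard, ← hmf _ hx0]
    exact (hwx γ).symm
  by_cases hγ : R • γ = γ
  · have hRY : merComp R Y = Y := KK_merComp_fix hχ hyχ R htr γ hγ
    have hd1 : (e₀ : ℤ) ∣ S24_ordM τ₀ Y := hdvd Y hY0 hRY
    have hd2 : m ∣ S24_ordM τ₀ Y := (Dvd.intro _ he₀m.symm).trans hd1
    obtain ⟨b, hb⟩ := hd2
    refine ⟨b, ?_⟩
    rw [hb] at hordY
    have : m * ((n : ℤ) * b) = m * v.ord f := by rw [← hordY]; ring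
    exact (mul_left_cancel₀ hm0.ne' this).symm
  · have hm1 : m = 1 := by
      rcases he₀ with h | hp
      · exfalso
        apply hγ
        have := hRe γ
        rwa [h, pow_one] at this
      · have hc2 : Nat.card (MulAction.orbit (Subgroup.zpowers R) γ) = e₀ :=
          S24_card_orbit_zpowers R e₀ hp hRe γ hγ
        rw [hc2] at he₀m
        have he₀0 : (e₀ : ℤ) ≠ 0 := by exact_mod_cast hp.pos.ne'
        have : m * (e₀ : ℤ) = 1 * (e₀ : ℤ) := by rw [one_mul]; exact he₀m.symm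
        exact mul_right_cancel₀ he₀0 this
    rw [hm1, one_mul] at hordY
    exact ⟨_, hordY.symm⟩

include hn hχ hy hyχ hf in
/-- **Cusps.**  `n ∣ ord_v f` at the places over `j = ∞`. -/
theorem KK_dvd_cusp (v : Place ℂ (KM_FC N)) (hv : v.ord (KC_jB N) < 0) :
    (n : ℤ) ∣ v.ord f := by
  classical
  have he := KC_isEv_ev N
  have hinv := KC_hinv N (KC_ev N) he
  have hfd := KC_finiteDimensional_jB N
  have hj := KC_transcendental_jB N
  have hf0 : f ≠ 0 := KK_ne_zero hy hf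
  have hN : 0 < N := Nat.pos_of_ne_zero (NeZero.ne N)
  obtain ⟨h1, h2, h3⟩ := S24_cyclic_inputs_cusp (F := KM_FC N)
    (X := S20_Q N) (KC_jB N)⁻¹ (ModularGroup.T : SL(2, ℤ)) N hN
    (KC_cuspW N (KC_ev N)) (KC_cuspW_jB_inv he)
    (KC_cuspW_T_smul he hinv) (KC_cuspW_dvd_of_fix he hinv)
  obtain ⟨γ, m, hm0, hmf, hcard⟩ := KK_place_refined_inv
    (G := Subgroup.zpowers (ModularGroup.T : SL(2, ℤ))) hj (KC_cuspW N (KC_ev N))
    (KC_cuspW_isVal he) h1 h2 h3 (KC_finrank_eq_card_cos N).symm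
    (fun f hf γ₀ => KC_cuspW_norm he hinv (KC_finrank_le_card_cos N) f hf γ₀) v hv
  -- the width
  set h : ℕ := Function.minimalPeriod ((ModularGroup.T : SL(2, ℤ)) • · : S20_Q N → S20_Q N) γ
    with hh
  have hcardh : Nat.card (MulAction.orbit (Subgroup.zpowers (ModularGroup.T : SL(2, ℤ))) γ) = h :=
    S24_card_orbit_zpowers_eq_minimalPeriod _ γ
  rw [hcardh] at hcard
  have hTh : (ModularGroup.T : SL(2, ℤ)) ^ h • γ = γ := by
    have := Function.isPeriodicPt_minimalPeriod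
      ((ModularGroup.T : SL(2, ℤ)) • · : S20_Q N → S20_Q N) γ
    rw [← hh] at this
    have h2 : ((ModularGroup.T : SL(2, ℤ)) • · : S20_Q N → S20_Q N)^[h] γ = γ := this
    rwa [smul_iterate] at h2
  have htr : (((ModularGroup.T : SL(2, ℤ)) ^ h : SL(2, ℤ)) : Matrix (Fin 2) (Fin 2) ℤ).trace ^ 2
      ≤ 4 := by
    rw [← zpow_natCast, ModularGroup.coe_T_zpow, Matrix.trace_fin_two]
    simp
  -- the conjugate of `y`
  set Y : Mer := merComp (Quotient.out γ)⁻¹ y with hY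
  have hY0 : Y ≠ 0 := KK_conj_ne_zero hy _
  have hYn : Y ^ n = KC_sig N (KC_ev N) γ f := KK_conj_pow hf γ
  have hTY : merComp ((ModularGroup.T : SL(2, ℤ)) ^ ((h : ℕ) : ℤ)) Y = algebraMap ℂ Mer 1 * Y := by
    rw [map_one, one_mul, zpow_natCast]
    exact KK_merComp_fix hχ hyχ _ htr γ hTh
  obtain ⟨c₁, hc₁⟩ := KC_cuspW_spec he γ hf0
  have hcore := KM_par_core hN hn hYn hc₁ hTY
  have hdvd : ((N * n : ℕ) : ℤ) ∣ (h : ℤ) * KC_cuspW N (KC_ev N) γ f :=
    (zetaPow_zpow_eq_one_iff (Nat.mul_pos hN hn) _ _).mp hcore.symm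
  -- `N = m * h`
  have hx0 : (KC_jB N)⁻¹ ≠ 0 := by
    intro h0
    have : v.ord (KC_jB N)⁻¹ = 0 := by rw [h0, v.ord_zero]
    rw [v.ord_inv] at this
    omega
  have hNm : (N : ℤ) = m * h := by
    rw [← hcard, ← hmf _ hx0]
    exact (KC_cuspW_jB_inv he γ).symm
  rw [hmf f hf0] at hdvd
  have e1 : (h : ℤ) * (m * v.ord f) = (N : ℤ) * v.ord f := by rw [hNm]; ring
  rw [e1] at hdvd
  push_cast at hdvd
  exact Int.dvd_of_mul_dvd_mul_left (by exact_mod_cast hN.ne') hdvd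

omit [NeZero N] in
theorem KK_trace_S : ((ModularGroup.S : SL(2, ℤ)) : Matrix (Fin 2) (Fin 2) ℤ).trace ^ 2 ≤ 4 := by
  rw [Matrix.trace_fin_two]
  simp [ModularGroup.S]

omit [NeZero N] in
theorem KK_trace_ST :
    ((ModularGroup.S * ModularGroup.T : SL(2, ℤ)) : Matrix (Fin 2) (Fin 2) ℤ).trace ^ 2 ≤ 4 := by
  rw [Matrix.SpecialLinearGroup.coe_mul, Matrix.trace_fin_two]
  simp [ModularGroup.S, ModularGroup.T, Matrix.mul_apply, Fin.sum_univ_two]

omit [NeZero N] in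
theorem KK_trace_one :
    ((1 : SL(2, ℤ)) : Matrix (Fin 2) (Fin 2) ℤ).trace ^ 2 ≤ 4 := by
  rw [Matrix.trace_fin_two]
  simp

include hn hχ hy hyχ hf in
/-- **G2ASM, core.**  A function with an elliptic character whose `n`-th power is `KC_ev N f`
makes `f` a Kummer generator. -/
theorem KK_isKum_of_pow : KM_IsKum ℂ (KM_FC N) n f := by
  refine ⟨KK_ne_zero hy hf, fun v => ?_⟩
  have hfd := KC_finiteDimensional_jB N
  have hj := KC_transcendental_jB N
  by_cases hv : 0 ≤ v.ord (KC_jB N)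
  · obtain ⟨c, hc⟩ := W_hres hj v hv
    obtain ⟨τ₀, -, hord⟩ := S24_exists_basepoint c
    rcases hord with ⟨rfl, rfl, h⟩ | ⟨rfl, rfl, h⟩ | ⟨-, -, -, -, h⟩
    · exact KK_dvd_over hχ hy hyχ hf 1728 UpperHalfPlane.I ModularGroup.S 2
        (Or.inr Nat.prime_two) (fun γ => by rw [S24_S_sq, S24_neg_one_smul])
        Fermat.Agent.S20.S_smul_I
        (by rw [S24_ordM_j_sub 1728 UpperHalfPlane.I 2 (by rw [h]; rfl)]; rfl)
        (fun x hx hxi => by
          have := S24_two_dvd_ordM_I hx hxi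
          exact_mod_cast this) KK_trace_S v hc
    · exact KK_dvd_over hχ hy hyχ hf 0 Fermat.Agent.S20.rho
        (ModularGroup.S * ModularGroup.T) 3
        (Or.inr Nat.prime_three) (fun γ => by rw [S24_ST_cube, S24_neg_one_smul])
        Fermat.Agent.S20.ST_smul_rho
        (by rw [S24_ordM_j_sub 0 Fermat.Agent.S20.rho 3 (by rw [h]; rfl)]; rfl)
        (fun x hx hxi => by
          have := S24_three_dvd_ordM_rho hx hxi
          exact_mod_cast this) KK_trace_ST v hc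
    · exact KK_dvd_over hχ hy hyχ hf c τ₀ 1 1 (Or.inl rfl)
        (fun γ => by rw [pow_one, one_smul]) (one_smul _ _)
        (by rw [S24_ordM_j_sub c τ₀ 1 (by rw [h]; rfl)]; rfl)
        (fun x _ _ => by
          rw [Nat.cast_one]
          exact one_dvd _) KK_trace_one v hc
  · exact KK_dvd_cusp hn hχ hy hyχ hf v (not_le.mp hv)

omit [NeZero N] in
include hn in
/-- the `n`-th power of a function with a character is `Γ₀(N)`-invariant. -/
theorem KK_pow_inv {χ : Additive (Gamma0 N) →+ ZMod n} {y : Mer} (hyχ : KM_HasChar N n y χ) :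
    ∀ γ ∈ Gamma0 N, merComp γ (y ^ n) = y ^ n := by
  intro γ hγ
  have := hyχ ⟨γ, hγ⟩
  rw [map_pow, this, mul_pow, ← map_pow, KM_zeta_pow hn, map_one, one_mul]

end Fermat.Agent.GalRep

namespace Fermat.Agent.GalRep

/-- **G2ASM = ORD-conv** (skeleton `KM_isKum_of_char`, for the realisation `KC_ev N`): if `y ≠ 0`
has an elliptic character and `y ^ n` is meromorphic at all cusps, then `y ^ n = KC_ev N f` for a
Kummer generator `f` of `F_ℂ`. -/
theorem KK_isKum_of_char (N n : ℕ) [NeZero N] (hn : 0 < n)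
    (χ : Additive (Gamma0 N) →+ ZMod n) (hχ : KM_IsEll N n χ) (y : Mer) (hy : y ≠ 0)
    (hyχ : KM_HasChar N n y χ)
    (hc : ∀ γ : SL(2, ℤ), ∃ (m : ℤ) (c : ℂ), CuspFrac N (merComp γ (y ^ n)) m c) :
    ∃ f : KM_FC N, KC_ev N f = y ^ n ∧ KM_IsKum ℂ (KM_FC N) n f := by
  obtain ⟨f, hf⟩ := KMB_bridge N (y ^ n) (KK_pow_inv hn hyχ) hc
  exact ⟨f, hf, KK_isKum_of_pow hn hχ hy hyχ hf⟩

/-- the same for every realisation normalised by `q`-expansions. -/
theorem KM_isKum_of_char_of_qExp (N n : ℕ) [NeZero N] (hn : 0 < n) (e : KM_FC N →+* Mer)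
    (hq : ∀ (f : KM_FC N) (b : BFrac), thetaHom b = (f : LaurentSeries ℂ) → e f = bToMer b)
    (χ : Additive (Gamma0 N) →+ ZMod n) (hχ : KM_IsEll N n χ) (y : Mer) (hy : y ≠ 0)
    (hyχ : KM_HasChar N n y χ)
    (hc : ∀ γ : SL(2, ℤ), ∃ (m : ℤ) (c : ℂ), CuspFrac N (merComp γ (y ^ n)) m c) :
    ∃ f : KM_FC N, e f = y ^ n ∧ KM_IsKum ℂ (KM_FC N) n f := by
  rw [KC_eq_ev_of_qExp N e hq]
  exact KK_isKum_of_char N n hn χ hχ y hy hyχ hc

/-- **G1 + G2 over `ℂ`**: given the Eisenstein construction, every elliptic character is the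
Kummer character of a Kummer generator of `F_ℂ`. -/
theorem KK_kummer_surjC_of (N n : ℕ) [NeZero N] (hn : 0 < n)
    (χ : Additive (Gamma0 N) →+ ZMod n) (hχ : KM_IsEll N n χ)
    (heis : ∃ y : Mer, y ≠ 0 ∧ KM_HasChar N n y χ ∧
      ∀ γ : SL(2, ℤ), ∃ (m : ℤ) (c : ℂ), CuspFrac N (merComp γ (y ^ n)) m c) :
    ∃ (f : KM_FC N) (y : Mer), KM_IsKum ℂ (KM_FC N) n f ∧ y ^ n = KC_ev N f ∧
      KM_HasChar N n y χ := by
  obtain ⟨y, hy, hyχ, hc⟩ := heis
  obtain ⟨f, hf, hkum⟩ := KK_isKum_of_char N n hn χ hχ y hy hyχ hc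
  exact ⟨f, y, hkum, hf.symm, hyχ⟩

end Fermat.Agent.GalRep
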