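import Mathlib
import Fermat.Agent.GalRep.KMKappa
import Fermat.Agent.GalRep.KMInj
import Fermat.Agent.GalRep.KMKum
import Fermat.Agent.GalRep.KMEis
import Fermat.Agent.GalRep.KDDatum
import Fermat.Agent.GalRep.Fin
import Fermat.Agent.Lib.DescRat
import Fermat.Agent.Lib.DescMain

/-!
# Pillar G, package KAPPA: final assembly (`GR_KappaStmt N`)

The two descent inputs (package DESC) are taken as hypotheses, stated for the datum
`KD_datum N` (`E = KD_E N ≅ F_ℚ̄ ⊆ F_ℂ`):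

* `KMF_DescHyp N n` = the conclusion of `DSC_main_kappa` (surjectivity descent);
* `KMF_InjHyp N n`  = the conclusion of `DSC_inj` (injectivity descent).

Main results: `KMF_desc` (`KM_desc`), `KMF_surj`, `KMF_inj`, `KMF_kappa : GR_KappaStmt N`.
-/

set_option autoImplicit false
set_option linter.style.haveILetI false

open ModularCurve AlgebraicCurve CongruenceSubgroup UpperHalfPlane Matrix.SpecialLinearGroup
open scoped MatrixGroups

namespace Fermat.Agent.GalRep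

open Fermat.Agent.S24 Fermat.Agent.S20 Fermat.Agent.Lib

attribute [local instance] KD_algQC KD_algQF

/-! ### transport of Kummer generators along an isomorphism -/

/-- transport of an abstract valuation along an algebra isomorphism. -/
theorem KMF_isVal_comp {K A B : Type} [Field K] [Field A] [Field B] [Algebra K A] [Algebra K B]
    (e : A ≃ₐ[K] B) {w : A → ℤ} (hw : IsVal (K := K) w) :
    IsVal (K := K) (fun b : B => w (e.symm b)) where
  mul f g hf hg := by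
    simp only [map_mul]
    exact hw.mul _ _ ((map_ne_zero e.symm).mpr hf) ((map_ne_zero e.symm).mpr hg)
  add f g hf hg hfg := by
    simp only [map_add]
    refine hw.add _ _ ((map_ne_zero e.symm).mpr hf) ((map_ne_zero e.symm).mpr hg) ?_
    rw [← map_add]
    exact (map_ne_zero e.symm).mpr hfg
  const c hc := by
    simp only [AlgEquiv.commutes]
    exact hw.const c hc

/-- Kummer generators are transported by algebra isomorphisms. -/
theorem KMF_isKum_equiv {K A B : Type} [Field K] [Field A] [Field B] [Algebra K A] [Algebra K B]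
    (e : A ≃ₐ[K] B) {n : ℕ} {a : A} (ha : KM_IsKum K A n a) : KM_IsKum K B n (e a) := by
  refine ⟨(map_ne_zero e).mpr ha.1, fun v => ?_⟩
  have hw : IsVal (K := K) (fun x : A => v.ord (e.symm.symm x)) :=
    KMF_isVal_comp e.symm (S24_isVal_ord v)
  have := KM_isVal_dvd hw ha
  simpa using this

/-! ### the descent hypotheses -/

/-- the conclusion of `DSC_main_kappa` for `KD_datum N`. -/
def KMF_DescHyp (N n : ℕ) [NeZero N] : Prop :=
  ∀ f : KM_FC N, f ≠ 0 → (∀ w : Place ℂ (KM_FC N), (n : ℤ) ∣ w.ord f) →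
    ∃ (f₀ : KD_E N) (c : ℂ) (u : KM_FC N), c ≠ 0 ∧ u ≠ 0 ∧ f₀ ≠ 0 ∧
      (∀ v : Place (AlgebraicClosure ℚ) (KD_E N), (n : ℤ) ∣ v.ord f₀) ∧
      f = algebraMap ℂ (KM_FC N) c * u ^ n * (f₀ : KM_FC N)

/-- the conclusion of `DSC_inj` for `KD_datum N`. -/
def KMF_InjHyp (N n : ℕ) [NeZero N] : Prop :=
  ∀ (f₀ : KD_E N), f₀ ≠ 0 → ∀ (c : ℂ) (u : KM_FC N),
    (f₀ : KM_FC N) = algebraMap ℂ (KM_FC N) c * u ^ n →
    ∃ (c' : AlgebraicClosure ℚ) (u' : KD_E N), c' ≠ 0 ∧ u' ≠ 0 ∧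
      f₀ = algebraMap (AlgebraicClosure ℚ) (KD_E N) c' * u' ^ n

theorem KMF_coe_equivE (N : ℕ) [NeZero N] (f : ↥(modularFunctionFieldBar N)) :
    ((KD_equivE N f : KD_E N) : KM_FC N) = KC_ofBar N f := rfl

theorem KMF_ofBar_symm (N : ℕ) [NeZero N] (z : KD_E N) :
    KC_ofBar N ((KD_equivE N).symm z) = (z : KM_FC N) := by
  rw [← KMF_coe_equivE, AlgEquiv.apply_symm_apply]

/-! ### DESC in Kummer form -/

/-- **DESC** in Kummer form (`KM_desc` of the skeleton), from the abstract descent. -/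
theorem KMF_desc (N n : ℕ) [NeZero N] (hD : KMF_DescHyp N n)
    (f : KM_FC N) (hf : KM_IsKum ℂ (KM_FC N) n f) :
    ∃ (f₀ : ↥(modularFunctionFieldBar N)) (fC u : KM_FC N) (c : ℂ),
      KM_IsKum (AlgebraicClosure ℚ) ↥(modularFunctionFieldBar N) n f₀ ∧
      (fC : LaurentSeries ℂ) = coeffMap kEmb (f₀ : LaurentSeries (AlgebraicClosure ℚ)) ∧
      c ≠ 0 ∧ u ≠ 0 ∧ f = algebraMap ℂ (KM_FC N) c * u ^ n * fC := by
  obtain ⟨z, c, u, hc, hu, hz, hzk, e⟩ := hD f hf.1 hf.2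
  have hK : KM_IsKum (AlgebraicClosure ℚ) (KD_E N) n z := ⟨hz, hzk⟩
  have hK' := KMF_isKum_equiv (KD_equivE N).symm hK
  refine ⟨(KD_equivE N).symm z, KC_ofBar N ((KD_equivE N).symm z), u, c, hK', rfl, hc, hu, ?_⟩
  rw [KMF_ofBar_symm]
  exact e

/-! ### surjectivity of the Kummer map over `ℚ̄` -/

/-- **KAPPA.surj**. -/
theorem KMF_surj (N n : ℕ) [NeZero N] (hn : 0 < n) (hD : KMF_DescHyp N n)
    (χ : Additive (Gamma0 N) →+ ZMod n) (hχ : KM_IsEll N n χ) :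
    ∃ f : ↥(modularFunctionFieldBar N),
      KM_IsKum (AlgebraicClosure ℚ) ↥(modularFunctionFieldBar N) n f ∧ GR_KChar N n f χ := by
  obtain ⟨fC, y, hK, hy, hc⟩ := KK_kummer_surjC_of N n hn χ hχ (KM_exists_eis N n hn χ hχ)
  obtain ⟨f₀, gC, u, c, hK₀, hg, hc0, hu0, e⟩ := KMF_desc N n hD fC hK
  have hgC : gC = KC_ofBar N f₀ := Subtype.ext hg
  obtain ⟨c', hc'⟩ := IsAlgClosed.exists_pow_nat_eq c hn
  have hc'0 : c' ≠ 0 := by
    rintro rfl
    rw [zero_pow hn.ne'] at hc'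
    exact hc0 hc'.symm
  set d : Mer := algebraMap ℂ Mer c' * KC_ev N u with hd
  have hd0 : d ≠ 0 :=
    mul_ne_zero ((map_ne_zero _).mpr hc'0) ((map_ne_zero _).mpr hu0)
  have hdinv : ∀ γ ∈ Gamma0 N, merComp γ d⁻¹ = d⁻¹ := by
    intro γ hγ
    rw [map_inv₀, hd, map_mul, merComp_const, (KC_real N).inv γ hγ u]
  refine ⟨f₀, hK₀, y * d⁻¹, ?_, ?_⟩
  · have h1 : algebraMap ℂ Mer c ≠ 0 := (map_ne_zero _).mpr hc0
    have h2 : KC_ev N u ≠ 0 := (map_ne_zero _).mpr hu0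
    have hdn : d ^ n = algebraMap ℂ Mer c * KC_ev N u ^ n := by
      rw [hd, mul_pow, ← map_pow, hc']
    have hyn : y ^ n = algebraMap ℂ Mer c * KC_ev N u ^ n * ev N f₀ := by
      rw [hy, e, hgC, map_mul, map_mul, map_pow, KC_ev_const, KC_ev_ofBar]
    rw [mul_pow, inv_pow, hdn, hyn]
    field_simp
  · have := KM_hasChar_mul hn hc (KM_hasChar_zero (n := n) hdinv)
    rwa [add_zero] at this

/-! ### injectivity of the Kummer map over `ℚ̄` -/

/-- **KAPPA.inj**. -/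
theorem KMF_inj (N n : ℕ) [NeZero N] (hn : 0 < n) (hI : KMF_InjHyp N n)
    (f : ↥(modularFunctionFieldBar N))
    (hf : KM_IsKum (AlgebraicClosure ℚ) ↥(modularFunctionFieldBar N) n f)
    (h0 : GR_KChar N n f 0) : GR_IsTriv N n f := by
  obtain ⟨y, hy, hc⟩ := h0
  have hinv := KM_hasChar_zero_iff.mp hc
  have hfC : KC_ofBar N f ≠ 0 := by
    intro h
    have h1 : ev N f = 0 := by rw [← KC_ev_ofBar, h, map_zero]
    exact KM_real_ne_zero (ev N) hf h1
  have hy' : y ^ n = KC_ev N (KC_ofBar N f) := by rw [hy, KC_ev_ofBar]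
  obtain ⟨u, -, hu⟩ := KM_kummer_injC N hn hfC hy' hinv
  have hz0 : KD_equivE N f ≠ 0 := (map_ne_zero (KD_equivE N)).mpr hf.1
  obtain ⟨c', u', hc', hu', e⟩ := hI (KD_equivE N f) hz0 1 u
    (by rw [KMF_coe_equivE, map_one, one_mul, hu])
  refine ⟨c', (KD_equivE N).symm u', hc', (map_ne_zero _).mpr hu', ?_⟩
  have := congrArg (KD_equivE N).symm e
  rw [AlgEquiv.symm_apply_apply, map_mul, map_pow, AlgEquiv.commutes] at this
  exact this

/-! ### the descent hypothesis from the abstract main theorem -/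

/-- the finiteness of the target of `κ`. -/
theorem KMF_finite_char (N n : ℕ) [NeZero N] (hn : 0 < n) :
    Finite (Additive (Gamma0 N) →+ ZMod n) := by
  have : NeZero n := ⟨hn.ne'⟩
  have : Group.FG (Gamma0 N) := Fermat.Agent.S22.gamma0_fg N
  exact GRF_finite_hom (Gamma0 N) (ZMod n)

/-- `KMF_DescHyp` from the statement of `DSC_main_kappa` for the datum `KD_datum N`
(with `κ := KM_kappaC N n`, `hκ := KM_kappaC_inj`). -/
theorem KMF_descHyp_of (N n : ℕ) [NeZero N] (hn : 0 < n)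
    (hmain : ∀ (X : Type) [Finite X] (κ : KM_FC N → X),
      (∀ f₁ f₂ : KM_FC N, f₁ ≠ 0 → (∀ w : Place ℂ (KM_FC N), (n : ℤ) ∣ w.ord f₁) →
        f₂ ≠ 0 → (∀ w : Place ℂ (KM_FC N), (n : ℤ) ∣ w.ord f₂) → κ f₁ = κ f₂ →
        ∃ (c : ℂ) (u : KM_FC N), c ≠ 0 ∧ u ≠ 0 ∧ f₂ = algebraMap ℂ (KM_FC N) c * u ^ n * f₁) →
      ∀ f : KM_FC N, f ≠ 0 → (∀ w : Place ℂ (KM_FC N), (n : ℤ) ∣ w.ord f) →
        ∃ (f₀ : KD_E N) (c : ℂ) (u : KM_FC N), c ≠ 0 ∧ u ≠ 0 ∧ f₀ ≠ 0 ∧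
          (∀ v : Place (AlgebraicClosure ℚ) (KD_E N), (n : ℤ) ∣ v.ord f₀) ∧
          f = algebraMap ℂ (KM_FC N) c * u ^ n * (f₀ : KM_FC N)) :
    KMF_DescHyp N n := by
  have := KMF_finite_char N n hn
  exact hmain (Additive (Gamma0 N) →+ ZMod n) (KM_kappaC N n) (KM_kappaC_inj N hn)

/-- `KMF_DescHyp` from the statement of `DSC_main` for the datum `KD_datum N`: the finiteness
hypothesis `hfin` of `DSC_main` follows from INJ over `ℂ` and the finiteness of the set of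
characters. -/
theorem KMF_descHyp_of_main (N n : ℕ) [NeZero N] (hn : 0 < n)
    (hmain : ∀ f : KM_FC N, f ≠ 0 → (∀ w : Place ℂ (KM_FC N), (n : ℤ) ∣ w.ord f) →
      (∃ T : Finset KD_G, ∀ σ : KD_G, ∃ σ₀ ∈ T, ∃ (c : ℂ) (u : KM_FC N), c ≠ 0 ∧ u ≠ 0 ∧
        KD_act N σ • f = algebraMap ℂ (KM_FC N) c * u ^ n * (KD_act N σ₀ • f)) →
      ∃ (f₀ : KD_E N) (c : ℂ) (u : KM_FC N), c ≠ 0 ∧ u ≠ 0 ∧ f₀ ≠ 0 ∧
        (∀ v : Place (AlgebraicClosure ℚ) (KD_E N), (n : ℤ) ∣ v.ord f₀) ∧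
        f = algebraMap ℂ (KM_FC N) c * u ^ n * (f₀ : KM_FC N)) :
    KMF_DescHyp N n := by
  classical
  intro f hf0 hf
  refine hmain f hf0 hf ?_
  have := KMF_finite_char N n hn
  have := Fintype.ofFinite (Additive (Gamma0 N) →+ ZMod n)
  let g : KD_G → (Additive (Gamma0 N) →+ ZMod n) := fun σ => KM_kappaC N n (KD_act N σ • f)
  have hch : ∀ x : Additive (Gamma0 N) →+ ZMod n, ∃ σ₀ : KD_G, (∃ σ, g σ = x) → g σ₀ = x := by
    intro x
    by_cases h : ∃ σ, g σ = x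
    · obtain ⟨σ, hσ⟩ := h
      exact ⟨σ, fun _ => hσ⟩
    · exact ⟨1, fun h' => absurd h' h⟩
  choose s hs using hch
  have hK : ∀ σ : KD_G, KM_IsKum ℂ (KM_FC N) n (KD_act N σ • f) :=
    fun σ => KMK_isKum_smul (KD_act N σ) ⟨hf0, hf⟩
  refine ⟨Finset.univ.image s, fun σ => ⟨s (g σ), Finset.mem_image_of_mem _ (Finset.mem_univ _), ?_⟩⟩
  have h1 : g (s (g σ)) = g σ := hs (g σ) ⟨σ, rfl⟩
  exact KM_kappaC_inj N hn _ _ (hK _).1 (hK _).2 (hK _).1 (hK _).2 h1

/-- the injectivity descent holds (`DSC_inj`, package DESC). -/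
theorem KMF_injHyp (N n : ℕ) [NeZero N] (hn : 0 < n) : KMF_InjHyp N n := by
  haveI := KD_isScalarTower N
  intro f₀ hf₀ c u h
  exact DSC_inj (KD_datum N) n hn f₀ hf₀ c u h

/-! ### the final assembly -/

/-- **KAPPA**: `GR_KappaStmt N`, from the two abstract descent statements. -/
theorem KMF_kappa_of (N : ℕ) [NeZero N] (hD : ∀ n : ℕ, 0 < n → KMF_DescHyp N n)
    (hI : ∀ n : ℕ, 0 < n → KMF_InjHyp N n) : GR_KappaStmt N where
  gal := KMK_gal N
  ex := KMK_ex N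
  uniq := KMK_uniq N
  mul := KMK_mul N
  triv := KMK_triv N
  inj := fun n hn f hf h0 => KMF_inj N n hn (hI n hn) f hf h0
  surj := fun n hn χ hχ => KMF_surj N n hn (hD n hn) χ hχ
  red := KMK_red N

/-- the surjectivity descent holds (`DSC_main_kappa`, package DESC). -/
theorem KMF_descHyp (N n : ℕ) [NeZero N] (hn : 0 < n) : KMF_DescHyp N n := by
  haveI := KD_isScalarTower N
  exact KMF_descHyp_of N n hn
    (fun X _ κ hκ f hf0 hf => DSC_main_kappa (KD_datum N) n hn κ hκ f hf0 hf)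

/-- **DESC** in Kummer form (`KM_desc` of the skeleton). -/
theorem KMF_desc_final (N n : ℕ) [NeZero N] (hn : 0 < n)
    (f : KM_FC N) (hf : KM_IsKum ℂ (KM_FC N) n f) :
    ∃ (f₀ : ↥(modularFunctionFieldBar N)) (fC u : KM_FC N) (c : ℂ),
      KM_IsKum (AlgebraicClosure ℚ) ↥(modularFunctionFieldBar N) n f₀ ∧
      (fC : LaurentSeries ℂ) = coeffMap kEmb (f₀ : LaurentSeries (AlgebraicClosure ℚ)) ∧
      c ≠ 0 ∧ u ≠ 0 ∧ f = algebraMap ℂ (KM_FC N) c * u ^ n * fC :=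
  KMF_desc N n (KMF_descHyp N n hn) f hf

/-- **KAPPA** from the surjectivity descent alone. -/
theorem KMF_kappa (N : ℕ) [NeZero N] (hD : ∀ n : ℕ, 0 < n → KMF_DescHyp N n) :
    GR_KappaStmt N :=
  KMF_kappa_of N hD (fun n hn => KMF_injHyp N n hn)

/-- **KAPPA** (unconditional): the Kummer character is a bijection between Kummer classes of
`F_ℚ̄ = modularFunctionFieldBar N` of exponent `n` and elliptic characters `Γ₀(N) → ℤ/n`. -/
theorem KMF_kappa_final (N : ℕ) [NeZero N] : GR_KappaStmt N :=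
  KMF_kappa N (fun n hn => KMF_descHyp N n hn)

end Fermat.Agent.GalRep
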