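import Mathlib
import Fermat.Agent.GalRep.KMKum
import Fermat.Agent.S24.FinCountFinal
import Fermat.Agent.S24.CuspCount

/-!
# Pillar G, package G2ASM over `ℚ̄`: a function with an elliptic character is a Kummer generator

`KKB_isKum_of_pow`: if `y ∈ Mer`, `y ≠ 0`, transforms under `Γ₀(N)` by an elliptic character `χ`
and `y ^ n = ev N f` for `f ∈ F_ℚ̄ = modularFunctionFieldBar N`, then `n ∣ div f` over `ℚ̄`, i.e.
`KM_IsKum ℚ̄ F_ℚ̄ n f`.  Same proof as `KK_isKum_of_pow`, with S24's realisation `ev N`.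
-/

set_option autoImplicit false
set_option maxHeartbeats 400000

open UpperHalfPlane hiding I
open scoped MatrixGroups Manifold ModularForm
open CongruenceSubgroup ModularCurve IntermediateField AlgebraicCurve
open Fermat.Agent.S20 Fermat.Agent.S24

noncomputable section

namespace Fermat.Agent.GalRep

variable {N : ℕ} [NeZero N] {n : ℕ}

variable (hn : 0 < n) {χ : Additive (Gamma0 N) →+ ZMod n} (hχ : KM_IsEll N n χ)
  {y : Mer} (hy : y ≠ 0) (hyχ : KM_HasChar N n y χ) {f : ↥(modularFunctionFieldBar N)}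
  (hf : ev N f = y ^ n)

include hy hf in
theorem KKB_ne_zero : f ≠ 0 := by
  rintro rfl
  rw [map_zero] at hf
  exact pow_ne_zero n hy hf.symm

include hf in
theorem KKB_conj_pow (γ : S20_Q N) :
    (merComp (Quotient.out γ)⁻¹ y) ^ n = S24_sig N (ev N) γ f := by
  show _ = merComp (Quotient.out γ)⁻¹ (ev N f)
  rw [hf, map_pow]

include hχ hy hyχ hf in
/-- **Finite places.**  `n ∣ ord_v f` at the places over `j = c`. -/
theorem KKB_dvd_over (c : AlgebraicClosure ℚ) (τ₀ : ℍ) (R : SL(2, ℤ)) (e₀ : ℕ)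
    (he₀ : e₀ = 1 ∨ e₀.Prime)
    (hRe : ∀ γ : S20_Q N, R ^ e₀ • γ = γ) (hfix : R • τ₀ = τ₀)
    (hord : S24_ordM τ₀ (algebraMap Hol Mer (jHol 1) - algebraMap ℂ Mer (kEmb c)) = e₀)
    (hdvd : ∀ x : Mer, x ≠ 0 → merComp R x = x → (e₀ : ℤ) ∣ S24_ordM τ₀ x)
    (htr : (R : Matrix (Fin 2) (Fin 2) ℤ).trace ^ 2 ≤ 4)
    (v : Place (AlgebraicClosure ℚ) ↥(modularFunctionFieldBar N))
    (hv : 0 < v.ord (jB N - algebraMap (AlgebraicClosure ℚ) ↥(modularFunctionFieldBar N) c)) :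
    (n : ℤ) ∣ v.ord f := by
  classical
  have he := isEv_ev N
  have hinv := S24_hinv N (ev N) he
  have hfd := finiteDimensional_jB N
  have hj := transcendental_jB N
  have hf0 : f ≠ 0 := KKB_ne_zero hy hf
  have hne : ∀ γ (f : ↥(modularFunctionFieldBar N)), f ≠ 0 → S24_sig N (ev N) γ f ≠ 0 :=
    fun γ f hf => (map_ne_zero (S24_sig N (ev N) γ)).mpr hf
  set w : S20_Q N → ↥(modularFunctionFieldBar N) → ℤ :=
    fun γ f => S24_ordM τ₀ (S24_sig N (ev N) γ f) with hw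
  have hval : ∀ γ, IsVal (K := AlgebraicClosure ℚ) (w γ) :=
    fun γ => S24_isVal_ordM kEmb (S24_sig N (ev N) γ) (S24_sig_const he γ) τ₀
  have hRinv : R⁻¹ • τ₀ = τ₀ := by
    conv_lhs => rw [← hfix]
    rw [inv_smul_smul]
  have hwx : ∀ γ, w γ (jB N - algebraMap (AlgebraicClosure ℚ) ↥(modularFunctionFieldBar N) c)
      = e₀ := by
    intro γ
    show S24_ordM τ₀ (S24_sig N (ev N) γ _) = _
    rw [map_sub, S24_sig_jB he, S24_sig_const he, hord]
  have hR : ∀ γ, w (R • γ) = w γ := by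
    intro γ
    funext f
    show S24_ordM τ₀ (S24_sig N (ev N) (R • γ) f) = S24_ordM τ₀ (S24_sig N (ev N) γ f)
    rw [S24_sig_smul hinv, S24_ordM_merComp, hRinv]
  have hfx : ∀ γ, R • γ = γ → ∀ f, f ≠ 0 → (e₀ : ℤ) ∣ w γ f := by
    intro γ hγ f hf
    apply hdvd _ (hne γ f hf)
    have h1 : merComp R⁻¹ (S24_sig N (ev N) γ f) = S24_sig N (ev N) γ f := by
      rw [← S24_sig_smul hinv, hγ]
    calc merComp R (S24_sig N (ev N) γ f)
        = merComp R (merComp R⁻¹ (S24_sig N (ev N) γ f)) := by rw [h1]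
      _ = S24_sig N (ev N) γ f := merComp_inv_apply R _
  obtain ⟨h1, h2, h3⟩ := S24_cyclic_inputs
    (jB N - algebraMap (AlgebraicClosure ℚ) ↥(modularFunctionFieldBar N) c) R e₀ he₀ hRe w hwx
    hR hfx
  have hnorm : ∀ f : ↥(modularFunctionFieldBar N), f ≠ 0 → ∀ γ₀, ∑ᶠ γ, w γ f =
      w γ₀ (algebraMap (AlgebraicClosure ℚ)⟮jB N⟯ ↥(modularFunctionFieldBar N)
        (Algebra.norm (AlgebraicClosure ℚ)⟮jB N⟯ f)) := by
    intro f hf γ₀
    show ∑ᶠ γ, S24_ordM τ₀ (S24_sig N (ev N) γ f) = S24_ordM τ₀ (S24_sig N (ev N) γ₀ _)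
    rw [S24_sig_norm_ev N (ev N) he f γ₀, S24_ordM_finprod _ (fun γ => hne γ f hf)]
  obtain ⟨γ, m, hm0, hmf, hcard⟩ := KK_place_refined_sub (G := Subgroup.zpowers R) hj c w hval
    h1 h2 h3 (finrank_eq_card_cos N).symm hnorm v hv
  -- the conjugate of `y`
  set Y : Mer := merComp (Quotient.out γ)⁻¹ y with hY
  have hY0 : Y ≠ 0 := KK_conj_ne_zero hy _
  have hYn : Y ^ n = S24_sig N (ev N) γ f := KKB_conj_pow hf γ
  have hordY : (n : ℤ) * S24_ordM τ₀ Y = m * v.ord f := by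
    rw [← KK_ordM_pow τ₀ hY0 n, hYn]
    exact hmf f hf0
  have hx0 : jB N - algebraMap (AlgebraicClosure ℚ) ↥(modularFunctionFieldBar N) c ≠ 0 := by
    intro h
    rw [h, v.ord_zero] at hv
    exact lt_irrefl _ hv
  have he₀m : (e₀ : ℤ) = m * (Nat.card (MulAction.orbit (Subgroup.zpowers R) γ) : ℤ) := by
    rw [← hcard, ← hmf _ hx0]
    exact (hwx γ).symm
  by_cases hγ : R • γ = γ
  · have hRY : merComp R Y = Y := KK_merComp_fix hχ hyχ R htr γ hγ
    have hd1 : (e₀ : ℤ) ∣ S24_ordM τ₀ Y := hdvd Y hY0 hRY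
    have hd2 : m ∣ S24_ordM τ₀ Y := (Dvd.intro _ he₀m.symm).trans hd1
    obtain ⟨b, hb⟩ := hd2
    refine ⟨b, ?_⟩
    rw [hb] at hordY
    have : m * ((n : ℤ) * b) = m * v.ord f := by rw [← hordY]; ring
    exact (mul_left_cancel₀ hm0.ne' this).symm
  · have hm1 : m = 1 := by
      rcases he₀ with h | hp
      · exfalso
        apply hγ
        have := hRe γ
        rwa [h, pow_one] at this
      · have hc2 : Nat.card (MulAction.orbit (Subgroup.zpowers R) γ) = e₀ :=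
          S24_card_orbit_zpowers R e₀ hp hRe γ hγ
        rw [hc2] at he₀m
        have he₀0 : (e₀ : ℤ) ≠ 0 := by exact_mod_cast hp.pos.ne'
        have : m * (e₀ : ℤ) = 1 * (e₀ : ℤ) := by rw [one_mul]; exact he₀m.symm
        exact mul_right_cancel₀ he₀0 this
    rw [hm1, one_mul] at hordY
    exact ⟨_, hordY.symm⟩

include hn hχ hy hyχ hf in
/-- **Cusps.**  `n ∣ ord_v f` at the places over `j = ∞`. -/
theorem KKB_dvd_cusp (v : Place (AlgebraicClosure ℚ) ↥(modularFunctionFieldBar N))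
    (hv : v.ord (jB N) < 0) : (n : ℤ) ∣ v.ord f := by
  classical
  have he := isEv_ev N
  have hinv := S24_hinv N (ev N) he
  have hfd := finiteDimensional_jB N
  have hj := transcendental_jB N
  have hf0 : f ≠ 0 := KKB_ne_zero hy hf
  have hN : 0 < N := Nat.pos_of_ne_zero (NeZero.ne N)
  obtain ⟨hw, h1, h2, h3, hnorm⟩ := S24_cusp_inputs he hinv (finrank_le_card_cos N)
  obtain ⟨γ, m, hm0, hmf, hcard⟩ := KK_place_refined_inv
    (G := Subgroup.zpowers (ModularGroup.T : SL(2, ℤ))) hj (cuspW N (ev N))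
    hw h1 h2 h3 (finrank_eq_card_cos N).symm hnorm v hv
  -- the width
  set h : ℕ := Function.minimalPeriod ((ModularGroup.T : SL(2, ℤ)) • · : S20_Q N → S20_Q N) γ
    with hh
  have hcardh : Nat.card (MulAction.orbit (Subgroup.zpowers (ModularGroup.T : SL(2, ℤ))) γ) = h :=
    S24_card_orbit_zpowers_eq_minimalPeriod _ γ
  rw [hcardh] at hcard
  have hTh : (ModularGroup.T : SL(2, ℤ)) ^ h • γ = γ := by
    have := Function.isPeriodicPt_minimalPeriod
      ((ModularGroup.T : SL(2, ℤ)) • · : S20_Q N → S20_Q N) γ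
    rw [← hh] at this
    have h2 : ((ModularGroup.T : SL(2, ℤ)) • · : S20_Q N → S20_Q N)^[h] γ = γ := this
    rwa [smul_iterate] at h2
  have htr : (((ModularGroup.T : SL(2, ℤ)) ^ h : SL(2, ℤ)) : Matrix (Fin 2) (Fin 2) ℤ).trace ^ 2
      ≤ 4 := by
    rw [← zpow_natCast, ModularGroup.coe_T_zpow, Matrix.trace_fin_two]
    simp
  -- the conjugate of `y`
  set Y : Mer := merComp (Quotient.out γ)⁻¹ y with hY
  have hY0 : Y ≠ 0 := KK_conj_ne_zero hy _
  have hYn : Y ^ n = S24_sig N (ev N) γ f := KKB_conj_pow hf γ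
  have hTY : merComp ((ModularGroup.T : SL(2, ℤ)) ^ ((h : ℕ) : ℤ)) Y = algebraMap ℂ Mer 1 * Y := by
    rw [map_one, one_mul, zpow_natCast]
    exact KK_merComp_fix hχ hyχ _ htr γ hTh
  obtain ⟨c₁, hc₁⟩ := cuspW_spec he γ hf0
  have hcore := KM_par_core hN hn hYn hc₁ hTY
  have hdvd : ((N * n : ℕ) : ℤ) ∣ (h : ℤ) * cuspW N (ev N) γ f :=
    (zetaPow_zpow_eq_one_iff (Nat.mul_pos hN hn) _ _).mp hcore.symm
  -- `N = m * h`
  have hx0 : (jB N)⁻¹ ≠ 0 := by
    intro h0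
    have : v.ord (jB N)⁻¹ = 0 := by rw [h0, v.ord_zero]
    rw [v.ord_inv] at this
    omega
  have hNm : (N : ℤ) = m * h := by
    rw [← hcard, ← hmf _ hx0]
    exact (cuspW_jB_inv he γ).symm
  rw [hmf f hf0] at hdvd
  have e1 : (h : ℤ) * (m * v.ord f) = (N : ℤ) * v.ord f := by rw [hNm]; ring
  rw [e1] at hdvd
  push_cast at hdvd
  exact Int.dvd_of_mul_dvd_mul_left (by exact_mod_cast hN.ne') hdvd

include hn hχ hy hyχ hf in
/-- **G2ASM over `ℚ̄`.**  A function with an elliptic character whose `n`-th power is `ev N f`,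
`f ∈ F_ℚ̄`, makes `f` a Kummer generator of `F_ℚ̄`. -/
theorem KKB_isKum_of_pow :
    KM_IsKum (AlgebraicClosure ℚ) ↥(modularFunctionFieldBar N) n f := by
  refine ⟨KKB_ne_zero hy hf, fun v => ?_⟩
  have hfd := finiteDimensional_jB N
  have hj := transcendental_jB N
  by_cases hv : 0 ≤ v.ord (jB N)
  · obtain ⟨c, hc⟩ := W_hres hj v hv
    obtain ⟨τ₀, -, hord⟩ := S24_exists_basepoint (kEmb c)
    rcases hord with ⟨-, rfl, h⟩ | ⟨-, rfl, h⟩ | ⟨-, -, -, -, h⟩
    · exact KKB_dvd_over hχ hy hyχ hf c UpperHalfPlane.I ModularGroup.S 2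
        (Or.inr Nat.prime_two) (fun γ => by rw [S24_S_sq, S24_neg_one_smul])
        Fermat.Agent.S20.S_smul_I
        (by rw [S24_ordM_j_sub (kEmb c) UpperHalfPlane.I 2 (by rw [h]; rfl)]; rfl)
        (fun x hx hxi => by
          have := S24_two_dvd_ordM_I hx hxi
          exact_mod_cast this) KK_trace_S v hc
    · exact KKB_dvd_over hχ hy hyχ hf c Fermat.Agent.S20.rho
        (ModularGroup.S * ModularGroup.T) 3
        (Or.inr Nat.prime_three) (fun γ => by rw [S24_ST_cube, S24_neg_one_smul])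
        Fermat.Agent.S20.ST_smul_rho
        (by rw [S24_ordM_j_sub (kEmb c) Fermat.Agent.S20.rho 3 (by rw [h]; rfl)]; rfl)
        (fun x hx hxi => by
          have := S24_three_dvd_ordM_rho hx hxi
          exact_mod_cast this) KK_trace_ST v hc
    · exact KKB_dvd_over hχ hy hyχ hf c τ₀ 1 1 (Or.inl rfl)
        (fun γ => by rw [pow_one, one_smul]) (one_smul _ _)
        (by rw [S24_ordM_j_sub (kEmb c) τ₀ 1 (by rw [h]; rfl)]; rfl)
        (fun x _ _ => by
          rw [Nat.cast_one]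
          exact one_dvd _) KK_trace_one v hc
  · exact KKB_dvd_cusp hn hχ hy hyχ hf v (not_le.mp hv)

end Fermat.Agent.GalRep
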