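import Fermat.Agent.GalRep.Final
import Fermat.Agent.GalRep.T3Wire
import Fermat.Agent.GalRep.KMFinal
import Fermat.Agent.GalRep.HeckeFinal

/-!
# Pillar G (GALREP): the unconditional tower

`GR_tower_done`: the finite-level Galois–Hecke tower on `parInt N` (input of S30, S31, …).
-/

set_option autoImplicit false

namespace Fermat.Agent.GalRep

/-- **TOWER**, unconditional. -/
theorem GR_tower_done (N : ℕ) [NeZero N] (p : ℕ) [Fact p.Prime] :
    Nonempty (GR_Tower p N ↥(Fermat.Agent.S16.parInt N) (GR_hT N)) :=
  GR_tower_of GR_tower (fun N _ => KMF_kappa_final N) GRHX_hecke_all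
    (fun N _ => ES_unram GRT3_s18 GRT3_ri N) N p

end Fermat.Agent.GalRep
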